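import Mathlib

set_option autoImplicit false

open scoped Pointwise

noncomputable section

namespace Fermat.Agent.Lib.FrobIntegers

theorem qbar_isAlgebraic : Algebra.IsAlgebraic ℚ (AlgebraicClosure ℚ) :=
  AlgebraicClosure.isAlgebraic ℚ

attribute [local instance] qbar_isAlgebraic

theorem qbar_isAlgClosure : IsAlgClosure ℚ (AlgebraicClosure ℚ) :=
  ⟨inferInstance, inferInstance⟩

attribute [local instance] qbar_isAlgClosure

theorem qbar_isGalois : IsGalois ℚ (AlgebraicClosure ℚ) := inferInstance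

attribute [local instance] qbar_isGalois

/-- The ring of all algebraic integers inside `AlgebraicClosure ℚ`. -/
abbrev ZBar : Subalgebra ℤ (AlgebraicClosure ℚ) := integralClosure ℤ (AlgebraicClosure ℚ)

theorem zbar_smul_coe (g : AlgebraicClosure ℚ ≃ₐ[ℚ] AlgebraicClosure ℚ) (b : ZBar) :
    ((g • b : ZBar) : AlgebraicClosure ℚ) = g (b : AlgebraicClosure ℚ) := rfl

theorem zbar_isInvariant :
    Algebra.IsInvariant ℤ ZBar (AlgebraicClosure ℚ ≃ₐ[ℚ] AlgebraicClosure ℚ) where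
  isInvariant b hb := by
    have h1 : (b : AlgebraicClosure ℚ) ∈ Set.range (algebraMap ℚ (AlgebraicClosure ℚ)) := by
      rw [InfiniteGalois.mem_range_algebraMap_iff_fixed]
      intro g
      exact congrArg Subtype.val (hb g)
    obtain ⟨q, hq⟩ := h1
    have hb' : IsIntegral ℤ (b : AlgebraicClosure ℚ) := b.2
    rw [← hq, isIntegral_algebraMap_iff (FaithfulSMul.algebraMap_injective ℚ (AlgebraicClosure ℚ))]
      at hb'
    obtain ⟨n, hn⟩ := IsIntegrallyClosed.algebraMap_eq_of_integral hb'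
    refine ⟨n, Subtype.ext ?_⟩
    rw [← hq, ← hn]
    simp

attribute [local instance] zbar_isInvariant

@[reducible] def zbarTopologicalSpace : TopologicalSpace ZBar := ⊥

attribute [local instance] zbarTopologicalSpace

theorem zbar_discreteTopology : DiscreteTopology ZBar := ⟨rfl⟩

attribute [local instance] zbar_discreteTopology

theorem zbar_continuousSMul :
    ContinuousSMul (AlgebraicClosure ℚ ≃ₐ[ℚ] AlgebraicClosure ℚ) ZBar := by
  rw [continuousSMul_iff_stabilizer_isOpen]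
  intro b
  have h := stabilizer_isOpen_of_isIntegral (K := ℚ) (L := AlgebraicClosure ℚ) (b : AlgebraicClosure ℚ)
  convert h using 1
  ext g
  simp only [SetLike.mem_coe, MulAction.mem_stabilizer_iff]
  constructor
  · intro hg
    exact congrArg Subtype.val hg
  · intro hg
    exact Subtype.ext hg

attribute [local instance] zbar_continuousSMul

theorem zbar_under_eq (ℓ : ℕ) (hℓ : ℓ.Prime) (Q : Ideal ZBar) [hQ : Q.IsPrime]
    (hℓQ : (ℓ : ZBar) ∈ Q) : Q.under ℤ = Ideal.span {(ℓ : ℤ)} := by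
  have hmax : (Ideal.span {(ℓ : ℤ)}).IsMaximal :=
    PrincipalIdealRing.isMaximal_of_irreducible
      (Nat.prime_iff_prime_int.mp hℓ).irreducible
  have hle : Ideal.span {(ℓ : ℤ)} ≤ Q.under ℤ := by
    rw [Ideal.span_singleton_le_iff_mem, Ideal.mem_comap]
    simpa using hℓQ
  have hne : Q.under ℤ ≠ ⊤ := (Ideal.IsPrime.under ℤ Q).ne_top
  exact (hmax.eq_of_le hne hle).symm

theorem zbar_isMaximal (ℓ : ℕ) (hℓ : ℓ.Prime) (Q : Ideal ZBar) [hQ : Q.IsPrime]
    (hℓQ : (ℓ : ZBar) ∈ Q) : Q.IsMaximal := by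
  have hmax : (Ideal.span {(ℓ : ℤ)}).IsMaximal :=
    PrincipalIdealRing.isMaximal_of_irreducible
      (Nat.prime_iff_prime_int.mp hℓ).irreducible
  apply Ideal.isMaximal_of_isIntegral_of_isMaximal_comap (R := ℤ)
  have := zbar_under_eq ℓ hℓ Q hℓQ
  rw [Ideal.under_def] at this
  rw [this]
  exact hmax

/-- Existence of a Frobenius lift on the ring of algebraic integers, at a prime ideal
containing the prime `ℓ`, together with the fact that it stabilises the prime. -/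
theorem exists_frob_integralClosure_stab (ℓ : ℕ) (hℓ : ℓ.Prime)
    (Q : Ideal (integralClosure ℤ (AlgebraicClosure ℚ))) [hQ : Q.IsPrime]
    (hℓQ : (ℓ : integralClosure ℤ (AlgebraicClosure ℚ)) ∈ Q) :
    ∃ σ : AlgebraicClosure ℚ ≃ₐ[ℚ] AlgebraicClosure ℚ, σ • Q = Q ∧
      ∀ b : integralClosure ℤ (AlgebraicClosure ℚ), σ • b - b ^ ℓ ∈ Q := by
  have : Fact ℓ.Prime := ⟨hℓ⟩
  have hQmax : Q.IsMaximal := zbar_isMaximal ℓ hℓ Q hℓQ
  let _ : Field (ZBar ⧸ Q) := Ideal.Quotient.field Q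
  -- characteristic ℓ
  have hchar : CharP (ZBar ⧸ Q) ℓ := by
    rw [CharP.charP_iff_prime_eq_zero hℓ]
    have : ((ℓ : ZBar) : ZBar ⧸ Q) = 0 := Ideal.Quotient.eq_zero_iff_mem.mpr hℓQ
    simpa using this
  -- perfectness of the residue field
  let _ : Algebra (ZMod ℓ) (ZBar ⧸ Q) := ZMod.algebra _ ℓ
  have : Algebra.IsIntegral ℤ (ZBar ⧸ Q) := inferInstance
  have : Algebra.IsAlgebraic (ZMod ℓ) (ZBar ⧸ Q) :=
    ⟨fun x => (IsIntegral.tower_top (A := ZMod ℓ) (Algebra.IsIntegral.isIntegral (R := ℤ) x)).isAlgebraic⟩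
  have : PerfectField (ZBar ⧸ Q) := Algebra.IsAlgebraic.perfectField (K := ZMod ℓ)
  have : ExpChar (ZBar ⧸ Q) ℓ := ExpChar.prime hℓ
  have : PerfectRing (ZBar ⧸ Q) ℓ := PerfectField.toPerfectRing ℓ
  -- the Frobenius automorphism of the residue field
  let φ : (ZBar ⧸ Q) ≃ₐ[ℤ ⧸ Q.under ℤ] (ZBar ⧸ Q) :=
    AlgEquiv.ofRingEquiv (f := frobeniusEquiv (ZBar ⧸ Q) ℓ) (by
      intro x
      obtain ⟨n, rfl⟩ := Ideal.Quotient.mk_surjective x
      have h1 : algebraMap (ℤ ⧸ Q.under ℤ) (ZBar ⧸ Q) (Ideal.Quotient.mk _ n) =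
          ((n : ℤ) : ZBar ⧸ Q) := by
        simp
      rw [h1, coe_frobeniusEquiv, map_intCast])
  obtain ⟨⟨σ, hσ⟩, hσφ⟩ := Ideal.Quotient.stabilizerHom_surjective_of_profinite
    (G := AlgebraicClosure ℚ ≃ₐ[ℚ] AlgebraicClosure ℚ) (Q.under ℤ) Q φ
  refine ⟨σ, hσ, fun b => ?_⟩
  have h2 := DFunLike.congr_fun hσφ (Ideal.Quotient.mk Q b)
  rw [Ideal.Quotient.stabilizerHom_apply] at h2
  have h3 : φ (Ideal.Quotient.mk Q b) = Ideal.Quotient.mk Q (b ^ ℓ) := by
    rw [map_pow]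
    rfl
  rw [h3] at h2
  exact Ideal.Quotient.eq.mp h2

/-- Existence of a Frobenius lift on the ring of algebraic integers, at a prime ideal
containing the prime `ℓ` (interface version). -/
theorem exists_frob_integralClosure (ℓ : ℕ) (hℓ : ℓ.Prime)
    (Q : Ideal (integralClosure ℤ (AlgebraicClosure ℚ))) [Q.IsPrime]
    (hQ : (ℓ : integralClosure ℤ (AlgebraicClosure ℚ)) ∈ Q) :
    ∃ σ : AlgebraicClosure ℚ ≃ₐ[ℚ] AlgebraicClosure ℚ,
      ∀ b : integralClosure ℤ (AlgebraicClosure ℚ), σ • b - b ^ ℓ ∈ Q := by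
  obtain ⟨σ, -, h⟩ := exists_frob_integralClosure_stab ℓ hℓ Q hQ
  exact ⟨σ, h⟩

end Fermat.Agent.Lib.FrobIntegers
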