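import Mathlib
import Fermat.Prelude.Def_EllipticCurve_FrobeniusTrace
import Fermat.Agent.Lib.FrobIntegers

/-!
# Existence of Frobenius elements in `Gal(ℚ̄/ℚ)` (shared library)

Main exports (namespace `Fermat.Agent.Lib.FrobExists`):
* `exists_liesOverPrime` : for every prime `ℓ` there is a valuation subring of `ℚ̄` over `ℓ`.
* `exists_isFrobeniusAt` : for every valuation subring `A` of `ℚ̄` over a prime `ℓ` there is
  `σ ∈ Gal(ℚ̄/ℚ)` with `A.IsFrobeniusAt σ ℓ`.
* `exists_place_and_frobenius` : both at once.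
-/

set_option autoImplicit false

open scoped Pointwise

namespace Fermat.Agent.Lib.FrobExists

open Polynomial

/-- For every prime `ℓ` there is a valuation subring of `AlgebraicClosure ℚ` lying over `ℓ`. -/
theorem exists_liesOverPrime (ℓ : ℕ) (hℓ : ℓ.Prime) :
    ∃ A : ValuationSubring (AlgebraicClosure ℚ), A.LiesOverPrime ℓ := by
  classical
  let L := AlgebraicClosure ℚ
  let R : Subring L := (algebraMap ℤ L).range
  let x : R := ⟨(ℓ : L), ⟨(ℓ : ℤ), by simp⟩⟩
  have hI : Ideal.span {x} ≠ ⊤ := by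
    intro h
    rw [Ideal.span_singleton_eq_top] at h
    obtain ⟨⟨y, hy⟩, hxy⟩ := h.exists_right_inv
    obtain ⟨n, rfl⟩ := hy
    have h1 : ((ℓ : L)) * (algebraMap ℤ L n) = 1 := congrArg Subtype.val hxy
    have h2 : (((ℓ : ℤ) * n : ℤ) : L) = ((1 : ℤ) : L) := by
      rw [Int.cast_mul, Int.cast_natCast, Int.cast_one]
      rw [eq_intCast] at h1
      exact h1
    have h3 : (ℓ : ℤ) * n = 1 := Int.cast_injective h2
    have h4 : IsUnit (ℓ : ℤ) := IsUnit.of_mul_eq_one _ h3
    rw [Int.isUnit_iff] at h4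
    have := hℓ.one_lt
    omega
  obtain ⟨B, -, hB⟩ := Ideal.image_subset_nonunits_valuationSubring (Ideal.span {x}) hI
  refine ⟨B, ?_⟩
  show (ℓ : L) ∈ B.nonunits
  exact hB ⟨x, Ideal.subset_span rfl, rfl⟩

/-- Integers have valuation `≤ 1`. -/
theorem valuation_intCast_le_one {L : Type*} [Field L] (A : ValuationSubring L) (n : ℤ) :
    A.valuation (n : L) ≤ 1 :=
  (A.valuation_le_one_iff _).mpr (intCast_mem A n)

/-- An integer not divisible by `ℓ` has valuation `1` when `ℓ` is a nonunit. -/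
theorem valuation_intCast_eq_one {L : Type*} [Field L] (A : ValuationSubring L) (ℓ : ℕ)
    (hℓ : ℓ.Prime) (hA : (ℓ : L) ∈ A.nonunits) (n : ℤ) (hn : ¬ (ℓ : ℤ) ∣ n) :
    A.valuation (n : L) = 1 := by
  have hcop : IsCoprime (ℓ : ℤ) n := by
    rw [Int.isCoprime_iff_gcd_eq_one]
    have hp : Prime (ℓ : ℤ) := Nat.prime_iff_prime_int.mp hℓ
    exact Int.isCoprime_iff_gcd_eq_one.mp ((Prime.coprime_iff_not_dvd hp).mpr hn)
  obtain ⟨u, w, huw⟩ := hcop
  have h1 : (u : L) * (ℓ : L) + (w : L) * (n : L) = 1 := by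
    have := congrArg (Int.cast : ℤ → L) huw
    push_cast at this
    exact this
  rcases lt_or_eq_of_le (valuation_intCast_le_one A n) with hlt | heq
  · exfalso
    have hℓlt : A.valuation (ℓ : L) < 1 := A.mem_nonunits_iff.mp hA
    have h2 : A.valuation ((u : L) * (ℓ : L)) < 1 := by
      rw [map_mul]
      calc A.valuation (u : L) * A.valuation (ℓ : L) ≤ 1 * A.valuation (ℓ : L) :=
            mul_le_mul_left (valuation_intCast_le_one A u) _
        _ = A.valuation (ℓ : L) := one_mul _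
        _ < 1 := hℓlt
    have h3 : A.valuation ((w : L) * (n : L)) < 1 := by
      rw [map_mul]
      calc A.valuation (w : L) * A.valuation (n : L) ≤ 1 * A.valuation (n : L) :=
            mul_le_mul_left (valuation_intCast_le_one A w) _
        _ = A.valuation (n : L) := one_mul _
        _ < 1 := hlt
    have h4 : A.valuation ((u : L) * (ℓ : L) + (w : L) * (n : L)) < 1 :=
      lt_of_le_of_lt (A.valuation.map_add _ _) (max_lt h2 h3)
    rw [h1, map_one] at h4
    exact lt_irrefl _ h4
  · exact heq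

/-- A nonzero integer polynomial killing `a`, not all of whose coefficients are divisible
by `ℓ`. -/
theorem exists_prim_poly {L : Type*} [Field L] [CharZero L] (ℓ : ℕ) (hℓ : ℓ.Prime)
    (a : L) (halg : IsAlgebraic ℤ a) :
    ∃ f : ℤ[X], aeval a f = 0 ∧ ∃ i, ¬ (ℓ : ℤ) ∣ f.coeff i := by
  obtain ⟨f, hf0, hfa⟩ := halg
  refine ⟨f.primPart, ?_, ?_⟩
  · have h1 : f = C f.content * f.primPart := f.eq_C_content_mul_primPart
    have h2 : aeval a (C f.content * f.primPart) = 0 := by rw [← h1]; exact hfa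
    rw [map_mul, aeval_C] at h2
    rcases mul_eq_zero.mp h2 with h | h
    · exfalso
      have hc : f.content ≠ 0 := by
        intro hc
        exact hf0 (content_eq_zero_iff.mp hc)
      rw [eq_intCast] at h
      exact hc (Int.cast_eq_zero.mp h)
    · exact h
  · by_contra hcon
    have hcon' : ∀ i, (ℓ : ℤ) ∣ f.primPart.coeff i := fun i => by
      by_contra h
      exact hcon ⟨i, h⟩
    have hdvd : C (ℓ : ℤ) ∣ f.primPart := (C_dvd_iff_dvd_coeff _ _).mpr hcon'
    have hu : IsUnit (ℓ : ℤ) := f.isPrimitive_primPart _ hdvd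
    rw [Int.isUnit_iff] at hu
    have := hℓ.one_lt
    omega

/-- Integrality from stability of the span of powers. -/
theorem isIntegral_of_mul_pow_mem {L : Type*} [Field L] (a s : L) (n : ℕ) (hn : 0 < n)
    (h : ∀ e, e < n → s * a ^ e ∈ Submodule.span ℤ ((fun i : ℕ => a ^ i) '' (Set.Iio n))) :
    IsIntegral ℤ s := by
  set N := Submodule.span ℤ ((fun i : ℕ => a ^ i) '' (Set.Iio n)) with hN
  have h1 : (1 : L) ∈ N := Submodule.subset_span ⟨0, hn, pow_zero a⟩
  have hne : N ≠ ⊥ := by
    intro hbot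
    rw [hbot, Submodule.mem_bot] at h1
    exact one_ne_zero h1
  have hfg : N.FG := Submodule.fg_span ((Set.finite_Iio n).image _)
  refine isIntegral_of_smul_mem_submodule N hne hfg s ?_
  intro m hm
  induction hm using Submodule.span_induction with
  | mem x hx =>
    obtain ⟨e, he, rfl⟩ := hx
    exact h e he
  | zero => rw [smul_zero]; exact N.zero_mem
  | add x y _ _ hx hy => rw [smul_add]; exact N.add_mem hx hy
  | smul c x _ hx => rw [smul_comm]; exact N.smul_mem c hx

/-- **Key elementary lemma.** Every element `a` of a valuation subring `A` over `ℓ` which is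
algebraic over `ℤ` is a quotient `y / s` of two algebraic integers with `s` a unit of `A`. -/
theorem exists_integral_frac {L : Type*} [Field L] [CharZero L] (A : ValuationSubring L) (ℓ : ℕ)
    (hℓ : ℓ.Prime) (hA : (ℓ : L) ∈ A.nonunits) (a : L) (ha : a ∈ A) (halg : IsAlgebraic ℤ a) :
    ∃ y s : L, IsIntegral ℤ y ∧ IsIntegral ℤ s ∧ A.valuation s = 1 ∧ a * s = y := by
  obtain ⟨f, hfa, i₀, hi₀⟩ := exists_prim_poly ℓ hℓ a halg
  set n := f.natDegree with hn
  have hi₀n : i₀ ≤ n := le_natDegree_of_ne_zero (fun h => hi₀ (h ▸ dvd_zero _))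
  set k := Nat.findGreatest (fun i => ¬ (ℓ : ℤ) ∣ f.coeff i) n with hk
  have hkP : ¬ (ℓ : ℤ) ∣ f.coeff k :=
    Nat.findGreatest_spec (P := fun i => ¬ (ℓ : ℤ) ∣ f.coeff i) hi₀n hi₀
  have hkn : k ≤ n := Nat.findGreatest_le n
  have hgt : ∀ j, k < j → j ≤ n → (ℓ : ℤ) ∣ f.coeff j := fun j hkj hjn => by
    by_contra h
    exact Nat.findGreatest_is_greatest (P := fun i => ¬ (ℓ : ℤ) ∣ f.coeff i) hkj hjn h
  set s : L := ∑ j ∈ Finset.range (n - k + 1), (f.coeff (k + j) : L) * a ^ j with hs
  have hrel : a ^ k * s = - ∑ j ∈ Finset.range k, (f.coeff j : L) * a ^ j := by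
    have h1 : aeval a f = ∑ i ∈ Finset.range (n + 1), (f.coeff i : L) * a ^ i := by
      rw [aeval_eq_sum_range]
      refine Finset.sum_congr rfl fun i _ => ?_
      rw [zsmul_eq_mul]
    have h2 : n + 1 = k + (n - k + 1) := by omega
    rw [h2, Finset.sum_range_add, hfa] at h1
    have h3 : a ^ k * s =
        ∑ j ∈ Finset.range (n - k + 1), (f.coeff (k + j) : L) * a ^ (k + j) := by
      rw [hs, Finset.mul_sum]
      refine Finset.sum_congr rfl fun j _ => ?_
      rw [pow_add]; ring
    rw [h3]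
    linear_combination -h1
  have hva : A.valuation a ≤ 1 := (A.valuation_le_one_iff a).mpr ha
  have hvs : A.valuation s = 1 := by
    have hsplit : s = (f.coeff k : L) +
        ∑ j ∈ Finset.range (n - k), (f.coeff (k + (j + 1)) : L) * a ^ (j + 1) := by
      rw [hs, Finset.sum_range_succ']
      simp only [add_zero, pow_zero, mul_one]
      rw [add_comm]
    have hsmall : A.valuation
        (∑ j ∈ Finset.range (n - k), (f.coeff (k + (j + 1)) : L) * a ^ (j + 1)) < 1 := by
      refine A.valuation.map_sum_lt (by simp) ?_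
      intro j hj
      rw [Finset.mem_range] at hj
      obtain ⟨c, hc⟩ := hgt (k + (j + 1)) (by omega) (by omega)
      rw [hc]
      push_cast
      rw [map_mul, map_mul, map_pow]
      have hℓlt : A.valuation (ℓ : L) < 1 := A.mem_nonunits_iff.mp hA
      have hc1 : A.valuation (c : L) ≤ 1 := valuation_intCast_le_one A c
      have hpow : A.valuation a ^ (j + 1) ≤ 1 := pow_le_one' hva _
      calc A.valuation (ℓ : L) * A.valuation (c : L) * A.valuation a ^ (j + 1)
          ≤ A.valuation (ℓ : L) * 1 * 1 := by gcongr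
        _ = A.valuation (ℓ : L) := by rw [mul_one, mul_one]
        _ < 1 := hℓlt
    have hk1 : A.valuation (f.coeff k : L) = 1 := valuation_intCast_eq_one A ℓ hℓ hA _ hkP
    rw [hsplit]
    rw [A.valuation.map_add_eq_of_lt_left (by rw [hk1]; exact hsmall)]
    exact hk1
  have hnpos : 0 < n := by
    rcases Nat.eq_zero_or_pos n with h0 | hpos
    · exfalso
      have hk0 : k = 0 := by omega
      have : s = 0 := by
        have := hrel
        rw [hk0] at this
        simpa using this
      rw [this, map_zero] at hvs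
      exact zero_ne_one hvs
    · exact hpos
  have key : ∀ e, e ≤ n →
      s * a ^ e ∈ Submodule.span ℤ ((fun i : ℕ => a ^ i) '' (Set.Iio n)) := by
    intro e he
    rcases lt_or_ge e k with hek | hek
    · rw [hs, Finset.sum_mul]
      refine Submodule.sum_mem _ fun j hj => ?_
      rw [Finset.mem_range] at hj
      have : (f.coeff (k + j) : L) * a ^ j * a ^ e = (f.coeff (k + j)) • a ^ (j + e) := by
        rw [zsmul_eq_mul, pow_add]; ring
      rw [this]
      exact Submodule.smul_mem _ _ (Submodule.subset_span ⟨j + e, by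
        show j + e < n
        omega, rfl⟩)
    · have h1 : s * a ^ e = a ^ (e - k) * (a ^ k * s) := by
        have : a ^ e = a ^ (e - k) * a ^ k := by rw [← pow_add]; congr 1; omega
        rw [this]; ring
      rw [h1, hrel, mul_neg, Finset.mul_sum]
      refine Submodule.neg_mem _ (Submodule.sum_mem _ fun j hj => ?_)
      rw [Finset.mem_range] at hj
      have : a ^ (e - k) * ((f.coeff j : L) * a ^ j) = (f.coeff j) • a ^ (j + (e - k)) := by
        rw [zsmul_eq_mul, pow_add]; ring
      rw [this]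
      exact Submodule.smul_mem _ _ (Submodule.subset_span ⟨j + (e - k), by
        show j + (e - k) < n
        omega, rfl⟩)
  refine ⟨a * s, s, ?_, ?_, hvs, rfl⟩
  · refine isIntegral_of_mul_pow_mem a (a * s) n hnpos fun e he => ?_
    have : a * s * a ^ e = s * a ^ (e + 1) := by rw [pow_succ]; ring
    rw [this]
    exact key (e + 1) he
  · exact isIntegral_of_mul_pow_mem a s n hnpos fun e he => key e he.le

/-- Algebraic integers lie in every valuation subring. -/
theorem valuation_le_one_of_isIntegral {L : Type*} [Field L] (A : ValuationSubring L) (x : L)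
    (hx : IsIntegral ℤ x) : A.valuation x ≤ 1 := by
  have h1 : IsIntegral A x := hx.tower_top
  exact (Valuation.Integers.isIntegral_iff_v_le_one
    (Valuation.valuationSubring.integers A.valuation) (x := x)).mp
    (by rw [A.valuationSubring_valuation]; exact h1) |>.trans_eq' rfl

/-- The prime ideal of the ring of all algebraic integers cut out by a valuation subring. -/
def primeUnder (A : ValuationSubring (AlgebraicClosure ℚ)) :
    Ideal (integralClosure ℤ (AlgebraicClosure ℚ)) where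
  carrier := {b | A.valuation (b : AlgebraicClosure ℚ) < 1}
  add_mem' := fun {x y} hx hy => by
    show A.valuation ((x + y : integralClosure ℤ (AlgebraicClosure ℚ)) : AlgebraicClosure ℚ) < 1
    rw [Subalgebra.coe_add]
    exact lt_of_le_of_lt (A.valuation.map_add _ _) (max_lt hx hy)
  zero_mem' := by
    show A.valuation ((0 : integralClosure ℤ (AlgebraicClosure ℚ)) : AlgebraicClosure ℚ) < 1
    rw [Subalgebra.coe_zero, map_zero]
    exact zero_lt_one
  smul_mem' := fun c x hx => by
    show A.valuation ((c • x : integralClosure ℤ (AlgebraicClosure ℚ)) : AlgebraicClosure ℚ) < 1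
    rw [smul_eq_mul, Subalgebra.coe_mul, map_mul]
    have hc : A.valuation (c : AlgebraicClosure ℚ) ≤ 1 := valuation_le_one_of_isIntegral A _ c.2
    calc A.valuation (c : AlgebraicClosure ℚ) * A.valuation (x : AlgebraicClosure ℚ)
        ≤ 1 * A.valuation (x : AlgebraicClosure ℚ) := mul_le_mul_left hc _
      _ = A.valuation (x : AlgebraicClosure ℚ) := one_mul _
      _ < 1 := hx

theorem mem_primeUnder (A : ValuationSubring (AlgebraicClosure ℚ))
    (b : integralClosure ℤ (AlgebraicClosure ℚ)) :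
    b ∈ primeUnder A ↔ A.valuation (b : AlgebraicClosure ℚ) < 1 := Iff.rfl

theorem primeUnder_isPrime (A : ValuationSubring (AlgebraicClosure ℚ)) :
    (primeUnder A).IsPrime := by
  refine ⟨?_, ?_⟩
  · intro h
    have h1 : (1 : integralClosure ℤ (AlgebraicClosure ℚ)) ∈ primeUnder A := by
      rw [h]; exact Submodule.mem_top
    rw [mem_primeUnder, Subalgebra.coe_one, map_one] at h1
    exact lt_irrefl _ h1
  · intro x y hxy
    rw [mem_primeUnder, Subalgebra.coe_mul, map_mul] at hxy
    by_contra hcon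
    rw [not_or] at hcon
    have hx : A.valuation (x : AlgebraicClosure ℚ) = 1 :=
      le_antisymm (valuation_le_one_of_isIntegral A _ x.2) (not_lt.mp hcon.1)
    have hy : A.valuation (y : AlgebraicClosure ℚ) = 1 :=
      le_antisymm (valuation_le_one_of_isIntegral A _ y.2) (not_lt.mp hcon.2)
    rw [hx, hy, one_mul] at hxy
    exact lt_irrefl _ hxy

theorem isAlgebraic_int_qbar (a : AlgebraicClosure ℚ) : IsAlgebraic ℤ a :=
  (IsFractionRing.isAlgebraic_iff ℤ ℚ (AlgebraicClosure ℚ)).mpr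
    ((AlgebraicClosure.isAlgebraic ℚ).isAlgebraic a)

/-- If `τ` maps algebraic integers which are units of `A` to units of `A`, then `τ` maps `A`
into `A`. -/
theorem map_mem_of_units (A : ValuationSubring (AlgebraicClosure ℚ)) (ℓ : ℕ) (hℓ : ℓ.Prime)
    (hA : (ℓ : AlgebraicClosure ℚ) ∈ A.nonunits)
    (τ : AlgebraicClosure ℚ ≃ₐ[ℚ] AlgebraicClosure ℚ)
    (hτ : ∀ b : AlgebraicClosure ℚ, IsIntegral ℤ b → A.valuation b = 1 → A.valuation (τ b) = 1)
    (a : AlgebraicClosure ℚ) (ha : a ∈ A) : τ a ∈ A := by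
  obtain ⟨y, s, hy, hs, hvs, hays⟩ := exists_integral_frac A ℓ hℓ hA a ha (isAlgebraic_int_qbar a)
  have h1 : τ a * τ s = τ y := by rw [← map_mul, hays]
  have h2 : A.valuation (τ s) = 1 := hτ s hs hvs
  have h3 : A.valuation (τ y) ≤ 1 :=
    valuation_le_one_of_isIntegral A _ (map_isIntegral_int τ hy)
  rw [← A.valuation_le_one_iff]
  have h4 : A.valuation (τ a) * A.valuation (τ s) = A.valuation (τ y) := by
    rw [← map_mul, h1]
  rw [h2, mul_one] at h4
  rw [h4]
  exact h3

/-- **Existence of Frobenius elements.** For every valuation subring `A` of `ℚ̄` lying over a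
prime `ℓ` there is `σ ∈ Gal(ℚ̄/ℚ)` which is a Frobenius element at `A`. -/
theorem exists_isFrobeniusAt (ℓ : ℕ) (hℓ : ℓ.Prime) (A : ValuationSubring (AlgebraicClosure ℚ))
    (hA : A.LiesOverPrime ℓ) :
    ∃ σ : AlgebraicClosure ℚ ≃ₐ[ℚ] AlgebraicClosure ℚ, A.IsFrobeniusAt σ ℓ := by
  have hA' : (ℓ : AlgebraicClosure ℚ) ∈ A.nonunits := hA
  have hprime := primeUnder_isPrime A
  have hℓQ : (ℓ : integralClosure ℤ (AlgebraicClosure ℚ)) ∈ primeUnder A := by
    rw [mem_primeUnder]
    have : (((ℓ : ℕ) : integralClosure ℤ (AlgebraicClosure ℚ)) : AlgebraicClosure ℚ) =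
        (ℓ : AlgebraicClosure ℚ) := by
      simp
    rw [this]
    exact A.mem_nonunits_iff.mp hA'
  obtain ⟨σ, hσQ, hσ⟩ :=
    Fermat.Agent.Lib.FrobIntegers.exists_frob_integralClosure_stab ℓ hℓ (primeUnder A) hℓQ
  have hfrob : ∀ b : AlgebraicClosure ℚ, IsIntegral ℤ b → A.valuation (σ b - b ^ ℓ) < 1 :=
    fun b hb => hσ ⟨b, hb⟩
  have hunit : ∀ b : AlgebraicClosure ℚ, IsIntegral ℤ b → A.valuation b = 1 →
      A.valuation (σ b) = 1 := by
    intro b hb hvb
    have h1 : σ b = b ^ ℓ + (σ b - b ^ ℓ) := by ring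
    have h2 : A.valuation (b ^ ℓ) = 1 := by rw [map_pow, hvb, one_pow]
    rw [h1, A.valuation.map_add_eq_of_lt_left (by rw [h2]; exact hfrob b hb)]
    exact h2
  have hunit' : ∀ b : AlgebraicClosure ℚ, IsIntegral ℤ b → A.valuation b = 1 →
      A.valuation (σ⁻¹ b) = 1 := by
    intro b hb hvb
    by_contra h
    have hlt : A.valuation (σ⁻¹ b) < 1 :=
      lt_of_le_of_ne (valuation_le_one_of_isIntegral A _ (map_isIntegral_int σ⁻¹ hb)) h
    have h1 : (σ⁻¹ • (⟨b, hb⟩ : integralClosure ℤ (AlgebraicClosure ℚ))) ∈ primeUnder A := hlt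
    have h2 : (⟨b, hb⟩ : integralClosure ℤ (AlgebraicClosure ℚ)) ∈ σ • primeUnder A :=
      Ideal.mem_pointwise_smul_iff_inv_smul_mem.mpr h1
    rw [hσQ, mem_primeUnder] at h2
    rw [hvb] at h2
    exact lt_irrefl _ h2
  have hmap : ∀ a : AlgebraicClosure ℚ, a ∈ A → σ a ∈ A :=
    map_mem_of_units A ℓ hℓ hA' σ hunit
  have hmap' : ∀ a : AlgebraicClosure ℚ, a ∈ A → σ⁻¹ a ∈ A :=
    map_mem_of_units A ℓ hℓ hA' σ⁻¹ hunit'
  have hdec : σ ∈ A.decompositionSubgroup ℚ := by
    rw [MulAction.mem_stabilizer_iff]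
    ext x
    rw [ValuationSubring.mem_pointwise_smul_iff_inv_smul_mem]
    constructor
    · intro hx
      have h1 := hmap _ hx
      have h2 : σ (σ⁻¹ • x) = x := by
        show σ (σ⁻¹ x) = x
        exact AlgEquiv.apply_symm_apply σ x
      rw [h2] at h1
      exact h1
    · intro hx
      exact hmap' x hx
  refine ⟨σ, hdec, ?_⟩
  intro x
  obtain ⟨a, rfl⟩ := IsLocalRing.residue_surjective x
  rw [← IsLocalRing.ResidueField.residue_smul, ← map_pow, ← sub_eq_zero, ← map_sub,
    IsLocalRing.residue_eq_zero_iff, ← ValuationSubring.coe_mem_nonunits_iff,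
    A.mem_nonunits_iff]
  show A.valuation (σ (a : AlgebraicClosure ℚ) - (a : AlgebraicClosure ℚ) ^ ℓ) < 1
  obtain ⟨y, s, hy, hs, hvs, hays⟩ :=
    exists_integral_frac A ℓ hℓ hA' (a : AlgebraicClosure ℚ) a.2 (isAlgebraic_int_qbar _)
  set a' : AlgebraicClosure ℚ := (a : AlgebraicClosure ℚ) with ha'
  have hvσs : A.valuation (σ s) = 1 := hunit s hs hvs
  have hvy : A.valuation y ≤ 1 := valuation_le_one_of_isIntegral A _ hy
  have hid : (σ a' - a' ^ ℓ) * (σ s * s ^ ℓ) =
      (σ y - y ^ ℓ) * s ^ ℓ - y ^ ℓ * (σ s - s ^ ℓ) := by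
    have e1 : σ y = σ a' * σ s := by rw [← hays, map_mul]
    rw [e1, ← hays]
    ring
  have hv1 : A.valuation ((σ y - y ^ ℓ) * s ^ ℓ) < 1 := by
    rw [map_mul, map_pow, hvs, one_pow, mul_one]
    exact hfrob y hy
  have hv2 : A.valuation (y ^ ℓ * (σ s - s ^ ℓ)) < 1 := by
    rw [map_mul, map_pow]
    calc A.valuation y ^ ℓ * A.valuation (σ s - s ^ ℓ)
        ≤ 1 * A.valuation (σ s - s ^ ℓ) := mul_le_mul_left (pow_le_one' hvy _) _
      _ = A.valuation (σ s - s ^ ℓ) := one_mul _
      _ < 1 := hfrob s hs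
  have hv3 : A.valuation ((σ a' - a' ^ ℓ) * (σ s * s ^ ℓ)) < 1 := by
    rw [hid]
    exact lt_of_le_of_lt (A.valuation.map_sub _ _) (max_lt hv1 hv2)
  rw [map_mul, map_mul, map_pow, hvσs, hvs, one_pow, mul_one, mul_one] at hv3
  exact hv3

/-- For every prime `ℓ` there are a place of `ℚ̄` over `ℓ` and a Frobenius element at it. -/
theorem exists_place_and_frobenius (ℓ : ℕ) (hℓ : ℓ.Prime) :
    ∃ (A : ValuationSubring (AlgebraicClosure ℚ)) (σ : AlgebraicClosure ℚ ≃ₐ[ℚ] AlgebraicClosure ℚ),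
      A.LiesOverPrime ℓ ∧ A.IsFrobeniusAt σ ℓ := by
  obtain ⟨A, hA⟩ := exists_liesOverPrime ℓ hℓ
  obtain ⟨σ, hσ⟩ := exists_isFrobeniusAt ℓ hℓ A hA
  exact ⟨A, σ, hA, hσ⟩

end Fermat.Agent.Lib.FrobExists
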