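import Mathlib
import Fermat.Prelude.Def_EllipticCurve_FrobeniusTrace
import Fermat.Agent.Lib.FrobExists

/-!
# Bridge between valuation-subring inertia/decomposition groups of `ℚ̄` and the ring `ZBar`
of all algebraic integers (shared library)

For a valuation subring `A` of `ℚ̄` over a prime `ℓ`, with `Q = primeUnder A` the prime of
`ZBar = integralClosure ℤ ℚ̄` cut out by `A`:

* `mem_decompositionSubgroup_iff` : `σ ∈ A.decompositionSubgroup ℚ ↔ σ • Q = Q`
* `mem_inertiaSubgroupIn_iff` : `σ ∈ A.inertiaSubgroupIn ℚ ↔ ∀ b : ZBar, σ • b - b ∈ Q`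
-/

set_option autoImplicit false

open scoped Pointwise

namespace Fermat.Agent.Lib.InertiaBridge

open Fermat.Agent.Lib.FrobExists

/-- Elementwise description of the inertia subgroup of a valuation subring. -/
theorem mem_inertiaSubgroupIn_iff_forall {K L : Type*} [Field K] [Field L] [Algebra K L]
    (A : ValuationSubring L) (σ : L ≃ₐ[K] L) :
    σ ∈ A.inertiaSubgroupIn K ↔
      σ ∈ A.decompositionSubgroup K ∧ ∀ a : L, a ∈ A → A.valuation (σ a - a) < 1 := by
  constructor
  · rintro ⟨g, hg, rfl⟩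
    refine ⟨g.2, fun a ha => ?_⟩
    have h1 : g • (IsLocalRing.residue A ⟨a, ha⟩) = IsLocalRing.residue A ⟨a, ha⟩ := by
      have := MonoidHom.mem_ker.mp hg
      have h2 := congrArg (fun e : RingAut (IsLocalRing.ResidueField A) =>
        e (IsLocalRing.residue A ⟨a, ha⟩)) this
      exact h2
    rw [← IsLocalRing.ResidueField.residue_smul, ← sub_eq_zero, ← map_sub,
      IsLocalRing.residue_eq_zero_iff, ← ValuationSubring.coe_mem_nonunits_iff,
      A.mem_nonunits_iff] at h1
    exact h1
  · rintro ⟨hdec, h⟩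
    refine ⟨⟨σ, hdec⟩, ?_, rfl⟩
    show (⟨σ, hdec⟩ : A.decompositionSubgroup K) ∈ A.inertiaSubgroup K
    rw [ValuationSubring.inertiaSubgroup, MonoidHom.mem_ker]
    ext x
    obtain ⟨a, rfl⟩ := IsLocalRing.residue_surjective x
    show (⟨σ, hdec⟩ : A.decompositionSubgroup K) • (IsLocalRing.residue A a) =
      IsLocalRing.residue A a
    rw [← IsLocalRing.ResidueField.residue_smul, ← sub_eq_zero, ← map_sub,
      IsLocalRing.residue_eq_zero_iff, ← ValuationSubring.coe_mem_nonunits_iff,
      A.mem_nonunits_iff]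
    exact h a a.2

/-- Elementwise description of the decomposition subgroup of a valuation subring. -/
theorem mem_decompositionSubgroup_iff_forall {K L : Type*} [Field K] [Field L] [Algebra K L]
    (A : ValuationSubring L) (σ : L ≃ₐ[K] L) :
    σ ∈ A.decompositionSubgroup K ↔ ∀ a : L, σ a ∈ A ↔ a ∈ A := by
  rw [MulAction.mem_stabilizer_iff]
  constructor
  · intro h a
    have h1 : σ a ∈ σ • A ↔ a ∈ A := ValuationSubring.smul_mem_pointwise_smul_iff (g := σ)
    rw [h] at h1
    exact h1
  · intro h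
    ext x
    rw [ValuationSubring.mem_pointwise_smul_iff_inv_smul_mem, ← h (σ⁻¹ • x)]
    have h2 : σ (σ⁻¹ • x) = x := by
      show σ (σ⁻¹ x) = x
      exact AlgEquiv.apply_symm_apply σ x
    rw [h2]

/-- An element of the decomposition group preserves the valuation being `< 1`. -/
theorem valuation_map_lt_one_iff {K L : Type*} [Field K] [Field L] [Algebra K L]
    (A : ValuationSubring L) (σ : L ≃ₐ[K] L) (hσ : σ ∈ A.decompositionSubgroup K) (x : L) :
    A.valuation (σ x) < 1 ↔ A.valuation x < 1 := by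
  have h := (mem_decompositionSubgroup_iff_forall A σ).mp hσ
  rw [← A.mem_nonunits_iff, ← A.mem_nonunits_iff, A.mem_nonunits_iff_or, A.mem_nonunits_iff_or]
  have h1 : σ x = 0 ↔ x = 0 := by
    constructor
    · intro hx
      have := congrArg σ.symm hx
      simpa using this
    · intro hx
      rw [hx, map_zero]
  have h2 : (σ x)⁻¹ ∈ A ↔ x⁻¹ ∈ A := by
    rw [← map_inv₀]
    exact h x⁻¹
  rw [h1, h2]

/-- The decomposition group of `A` is the stabiliser of the prime of `ZBar` under `A`. -/
theorem mem_decompositionSubgroup_iff (ℓ : ℕ) (hℓ : ℓ.Prime)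
    (A : ValuationSubring (AlgebraicClosure ℚ)) (hA : A.LiesOverPrime ℓ)
    (σ : AlgebraicClosure ℚ ≃ₐ[ℚ] AlgebraicClosure ℚ) :
    σ ∈ A.decompositionSubgroup ℚ ↔ σ • primeUnder A = primeUnder A := by
  have hA' : (ℓ : AlgebraicClosure ℚ) ∈ A.nonunits := hA
  constructor
  · intro hσ
    have hσ' : σ⁻¹ ∈ A.decompositionSubgroup ℚ := inv_mem hσ
    ext b
    rw [Ideal.mem_pointwise_smul_iff_inv_smul_mem, mem_primeUnder, mem_primeUnder]
    exact valuation_map_lt_one_iff A σ⁻¹ hσ' (b : AlgebraicClosure ℚ)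
  · intro hσ
    have key : ∀ τ : AlgebraicClosure ℚ ≃ₐ[ℚ] AlgebraicClosure ℚ,
        τ • primeUnder A = primeUnder A →
        ∀ b : AlgebraicClosure ℚ, IsIntegral ℤ b → A.valuation b = 1 →
          A.valuation (τ b) = 1 := by
      intro τ hτ b hb hvb
      by_contra h
      have hlt : A.valuation (τ b) < 1 :=
        lt_of_le_of_ne (valuation_le_one_of_isIntegral A _ (map_isIntegral_int τ hb)) h
      have h1 : (τ • (⟨b, hb⟩ : integralClosure ℤ (AlgebraicClosure ℚ))) ∈ primeUnder A := hlt
      rw [← hτ, Ideal.smul_mem_pointwise_smul_iff, mem_primeUnder] at h1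
      rw [hvb] at h1
      exact lt_irrefl _ h1
    have hσinv : σ⁻¹ • primeUnder A = primeUnder A := by
      conv_lhs => rw [← hσ]
      rw [inv_smul_smul]
    have hmap : ∀ a : AlgebraicClosure ℚ, a ∈ A → σ a ∈ A :=
      map_mem_of_units A ℓ hℓ hA' σ (key σ hσ)
    have hmap' : ∀ a : AlgebraicClosure ℚ, a ∈ A → σ⁻¹ a ∈ A :=
      map_mem_of_units A ℓ hℓ hA' σ⁻¹ (key σ⁻¹ hσinv)
    rw [mem_decompositionSubgroup_iff_forall]
    intro a
    constructor
    · intro ha
      have h1 := hmap' _ ha
      have h2 : σ⁻¹ (σ a) = a := AlgEquiv.symm_apply_apply σ a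
      rw [h2] at h1
      exact h1
    · exact hmap a

/-- The inertia group of `A` consists of the automorphisms acting trivially on `ZBar` modulo
the prime under `A`. -/
theorem mem_inertiaSubgroupIn_iff (ℓ : ℕ) (hℓ : ℓ.Prime)
    (A : ValuationSubring (AlgebraicClosure ℚ)) (hA : A.LiesOverPrime ℓ)
    (σ : AlgebraicClosure ℚ ≃ₐ[ℚ] AlgebraicClosure ℚ) :
    σ ∈ A.inertiaSubgroupIn ℚ ↔
      ∀ b : integralClosure ℤ (AlgebraicClosure ℚ), σ • b - b ∈ primeUnder A := by
  have hA' : (ℓ : AlgebraicClosure ℚ) ∈ A.nonunits := hA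
  rw [mem_inertiaSubgroupIn_iff_forall]
  constructor
  · rintro ⟨-, h⟩ b
    exact h (b : AlgebraicClosure ℚ) ((A.valuation_le_one_iff _).mp
      (valuation_le_one_of_isIntegral A _ b.2))
  · intro h
    have hfix : ∀ b : AlgebraicClosure ℚ, IsIntegral ℤ b → A.valuation (σ b - b) < 1 :=
      fun b hb => h ⟨b, hb⟩
    -- σ stabilises the prime
    have hstab : σ • primeUnder A = primeUnder A := by
      ext b
      rw [Ideal.mem_pointwise_smul_iff_inv_smul_mem, mem_primeUnder, mem_primeUnder]
      have h1 := h (σ⁻¹ • b)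
      rw [mem_primeUnder] at h1
      have h2 : ((σ • (σ⁻¹ • b) - σ⁻¹ • b : integralClosure ℤ (AlgebraicClosure ℚ)) :
          AlgebraicClosure ℚ) = (b : AlgebraicClosure ℚ) -
            ((σ⁻¹ • b : integralClosure ℤ (AlgebraicClosure ℚ)) : AlgebraicClosure ℚ) := by
        rw [smul_inv_smul]
        rfl
      rw [h2] at h1
      constructor
      · intro hb
        have h3 : (b : AlgebraicClosure ℚ) =
            ((b : AlgebraicClosure ℚ) -
              ((σ⁻¹ • b : integralClosure ℤ (AlgebraicClosure ℚ)) : AlgebraicClosure ℚ)) +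
            ((σ⁻¹ • b : integralClosure ℤ (AlgebraicClosure ℚ)) : AlgebraicClosure ℚ) := by ring
        rw [h3]
        exact lt_of_le_of_lt (A.valuation.map_add _ _) (max_lt h1 hb)
      · intro hb
        have h3 : ((σ⁻¹ • b : integralClosure ℤ (AlgebraicClosure ℚ)) : AlgebraicClosure ℚ) =
            (b : AlgebraicClosure ℚ) - ((b : AlgebraicClosure ℚ) -
              ((σ⁻¹ • b : integralClosure ℤ (AlgebraicClosure ℚ)) : AlgebraicClosure ℚ)) := by
          ring
        rw [h3]
        exact lt_of_le_of_lt (A.valuation.map_sub _ _) (max_lt hb h1)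
    have hdec : σ ∈ A.decompositionSubgroup ℚ :=
      (mem_decompositionSubgroup_iff ℓ hℓ A hA σ).mpr hstab
    refine ⟨hdec, fun a ha => ?_⟩
    obtain ⟨y, s, hy, hs, hvs, hays⟩ :=
      exists_integral_frac A ℓ hℓ hA' a ha (isAlgebraic_int_qbar _)
    have hvσs : A.valuation (σ s) = 1 := by
      have h1 : σ s = s + (σ s - s) := by ring
      rw [h1, A.valuation.map_add_eq_of_lt_left (by rw [hvs]; exact hfix s hs)]
      exact hvs
    have hvy : A.valuation y ≤ 1 := valuation_le_one_of_isIntegral A _ hy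
    have hid : (σ a - a) * (σ s * s) = (σ y - y) * s - y * (σ s - s) := by
      have e1 : σ y = σ a * σ s := by rw [← hays, map_mul]
      rw [e1, ← hays]
      ring
    have hv1 : A.valuation ((σ y - y) * s) < 1 := by
      rw [map_mul, hvs, mul_one]
      exact hfix y hy
    have hv2 : A.valuation (y * (σ s - s)) < 1 := by
      rw [map_mul]
      calc A.valuation y * A.valuation (σ s - s)
          ≤ 1 * A.valuation (σ s - s) := mul_le_mul_left hvy _
        _ = A.valuation (σ s - s) := one_mul _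
        _ < 1 := hfix s hs
    have hv3 : A.valuation ((σ a - a) * (σ s * s)) < 1 := by
      rw [hid]
      exact lt_of_le_of_lt (A.valuation.map_sub _ _) (max_lt hv1 hv2)
    rw [map_mul, map_mul, hvσs, hvs, mul_one, mul_one] at hv3
    exact hv3

end Fermat.Agent.Lib.InertiaBridge
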