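import Mathlib
import Fermat.Prelude.Def_ModularCurve_GenusNumerics

/-!
# Number of cusps of `Γ₀(N)`: orbits of `⟨T⟩` on `SL(2,ℤ) ⧸ Γ₀(N)`

Main results (namespace `Fermat.Agent.Lib.H40CuspCount`):
* `card_orbits_T'` : `Nat.card (orbitRel.Quotient (zpowers T) (SL(2,ℤ) ⧸ Gamma0 N))
    = ∑ d ∈ N.divisors, Nat.totient (Nat.gcd d (N / d))`
* `card_orbits_T` : the same with right-hand side `ModularCurve.cuspCount N`.

Model: the coset `g Γ₀(N)` is determined by the first column `(a, c)` of `g` modulo `N` up to units;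
`T` acts by `(a, c) ↦ (a + c, c)`. Complete invariant of the `⟨T⟩`-orbit:
`d = gcd c N` and `a * (c/d)⁻¹ mod gcd d (N/d)`.
-/

set_option autoImplicit false

open scoped MatrixGroups
open CongruenceSubgroup ModularGroup

namespace Fermat.Agent.Lib.H40CuspCount

/-- Counting lemma: two surjections with the same fibres have targets of the same cardinality. -/
lemma card_eq_of_surj_iff {α β Q : Type*} (f : α → β) (q : α → Q)
    (hf : Function.Surjective f) (hq : Function.Surjective q)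
    (h : ∀ a a', q a = q a' ↔ f a = f a') : Nat.card Q = Nat.card β := by
  refine Nat.card_congr (Equiv.ofBijective (fun x => f (Function.surjInv hq x)) ⟨?_, ?_⟩)
  · intro x y hxy
    have := (h _ _).mpr hxy
    rwa [Function.surjInv_eq hq, Function.surjInv_eq hq] at this
  · intro b
    obtain ⟨a, rfl⟩ := hf b
    refine ⟨q a, ?_⟩
    exact (h _ _).mp (Function.surjInv_eq hq (q a))

/-- Solvability of a linear congruence. -/
lemma exists_dvd_sub_mul_iff' (k r m : ℤ) :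
    (∃ n : ℤ, m ∣ r - n * k) ↔ (Int.gcd k m : ℤ) ∣ r := by
  constructor
  · rintro ⟨n, hn⟩
    have h1 : (Int.gcd k m : ℤ) ∣ m := Int.gcd_dvd_right ..
    have h2 : (Int.gcd k m : ℤ) ∣ k := Int.gcd_dvd_left ..
    have := dvd_add (h1.trans hn) (h2.mul_left n)
    simpa using this
  · rintro ⟨t, ht⟩
    refine ⟨Int.gcdA k m * t, Int.gcdB k m * t, ?_⟩
    have hb := Int.gcd_eq_gcd_ab k m
    rw [ht, hb]; ring

/-- Step 1: the gcd of the lower-left entry with `N` is an invariant. -/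
lemma gcd_eq_of_dvd {N : ℕ} {a c a' c' n : ℤ} (h : IsCoprime a c) (h' : IsCoprime a' c')
    (hn : (N : ℤ) ∣ a' * c - c' * (a + n * c)) : Int.gcd c N = Int.gcd c' N := by
  apply Nat.dvd_antisymm
  · -- d ∣ c'
    have hdc : ((Int.gcd c N : ℕ) : ℤ) ∣ c := Int.gcd_dvd_left ..
    have hdN : ((Int.gcd c N : ℕ) : ℤ) ∣ N := Int.gcd_dvd_right ..
    have h1 : ((Int.gcd c N : ℕ) : ℤ) ∣ c' * a := by
      have h2 := hdN.trans hn
      have h3 : ((Int.gcd c N : ℕ) : ℤ) ∣ a' * c - c' * n * c := (Dvd.dvd.mul_left hdc _).sub (Dvd.dvd.mul_left hdc _)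
      have h4 := h3.sub h2
      have e : a' * c - c' * n * c - (a' * c - c' * (a + n * c)) = c' * a := by ring
      rwa [e] at h4
    have hcop : IsCoprime ((Int.gcd c N : ℕ) : ℤ) a :=
      (h.symm).of_isCoprime_of_dvd_left hdc
    exact Int.dvd_gcd (hcop.dvd_of_dvd_mul_right h1) hdN
  · have hdc : ((Int.gcd c' N : ℕ) : ℤ) ∣ c' := Int.gcd_dvd_left ..
    have hdN : ((Int.gcd c' N : ℕ) : ℤ) ∣ N := Int.gcd_dvd_right ..
    have h1 : ((Int.gcd c' N : ℕ) : ℤ) ∣ c * a' := by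
      have h2 := hdN.trans hn
      have h3 : ((Int.gcd c' N : ℕ) : ℤ) ∣ c' * (a + n * c) := Dvd.dvd.mul_right hdc _
      have h4 := h2.add h3
      have e : a' * c - c' * (a + n * c) + c' * (a + n * c) = c * a' := by ring
      rwa [e] at h4
    have hcop : IsCoprime ((Int.gcd c' N : ℕ) : ℤ) a' :=
      (h'.symm).of_isCoprime_of_dvd_left hdc
    exact Int.dvd_gcd (hcop.dvd_of_dvd_mul_right h1) hdN

/-- Step 2: with a common gcd `d`, the orbit condition is a congruence modulo `gcd d (N/d)`. -/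
lemma exists_iff_dvd {N d : ℕ} (hd : d ≠ 0) (hdN : d ∣ N) {a a' c₁ c₁' : ℤ}
    (hc₁ : Int.gcd c₁ ((N / d : ℕ) : ℤ) = 1) (hc₁' : Int.gcd c₁' ((N / d : ℕ) : ℤ) = 1) :
    (∃ n : ℤ, (N : ℤ) ∣ a' * (d * c₁) - (d * c₁') * (a + n * (d * c₁))) ↔
      ((Nat.gcd d (N / d) : ℕ) : ℤ) ∣ a' * c₁ - a * c₁' := by
  have hN : (N : ℤ) = (d : ℤ) * ((N / d : ℕ) : ℤ) := by
    rw [← Nat.cast_mul, Nat.mul_div_cancel' hdN]
  have hd' : (d : ℤ) ≠ 0 := by exact_mod_cast hd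
  have key : ∀ n : ℤ, ((N : ℤ) ∣ a' * (d * c₁) - (d * c₁') * (a + n * (d * c₁))) ↔
      (((N / d : ℕ) : ℤ) ∣ (a' * c₁ - a * c₁') - n * (d * c₁ * c₁')) := by
    intro n
    have e : a' * (d * c₁) - (d * c₁') * (a + n * (d * c₁)) =
        (d : ℤ) * ((a' * c₁ - a * c₁') - n * (d * c₁ * c₁')) := by ring
    rw [e, hN]
    exact mul_dvd_mul_iff_left hd'
  rw [exists_congr key, exists_dvd_sub_mul_iff']
  have hg : Int.gcd ((d : ℤ) * c₁ * c₁') ((N / d : ℕ) : ℤ) = Nat.gcd d (N / d) := by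
    have h1 : Int.gcd (c₁ * c₁') ((N / d : ℕ) : ℤ) = 1 := by
      rw [← Int.isCoprime_iff_gcd_eq_one] at hc₁ hc₁' ⊢
      exact hc₁.mul_left hc₁'
    rw [mul_assoc, mul_comm, Int.gcd_mul_right_left_of_gcd_eq_one h1]
    rfl
  rw [hg]

/-- Step 3: the congruence as an equality of `ZMod` values. -/
lemma dvd_iff_val_eq {g : ℕ} [NeZero g] {x x' y y' : ℤ}
    (hy : IsUnit (y : ZMod g)) (hy' : IsUnit (y' : ZMod g)) :
    ((g : ℤ) ∣ x' * y - x * y') ↔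
      ((x : ZMod g) * (y : ZMod g)⁻¹).val = ((x' : ZMod g) * (y' : ZMod g)⁻¹).val := by
  have h1 : (y : ZMod g) * (y : ZMod g)⁻¹ = 1 := ZMod.mul_inv_of_unit _ hy
  have h1' : (y' : ZMod g) * (y' : ZMod g)⁻¹ = 1 := ZMod.mul_inv_of_unit _ hy'
  rw [(ZMod.val_injective g).eq_iff, ← ZMod.intCast_zmod_eq_zero_iff_dvd]
  push_cast
  constructor
  · intro h
    linear_combination (-(x : ZMod g) * (y : ZMod g)⁻¹) * h1' - (y : ZMod g)⁻¹ * (y' : ZMod g)⁻¹ * h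
      + (x' : ZMod g) * (y' : ZMod g)⁻¹ * h1
  · intro h
    linear_combination (-(x' : ZMod g) * (y : ZMod g)) * h1' - (y : ZMod g) * (y' : ZMod g) * h
      + (x : ZMod g) * (y' : ZMod g) * h1

/-- The cusp invariant of a column `(a, c)` modulo `N`: the pair `(d, a * (c/d)⁻¹ mod gcd d (N/d))`
with `d = gcd c N`. -/
noncomputable def cuspInv (N : ℕ) (a c : ℤ) : Σ _ : ℕ, ℕ :=
  ⟨Int.gcd c N, ((a : ZMod (Nat.gcd (Int.gcd c N) (N / Int.gcd c N))) *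
      ((c / (Int.gcd c N : ℤ) : ℤ) : ZMod (Nat.gcd (Int.gcd c N) (N / Int.gcd c N)))⁻¹).val⟩

lemma cuspInv_eq {N : ℕ} {a c : ℤ} {d : ℕ} (hd : Int.gcd c N = d) :
    cuspInv N a c = ⟨d, ((a : ZMod (Nat.gcd d (N / d))) *
      ((c / (d : ℤ) : ℤ) : ZMod (Nat.gcd d (N / d)))⁻¹).val⟩ := by
  subst hd; rfl


lemma gcd_facts {N : ℕ} (hN : N ≠ 0) (c : ℤ) {d : ℕ} (hd : Int.gcd c N = d) :
    d ≠ 0 ∧ d ∣ N ∧ c = d * (c / d) ∧ Int.gcd (c / d) ((N / d : ℕ) : ℤ) = 1 := by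
  subst hd
  have hN' : (N : ℤ) ≠ 0 := by exact_mod_cast hN
  have hpos : 0 < Int.gcd c N := Int.gcd_pos_of_ne_zero_right c hN'
  refine ⟨hpos.ne', ?_, ?_, ?_⟩
  · exact Int.natCast_dvd_natCast.mp (Int.gcd_dvd_right c N)
  · exact (Int.mul_ediv_cancel' (Int.gcd_dvd_left c N)).symm
  · have := Int.gcd_div_gcd_div_gcd hpos
    rwa [← Int.natCast_div] at this

lemma isUnit_of_gcd {N d : ℕ} {c₁ : ℤ} (h : Int.gcd c₁ ((N / d : ℕ) : ℤ) = 1) :
    IsUnit ((c₁ : ℤ) : ZMod (Nat.gcd d (N / d))) := by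
  rw [ZMod.coe_int_isUnit_iff_isCoprime]
  rw [← Int.isCoprime_iff_gcd_eq_one] at h
  have hdvd : ((Nat.gcd d (N / d) : ℕ) : ℤ) ∣ ((N / d : ℕ) : ℤ) :=
    Int.natCast_dvd_natCast.mpr (Nat.gcd_dvd_right _ _)
  exact (h.symm).of_isCoprime_of_dvd_left hdvd

/-- Lemma B: the orbit criterion is equality of cusp invariants. -/
lemma exists_iff_cuspInv_eq {N : ℕ} (hN : N ≠ 0) {a c a' c' : ℤ}
    (h : IsCoprime a c) (h' : IsCoprime a' c') :
    (∃ n : ℤ, (N : ℤ) ∣ a' * c - c' * (a + n * c)) ↔ cuspInv N a c = cuspInv N a' c' := by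
  obtain ⟨hd0, hdN, hc, hc₁⟩ := gcd_facts hN c rfl
  have : NeZero (Nat.gcd (Int.gcd c N) (N / Int.gcd c N)) :=
    ⟨Nat.gcd_ne_zero_left hd0⟩
  have main : ∀ hdd : Int.gcd c' N = Int.gcd c N,
      ((∃ n : ℤ, (N : ℤ) ∣ a' * c - c' * (a + n * c)) ↔
        ((a : ZMod (Nat.gcd (Int.gcd c N) (N / Int.gcd c N))) *
          ((c / (Int.gcd c N : ℤ) : ℤ) : ZMod (Nat.gcd (Int.gcd c N) (N / Int.gcd c N)))⁻¹).val =
        ((a' : ZMod (Nat.gcd (Int.gcd c N) (N / Int.gcd c N))) *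
          ((c' / (Int.gcd c N : ℤ) : ℤ) : ZMod (Nat.gcd (Int.gcd c N) (N / Int.gcd c N)))⁻¹).val) := by
    intro hdd
    obtain ⟨-, -, hc', hc₁'⟩ := gcd_facts hN c' hdd
    rw [← dvd_iff_val_eq (isUnit_of_gcd hc₁) (isUnit_of_gcd hc₁'),
      ← exists_iff_dvd hd0 hdN hc₁ hc₁', ← hc, ← hc']
  constructor
  · rintro ⟨n, hn⟩
    have hdd := (gcd_eq_of_dvd h h' hn).symm
    rw [cuspInv_eq rfl, cuspInv_eq hdd]
    congr 1
    exact (main hdd).mp ⟨n, hn⟩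
  · intro heq
    have hdd : Int.gcd c' N = Int.gcd c N := (congrArg Sigma.fst heq).symm
    rw [cuspInv_eq rfl, cuspInv_eq hdd] at heq
    have h2 := eq_of_heq (Sigma.mk.inj heq).2
    exact (main hdd).mpr h2


/-- The finite set of cusp invariants. -/
def cuspSet (N : ℕ) : Finset (Σ _ : ℕ, ℕ) :=
  N.divisors.sigma fun d =>
    (Finset.range (Nat.gcd d (N / d))).filter fun v => Nat.Coprime (Nat.gcd d (N / d)) v

lemma card_cuspSet (N : ℕ) :
    (cuspSet N).card = ∑ d ∈ N.divisors, Nat.totient (Nat.gcd d (N / d)) := by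
  rw [cuspSet, Finset.card_sigma]
  refine Finset.sum_congr rfl fun d _ => ?_
  rw [Nat.totient_eq_card_coprime]

lemma mem_cuspSet {N : ℕ} {s : Σ _ : ℕ, ℕ} :
    s ∈ cuspSet N ↔ (s.1 ∣ N ∧ N ≠ 0) ∧ s.2 < Nat.gcd s.1 (N / s.1) ∧
      Nat.Coprime (Nat.gcd s.1 (N / s.1)) s.2 := by
  rw [cuspSet, Finset.mem_sigma, Nat.mem_divisors, Finset.mem_filter, Finset.mem_range]

/-- Lemma C: the invariant of a coprime column lies in `cuspSet N`. -/
lemma cuspInv_mem {N : ℕ} (hN : N ≠ 0) {a c : ℤ} (h : IsCoprime a c) :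
    cuspInv N a c ∈ cuspSet N := by
  obtain ⟨hd0, hdN, hc, hc₁⟩ := gcd_facts hN c rfl
  have : NeZero (Nat.gcd (Int.gcd c N) (N / Int.gcd c N)) := ⟨Nat.gcd_ne_zero_left hd0⟩
  rw [mem_cuspSet]
  refine ⟨⟨hdN, hN⟩, ZMod.val_lt _, ?_⟩
  have hua : IsUnit ((a : ℤ) : ZMod (Nat.gcd (Int.gcd c N) (N / Int.gcd c N))) := by
    rw [ZMod.coe_int_isUnit_iff_isCoprime]
    have hdvd : ((Nat.gcd (Int.gcd c N) (N / Int.gcd c N) : ℕ) : ℤ) ∣ c :=
      (Int.natCast_dvd_natCast.mpr (Nat.gcd_dvd_left _ _)).trans (Int.gcd_dvd_left c N)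
    exact (h.symm).of_isCoprime_of_dvd_left hdvd
  have huc := isUnit_of_gcd (d := Int.gcd c N) hc₁
  have hu : IsUnit ((a : ZMod (Nat.gcd (Int.gcd c N) (N / Int.gcd c N))) *
      ((c / (Int.gcd c N : ℤ) : ℤ) : ZMod (Nat.gcd (Int.gcd c N) (N / Int.gcd c N)))⁻¹) := by
    refine hua.mul ?_
    exact IsUnit.of_mul_eq_one _ (by rw [mul_comm]; exact ZMod.mul_inv_of_unit _ huc)
  obtain ⟨u, hu'⟩ := hu
  show Nat.Coprime _ (ZMod.val _)
  rw [← hu']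
  exact (ZMod.val_coe_unit_coprime u).symm

/-- Lemma D: every element of `cuspSet N` is the invariant of a coprime column. -/
lemma exists_cuspInv_eq {N : ℕ} {s : Σ _ : ℕ, ℕ} (hs : s ∈ cuspSet N) :
    ∃ a c : ℤ, IsCoprime a c ∧ cuspInv N a c = s := by
  obtain ⟨d, v⟩ := s
  rw [mem_cuspSet] at hs
  obtain ⟨⟨hdN, hN⟩, hv, hcop⟩ := hs
  simp only at hdN hv hcop
  have hd0 : d ≠ 0 := by
    rintro rfl
    exact hN (Nat.eq_zero_of_zero_dvd hdN)
  have : NeZero d := ⟨hd0⟩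
  have : NeZero (Nat.gcd d (N / d)) := ⟨Nat.gcd_ne_zero_left hd0⟩
  obtain ⟨u, hu⟩ := ZMod.unitsMap_surjective (Nat.gcd_dvd_left d (N / d))
    (ZMod.unitOfCoprime v hcop.symm)
  refine ⟨((u : ZMod d).val : ℤ), (d : ℤ), ?_, ?_⟩
  · exact Nat.isCoprime_iff_coprime.mpr (ZMod.val_coe_unit_coprime u)
  · have hgcd : Int.gcd (d : ℤ) (N : ℤ) = d := by
      rw [Int.gcd_natCast_natCast]
      exact Nat.gcd_eq_left hdN
    rw [cuspInv_eq hgcd]
    congr 1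
    have hd' : (d : ℤ) ≠ 0 := by exact_mod_cast hd0
    rw [Int.ediv_self hd']
    have h1 : ((((u : ZMod d).val : ℕ) : ℤ) : ZMod (Nat.gcd d (N / d))) = (v : ZMod (Nat.gcd d (N / d))) := by
      have h2 := congrArg (fun x : (ZMod (Nat.gcd d (N / d)))ˣ => (x : ZMod (Nat.gcd d (N / d)))) hu
      simp only [ZMod.unitsMap_val, ZMod.coe_unitOfCoprime] at h2
      rw [← h2]
      push_cast
      rw [ZMod.natCast_val]
    rw [h1]
    rw [Int.cast_one, ZMod.inv_one, mul_one]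
    exact ZMod.val_natCast_of_lt hv

/-- The first column of an element of `SL(2,ℤ)` is coprime. -/
lemma isCoprime_col (g : SL(2, ℤ)) : IsCoprime (g 0 0) (g 1 0) := by
  refine ⟨g 1 1, -(g 0 1), ?_⟩
  have := g.det_coe
  rw [Matrix.det_fin_two] at this
  linarith

/-- Every coprime column is the first column of an element of `SL(2,ℤ)`. -/
lemma exists_SL2_col {a c : ℤ} (h : IsCoprime a c) : ∃ g : SL(2, ℤ), g 0 0 = a ∧ g 1 0 = c := by
  obtain ⟨u, v, huv⟩ := h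
  refine ⟨⟨!![a, -v; c, u], ?_⟩, rfl, rfl⟩
  rw [Matrix.det_fin_two_of]; linarith

/-- The lower-left entry of `(T ^ n * g)⁻¹ * g'`. -/
lemma entry_eq (g g' : SL(2, ℤ)) (n : ℤ) :
    ((T ^ n * g)⁻¹ * g') 1 0 = -(g' 0 0 * g 1 0 - g' 1 0 * (g 0 0 + n * g 1 0)) := by
  rw [Matrix.SpecialLinearGroup.coe_mul, Matrix.SpecialLinearGroup.coe_inv,
    Matrix.adjugate_fin_two, Matrix.SpecialLinearGroup.coe_mul, coe_T_zpow]
  simp [Matrix.mul_apply, Fin.sum_univ_two]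
  ring

/-- The quotient map to the set of `⟨T⟩`-orbits on `SL(2,ℤ) ⧸ Γ₀(N)`. -/
def toOrbit (N : ℕ) (g : SL(2, ℤ)) :
    MulAction.orbitRel.Quotient (Subgroup.zpowers T) (SL(2, ℤ) ⧸ Gamma0 N) :=
  Quotient.mk'' (g : SL(2, ℤ) ⧸ Gamma0 N)

lemma toOrbit_surjective (N : ℕ) : Function.Surjective (toOrbit N) := by
  intro x
  induction x using Quotient.inductionOn' with
  | h y =>
    induction y using QuotientGroup.induction_on with
    | H g => exact ⟨g, rfl⟩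

/-- Lemma E: the orbit relation in terms of first columns. -/
lemma toOrbit_eq_iff (N : ℕ) (g g' : SL(2, ℤ)) :
    toOrbit N g = toOrbit N g' ↔
      ∃ n : ℤ, (N : ℤ) ∣ g' 0 0 * g 1 0 - g' 1 0 * (g 0 0 + n * g 1 0) := by
  rw [eq_comm, toOrbit, toOrbit, Quotient.eq'', MulAction.orbitRel_apply, MulAction.mem_orbit_iff]
  constructor
  · rintro ⟨⟨t, ht⟩, h⟩
    obtain ⟨n, rfl⟩ := Subgroup.mem_zpowers_iff.mp ht
    refine ⟨n, ?_⟩
    have h2 : ((T ^ n * g : SL(2, ℤ)) : SL(2, ℤ) ⧸ Gamma0 N) = (g' : SL(2, ℤ) ⧸ Gamma0 N) := h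
    rw [QuotientGroup.eq, Gamma0_mem, entry_eq, ZMod.intCast_zmod_eq_zero_iff_dvd, dvd_neg] at h2
    exact h2
  · rintro ⟨n, hn⟩
    refine ⟨⟨T ^ n, Subgroup.zpow_mem_zpowers T n⟩, ?_⟩
    show ((T ^ n * g : SL(2, ℤ)) : SL(2, ℤ) ⧸ Gamma0 N) = (g' : SL(2, ℤ) ⧸ Gamma0 N)
    rw [QuotientGroup.eq, Gamma0_mem, entry_eq, ZMod.intCast_zmod_eq_zero_iff_dvd, dvd_neg]
    exact hn

/-- The invariant map on `SL(2,ℤ)`. -/
noncomputable def cuspMap (N : ℕ) [NeZero N] (g : SL(2, ℤ)) : cuspSet N :=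
  ⟨cuspInv N (g 0 0) (g 1 0), cuspInv_mem (NeZero.ne N) (isCoprime_col g)⟩

lemma cuspMap_surjective (N : ℕ) [NeZero N] : Function.Surjective (cuspMap N) := by
  rintro ⟨s, hs⟩
  obtain ⟨a, c, hac, h⟩ := exists_cuspInv_eq hs
  obtain ⟨g, rfl, rfl⟩ := exists_SL2_col hac
  exact ⟨g, Subtype.ext h⟩

/-- **Number of cusps of `Γ₀(N)`**: the number of `⟨T⟩`-orbits on `SL(2,ℤ) ⧸ Γ₀(N)` is
`∑ d ∣ N, φ(gcd d (N/d))`. -/
theorem card_orbits_T' (N : ℕ) [NeZero N] :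
    Nat.card (MulAction.orbitRel.Quotient (Subgroup.zpowers T) (SL(2, ℤ) ⧸ Gamma0 N))
      = ∑ d ∈ N.divisors, Nat.totient (Nat.gcd d (N / d)) := by
  rw [card_eq_of_surj_iff (cuspMap N) (toOrbit N) (cuspMap_surjective N) (toOrbit_surjective N),
    Nat.card_eq_fintype_card, Fintype.card_coe, card_cuspSet]
  intro g g'
  rw [toOrbit_eq_iff, exists_iff_cuspInv_eq (NeZero.ne N) (isCoprime_col g) (isCoprime_col g'),
    cuspMap, cuspMap, Subtype.mk.injEq]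

/-- **Number of cusps of `Γ₀(N)`** in terms of the Prelude's `ModularCurve.cuspCount`. -/
theorem card_orbits_T (N : ℕ) [NeZero N] :
    Nat.card (MulAction.orbitRel.Quotient (Subgroup.zpowers T) (SL(2, ℤ) ⧸ Gamma0 N))
      = ModularCurve.cuspCount N :=
  card_orbits_T' N

end Fermat.Agent.Lib.H40CuspCount
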