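import Mathlib
import Fermat.Prelude.Def_EllipticCurve_FrobeniusTrace
import Fermat.Prelude.Def_FLTPrelim_Ramification
import Fermat.Agent.Lib.FrobExists

set_option autoImplicit false

open scoped Pointwise

noncomputable section

namespace Fermat.Agent.Lib.InertiaLift

local notation "L" => AlgebraicClosure ℚ
local notation "B" => integralClosure ℤ (AlgebraicClosure ℚ)

theorem qbar_isAlgebraic' : Algebra.IsAlgebraic ℚ (AlgebraicClosure ℚ) :=
  AlgebraicClosure.isAlgebraic ℚ

attribute [local instance] qbar_isAlgebraic'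

theorem qbar_isAlgClosure' : IsAlgClosure ℚ (AlgebraicClosure ℚ) :=
  ⟨inferInstance, inferInstance⟩

attribute [local instance] qbar_isAlgClosure'

theorem qbar_isGalois' : IsGalois ℚ (AlgebraicClosure ℚ) := inferInstance

attribute [local instance] qbar_isGalois'

variable (F : IntermediateField ℚ L)

/-- The algebraic integers lying in the intermediate field `F`, as a subalgebra of the ring
of all algebraic integers. -/
def intF : Subalgebra ℤ B where
  carrier := {b | (b : L) ∈ F}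
  mul_mem' := fun {a b} ha hb => by
    show ((a * b : B) : L) ∈ F
    rw [Subalgebra.coe_mul]; exact F.mul_mem ha hb
  add_mem' := fun {a b} ha hb => by
    show ((a + b : B) : L) ∈ F
    rw [Subalgebra.coe_add]; exact F.add_mem ha hb
  algebraMap_mem' := fun n => by
    show ((algebraMap ℤ B n : B) : L) ∈ F
    have : ((algebraMap ℤ B n : B) : L) = (n : L) := by simp
    rw [this]
    exact intCast_mem F n

theorem mem_intF (b : B) : b ∈ intF F ↔ (b : L) ∈ F := Iff.rfl

theorem algEquiv_smul_coe (g : L ≃ₐ[F] L) (b : B) : ((g • b : B) : L) = g (b : L) := rfl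

theorem smul_eq_of_mem_intF (g : L ≃ₐ[F] L) (a : B) (ha : a ∈ intF F) : g • a = a := by
  apply Subtype.ext
  rw [algEquiv_smul_coe]
  exact g.commutes ⟨(a : L), ha⟩

theorem intF_smulCommClass : SMulCommClass (L ≃ₐ[F] L) (intF F) B where
  smul_comm g a b := by
    show g • ((a : B) * b) = (a : B) * g • b
    rw [smul_mul', smul_eq_of_mem_intF F g a a.2]

attribute [local instance] intF_smulCommClass

theorem intF_isInvariant : Algebra.IsInvariant (intF F) B (L ≃ₐ[F] L) where
  isInvariant b hb := by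
    have h1 : (b : L) ∈ Set.range (algebraMap F L) := by
      rw [InfiniteGalois.mem_range_algebraMap_iff_fixed]
      intro g
      exact congrArg Subtype.val (hb g)
    obtain ⟨x, hx⟩ := h1
    refine ⟨⟨b, ?_⟩, rfl⟩
    rw [mem_intF, ← hx]
    exact x.2

attribute [local instance] intF_isInvariant

attribute [local instance] Fermat.Agent.Lib.FrobIntegers.zbarTopologicalSpace
attribute [local instance] Fermat.Agent.Lib.FrobIntegers.zbar_discreteTopology

theorem intF_continuousSMul : ContinuousSMul (L ≃ₐ[F] L) B := by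
  rw [continuousSMul_iff_stabilizer_isOpen]
  intro b
  have h := stabilizer_isOpen_of_isIntegral (K := F) (b : L)
  convert h using 1
  ext g
  simp only [SetLike.mem_coe, MulAction.mem_stabilizer_iff]
  constructor
  · intro hg
    exact congrArg Subtype.val hg
  · intro hg
    exact Subtype.ext hg

attribute [local instance] intF_continuousSMul

open Fermat.Agent.Lib.FrobExists in
/-- An automorphism which is congruent to the identity on all algebraic integers, modulo the
maximal ideal of a valuation subring `A` over `ℓ`, lies in the inertia group of `A`. -/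
theorem mem_inertiaSubgroupIn_of_integers (ℓ : ℕ) (hℓ : ℓ.Prime) (A : ValuationSubring L)
    (hA : A.LiesOverPrime ℓ) (σ : L ≃ₐ[ℚ] L)
    (hσ : ∀ b : L, IsIntegral ℤ b → σ b - b ∈ A.nonunits) :
    σ ∈ A.inertiaSubgroupIn ℚ := by
  have hA' : (ℓ : L) ∈ A.nonunits := hA
  have hσ' : ∀ b : L, IsIntegral ℤ b → A.valuation (σ b - b) < 1 := fun b hb =>
    A.mem_nonunits_iff.mp (hσ b hb)
  have hσinv : ∀ b : L, IsIntegral ℤ b → A.valuation (σ⁻¹ b - b) < 1 := by
    intro b hb
    have hb' : IsIntegral ℤ (σ⁻¹ b) := map_isIntegral_int σ⁻¹ hb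
    have := hσ' _ hb'
    have h2 : σ (σ⁻¹ b) = b := AlgEquiv.apply_symm_apply σ b
    rw [h2, Valuation.map_sub_swap] at this
    exact this
  -- units go to units
  have hunit : ∀ τ : L ≃ₐ[ℚ] L, (∀ b : L, IsIntegral ℤ b → A.valuation (τ b - b) < 1) →
      ∀ b : L, IsIntegral ℤ b → A.valuation b = 1 → A.valuation (τ b) = 1 := by
    intro τ hτ b hb hb1
    have h1 : τ b = b + (τ b - b) := by ring
    rw [h1, Valuation.map_add_eq_of_lt_left _ (by rw [hb1]; exact hτ b hb), hb1]
  have hmem : σ ∈ A.decompositionSubgroup ℚ := by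
    rw [MulAction.mem_stabilizer_iff]
    apply SetLike.ext
    intro x
    rw [ValuationSubring.mem_pointwise_smul_iff_inv_smul_mem]
    constructor
    · intro hx
      have := map_mem_of_units A ℓ hℓ hA' σ (hunit σ hσ') _ hx
      have h2 : σ (σ⁻¹ • x) = x := by
        rw [AlgEquiv.smul_def]
        exact AlgEquiv.apply_symm_apply σ x
      rwa [h2] at this
    · intro hx
      exact map_mem_of_units A ℓ hℓ hA' σ⁻¹ (hunit σ⁻¹ hσinv) x hx
  refine ⟨⟨σ, hmem⟩, ?_, rfl⟩
  rw [ValuationSubring.inertiaSubgroup]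
  show (⟨σ, hmem⟩ : A.decompositionSubgroup ℚ) ∈ MonoidHom.ker _
  rw [MonoidHom.mem_ker]
  ext x
  obtain ⟨a, rfl⟩ := IsLocalRing.residue_surjective x
  show (⟨σ, hmem⟩ : A.decompositionSubgroup ℚ) • (IsLocalRing.residue A a) = IsLocalRing.residue A a
  rw [← IsLocalRing.ResidueField.residue_smul]
  rw [← sub_eq_zero, ← map_sub, IsLocalRing.residue_eq_zero_iff,
    ← ValuationSubring.coe_mem_nonunits_iff]
  have hval : ((⟨σ, hmem⟩ : A.decompositionSubgroup ℚ) • a - a : A) =
      (σ (a : L) - (a : L) : L) := rfl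
  rw [hval, ValuationSubring.mem_nonunits_iff]
  obtain ⟨y, s, hy, hs, hvs, hays⟩ :=
    exists_integral_frac A ℓ hℓ hA' (a : L) a.2 (isAlgebraic_int_qbar _)
  have hvσs : A.valuation (σ s) = 1 := hunit σ hσ' s hs hvs
  have hva : A.valuation (a : L) ≤ 1 := A.valuation_le_one a
  have hkey2 : (σ (a : L) - (a : L)) * σ s = (σ y - y) - (a : L) * (σ s - s) := by
    rw [← hays, map_mul]
    ring
  have h3 : A.valuation ((σ (a : L) - (a : L)) * σ s) < 1 := by
    rw [hkey2]
    apply Valuation.map_sub_lt _ (hσ' y hy)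
    rw [map_mul]
    calc A.valuation (a : L) * A.valuation (σ s - s)
        ≤ 1 * A.valuation (σ s - s) := mul_le_mul_left hva _
      _ = A.valuation (σ s - s) := one_mul _
      _ < 1 := hσ' s hs
  rwa [map_mul, hvσs, mul_one] at h3

/-- Restriction of scalars from `F` to `ℚ`. -/
def toGal (g : L ≃ₐ[F] L) : L ≃ₐ[ℚ] L := g.restrictScalars ℚ

theorem toGal_apply (g : L ≃ₐ[F] L) (x : L) : toGal F g x = g x := rfl

theorem toGal_smul (g : L ≃ₐ[F] L) (b : B) : toGal F g • b = g • b := rfl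

theorem toGal_inv_smul (g : L ≃ₐ[F] L) (b : B) : (toGal F g)⁻¹ • b = g⁻¹ • b := rfl

theorem toGal_smul_ideal (g : L ≃ₐ[F] L) (I : Ideal B) : toGal F g • I = g • I := by
  ext b
  rw [Ideal.mem_pointwise_smul_iff_inv_smul_mem, Ideal.mem_pointwise_smul_iff_inv_smul_mem,
    toGal_inv_smul]

theorem map_mem_of_normal [Normal ℚ F] (τ : L ≃ₐ[ℚ] L) (x : L) (hx : x ∈ F) : τ x ∈ F := by
  have h1 := AlgEquiv.restrictNormal_commutes τ F ⟨x, hx⟩
  have h2 : τ x = algebraMap F L ((τ.restrictNormal F) ⟨x, hx⟩) := h1.symm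
  rw [h2]
  exact (τ.restrictNormal F ⟨x, hx⟩).2

/-- The automorphism of the residue field `B ⧸ Q` induced by an element `σ₁` of the
decomposition group which is congruent to the identity on the integers of `F`, as an
automorphism over the residue field of `F`. -/
def resAut (Q : Ideal B) [Q.IsPrime] (σ₁ : L ≃ₐ[ℚ] L) (hσ₁Q : σ₁ • Q = Q)
    (hcomm : ∀ a : intF F, σ₁ • (a : B) - (a : B) ∈ Q) :
    (B ⧸ Q) ≃ₐ[intF F ⧸ Q.under (intF F)] (B ⧸ Q) :=
  AlgEquiv.ofRingEquiv
    (f := (Ideal.Quotient.stabilizerHom Q (Q.under ℤ) (L ≃ₐ[ℚ] L) ⟨σ₁, hσ₁Q⟩).toRingEquiv) (by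
      intro r
      obtain ⟨a, rfl⟩ := Ideal.Quotient.mk_surjective r
      rw [Ideal.Quotient.algebraMap_mk_of_liesOver]
      show (Ideal.Quotient.stabilizerHom Q (Q.under ℤ) (L ≃ₐ[ℚ] L) ⟨σ₁, hσ₁Q⟩)
        (Ideal.Quotient.mk Q (a : B)) = _
      rw [Ideal.Quotient.stabilizerHom_apply, Ideal.Quotient.eq]
      exact hcomm a)

theorem resAut_mk (Q : Ideal B) [Q.IsPrime] (σ₁ : L ≃ₐ[ℚ] L) (hσ₁Q : σ₁ • Q = Q)
    (hcomm : ∀ a : intF F, σ₁ • (a : B) - (a : B) ∈ Q) (b : B) :
    resAut F Q σ₁ hσ₁Q hcomm (Ideal.Quotient.mk Q b) = Ideal.Quotient.mk Q (σ₁ • b) := rfl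

open Fermat.Agent.Lib.FrobExists in
/-- **Lifting inertia.** If `σ₀` is congruent to the identity modulo the maximal ideal of `A` on
all algebraic integers of a normal subfield `F`, then some element of the inertia group of `A`
in `Gal(ℚ̄/ℚ)` agrees with `σ₀` on `F`. -/
theorem exists_mem_inertiaSubgroupIn_eqOn
    (ℓ : ℕ) (hℓ : ℓ.Prime) (A : ValuationSubring (AlgebraicClosure ℚ)) (hA : A.LiesOverPrime ℓ)
    (F : IntermediateField ℚ (AlgebraicClosure ℚ)) [Normal ℚ F]
    (σ₀ : AlgebraicClosure ℚ ≃ₐ[ℚ] AlgebraicClosure ℚ)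
    (h : ∀ x : AlgebraicClosure ℚ, x ∈ F → IsIntegral ℤ x → σ₀ x - x ∈ A.nonunits) :
    ∃ σ ∈ A.inertiaSubgroupIn ℚ, ∀ x ∈ F, σ x = σ₀ x := by
  have hQprime : (primeUnder A).IsPrime := primeUnder_isPrime A
  have h' : ∀ x : L, x ∈ F → IsIntegral ℤ x → A.valuation (σ₀ x - x) < 1 := fun x hx hxi =>
    A.mem_nonunits_iff.mp (h x hx hxi)
  -- Step 1: the two primes have the same contraction
  have hunder : (σ₀ • primeUnder A).under (intF F) = (primeUnder A).under (intF F) := by
    ext a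
    rw [Ideal.under_def, Ideal.under_def, Ideal.mem_comap, Ideal.mem_comap,
      Ideal.mem_pointwise_smul_iff_inv_smul_mem, mem_primeUnder, mem_primeUnder]
    have ha : ((a : B) : L) ∈ F := a.2
    have hx : σ₀⁻¹ ((a : B) : L) ∈ F := map_mem_of_normal F σ₀⁻¹ _ ha
    have hxi : IsIntegral ℤ (σ₀⁻¹ ((a : B) : L)) := map_isIntegral_int σ₀⁻¹ (a : B).2
    have h1 := h' _ hx hxi
    have h2 : σ₀ (σ₀⁻¹ ((a : B) : L)) = ((a : B) : L) := AlgEquiv.apply_symm_apply σ₀ _
    rw [h2] at h1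
    have hcoe : (((σ₀⁻¹ • (algebraMap (intF F) B a) : B)) : L) = σ₀⁻¹ ((a : B) : L) := rfl
    have hcoe2 : ((algebraMap (intF F) B a : B) : L) = ((a : B) : L) := rfl
    rw [hcoe, hcoe2]
    constructor
    · intro hlt
      have : ((a : B) : L) = σ₀⁻¹ ((a : B) : L) + (((a : B) : L) - σ₀⁻¹ ((a : B) : L)) := by ring
      rw [this]
      exact Valuation.map_add_lt _ hlt h1
    · intro hlt
      have : σ₀⁻¹ ((a : B) : L) = ((a : B) : L) - (((a : B) : L) - σ₀⁻¹ ((a : B) : L)) := by ring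
      rw [this]
      exact Valuation.map_sub_lt _ hlt h1
  -- Step 2: move `σ₀ • Q` back to `Q` by an element of `Gal(ℚ̄/F)`
  have hprime' : (σ₀ • primeUnder A).IsPrime := by
    rw [Ideal.pointwise_smul_eq_comap]
    exact Ideal.comap_isPrime _ _
  obtain ⟨g, hg⟩ := Algebra.IsInvariant.exists_smul_of_under_eq_of_profinite
    (A := intF F) (G := L ≃ₐ[F] L) (σ₀ • primeUnder A) (primeUnder A) hunder
  set σ₁ : L ≃ₐ[ℚ] L := toGal F g * σ₀ with hσ₁
  have hσ₁Q : σ₁ • primeUnder A = primeUnder A := by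
    rw [hσ₁, mul_smul, toGal_smul_ideal, ← hg]
  have hσ₁F : ∀ x ∈ F, σ₁ x = σ₀ x := by
    intro x hx
    show g (σ₀ x) = σ₀ x
    exact g.commutes ⟨σ₀ x, map_mem_of_normal F σ₀ x hx⟩
  -- Step 3: the automorphism of the residue field induced by `σ₁` is linear over the residue
  -- field of `F`, so it is induced by an element of `Gal(ℚ̄/F)`
  have hcomm : ∀ a : intF F, σ₁ • (a : B) - (a : B) ∈ primeUnder A := by
    intro a
    rw [mem_primeUnder]
    have ha : ((a : B) : L) ∈ F := a.2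
    have hcoe : ((σ₁ • (a : B) - (a : B) : B) : L) = σ₁ ((a : B) : L) - ((a : B) : L) := rfl
    rw [hcoe, hσ₁F _ ha]
    exact h' _ ha (a : B).2
  obtain ⟨⟨k, hk⟩, hkψ⟩ := Ideal.Quotient.stabilizerHom_surjective_of_profinite
    (G := L ≃ₐ[F] L) ((primeUnder A).under (intF F)) (primeUnder A)
    (resAut F (primeUnder A) σ₁ hσ₁Q hcomm)
  have hkb : ∀ b : B, A.valuation (k (b : L) - σ₁ (b : L)) < 1 := by
    intro b
    have h2 := DFunLike.congr_fun hkψ (Ideal.Quotient.mk (primeUnder A) b)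
    rw [Ideal.Quotient.stabilizerHom_apply, resAut_mk, Ideal.Quotient.eq, mem_primeUnder] at h2
    exact h2
  have hkQ : k • primeUnder A = primeUnder A := MulAction.mem_stabilizer_iff.mp hk
  -- Step 4: the corrected element
  refine ⟨(toGal F k)⁻¹ * σ₁, ?_, ?_⟩
  · apply mem_inertiaSubgroupIn_of_integers ℓ hℓ A hA
    intro b hb
    rw [ValuationSubring.mem_nonunits_iff]
    have hmem : (k • (⟨b, hb⟩ : B) - σ₁ • (⟨b, hb⟩ : B)) ∈ primeUnder A := by
      rw [mem_primeUnder]
      exact hkb ⟨b, hb⟩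
    rw [← hkQ, Ideal.mem_pointwise_smul_iff_inv_smul_mem, mem_primeUnder] at hmem
    have hcoe : ((k⁻¹ • (k • (⟨b, hb⟩ : B) - σ₁ • (⟨b, hb⟩ : B)) : B) : L) =
        k⁻¹ (k b - σ₁ b) := rfl
    rw [hcoe, map_sub] at hmem
    have h1 : k⁻¹ (k b) = b := AlgEquiv.symm_apply_apply k b
    rw [h1, Valuation.map_sub_swap] at hmem
    exact hmem
  · intro x hx
    show k⁻¹ (σ₁ x) = σ₀ x
    rw [hσ₁F x hx]
    exact k⁻¹.commutes ⟨σ₀ x, map_mem_of_normal F σ₀ x hx⟩

end Fermat.Agent.Lib.InertiaLift
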