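import Fermat.Agent.Lib.MinkowskiCore
import Fermat.Agent.Lib.InertiaLift
import Fermat.Agent.S13.Defs

/-!
# Minkowski for `Gal(ℚ̄/ℚ)` (S13 interface I8)

`stmt_minkowski : Fermat.Agent.S13.Stmt_minkowski` : a normal subgroup of `Gal(ℚ̄/ℚ)` that
contains the pointwise stabiliser of a finite set and, for every prime `ℓ`, the inertia group of
SOME valuation subring over `ℓ`, is all of `Gal(ℚ̄/ℚ)`.

Also `hom_eq_one_of_unramified_everywhere` : a homomorphism from `Gal(ℚ̄/ℚ)` that is trivial on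
the pointwise stabiliser of a finite set and on one inertia group at every prime is trivial.
-/

set_option autoImplicit false

namespace Fermat.Agent.Lib.Minkowski

/-- The inertia lifting statement holds (helper48, `Lib/InertiaLift.lean`). -/
theorem liftStmt : LiftStmt := fun ℓ hℓ A hA F _ σ₀ h =>
  Fermat.Agent.Lib.InertiaLift.exists_mem_inertiaSubgroupIn_eqOn ℓ hℓ A hA F σ₀ h

/-- **Minkowski** (unconditional form of `minkowski_of_lift`). -/
theorem minkowski
    (H : Subgroup (AlgebraicClosure ℚ ≃ₐ[ℚ] AlgebraicClosure ℚ)) (hHn : H.Normal)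
    (hS : ∃ S : Finset (AlgebraicClosure ℚ),
      ∀ σ : AlgebraicClosure ℚ ≃ₐ[ℚ] AlgebraicClosure ℚ, (∀ x ∈ S, σ x = x) → σ ∈ H)
    (hinert : ∀ ℓ : ℕ, ℓ.Prime → ∃ A : ValuationSubring (AlgebraicClosure ℚ),
      A.LiesOverPrime ℓ ∧ A.inertiaSubgroupIn ℚ ≤ H) :
    H = ⊤ :=
  minkowski_of_lift liftStmt H hHn hS hinert

/-- S13 interface (I8). -/
theorem stmt_minkowski : Fermat.Agent.S13.Stmt_minkowski :=
  fun H hHn hS hinert => minkowski H hHn hS hinert

/-- A homomorphism out of `Gal(ℚ̄/ℚ)` which is trivial on the pointwise stabiliser of a finite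
set and, for every prime, on the inertia group of some valuation subring over it, is trivial. -/
theorem hom_eq_one_of_unramified_everywhere {G : Type*} [Group G]
    (χ : (AlgebraicClosure ℚ ≃ₐ[ℚ] AlgebraicClosure ℚ) →* G)
    (hS : ∃ S : Finset (AlgebraicClosure ℚ),
      ∀ σ : AlgebraicClosure ℚ ≃ₐ[ℚ] AlgebraicClosure ℚ, (∀ x ∈ S, σ x = x) → χ σ = 1)
    (hunr : ∀ ℓ : ℕ, ℓ.Prime → ∃ A : ValuationSubring (AlgebraicClosure ℚ),
      A.LiesOverPrime ℓ ∧ ∀ σ ∈ A.inertiaSubgroupIn ℚ, χ σ = 1) :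
    ∀ σ, χ σ = 1 := by
  have hker : χ.ker = ⊤ := by
    refine minkowski χ.ker inferInstance ?_ ?_
    · obtain ⟨S, hS⟩ := hS
      exact ⟨S, fun σ hσ => MonoidHom.mem_ker.mpr (hS σ hσ)⟩
    · intro ℓ hℓ
      obtain ⟨A, hA, hAχ⟩ := hunr ℓ hℓ
      exact ⟨A, hA, fun σ hσ => MonoidHom.mem_ker.mpr (hAχ σ hσ)⟩
  intro σ
  have hσ : σ ∈ χ.ker := by rw [hker]; exact Subgroup.mem_top σ
  exact MonoidHom.mem_ker.mp hσ

end Fermat.Agent.Lib.Minkowski
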