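import Mathlib
import Fermat.Agent.Lib.InertiaBridge

/-!
# Inertia groups above the same rational prime are conjugate (helper13)

`exists_conj_mem_inertia`: for valuation subrings `A`, `A'` of `ℚ̄` over the prime `ℓ` there is
`g ∈ Gal(ℚ̄/ℚ)` with `s ∈ I_{A'} ↔ g⁻¹ s g ∈ I_A`.
-/

set_option autoImplicit false
set_option linter.unusedSectionVars false
set_option linter.style.haveILetI false
set_option linter.unusedVariables false

open scoped Pointwise

namespace Fermat.Agent.Lib.InertiaConj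

open Fermat.Agent.Lib.FrobIntegers Fermat.Agent.Lib.FrobExists Fermat.Agent.Lib.InertiaBridge

attribute [local instance] qbar_isAlgebraic qbar_isAlgClosure qbar_isGalois zbar_isInvariant
  zbarTopologicalSpace zbar_discreteTopology zbar_continuousSMul

theorem natCast_mem_primeUnder (ℓ : ℕ) (A : ValuationSubring (AlgebraicClosure ℚ))
    (hA : A.LiesOverPrime ℓ) : (ℓ : ZBar) ∈ primeUnder A := by
  rw [mem_primeUnder]
  have h : (ℓ : AlgebraicClosure ℚ) ∈ A.nonunits := hA
  rw [A.mem_nonunits_iff] at h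
  have hcoe : (((ℓ : ZBar) : ZBar) : AlgebraicClosure ℚ) = (ℓ : AlgebraicClosure ℚ) := by
    simp
  rw [hcoe]
  exact h

/-- The primes of `ZBar` under two valuation subrings over `ℓ` are conjugate. -/
theorem exists_smul_primeUnder (ℓ : ℕ) (hℓ : ℓ.Prime)
    (A A' : ValuationSubring (AlgebraicClosure ℚ)) (hA : A.LiesOverPrime ℓ)
    (hA' : A'.LiesOverPrime ℓ) :
    ∃ g : AlgebraicClosure ℚ ≃ₐ[ℚ] AlgebraicClosure ℚ, primeUnder A' = g • primeUnder A := by
  haveI := primeUnder_isPrime A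
  haveI := primeUnder_isPrime A'
  have h1 := zbar_under_eq ℓ hℓ (primeUnder A) (natCast_mem_primeUnder ℓ A hA)
  have h2 := zbar_under_eq ℓ hℓ (primeUnder A') (natCast_mem_primeUnder ℓ A' hA')
  exact Algebra.IsInvariant.exists_smul_of_under_eq_of_profinite (A := ℤ)
    (G := AlgebraicClosure ℚ ≃ₐ[ℚ] AlgebraicClosure ℚ) (primeUnder A) (primeUnder A')
    (h1.trans h2.symm)

/-- Inertia groups over the same prime are conjugate. -/
theorem exists_conj_mem_inertia (ℓ : ℕ) (hℓ : ℓ.Prime)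
    (A A' : ValuationSubring (AlgebraicClosure ℚ)) (hA : A.LiesOverPrime ℓ)
    (hA' : A'.LiesOverPrime ℓ) :
    ∃ g : AlgebraicClosure ℚ ≃ₐ[ℚ] AlgebraicClosure ℚ,
      ∀ s : AlgebraicClosure ℚ ≃ₐ[ℚ] AlgebraicClosure ℚ,
        s ∈ A'.inertiaSubgroupIn ℚ ↔ g⁻¹ * s * g ∈ A.inertiaSubgroupIn ℚ := by
  obtain ⟨g, hg⟩ := exists_smul_primeUnder ℓ hℓ A A' hA hA'
  refine ⟨g, fun s => ?_⟩
  rw [mem_inertiaSubgroupIn_iff ℓ hℓ A' hA', mem_inertiaSubgroupIn_iff ℓ hℓ A hA, hg]
  constructor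
  · intro h b
    have h1 := h (g • b)
    rw [Ideal.mem_pointwise_smul_iff_inv_smul_mem, smul_sub, inv_smul_smul] at h1
    rw [mul_smul, mul_smul]
    exact h1
  · intro h b
    have h1 := h (g⁻¹ • b)
    rw [Ideal.mem_pointwise_smul_iff_inv_smul_mem, smul_sub]
    rw [mul_smul, mul_smul, smul_inv_smul] at h1
    exact h1

end Fermat.Agent.Lib.InertiaConj
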