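import Fermat.Agent.Lib.Minkowski

/-!
# Valuations of elements of an inertia-fixed normal number field (shared library, helper6)

`A` a valuation subring of `ℚ̄` over the prime `ℓ`, `K ⊆ ℚ̄` a finite normal extension of `ℚ`
which is fixed pointwise by the inertia group of `A`.  Then `K` is unramified at the prime cut out
by `A`, hence every nonzero `x ∈ K` has `|x|_A = |ℓ|_A ^ k` for some integer `k`.

* `valuation_eq_zpow` : the statement above.
* `valuation_eq_zpow_of_finset` : the same for the elements of a finite Galois-stable set of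
  elements fixed by inertia.
-/

set_option autoImplicit false

open scoped Pointwise NumberField

namespace Fermat.Agent.Lib.UnramVal

open Fermat.Agent.Lib.Minkowski IsDedekindDomain

attribute [local instance] qbar_isAlgebraic qbar_isAlgClosure qbar_isGalois qbar_normal

section

variable (K : IntermediateField ℚ (AlgebraicClosure ℚ))

/-- Elements of `𝓞 K` outside the prime cut out by `A` are units of `A`. -/
theorem val_eq_one_of_notMem (A : ValuationSubring (AlgebraicClosure ℚ)) (b : 𝓞 K)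
    (hb : b ∉ primeBelow K A) : A.valuation (algebraMap (𝓞 K) (AlgebraicClosure ℚ) b) = 1 :=
  le_antisymm (val_algebraMap_le_one K A b) (not_lt.mp hb)

theorem unramified_of_fix [FiniteDimensional ℚ K] [Normal ℚ K] (ℓ : ℕ) (hℓ : ℓ.Prime)
    (A : ValuationSubring (AlgebraicClosure ℚ)) (hA : A.LiesOverPrime ℓ)
    (hfix : ∀ σ ∈ A.inertiaSubgroupIn ℚ, ∀ x ∈ K, σ x = x) :
    haveI : NumberField K := ⟨⟩
    ¬ ((ℓ : 𝓞 K) ∈ (primeBelow K A) ^ 2) := by
  have : NumberField K := ⟨⟩
  have : IsGalois ℚ K := ⟨⟩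
  have := primeBelow_isPrime K A
  have hI : (primeBelow K A).inertia (K ≃ₐ[ℚ] K) = ⊥ :=
    inertia_primeBelow_eq_bot K liftStmt ℓ hℓ A hA hfix
  have hmem : (ℓ : 𝓞 K) ∈ primeBelow K A := natCast_mem_primeBelow K A ℓ hA
  have he : (primeBelow K A).ramificationIdx ℤ = 1 := by
    rw [← Ideal.ramificationIdxIn_eq_ramificationIdx ((primeBelow K A).under ℤ) _ (K ≃ₐ[ℚ] K),
      ← Ideal.card_inertia_eq_ramificationIdxIn (G := K ≃ₐ[ℚ] K) ((primeBelow K A).under ℤ)
        (primeBelow K A), hI]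
    simp
  have hP0 : primeBelow K A ≠ ⊥ := by
    intro h
    rw [h, Ideal.mem_bot] at hmem
    exact hℓ.ne_zero (by exact_mod_cast hmem)
  have hlies : (primeBelow K A).LiesOver (Ideal.span {(ℓ : ℤ)}) := by
    constructor
    have hmax : (Ideal.span {(ℓ : ℤ)}).IsMaximal :=
      PrincipalIdealRing.isMaximal_of_irreducible
        (Nat.prime_iff_prime_int.mp hℓ).irreducible
    refine hmax.eq_of_le ?_ ?_
    · exact (Ideal.IsPrime.under ℤ (primeBelow K A)).ne_top
    · rw [Ideal.span_le]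
      rintro _ rfl
      show algebraMap ℤ (𝓞 K) (ℓ : ℤ) ∈ primeBelow K A
      simpa using hmem
  have hspan : (Ideal.span {(ℓ : ℤ)}) ≠ ⊥ := by
    simp [hℓ.ne_zero]
  have he' : (Ideal.span {(ℓ : ℤ)}).ramificationIdx' (primeBelow K A) = 1 := by
    rw [Ideal.ramificationIdx'_eq_ramificationIdx _ _ hspan, he]
  intro h2
  have hle : (Ideal.span {(ℓ : ℤ)}).map (algebraMap ℤ (𝓞 K)) ≤ primeBelow K A := by
    rw [Ideal.map_span, Ideal.span_le]
    rintro _ ⟨_, rfl, rfl⟩
    simpa using hmem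
  have := (Ideal.ramificationIdx'_ne_one_iff hle).mpr (by
    rw [Ideal.map_span, Ideal.span_le]
    rintro _ ⟨_, rfl, rfl⟩
    simpa using h2)
  exact this he'

/-- The height one prime of `𝓞 K` cut out by `A`. -/
noncomputable def vBelow [FiniteDimensional ℚ K] (ℓ : ℕ) (hℓ : ℓ.Prime)
    (A : ValuationSubring (AlgebraicClosure ℚ)) (hA : A.LiesOverPrime ℓ) :
    haveI : NumberField K := ⟨⟩
    HeightOneSpectrum (𝓞 K) :=
  haveI : NumberField K := ⟨⟩
  ⟨primeBelow K A, primeBelow_isPrime K A, by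
    intro h
    have hmem : (ℓ : 𝓞 K) ∈ primeBelow K A := natCast_mem_primeBelow K A ℓ hA
    rw [h, Ideal.mem_bot] at hmem
    exact hℓ.ne_zero (by exact_mod_cast hmem)⟩

/-- An element of `K` which is a unit for the `P`-adic valuation is a unit of `A`. -/
theorem val_eq_one_of_valuation_eq_one [FiniteDimensional ℚ K] (ℓ : ℕ) (hℓ : ℓ.Prime)
    (A : ValuationSubring (AlgebraicClosure ℚ)) (hA : A.LiesOverPrime ℓ) (y : K)
    (hy : haveI : NumberField K := ⟨⟩; (vBelow K ℓ hℓ A hA).valuation K y = 1) :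
    A.valuation (y : AlgebraicClosure ℚ) = 1 := by
  have : NumberField K := ⟨⟩
  set v := vBelow K ℓ hℓ A hA with hv
  have hcast : ∀ b : 𝓞 K, algebraMap (𝓞 K) (AlgebraicClosure ℚ) b
      = ((algebraMap (𝓞 K) K b : K) : AlgebraicClosure ℚ) := fun b => rfl
  have hunit : ∀ b : 𝓞 K, v.valuation K (algebraMap (𝓞 K) K b) = 1 →
      A.valuation ((algebraMap (𝓞 K) K b : K) : AlgebraicClosure ℚ) = 1 := by
    intro b hb
    rw [HeightOneSpectrum.valuation_eq_one_iff_notMem] at hb
    rw [← hcast]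
    exact val_eq_one_of_notMem K A b hb
  obtain ⟨n, d, h | h⟩ := HeightOneSpectrum.exists_primeCompl_mul_eq_or_mul_eq (K := K) v y
  · have hd : v.valuation K (algebraMap (𝓞 K) K d) = 1 :=
      (HeightOneSpectrum.valuation_eq_one_iff_notMem (v := v)).mpr d.2
    have hn : v.valuation K (algebraMap (𝓞 K) K n) = 1 := by
      rw [← h, map_mul, hy, hd, one_mul]
    have h1 := hunit d hd
    have h2 := hunit n hn
    have h3 : (y : AlgebraicClosure ℚ) * ((algebraMap (𝓞 K) K d : K) : AlgebraicClosure ℚ)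
        = ((algebraMap (𝓞 K) K n : K) : AlgebraicClosure ℚ) := by
      rw [← h]; rfl
    have h4 := congrArg A.valuation h3
    rw [map_mul, h1, h2, mul_one] at h4
    exact h4
  · have hd : v.valuation K (algebraMap (𝓞 K) K d) = 1 :=
      (HeightOneSpectrum.valuation_eq_one_iff_notMem (v := v)).mpr d.2
    have hn : v.valuation K (algebraMap (𝓞 K) K n) = 1 := by
      have := congrArg (v.valuation K) h
      rw [map_mul, hy, hd, one_mul] at this
      exact this
    have h1 := hunit d hd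
    have h2 := hunit n hn
    have h3 : (y : AlgebraicClosure ℚ) * ((algebraMap (𝓞 K) K n : K) : AlgebraicClosure ℚ)
        = ((algebraMap (𝓞 K) K d : K) : AlgebraicClosure ℚ) := by
      rw [← h]; rfl
    have h4 := congrArg A.valuation h3
    rw [map_mul, h1, h2, mul_one] at h4
    exact h4

/-- `ℓ` is a uniformizer of the prime cut out by `A` if inertia fixes `K`. -/
theorem valuation_prime_eq [FiniteDimensional ℚ K] [Normal ℚ K] (ℓ : ℕ) (hℓ : ℓ.Prime)
    (A : ValuationSubring (AlgebraicClosure ℚ)) (hA : A.LiesOverPrime ℓ)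
    (hfix : ∀ σ ∈ A.inertiaSubgroupIn ℚ, ∀ x ∈ K, σ x = x) :
    haveI : NumberField K := ⟨⟩
    (vBelow K ℓ hℓ A hA).valuation K (ℓ : K) = WithZero.exp (-1 : ℤ) := by
  have : NumberField K := ⟨⟩
  set v := vBelow K ℓ hℓ A hA with hv
  have hnot := unramified_of_fix K ℓ hℓ A hA hfix
  have hmem : (ℓ : 𝓞 K) ∈ primeBelow K A := natCast_mem_primeBelow K A ℓ hA
  have h0 : v.intValuation (ℓ : 𝓞 K) ≠ 0 := by
    apply HeightOneSpectrum.intValuation_ne_zero
    exact_mod_cast hℓ.ne_zero
  have h1 : v.intValuation (ℓ : 𝓞 K) ≤ WithZero.exp (-((1 : ℕ) : ℤ)) := by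
    rw [HeightOneSpectrum.intValuation_le_pow_iff_mem, pow_one]
    exact hmem
  have h2 : ¬ v.intValuation (ℓ : 𝓞 K) ≤ WithZero.exp (-((2 : ℕ) : ℤ)) := by
    rw [HeightOneSpectrum.intValuation_le_pow_iff_mem]
    exact hnot
  have hcast : ((ℓ : K)) = algebraMap (𝓞 K) K (ℓ : 𝓞 K) := by simp
  rw [hcast, HeightOneSpectrum.valuation_of_algebraMap]
  rw [← WithZero.exp_log h0] at h1 h2 ⊢
  rw [WithZero.exp_le_exp] at h1 h2
  congr 1
  push_cast at h1 h2
  omega

/-- **Main statement**: if the inertia group of `A` fixes the finite normal extension `K` of `ℚ`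
pointwise, every nonzero element of `K` has valuation an integral power of `|ℓ|`. -/
theorem valuation_eq_zpow [FiniteDimensional ℚ K] [Normal ℚ K] (ℓ : ℕ) (hℓ : ℓ.Prime)
    (A : ValuationSubring (AlgebraicClosure ℚ)) (hA : A.LiesOverPrime ℓ)
    (hfix : ∀ σ ∈ A.inertiaSubgroupIn ℚ, ∀ x ∈ K, σ x = x)
    (x : AlgebraicClosure ℚ) (hx : x ∈ K) (hx0 : x ≠ 0) :
    ∃ k : ℤ, A.valuation x = A.valuation (ℓ : AlgebraicClosure ℚ) ^ k := by
  have : NumberField K := ⟨⟩
  set v := vBelow K ℓ hℓ A hA with hv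
  have hℓv := valuation_prime_eq K ℓ hℓ A hA hfix
  have hx0' : (⟨x, hx⟩ : K) ≠ 0 := by
    intro h
    exact hx0 (congrArg Subtype.val h)
  have hvx : v.valuation K (⟨x, hx⟩ : K) ≠ 0 := (Valuation.ne_zero_iff _).mpr hx0'
  set k : ℤ := WithZero.log (v.valuation K (⟨x, hx⟩ : K)) with hk
  have hℓ0 : (ℓ : K) ≠ 0 := by exact_mod_cast hℓ.ne_zero
  have hy : v.valuation K ((⟨x, hx⟩ : K) * (ℓ : K) ^ k) = 1 := by
    rw [map_mul, map_zpow₀, hℓv, ← WithZero.exp_log hvx, ← hk, ← WithZero.exp_zsmul,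
      ← WithZero.exp_add]
    simp
  have h1 := val_eq_one_of_valuation_eq_one K ℓ hℓ A hA _ hy
  have hℓ0' : A.valuation (ℓ : AlgebraicClosure ℚ) ≠ 0 :=
    (Valuation.ne_zero_iff _).mpr (by exact_mod_cast hℓ.ne_zero)
  refine ⟨-k, ?_⟩
  have h2 : (((⟨x, hx⟩ : K) * (ℓ : K) ^ k : K) : AlgebraicClosure ℚ)
      = x * (ℓ : AlgebraicClosure ℚ) ^ k := by
    push_cast
    rfl
  rw [h2, map_mul, map_zpow₀] at h1
  rw [zpow_neg]
  exact eq_inv_of_mul_eq_one_left h1

end

/-- The same for the elements of a finite Galois-stable set of elements fixed by inertia. -/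
theorem valuation_eq_zpow_of_finite (ℓ : ℕ) (hℓ : ℓ.Prime)
    (A : ValuationSubring (AlgebraicClosure ℚ)) (hA : A.LiesOverPrime ℓ)
    (S : Set (AlgebraicClosure ℚ)) (hSfin : S.Finite)
    (hstab : ∀ σ : AlgebraicClosure ℚ ≃ₐ[ℚ] AlgebraicClosure ℚ, ∀ x ∈ S, σ x ∈ S)
    (hfix : ∀ σ ∈ A.inertiaSubgroupIn ℚ, ∀ x ∈ S, σ x = x)
    (x : AlgebraicClosure ℚ) (hx : x ∈ S) (hx0 : x ≠ 0) :
    ∃ k : ℤ, A.valuation x = A.valuation (ℓ : AlgebraicClosure ℚ) ^ k := by
  let K : IntermediateField ℚ (AlgebraicClosure ℚ) := IntermediateField.adjoin ℚ S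
  have hfin : FiniteDimensional ℚ K := by
    have : Finite S := hSfin
    exact IntermediateField.finiteDimensional_adjoin
      (fun x _ => Algebra.IsIntegral.isIntegral x)
  have hnorm' : @Normal ℚ K _ _ (IntermediateField.algebra' K) := by
    rw [IntermediateField.normal_iff_forall_map_le']
    intro σ
    rw [IntermediateField.adjoin_map, IntermediateField.adjoin_le_iff]
    rintro _ ⟨y, hy, rfl⟩
    exact IntermediateField.subset_adjoin ℚ S (hstab σ y hy)
  have hnorm : Normal ℚ K := by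
    convert hnorm'
    exact Subsingleton.elim _ _
  have hfixK : ∀ σ ∈ A.inertiaSubgroupIn ℚ, ∀ y ∈ K, σ y = y := by
    intro σ hσ y hy
    have hle : K ≤ IntermediateField.fixedField (Subgroup.zpowers σ) := by
      rw [IntermediateField.adjoin_le_iff]
      intro z hz
      rw [SetLike.mem_coe, IntermediateField.mem_fixedField_iff]
      rintro τ ⟨n, rfl⟩
      show (σ ^ n) z = z
      have h1 : σ z = z := hfix σ hσ z hz
      have h2 : ∀ m : ℕ, (σ ^ m) z = z := by
        intro m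
        induction m with
        | zero => rfl
        | succ m ih => rw [pow_succ, AlgEquiv.mul_apply, h1, ih]
      have h3 : σ⁻¹ z = z := by
        show σ.symm z = z
        rw [AlgEquiv.symm_apply_eq]
        exact h1.symm
      have h4 : ∀ m : ℕ, (σ⁻¹ ^ m) z = z := by
        intro m
        induction m with
        | zero => rfl
        | succ m ih => rw [pow_succ, AlgEquiv.mul_apply, h3, ih]
      rcases Int.eq_nat_or_neg n with ⟨m, rfl | rfl⟩
      · rw [zpow_natCast]; exact h2 m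
      · rw [zpow_neg, zpow_natCast, ← inv_pow]; exact h4 m
    have := hle hy
    rw [IntermediateField.mem_fixedField_iff] at this
    exact this σ (Subgroup.mem_zpowers σ)
  exact valuation_eq_zpow K ℓ hℓ A hA hfixK x (IntermediateField.subset_adjoin ℚ S hx) hx0

end Fermat.Agent.Lib.UnramVal
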