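import Mathlib.AlgebraicGeometry.EllipticCurve.Affine.Point
import Mathlib.AlgebraicGeometry.EllipticCurve.VariableChange

/-!
# Transport of points along an admissible change of variables

For a field `F`, a Weierstrass curve `W` over `F` and `C : WeierstrassCurve.VariableChange F`,
the map `(x, y) ↦ (u² x + r, u³ y + u² s x + t)` is an isomorphism of groups
`(C • W).Point ≃+ W.Point`.  (Mathlib has the variable change on curves, not on points.)
-/

set_option autoImplicit false

namespace Fermat.Agent.Lib.PointVariableChange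

open WeierstrassCurve

variable {F : Type*} [Field F]

/-- The `x`-coordinate of the image of `(x, y)` under the change of variables `C`. -/
def vcX (C : VariableChange F) (x : F) : F := (C.u : F) ^ 2 * x + C.r

/-- The `y`-coordinate of the image of `(x, y)` under the change of variables `C`. -/
def vcY (C : VariableChange F) (x y : F) : F := (C.u : F) ^ 3 * y + (C.u : F) ^ 2 * C.s * x + C.t

variable (W : Affine F) (C : VariableChange F)

theorem vcX_injective : Function.Injective (vcX C) := by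
  intro x x' h
  have hu : (C.u : F) ^ 2 ≠ 0 := pow_ne_zero _ C.u.ne_zero
  simp only [vcX] at h
  exact mul_left_cancel₀ hu (add_right_cancel h)

theorem vcY_injective (x : F) : Function.Injective (vcY C x) := by
  intro y y' h
  have hu : (C.u : F) ^ 3 ≠ 0 := pow_ne_zero _ C.u.ne_zero
  simp only [vcY] at h
  exact mul_left_cancel₀ hu (add_right_cancel (add_right_cancel h))

theorem polynomial_vc (x y : F) :
    W.polynomial.evalEval (vcX C x) (vcY C x y) =
      (C.u : F) ^ 6 * (C • W).toAffine.polynomial.evalEval x y := by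
  have hu : (C.u : F) ≠ 0 := C.u.ne_zero
  simp only [Affine.evalEval_polynomial, variableChange_a₁, variableChange_a₂, variableChange_a₃,
    variableChange_a₄, variableChange_a₆, Units.val_inv_eq_inv_val, vcX, vcY]
  field_simp
  ring

theorem equation_vc (x y : F) :
    W.Equation (vcX C x) (vcY C x y) ↔ (C • W).toAffine.Equation x y := by
  have hu : (C.u : F) ^ 6 ≠ 0 := pow_ne_zero _ C.u.ne_zero
  simp only [Affine.Equation, polynomial_vc, mul_eq_zero, hu, false_or]

theorem polynomialY_vc (x y : F) :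
    W.polynomialY.evalEval (vcX C x) (vcY C x y) =
      (C.u : F) ^ 3 * (C • W).toAffine.polynomialY.evalEval x y := by
  have hu : (C.u : F) ≠ 0 := C.u.ne_zero
  simp only [Affine.evalEval_polynomialY, variableChange_a₁, variableChange_a₃,
    Units.val_inv_eq_inv_val, vcX, vcY]
  field_simp
  ring

theorem polynomialX_vc (x y : F) :
    W.polynomialX.evalEval (vcX C x) (vcY C x y) =
      (C.u : F) ^ 4 * (C • W).toAffine.polynomialX.evalEval x y
        - C.s * (C.u : F) ^ 3 * (C • W).toAffine.polynomialY.evalEval x y := by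
  have hu : (C.u : F) ≠ 0 := C.u.ne_zero
  simp only [Affine.evalEval_polynomialX, Affine.evalEval_polynomialY, variableChange_a₁,
    variableChange_a₂, variableChange_a₃, variableChange_a₄, Units.val_inv_eq_inv_val, vcX, vcY]
  field_simp
  ring

theorem nonsingular_vc (x y : F) :
    W.Nonsingular (vcX C x) (vcY C x y) ↔ (C • W).toAffine.Nonsingular x y := by
  have hu : (C.u : F) ≠ 0 := C.u.ne_zero
  have hu3 : (C.u : F) ^ 3 ≠ 0 := pow_ne_zero _ hu
  have hu4 : (C.u : F) ^ 4 ≠ 0 := pow_ne_zero _ hu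
  simp only [Affine.Nonsingular, equation_vc, polynomialX_vc, polynomialY_vc]
  refine and_congr_right fun _ => ?_
  by_cases hY : (C • W).toAffine.polynomialY.evalEval x y = 0
  · simp [hY, hu4]
  · simp [hY, hu3]

theorem negY_vc (x y : F) :
    W.negY (vcX C x) (vcY C x y) = vcY C x ((C • W).toAffine.negY x y) := by
  have hu : (C.u : F) ≠ 0 := C.u.ne_zero
  simp only [Affine.negY, variableChange_a₁, variableChange_a₃, Units.val_inv_eq_inv_val, vcX, vcY]
  field_simp
  ring

theorem addX_vc (x₁ x₂ ℓ : F) :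
    W.addX (vcX C x₁) (vcX C x₂) ((C.u : F) * ℓ + C.s) =
      vcX C ((C • W).toAffine.addX x₁ x₂ ℓ) := by
  have hu : (C.u : F) ≠ 0 := C.u.ne_zero
  simp only [Affine.addX, variableChange_a₁, variableChange_a₂, Units.val_inv_eq_inv_val, vcX]
  field_simp
  ring

theorem negAddY_vc (x₁ x₂ y₁ ℓ : F) :
    W.negAddY (vcX C x₁) (vcX C x₂) (vcY C x₁ y₁) ((C.u : F) * ℓ + C.s) =
      vcY C ((C • W).toAffine.addX x₁ x₂ ℓ) ((C • W).toAffine.negAddY x₁ x₂ y₁ ℓ) := by
  have hu : (C.u : F) ≠ 0 := C.u.ne_zero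
  simp only [Affine.negAddY, addX_vc]
  simp only [Affine.addX, variableChange_a₁, variableChange_a₂, Units.val_inv_eq_inv_val, vcX, vcY]
  field_simp
  ring

theorem addY_vc (x₁ x₂ y₁ ℓ : F) :
    W.addY (vcX C x₁) (vcX C x₂) (vcY C x₁ y₁) ((C.u : F) * ℓ + C.s) =
      vcY C ((C • W).toAffine.addX x₁ x₂ ℓ) ((C • W).toAffine.addY x₁ x₂ y₁ ℓ) := by
  simp only [Affine.addY, addX_vc, negAddY_vc, negY_vc]

theorem slope_vc [DecidableEq F] {x₁ x₂ y₁ y₂ : F} (h₁ : (C • W).toAffine.Equation x₁ y₁)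
    (h₂ : (C • W).toAffine.Equation x₂ y₂)
    (hxy : ¬(x₁ = x₂ ∧ y₁ = (C • W).toAffine.negY x₂ y₂)) :
    W.slope (vcX C x₁) (vcX C x₂) (vcY C x₁ y₁) (vcY C x₂ y₂) =
      (C.u : F) * (C • W).toAffine.slope x₁ x₂ y₁ y₂ + C.s := by
  have hu : (C.u : F) ≠ 0 := C.u.ne_zero
  by_cases hx : x₁ = x₂
  · subst hx
    have hy : y₁ ≠ (C • W).toAffine.negY x₁ y₂ := fun h => hxy ⟨rfl, h⟩
    have hyy : y₁ = y₂ := Affine.Y_eq_of_Y_ne h₁ h₂ rfl hy
    subst hyy
    have hy' : vcY C x₁ y₁ ≠ W.negY (vcX C x₁) (vcY C x₁ y₁) := by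
      rw [negY_vc]
      exact fun h => hy (vcY_injective C x₁ h)
    have hD : y₁ - (C • W).toAffine.negY x₁ y₁ ≠ 0 := sub_ne_zero.mpr hy
    rw [Affine.slope_of_Y_ne rfl hy', Affine.slope_of_Y_ne rfl hy]
    rw [negY_vc]
    have hD' : vcY C x₁ y₁ - vcY C x₁ ((C • W).toAffine.negY x₁ y₁) =
        (C.u : F) ^ 3 * (y₁ - (C • W).toAffine.negY x₁ y₁) := by
      simp only [vcY]; ring
    rw [hD']
    have hu3 : (C.u : F) ^ 3 ≠ 0 := pow_ne_zero _ hu
    rw [div_eq_iff (mul_ne_zero hu3 hD)]
    have hcancel : ∀ N D : F, D ≠ 0 →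
        ((C.u : F) * (N / D) + C.s) * ((C.u : F) ^ 3 * D) =
          (C.u : F) ^ 4 * N + C.s * (C.u : F) ^ 3 * D := by
      intro N D hD0
      field_simp
    rw [hcancel _ _ hD]
    simp only [Affine.negY, variableChange_a₁, variableChange_a₂, variableChange_a₃,
      variableChange_a₄, Units.val_inv_eq_inv_val, vcX, vcY]
    field_simp
    ring
  · have hx' : vcX C x₁ ≠ vcX C x₂ := fun h => hx (vcX_injective C h)
    rw [Affine.slope_of_X_ne hx', Affine.slope_of_X_ne hx]
    have hxx : x₁ - x₂ ≠ 0 := sub_ne_zero.mpr hx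
    have e1 : vcX C x₁ - vcX C x₂ = (C.u : F) ^ 2 * (x₁ - x₂) := by
      simp only [vcX]; ring
    have e2 : vcY C x₁ y₁ - vcY C x₂ y₂ =
        (C.u : F) ^ 3 * (y₁ - y₂) + (C.u : F) ^ 2 * C.s * (x₁ - x₂) := by
      simp only [vcY]; ring
    rw [e1, e2]
    field_simp

/-- The map on points induced by the change of variables `C`. -/
def toFun : (C • W).toAffine.Point → W.Point
  | .zero => .zero
  | .some x y h => .some (vcX C x) (vcY C x y) ((nonsingular_vc W C x y).mpr h)

@[simp] theorem toFun_zero : toFun W C 0 = 0 := rfl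

@[simp] theorem toFun_some {x y : F} (h : (C • W).toAffine.Nonsingular x y) :
    toFun W C (.some x y h) = .some (vcX C x) (vcY C x y) ((nonsingular_vc W C x y).mpr h) := rfl

theorem toFun_add [DecidableEq F] (P Q : (C • W).toAffine.Point) :
    toFun W C (P + Q) = toFun W C P + toFun W C Q := by
  rcases P with _ | ⟨x₁, y₁, h₁⟩
  · change toFun W C (0 + Q) = 0 + toFun W C Q
    rw [zero_add, zero_add]
  rcases Q with _ | ⟨x₂, y₂, h₂⟩
  · change toFun W C (_ + 0) = _ + 0
    rw [add_zero, add_zero]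
  by_cases hxy : x₁ = x₂ ∧ y₁ = (C • W).toAffine.negY x₂ y₂
  · have hxy' : vcX C x₁ = vcX C x₂ ∧ vcY C x₁ y₁ = W.negY (vcX C x₂) (vcY C x₂ y₂) := by
      refine ⟨congrArg _ hxy.1, ?_⟩
      rw [negY_vc, ← hxy.2, hxy.1]
    rw [Affine.Point.add_of_Y_eq hxy.1 hxy.2, toFun_some, toFun_some,
      Affine.Point.add_of_Y_eq hxy'.1 hxy'.2]
    rfl
  · have hxy' : ¬(vcX C x₁ = vcX C x₂ ∧ vcY C x₁ y₁ = W.negY (vcX C x₂) (vcY C x₂ y₂)) := by
      rintro ⟨hx, hy⟩
      have hx0 : x₁ = x₂ := vcX_injective C hx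
      refine hxy ⟨hx0, ?_⟩
      rw [negY_vc, ← hx0] at hy
      rw [← hx0]
      exact vcY_injective C x₁ hy
    rw [Affine.Point.add_some hxy, toFun_some, toFun_some, toFun_some, Affine.Point.add_some hxy']
    have hs := slope_vc W C h₁.1 h₂.1 hxy
    congr 1
    · rw [hs, addX_vc]
    · rw [hs, addY_vc]

/-- The additive homomorphism on points induced by the change of variables `C`. -/
def hom [DecidableEq F] : (C • W).toAffine.Point →+ W.Point where
  toFun := toFun W C
  map_zero' := rfl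
  map_add' := toFun_add W C

theorem hom_injective [DecidableEq F] : Function.Injective (hom W C) := by
  intro P Q h
  change toFun W C P = toFun W C Q at h
  rcases P with _ | ⟨x₁, y₁, h₁⟩ <;> rcases Q with _ | ⟨x₂, y₂, h₂⟩
  · rfl
  · exact absurd h (by simp [toFun])
  · exact absurd h (by simp [toFun])
  · simp only [toFun, Affine.Point.some.injEq] at h
    obtain ⟨hx, hy⟩ := h
    have hx0 : x₁ = x₂ := vcX_injective C hx
    subst hx0
    have hy0 : y₁ = y₂ := vcY_injective C x₁ hy
    subst hy0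
    rfl

theorem hom_surjective [DecidableEq F] : Function.Surjective (hom W C) := by
  intro P
  rcases P with _ | ⟨X, Y, h⟩
  · exact ⟨0, rfl⟩
  · have hu : (C.u : F) ≠ 0 := C.u.ne_zero
    have hX : vcX C ((X - C.r) / (C.u : F) ^ 2) = X := by
      simp only [vcX]; field_simp; ring
    have hY : vcY C ((X - C.r) / (C.u : F) ^ 2)
        ((Y - C.s * (X - C.r) - C.t) / (C.u : F) ^ 3) = Y := by
      simp only [vcY]; field_simp; ring
    have h' : (C • W).toAffine.Nonsingular ((X - C.r) / (C.u : F) ^ 2)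
        ((Y - C.s * (X - C.r) - C.t) / (C.u : F) ^ 3) := by
      rw [← nonsingular_vc, hX, hY]; exact h
    refine ⟨.some _ _ h', ?_⟩
    change Affine.Point.some _ _ _ = Affine.Point.some X Y h
    congr 1

/-- The additive equivalence `(C • W).Point ≃+ W.Point`,
`(x, y) ↦ (u² x + r, u³ y + u² s x + t)`. -/
noncomputable def equiv [DecidableEq F] : (C • W).toAffine.Point ≃+ W.Point :=
  AddEquiv.ofBijective (hom W C) ⟨hom_injective W C, hom_surjective W C⟩

@[simp] theorem equiv_zero [DecidableEq F] : equiv W C 0 = 0 := rfl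

@[simp] theorem equiv_some [DecidableEq F] {x y : F} (h : (C • W).toAffine.Nonsingular x y) :
    equiv W C (.some x y h) = .some (vcX C x) (vcY C x y) ((nonsingular_vc W C x y).mpr h) := rfl

/-- Variant of `equiv` for a curve `W₂` that is propositionally equal to `C • W₁`. -/
noncomputable def equivOfEq [DecidableEq F] {W₁ W₂ : Affine F} {C : VariableChange F}
    (h : W₂ = (C • W₁).toAffine) : W₂.Point ≃+ W₁.Point :=
  (AddEquiv.cast (by rw [h]) : W₂.Point ≃+ (C • W₁).toAffine.Point).trans (equiv W₁ C)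

theorem nonsingular_of_eq {W₁ W₂ : Affine F} {C : VariableChange F}
    (h : W₂ = (C • W₁).toAffine) {x y : F} (hxy : W₂.Nonsingular x y) :
    W₁.Nonsingular (vcX C x) (vcY C x y) := by
  subst h
  exact (nonsingular_vc W₁ C x y).mpr hxy

@[simp] theorem equivOfEq_zero [DecidableEq F] {W₁ W₂ : Affine F} {C : VariableChange F}
    (h : W₂ = (C • W₁).toAffine) : equivOfEq h (0 : W₂.Point) = 0 :=
  map_zero _

theorem equivOfEq_some [DecidableEq F] {W₁ W₂ : Affine F} {C : VariableChange F}
    (h : W₂ = (C • W₁).toAffine) {x y : F} (hxy : W₂.Nonsingular x y) :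
    equivOfEq h (.some x y hxy) = .some (vcX C x) (vcY C x y) (nonsingular_of_eq h hxy) := by
  subst h
  rfl

end Fermat.Agent.Lib.PointVariableChange
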