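import Fermat.Agent.Lib.ZetaPrimes
import Mathlib.Analysis.PSeries

/-!
# Primes of absolute degree `≥ 2` contribute `O(1)`

We prove `StmtNotPrimeNormLe K`: the sum of `N𝔭^{-s}` over the primes of `𝓞 K` whose absolute
norm is not a prime number is bounded for `s > 1`.
-/

namespace Fermat.Agent.Lib.ZetaPrimes

open NumberField IsDedekindDomain Filter Topology Ideal

variable (K : Type*) [Field K] [NumberField K]

/-- Every nonzero prime ideal contains a rational prime. -/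
theorem exists_prime_natCast_mem (v : HeightOneSpectrum (𝓞 K)) :
    ∃ q : ℕ, q.Prime ∧ ((q : ℕ) : 𝓞 K) ∈ v.asIdeal := by
  classical
  have hex : ∃ m : ℕ, 2 ≤ m ∧ ((m : ℕ) : 𝓞 K) ∈ v.asIdeal :=
    ⟨absNorm v.asIdeal, two_le_absNorm K v, Ideal.absNorm_mem _⟩
  refine ⟨Nat.find hex, ?_, (Nat.find_spec hex).2⟩
  by_contra hnp
  obtain ⟨a, b, ha, hb, hab⟩ := (Nat.not_prime_iff_exists_mul_eq (Nat.find_spec hex).1).mp hnp
  have hmem : ((a : ℕ) : 𝓞 K) * ((b : ℕ) : 𝓞 K) ∈ v.asIdeal := by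
    rw [← Nat.cast_mul, hab]
    exact (Nat.find_spec hex).2
  have h2 := (Nat.find_spec hex).1
  have ha2 : 2 ≤ a := by
    by_contra h
    have : a = 0 ∨ a = 1 := by omega
    rcases this with rfl | rfl
    · omega
    · omega
  have hb2 : 2 ≤ b := by
    by_contra h
    have : b = 0 ∨ b = 1 := by omega
    rcases this with rfl | rfl
    · omega
    · omega
  rcases v.isPrime.mem_or_mem hmem with h | h
  · exact Nat.find_min hex ha ⟨ha2, h⟩
  · exact Nat.find_min hex hb ⟨hb2, h⟩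

/-- The rational prime below a prime ideal. -/
noncomputable def ratPrime (v : HeightOneSpectrum (𝓞 K)) : ℕ :=
  (exists_prime_natCast_mem K v).choose

lemma ratPrime_prime (v : HeightOneSpectrum (𝓞 K)) : (ratPrime K v).Prime :=
  (exists_prime_natCast_mem K v).choose_spec.1

lemma ratPrime_mem (v : HeightOneSpectrum (𝓞 K)) : ((ratPrime K v : ℕ) : 𝓞 K) ∈ v.asIdeal :=
  (exists_prime_natCast_mem K v).choose_spec.2

lemma asIdeal_dvd_span_ratPrime (v : HeightOneSpectrum (𝓞 K)) :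
    v.asIdeal ∣ Ideal.span {((ratPrime K v : ℕ) : 𝓞 K)} :=
  Ideal.dvd_span_singleton.mpr (ratPrime_mem K v)

/-- The norm of a prime is a power of the rational prime below it. -/
lemma exists_absNorm_eq_pow (v : HeightOneSpectrum (𝓞 K)) :
    ∃ f : ℕ, 1 ≤ f ∧ absNorm v.asIdeal = ratPrime K v ^ f := by
  have h1 : absNorm v.asIdeal ∣ ratPrime K v ^ Module.finrank ℤ (𝓞 K) := by
    rw [← Ideal.absNorm_span_natCast]
    exact map_dvd absNorm (asIdeal_dvd_span_ratPrime K v)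
  obtain ⟨f, -, hf⟩ := (Nat.dvd_prime_pow (ratPrime_prime K v)).mp h1
  refine ⟨f, ?_, hf⟩
  by_contra h
  have hf0 : f = 0 := by omega
  have := two_le_absNorm K v
  rw [hf, hf0, pow_zero] at this
  omega

lemma ratPrime_le_absNorm (v : HeightOneSpectrum (𝓞 K)) :
    ratPrime K v ≤ absNorm v.asIdeal := by
  obtain ⟨f, hf1, hf⟩ := exists_absNorm_eq_pow K v
  rw [hf]
  exact Nat.le_self_pow (by omega) _

lemma ratPrime_sq_le_absNorm {v : HeightOneSpectrum (𝓞 K)}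
    (hv : ¬ (absNorm v.asIdeal).Prime) : ratPrime K v ^ 2 ≤ absNorm v.asIdeal := by
  obtain ⟨f, hf1, hf⟩ := exists_absNorm_eq_pow K v
  have hf2 : 2 ≤ f := by
    by_contra h
    have : f = 1 := by omega
    rw [this, pow_one] at hf
    exact hv (hf ▸ ratPrime_prime K v)
  rw [hf]
  exact Nat.pow_le_pow_right (ratPrime_prime K v).pos hf2

/-- At most `[K : ℚ]` primes lie above a given rational prime. -/
lemma card_le_of_ratPrime_eq (A : Finset (HeightOneSpectrum (𝓞 K))) (q : ℕ)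
    (hA : ∀ v ∈ A, ratPrime K v = q) : A.card ≤ Module.finrank ℤ (𝓞 K) := by
  classical
  rcases A.eq_empty_or_nonempty with rfl | ⟨v₀, hv₀⟩
  · simp
  have hq : q.Prime := hA v₀ hv₀ ▸ ratPrime_prime K v₀
  have hinj : Set.InjOn (fun v : HeightOneSpectrum (𝓞 K) ↦ v.asIdeal) (A : Set _) :=
    fun v _ w _ h ↦ HeightOneSpectrum.ext h
  have hdvd : ∏ v ∈ A, v.asIdeal ∣ Ideal.span {((q : ℕ) : 𝓞 K)} := by
    rw [← Finset.prod_image (s := A) (g := fun v : HeightOneSpectrum (𝓞 K) ↦ v.asIdeal)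
      (f := fun I : Ideal (𝓞 K) ↦ I) hinj]
    refine Finset.prod_primes_dvd _ (fun I hI ↦ ?_) (fun I hI ↦ ?_)
    · obtain ⟨v, -, rfl⟩ := Finset.mem_image.mp hI
      exact v.prime
    · obtain ⟨v, hv, rfl⟩ := Finset.mem_image.mp hI
      rw [← hA v hv]
      exact asIdeal_dvd_span_ratPrime K v
  have h1 : ∏ v ∈ A, absNorm v.asIdeal ∣ q ^ Module.finrank ℤ (𝓞 K) := by
    rw [← Ideal.absNorm_span_natCast (S := 𝓞 K), ← map_prod]
    exact map_dvd absNorm hdvd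
  have h2 : q ^ A.card ≤ ∏ v ∈ A, absNorm v.asIdeal := by
    rw [← Finset.prod_const]
    refine Finset.prod_le_prod' (fun v hv ↦ ?_)
    rw [← hA v hv]
    exact ratPrime_le_absNorm K v
  have h3 : q ^ A.card ≤ q ^ Module.finrank ℤ (𝓞 K) :=
    h2.trans (Nat.le_of_dvd (pow_pos hq.pos _) h1)
  exact (Nat.pow_le_pow_iff_right hq.one_lt).mp h3

theorem notPrimeNorm_le : StmtNotPrimeNormLe K := by
  classical
  have hsum2 : Summable (fun m : ℕ ↦ ((m : ℝ) ^ 2)⁻¹) :=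
    (Real.summable_nat_pow_inv (p := 2)).mpr one_lt_two
  refine ⟨Module.finrank ℤ (𝓞 K) * ∑' m : ℕ, ((m : ℝ) ^ 2)⁻¹, fun s hs ↦ ?_⟩
  have hsumm : Summable (fun v : {v : HeightOneSpectrum (𝓞 K) // ¬ (absNorm v.asIdeal).Prime} ↦
      primeTerm K s v) := (summable_primeTerm K s hs).subtype _
  refine hsumm.tsum_le_of_sum_le (fun B ↦ ?_)
  -- pointwise bound by `q^{-2}`
  have hpt : ∀ v : {v : HeightOneSpectrum (𝓞 K) // ¬ (absNorm v.asIdeal).Prime},
      primeTerm K s v ≤ (((ratPrime K v : ℕ) : ℝ) ^ 2)⁻¹ := by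
    intro v
    have hq : (0 : ℝ) < (ratPrime K v : ℝ) := by
      exact_mod_cast (ratPrime_prime K v).pos
    have h1 : ((ratPrime K v : ℝ)) ^ 2 ≤ (absNorm v.1.asIdeal : ℝ) := by
      exact_mod_cast ratPrime_sq_le_absNorm K v.2
    have h0 : (0 : ℝ) < absNorm v.1.asIdeal := lt_of_lt_of_le (by positivity) h1
    have h2 : (1 : ℝ) ≤ absNorm v.1.asIdeal := by
      have := two_le_absNorm K v.1
      exact_mod_cast (by omega : 1 ≤ absNorm v.1.asIdeal)
    rw [primeTerm, Real.rpow_neg h0.le]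
    refine inv_anti₀ (by positivity) ?_
    calc ((ratPrime K v : ℝ)) ^ 2 ≤ (absNorm v.1.asIdeal : ℝ) := h1
      _ = (absNorm v.1.asIdeal : ℝ) ^ (1 : ℝ) := by simp
      _ ≤ (absNorm v.1.asIdeal : ℝ) ^ s := Real.rpow_le_rpow_of_exponent_le h2 hs.le
  set g : {v : HeightOneSpectrum (𝓞 K) // ¬ (absNorm v.asIdeal).Prime} → ℕ :=
    fun v ↦ ratPrime K v.1 with hg
  calc ∑ v ∈ B, primeTerm K s v
      ≤ ∑ v ∈ B, (((g v : ℕ) : ℝ) ^ 2)⁻¹ := Finset.sum_le_sum (fun v _ ↦ hpt v)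
    _ = ∑ q ∈ B.image g, ∑ v ∈ B with g v = q, (((g v : ℕ) : ℝ) ^ 2)⁻¹ :=
        (Finset.sum_fiberwise_of_maps_to (fun v hv ↦ Finset.mem_image_of_mem g hv) _).symm
    _ ≤ ∑ q ∈ B.image g, (Module.finrank ℤ (𝓞 K) : ℝ) * (((q : ℕ) : ℝ) ^ 2)⁻¹ := by
        refine Finset.sum_le_sum (fun q _ ↦ ?_)
        have hcard : (B.filter (fun v ↦ g v = q)).card ≤ Module.finrank ℤ (𝓞 K) := by
          have := card_le_of_ratPrime_eq K ((B.filter (fun v ↦ g v = q)).map
            (Function.Embedding.subtype _)) q (by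
              intro v hv
              obtain ⟨w, hw, rfl⟩ := Finset.mem_map.mp hv
              exact (Finset.mem_filter.mp hw).2)
          simpa using this
        calc ∑ v ∈ B with g v = q, (((g v : ℕ) : ℝ) ^ 2)⁻¹
            = ∑ v ∈ B with g v = q, (((q : ℕ) : ℝ) ^ 2)⁻¹ :=
              Finset.sum_congr rfl (fun v hv ↦ by rw [(Finset.mem_filter.mp hv).2])
          _ = ((B.filter (fun v ↦ g v = q)).card : ℝ) * (((q : ℕ) : ℝ) ^ 2)⁻¹ := by
              rw [Finset.sum_const, nsmul_eq_mul]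
          _ ≤ (Module.finrank ℤ (𝓞 K) : ℝ) * (((q : ℕ) : ℝ) ^ 2)⁻¹ := by
              refine mul_le_mul_of_nonneg_right (by exact_mod_cast hcard) (by positivity)
    _ = (Module.finrank ℤ (𝓞 K) : ℝ) * ∑ q ∈ B.image g, (((q : ℕ) : ℝ) ^ 2)⁻¹ := by
        rw [Finset.mul_sum]
    _ ≤ Module.finrank ℤ (𝓞 K) * ∑' m : ℕ, ((m : ℝ) ^ 2)⁻¹ := by
        refine mul_le_mul_of_nonneg_left ?_ (Nat.cast_nonneg _)
        exact hsum2.sum_le_tsum _ (fun m _ ↦ by positivity)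

end Fermat.Agent.Lib.ZetaPrimes
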