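/-
Package NR: holomorphic `n`-th roots on the upper half plane.

Main results (namespace `Fermat.Agent.Lib.NthRoot`):
* `exists_root_of_unity_of_pow_eq`: two analytic `n`-th roots of the same function on a
  preconnected set differ by an `n`-th root of unity.
* `eqOn_of_pow_eq_of_eq`: normalised roots are unique.
* `exists_eq_mul_exp_on_ball`: a zero-free analytic function on a disc is `C * exp φ`.
* `exists_root_on_ball`: roots on a disc whose closure lies in the domain of analyticity.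
* `exists_root_of_exhaustion`: gluing along an increasing exhaustion.
* `exists_nthRoot_upperHalfPlane`: the main statement for `{z | 0 < z.im}`.
* `exists_nthRoot_of_mdifferentiable`: the same for functions on `ℍ`.
* `exists_root_of_unity_of_pow_eq_uhp`: uniqueness up to roots of unity on `ℍ`.
* `exists_character_of_root`: a root of a `Γ`-invariant function of weight `k * n` transforms
  in weight `k` by a character `χ : Γ →* ℂˣ` with `χ ^ n = 1`.
* `isBoundedAtImInfty_of_pow`: a root of a function bounded at `i∞` is bounded at `i∞`.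
-/
import Mathlib

open Complex Set Filter Topology Metric

namespace Fermat.Agent.Lib.NthRoot

/-- A finite product of analytic functions on a preconnected set that vanishes identically has
an identically vanishing factor. -/
theorem exists_eq_zero_of_prod_eq_zero {ι : Type*} (s : Finset ι) (hs : s.Nonempty)
    {U : Set ℂ} (hU : IsPreconnected U) (g : ι → ℂ → ℂ)
    (hg : ∀ i ∈ s, AnalyticOnNhd ℂ (g i) U)
    (hprod : ∀ z ∈ U, ∏ i ∈ s, g i z = 0) :
    ∃ i ∈ s, ∀ z ∈ U, g i z = 0 := by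
  classical
  induction s using Finset.induction_on with
  | empty => exact absurd hs (by simp)
  | insert a t hat ih =>
    have h1 : ∀ z ∈ U, g a z * ∏ i ∈ t, g i z = 0 := by
      intro z hz
      have := hprod z hz
      rwa [Finset.prod_insert hat] at this
    have han : AnalyticOnNhd ℂ (g a) U := hg a (Finset.mem_insert_self a t)
    have hpn : AnalyticOnNhd ℂ (fun z => ∏ i ∈ t, g i z) U :=
      Finset.analyticOnNhd_fun_prod t fun i hi => hg i (Finset.mem_insert_of_mem hi)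
    rcases AnalyticOnNhd.eq_zero_or_eq_zero_of_mul_eq_zero han hpn h1 hU with h | h
    · exact ⟨a, Finset.mem_insert_self a t, h⟩
    · by_cases ht : t.Nonempty
      · obtain ⟨i, hi, hi0⟩ := ih ht (fun i hi => hg i (Finset.mem_insert_of_mem hi)) h
        exact ⟨i, Finset.mem_insert_of_mem hi, hi0⟩
      · rw [Finset.not_nonempty_iff_eq_empty] at ht
        subst ht
        by_cases hUe : U = ∅
        · exact ⟨a, Finset.mem_insert_self a _, by simp [hUe]⟩
        · obtain ⟨z, hz⟩ := nonempty_iff_ne_empty.mpr hUe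
          have := h z hz
          simp at this

/-- Two analytic `n`-th roots of the same function on a preconnected set differ by an `n`-th root
of unity. -/
theorem exists_root_of_unity_of_pow_eq {n : ℕ} (hn : n ≠ 0) {U : Set ℂ} (hU : IsPreconnected U)
    {G₁ G₂ : ℂ → ℂ} (h₁ : AnalyticOnNhd ℂ G₁ U) (h₂ : AnalyticOnNhd ℂ G₂ U)
    (hpow : ∀ z ∈ U, G₂ z ^ n = G₁ z ^ n) :
    ∃ ζ : ℂ, ζ ^ n = 1 ∧ ∀ z ∈ U, G₂ z = ζ * G₁ z := by
  have hprim : IsPrimitiveRoot (Complex.exp (2 * Real.pi * Complex.I / n)) n :=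
    Complex.isPrimitiveRoot_exp n hn
  have hfact : ∀ x y : ℂ, x ^ n - y ^ n = ∏ ζ ∈ Polynomial.nthRootsFinset n (1 : ℂ), (x - ζ * y) :=
    fun x y => hprim.pow_sub_pow_eq_prod_sub_mul x y (Nat.pos_of_ne_zero hn)
  have hne : (Polynomial.nthRootsFinset n (1 : ℂ)).Nonempty :=
    ⟨1, by simp [Polynomial.mem_nthRootsFinset (Nat.pos_of_ne_zero hn)]⟩
  obtain ⟨ζ, hζ, h⟩ := exists_eq_zero_of_prod_eq_zero (Polynomial.nthRootsFinset n (1 : ℂ)) hne hU
    (fun ζ z => G₂ z - ζ * G₁ z)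
    (fun ζ _ => h₂.sub (analyticOnNhd_const.mul h₁))
    (fun z hz => by rw [← hfact, hpow z hz, sub_self])
  refine ⟨ζ, ?_, fun z hz => sub_eq_zero.mp (h z hz)⟩
  exact (Polynomial.mem_nthRootsFinset (Nat.pos_of_ne_zero hn) 1).mp hζ

/-- Two analytic `n`-th roots of the same function on a preconnected set that agree and do not
vanish at one point agree everywhere. -/
theorem eqOn_of_pow_eq_of_eq {n : ℕ} (hn : n ≠ 0) {U : Set ℂ} (hU : IsPreconnected U)
    {G₁ G₂ : ℂ → ℂ} (h₁ : AnalyticOnNhd ℂ G₁ U) (h₂ : AnalyticOnNhd ℂ G₂ U)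
    (hpow : ∀ z ∈ U, G₂ z ^ n = G₁ z ^ n) {z₀ : ℂ} (hz₀ : z₀ ∈ U) (h0 : G₁ z₀ ≠ 0)
    (heq : G₂ z₀ = G₁ z₀) : ∀ z ∈ U, G₂ z = G₁ z := by
  obtain ⟨ζ, -, h⟩ := exists_root_of_unity_of_pow_eq hn hU h₁ h₂ hpow
  have hζ : ζ = 1 := by
    have := h z₀ hz₀
    rw [heq] at this
    have h2 : (ζ - 1) * G₁ z₀ = 0 := by linear_combination -this
    rcases mul_eq_zero.mp h2 with h3 | h3
    · exact sub_eq_zero.mp h3
    · exact absurd h3 h0
  intro z hz
  rw [h z hz, hζ, one_mul]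

/-- A root can be normalised at a point where the function does not vanish. -/
theorem exists_normalised_root {n : ℕ} (hn : n ≠ 0) {U : Set ℂ} {f : ℂ → ℂ}
    {z₀ w₀ : ℂ} (hz₀ : z₀ ∈ U) (hfz₀ : f z₀ ≠ 0) (hw₀ : w₀ ^ n = f z₀)
    (h : ∃ F : ℂ → ℂ, AnalyticOnNhd ℂ F U ∧ ∀ z ∈ U, F z ^ n = f z) :
    ∃ F : ℂ → ℂ, AnalyticOnNhd ℂ F U ∧ (∀ z ∈ U, F z ^ n = f z) ∧ F z₀ = w₀ := by
  obtain ⟨F, hF, hFp⟩ := h
  have hF0 : F z₀ ≠ 0 := by
    intro h0
    have := hFp z₀ hz₀
    rw [h0, zero_pow hn] at this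
    exact hfz₀ this.symm
  refine ⟨fun z => (w₀ / F z₀) * F z, analyticOnNhd_const.mul hF, fun z hz => ?_, ?_⟩
  · rw [mul_pow, div_pow, hFp z hz, hw₀, hFp z₀ hz₀, div_self hfz₀, one_mul]
  · field_simp

/-- Gluing of `n`-th roots along an increasing exhaustion by preconnected open sets. -/
theorem exists_root_of_exhaustion {n : ℕ} (hn : n ≠ 0) {f : ℂ → ℂ} (B : ℕ → Set ℂ)
    (hBo : ∀ k, IsOpen (B k)) (hBc : ∀ k, IsPreconnected (B k)) (hBm : Monotone B)
    {z₀ : ℂ} (hz₀ : z₀ ∈ B 0) (hfz₀ : f z₀ ≠ 0)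
    (hroot : ∀ k, ∃ F : ℂ → ℂ, AnalyticOnNhd ℂ F (B k) ∧ ∀ z ∈ B k, F z ^ n = f z) :
    ∃ F : ℂ → ℂ, AnalyticOnNhd ℂ F (⋃ k, B k) ∧ ∀ z ∈ ⋃ k, B k, F z ^ n = f z := by
  classical
  obtain ⟨w₀, hw₀⟩ : ∃ w₀ : ℂ, w₀ ^ n = f z₀ := IsAlgClosed.exists_pow_nat_eq (f z₀) (Nat.pos_of_ne_zero hn)
  have hw₀0 : w₀ ≠ 0 := by
    rintro rfl
    rw [zero_pow hn] at hw₀
    exact hfz₀ hw₀.symm
  have hz₀k : ∀ k, z₀ ∈ B k := fun k => hBm (Nat.zero_le k) hz₀
  choose H hHan hHpow hHz₀ using fun k =>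
    exists_normalised_root hn (hz₀k k) hfz₀ hw₀ (hroot k)
  -- compatibility
  have hcompat : ∀ j k, j ≤ k → ∀ z ∈ B j, H k z = H j z := by
    intro j k hjk
    refine eqOn_of_pow_eq_of_eq hn (hBc j) (hHan j) ((hHan k).mono (hBm hjk)) ?_ (hz₀k j) ?_ ?_
    · intro z hz
      rw [hHpow j z hz, hHpow k z (hBm hjk hz)]
    · rw [hHz₀ j]; exact hw₀0
    · rw [hHz₀ j, hHz₀ k]
  let F : ℂ → ℂ := fun z => if h : ∃ k, z ∈ B k then H (Nat.find h) z else 0
  have hFeq : ∀ k, ∀ z ∈ B k, F z = H k z := by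
    intro k z hz
    have h : ∃ k, z ∈ B k := ⟨k, hz⟩
    have hle : Nat.find h ≤ k := Nat.find_min' h hz
    have hmem : z ∈ B (Nat.find h) := Nat.find_spec h
    simp only [F, dif_pos h]
    exact (hcompat _ _ hle z hmem).symm
  refine ⟨F, ?_, ?_⟩
  · intro z hz
    obtain ⟨k, hk⟩ := mem_iUnion.mp hz
    have hev : F =ᶠ[𝓝 z] H k := by
      filter_upwards [(hBo k).mem_nhds hk] with w hw using hFeq k w hw
    exact (hHan k z hk).congr hev.symm
  · intro z hz
    obtain ⟨k, hk⟩ := mem_iUnion.mp hz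
    rw [hFeq k z hk, hHpow k z hk]

/-- A non-vanishing analytic function on a disc is a constant times an exponential. -/
theorem exists_eq_mul_exp_on_ball {g : ℂ → ℂ} {c : ℂ} {r : ℝ}
    (hg : AnalyticOnNhd ℂ g (ball c r)) (hg0 : ∀ z ∈ ball c r, g z ≠ 0) :
    ∃ (C : ℂ) (φ : ℂ → ℂ), C ≠ 0 ∧ AnalyticOnNhd ℂ φ (ball c r) ∧
      ∀ z ∈ ball c r, g z = C * Complex.exp (φ z) := by
  by_cases hr : 0 < r
  swap
  · refine ⟨1, 0, one_ne_zero, analyticOnNhd_const, fun z hz => ?_⟩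
    rw [ball_eq_empty.mpr (not_lt.mp hr)] at hz
    exact absurd hz (by simp)
  have hc : c ∈ ball c r := mem_ball_self hr
  have hgd : DifferentiableOn ℂ g (ball c r) := hg.differentiableOn
  have hg'd : DifferentiableOn ℂ (deriv g) (ball c r) := hg.deriv.differentiableOn
  have hq : DifferentiableOn ℂ (fun z => deriv g z / g z) (ball c r) :=
    hg'd.div hgd hg0
  obtain ⟨φ, hφ⟩ := hq.isExactOn_ball
  have hφd : DifferentiableOn ℂ φ (ball c r) :=
    fun z hz => (hφ z hz).differentiableAt.differentiableWithinAt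
  have hφan : AnalyticOnNhd ℂ φ (ball c r) := hφd.analyticOnNhd isOpen_ball
  have hderiv : ∀ z ∈ ball c r, HasDerivAt (fun z => g z * Complex.exp (-φ z)) 0 z := by
    intro z hz
    have h1 : HasDerivAt g (deriv g z) z := (hg z hz).differentiableAt.hasDerivAt
    have h2 : HasDerivAt (fun z => Complex.exp (-φ z))
        (Complex.exp (-φ z) * (-(deriv g z / g z))) z := (hφ z hz).neg.cexp
    have h3 : HasDerivAt (fun z => g z * Complex.exp (-φ z))
        (deriv g z * Complex.exp (-φ z) + g z * (Complex.exp (-φ z) * (-(deriv g z / g z)))) z :=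
      h1.mul h2
    have h4 : deriv g z * Complex.exp (-φ z) +
        g z * (Complex.exp (-φ z) * (-(deriv g z / g z))) = 0 := by
      have := hg0 z hz
      field_simp
      ring
    rwa [h4] at h3
  have hconst : ∀ z ∈ ball c r, g z * Complex.exp (-φ z) = g c * Complex.exp (-φ c) := by
    intro z hz
    refine isOpen_ball.is_const_of_deriv_eq_zero (convex_ball c r).isPreconnected
      (f := fun z => g z * Complex.exp (-φ z)) ?_ ?_ hz hc
    · exact fun w hw => (hderiv w hw).differentiableAt.differentiableWithinAt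
    · intro w hw
      exact (hderiv w hw).deriv
  refine ⟨g c * Complex.exp (-φ c), φ, mul_ne_zero (hg0 c hc) (Complex.exp_ne_zero _), hφan,
    fun z hz => ?_⟩
  rw [← hconst z hz, mul_assoc, ← Complex.exp_add, neg_add_cancel, Complex.exp_zero, mul_one]

/-- A non-vanishing analytic function on a disc has analytic `n`-th roots. -/
theorem exists_root_on_ball_of_ne_zero {n : ℕ} (hn : n ≠ 0) {g : ℂ → ℂ} {c : ℂ} {r : ℝ}
    (hg : AnalyticOnNhd ℂ g (ball c r)) (hg0 : ∀ z ∈ ball c r, g z ≠ 0) :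
    ∃ G : ℂ → ℂ, AnalyticOnNhd ℂ G (ball c r) ∧ ∀ z ∈ ball c r, G z ^ n = g z := by
  obtain ⟨C, φ, hC, hφ, h⟩ := exists_eq_mul_exp_on_ball hg hg0
  obtain ⟨C₀, hC₀⟩ : ∃ C₀ : ℂ, C₀ ^ n = C :=
    IsAlgClosed.exists_pow_nat_eq C (Nat.pos_of_ne_zero hn)
  refine ⟨fun z => C₀ * Complex.exp (φ z / n), ?_, fun z hz => ?_⟩
  · exact analyticOnNhd_const.mul ((hφ.div analyticOnNhd_const
      (fun _ _ => Nat.cast_ne_zero.mpr hn)).cexp)
  · have hnC : (n : ℂ) ≠ 0 := Nat.cast_ne_zero.mpr hn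
    rw [mul_pow, hC₀, ← Complex.exp_nat_mul, mul_div_cancel₀ _ hnC, h z hz]

/-- The divisor of an analytic function in terms of the analytic order. -/
theorem divisor_eq_analyticOrderNatAt {f : ℂ → ℂ} {K : Set ℂ} (hf : AnalyticOnNhd ℂ f K)
    {u : ℂ} (hu : u ∈ K) (hne : analyticOrderAt f u ≠ ⊤) :
    MeromorphicOn.divisor f K u = (analyticOrderNatAt f u : ℤ) := by
  rw [MeromorphicOn.divisor_apply hf.meromorphicOn hu, (hf u hu).meromorphicOrderAt_eq,
    ← Nat.cast_analyticOrderNatAt hne]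
  simp

/-- The `n`-th power of a factorized rational function. -/
theorem finprod_zpow_pow {e : ℂ → ℤ} (he : e.support.Finite) (n : ℕ) (z : ℂ) :
    (∏ᶠ u, (z - u) ^ e u) ^ n = ∏ᶠ u, (z - u) ^ (e u * n) := by
  have hsupp : (fun u => (z - u) ^ e u).mulSupport ⊆ e.support := by
    intro u hu
    simp only [Function.mem_mulSupport, ne_eq] at hu
    simp only [Function.mem_support, ne_eq]
    intro h0
    apply hu
    rw [h0, zpow_zero]
  rw [finprod_pow (he.subset hsupp)]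
  refine finprod_congr fun u => ?_
  rw [zpow_mul, zpow_natCast]

/-- **Roots on a disc.** If `f` is analytic near a closed disc, not locally zero, and all its
orders of vanishing on the closed disc are divisible by `n`, then `f` has an analytic `n`-th root
on the open disc. -/
theorem exists_root_on_ball {f : ℂ → ℂ} {n : ℕ} (hn : n ≠ 0) {c : ℂ} {r : ℝ}
    (hf : AnalyticOnNhd ℂ f (closedBall c r))
    (hne : ∀ u ∈ closedBall c r, analyticOrderAt f u ≠ ⊤)
    (hdiv : ∀ u ∈ closedBall c r, n ∣ analyticOrderNatAt f u) :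
    ∃ F : ℂ → ℂ, AnalyticOnNhd ℂ F (ball c r) ∧ ∀ z ∈ ball c r, F z ^ n = f z := by
  classical
  by_cases hr : 0 < r
  swap
  · refine ⟨0, analyticOnNhd_const, fun z hz => ?_⟩
    rw [ball_eq_empty.mpr (not_lt.mp hr)] at hz
    exact absurd hz (by simp)
  have hmero : MeromorphicOn f (closedBall c r) := hf.meromorphicOn
  have hord : ∀ u : closedBall c r, meromorphicOrderAt f u ≠ ⊤ := by
    rintro ⟨u, hu⟩
    rw [(hf u hu).meromorphicOrderAt_eq, ← Nat.cast_analyticOrderNatAt (hne u hu)]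
    simp
  have hfin : (MeromorphicOn.divisor f (closedBall c r)).support.Finite :=
    (MeromorphicOn.divisor f (closedBall c r)).finiteSupport (isCompact_closedBall c r)
  obtain ⟨g, hg, hg0, hfg⟩ := hmero.extract_zeros_poles hord hfin
  -- exponents
  have hd : ∀ u, ∃ m : ℕ, MeromorphicOn.divisor f (closedBall c r) u = ((m * n : ℕ) : ℤ) := by
    intro u
    by_cases hu : u ∈ closedBall c r
    · obtain ⟨m, hm⟩ := hdiv u hu
      refine ⟨m, ?_⟩
      rw [divisor_eq_analyticOrderNatAt hf hu (hne u hu), hm, mul_comm]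
    · exact ⟨0, by simp [hu]⟩
  choose m hm using hd
  let e : ℂ → ℤ := fun u => (m u : ℤ)
  have hde : ∀ u, MeromorphicOn.divisor f (closedBall c r) u = e u * n := by
    intro u
    rw [hm u]
    push_cast
    rfl
  have hesupp : e.support ⊆ (MeromorphicOn.divisor f (closedBall c r)).support := by
    intro u hu
    simp only [Function.mem_support, ne_eq] at hu ⊢
    rw [hde u]
    exact mul_ne_zero hu (by exact_mod_cast hn)
  have hefin : e.support.Finite := hfin.subset hesupp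
  -- the root of the unit part
  obtain ⟨G, hG, hGp⟩ := exists_root_on_ball_of_ne_zero hn
    (hg.mono ball_subset_closedBall) (fun z hz => hg0 ⟨z, ball_subset_closedBall hz⟩)
  have hPan : ∀ z, AnalyticAt ℂ (fun z => ∏ᶠ u, (z - u) ^ e u) z := by
    intro z
    have := Function.FactorizedRational.analyticAt (d := e) (x := z) (by simp [e])
    rwa [Function.FactorizedRational.finprod_eq_fun hefin] at this
  refine ⟨fun z => (∏ᶠ u, (z - u) ^ e u) * G z, fun z hz => (hPan z).mul (hG z hz), ?_⟩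
  have hFan : AnalyticOnNhd ℂ (fun z => ((∏ᶠ u, (z - u) ^ e u) * G z) ^ n) (ball c r) :=
    fun z hz => ((hPan z).mul (hG z hz)).pow n
  -- the identity on a punctured neighbourhood of the centre
  have hc : c ∈ ball c r := mem_ball_self hr
  have hfreq : ∃ᶠ z in 𝓝[≠] c, ((∏ᶠ u, (z - u) ^ e u) * G z) ^ n = f z := by
    apply Eventually.frequently
    have h1 : ∀ᶠ z in 𝓝[≠] c, z ∈ ball c r :=
      nhdsWithin_le_nhds (isOpen_ball.mem_nhds hc)
    have h2 : ∀ᶠ z in 𝓝[≠] c, z ∈ {x | f x = ((∏ᶠ u, (· - u) ^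
        MeromorphicOn.divisor f (closedBall c r) u) • g) x} ∪ (closedBall c r)ᶜ :=
      (mem_codiscreteWithin_iff_forall_mem_nhdsNE.mp hfg) c (ball_subset_closedBall hc)
    filter_upwards [h1, h2] with z hz1 hz2
    rcases hz2 with hz2 | hz2
    · have hz2' : f z = ((∏ᶠ u, (· - u) ^ MeromorphicOn.divisor f (closedBall c r) u) • g) z :=
        hz2
      rw [hz2', mul_pow, hGp z hz1, finprod_zpow_pow hefin,
        Function.FactorizedRational.finprod_eq_fun hfin]
      simp only [Pi.smul_apply', smul_eq_mul]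
      congr 1
      exact finprod_congr fun u => by rw [hde u]
    · exact absurd (ball_subset_closedBall hz1) hz2
  exact hFan.eqOn_of_preconnected_of_frequently_eq (hf.mono ball_subset_closedBall)
    (convex_ball c r).isPreconnected hc hfreq

/-- Centre of the `k`-th exhausting disc of the upper half plane. -/
noncomputable def exCentre (k : ℕ) : ℂ := (((k : ℝ) + 1 : ℝ) : ℂ) * Complex.I

/-- Radius of the `k`-th exhausting disc of the upper half plane. -/
noncomputable def exRadius (k : ℕ) : ℝ := ((k : ℝ) + 1) - 1 / ((k : ℝ) + 1)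

theorem exCentre_im (k : ℕ) : (exCentre k).im = (k : ℝ) + 1 := by
  simp [exCentre]

theorem exCentre_re (k : ℕ) : (exCentre k).re = 0 := by
  simp [exCentre]

theorem closedBall_ex_subset (k : ℕ) :
    closedBall (exCentre k) (exRadius k) ⊆ {z : ℂ | 0 < z.im} := by
  intro z hz
  rw [mem_closedBall, Complex.dist_eq] at hz
  have h1 : |(z - exCentre k).im| ≤ ‖z - exCentre k‖ := Complex.abs_im_le_norm _
  rw [Complex.sub_im, exCentre_im] at h1
  have h2 := (abs_le.mp (h1.trans hz)).1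
  have hk : (0 : ℝ) < (k : ℝ) + 1 := by positivity
  have h3 : 0 < 1 / ((k : ℝ) + 1) := by positivity
  show 0 < z.im
  unfold exRadius at h2
  linarith

theorem ball_ex_mono : Monotone fun k => ball (exCentre k) (exRadius k) := by
  intro j k hjk
  apply ball_subset_ball'
  have hjk' : (j : ℝ) ≤ k := by exact_mod_cast hjk
  have hj : (0 : ℝ) < (j : ℝ) + 1 := by positivity
  have hdist : dist (exCentre j) (exCentre k) = (k : ℝ) - j := by
    rw [Complex.dist_eq, exCentre, exCentre, ← sub_mul, norm_mul, Complex.norm_I, mul_one,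
      ← Complex.ofReal_sub, Complex.norm_real, Real.norm_eq_abs]
    rw [abs_of_nonpos (by linarith)]
    ring
  rw [hdist]
  unfold exRadius
  have h1 : 1 / ((k : ℝ) + 1) ≤ 1 / ((j : ℝ) + 1) :=
    one_div_le_one_div_of_le hj (by linarith)
  linarith

theorem exists_mem_ball_ex {z : ℂ} (hz : 0 < z.im) :
    ∃ k : ℕ, z ∈ ball (exCentre k) (exRadius k) := by
  obtain ⟨k, hk⟩ := exists_nat_ge ((z.re ^ 2 + z.im ^ 2 + 2) / (2 * z.im) + 1)
  refine ⟨k, ?_⟩
  have hR : (1 : ℝ) ≤ (k : ℝ) + 1 := by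
    have : (0 : ℝ) ≤ k := Nat.cast_nonneg k
    linarith
  have hR0 : (0 : ℝ) < (k : ℝ) + 1 := by linarith
  have hk1 : (1 : ℝ) < k := by
    have : 0 < (z.re ^ 2 + z.im ^ 2 + 2) / (2 * z.im) := by positivity
    linarith
  have hrad : 0 < exRadius k := by
    unfold exRadius
    have : 1 / ((k : ℝ) + 1) ≤ 1 := by
      rw [div_le_one hR0]; exact hR
    linarith
  have hkey : z.re ^ 2 + z.im ^ 2 + 2 ≤ 2 * z.im * ((k : ℝ) + 1) := by
    have h1 : (z.re ^ 2 + z.im ^ 2 + 2) / (2 * z.im) ≤ (k : ℝ) + 1 := by linarith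
    rw [div_le_iff₀ (by positivity)] at h1
    linarith
  rw [mem_ball, Complex.dist_eq]
  apply lt_of_pow_lt_pow_left₀ 2 hrad.le
  rw [Complex.sq_norm, Complex.normSq_apply, Complex.sub_re, Complex.sub_im, exCentre_re,
    exCentre_im]
  unfold exRadius
  have hinv : ((k : ℝ) + 1) * (1 / ((k : ℝ) + 1)) = 1 := by field_simp
  have hpos : 0 < (1 / ((k : ℝ) + 1)) ^ 2 := by positivity
  nlinarith

theorem iUnion_ball_ex_shift (k₀ : ℕ) :
    ⋃ k, ball (exCentre (k + k₀)) (exRadius (k + k₀)) = {z : ℂ | 0 < z.im} := by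
  ext z
  constructor
  · intro hz
    obtain ⟨k, hk⟩ := mem_iUnion.mp hz
    exact closedBall_ex_subset _ (ball_subset_closedBall hk)
  · intro hz
    obtain ⟨k, hk⟩ := exists_mem_ball_ex hz
    exact mem_iUnion.mpr ⟨k, ball_ex_mono (Nat.le_add_right k k₀) hk⟩

/-- **Holomorphic `n`-th roots on the upper half plane.** If `f` is analytic on the upper half
plane, not identically zero, and all its orders of vanishing are divisible by `n`, then `f` has
an analytic `n`-th root on the upper half plane. -/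
theorem exists_nthRoot_upperHalfPlane {f : ℂ → ℂ} {n : ℕ} (hn : n ≠ 0)
    (hf : AnalyticOnNhd ℂ f {z : ℂ | 0 < z.im})
    (hne : ∃ z : ℂ, 0 < z.im ∧ f z ≠ 0)
    (hdiv : ∀ z : ℂ, 0 < z.im → n ∣ analyticOrderNatAt f z) :
    ∃ F : ℂ → ℂ, AnalyticOnNhd ℂ F {z : ℂ | 0 < z.im} ∧ ∀ z : ℂ, 0 < z.im → F z ^ n = f z := by
  obtain ⟨z₀, hz₀, hfz₀⟩ := hne
  obtain ⟨k₀, hk₀⟩ := exists_mem_ball_ex hz₀
  have hpre : IsPreconnected {z : ℂ | 0 < z.im} := (convex_halfSpace_im_gt 0).isPreconnected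
  have hord₀ : analyticOrderAt f z₀ ≠ ⊤ := by
    rw [(hf z₀ hz₀).analyticOrderAt_eq_zero.mpr hfz₀]
    exact ENat.zero_ne_top
  have hord : ∀ z : ℂ, 0 < z.im → analyticOrderAt f z ≠ ⊤ := fun z hz =>
    hf.analyticOrderAt_ne_top_of_isPreconnected hpre hz₀ hz hord₀
  have := exists_root_of_exhaustion hn (f := f)
    (fun k => ball (exCentre (k + k₀)) (exRadius (k + k₀)))
    (fun k => isOpen_ball) (fun k => (convex_ball _ _).isPreconnected)
    (fun j k hjk => ball_ex_mono (Nat.add_le_add_right hjk k₀))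
    (z₀ := z₀) (by simpa using hk₀) hfz₀
    (fun k => exists_root_on_ball hn (hf.mono (closedBall_ex_subset _))
      (fun u hu => hord u (closedBall_ex_subset _ hu))
      (fun u hu => hdiv u (closedBall_ex_subset _ hu)))
  rw [iUnion_ball_ex_shift k₀] at this
  exact this

/-! ## Functions on `ℍ`, characters of roots -/

section UHP

open UpperHalfPlane
open scoped MatrixGroups ModularForm Manifold

/-- Holomorphic functions on `ℍ` are analytic on the upper half plane set after composing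
with `ofComplex`. -/
theorem analyticOnNhd_comp_ofComplex {f : ℍ → ℂ} (hf : MDifferentiable 𝓘(ℂ) 𝓘(ℂ) f) :
    AnalyticOnNhd ℂ (f ∘ UpperHalfPlane.ofComplex) {z : ℂ | 0 < z.im} :=
  (UpperHalfPlane.mdifferentiable_iff.mp hf).analyticOnNhd isOpen_upperHalfPlaneSet

/-- A function on `ℍ` that is the restriction of a function analytic on the upper half plane
set is holomorphic. -/
theorem mdifferentiable_comp_coe {G : ℂ → ℂ} (hG : AnalyticOnNhd ℂ G {z : ℂ | 0 < z.im}) :
    MDifferentiable 𝓘(ℂ) 𝓘(ℂ) (fun τ : ℍ => G (τ : ℂ)) := by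
  rw [UpperHalfPlane.mdifferentiable_iff]
  refine hG.differentiableOn.congr fun z hz => ?_
  simp only [Function.comp_apply]
  rw [UpperHalfPlane.ofComplex_apply_of_im_pos hz]

/-- **Holomorphic `n`-th roots on `ℍ`.** -/
theorem exists_nthRoot_of_mdifferentiable {f : ℍ → ℂ} {n : ℕ} (hn : n ≠ 0)
    (hf : MDifferentiable 𝓘(ℂ) 𝓘(ℂ) f) (hne : ∃ τ : ℍ, f τ ≠ 0)
    (hdiv : ∀ τ : ℍ, n ∣ analyticOrderNatAt (f ∘ UpperHalfPlane.ofComplex) (τ : ℂ)) :
    ∃ F : ℍ → ℂ, MDifferentiable 𝓘(ℂ) 𝓘(ℂ) F ∧ ∀ τ : ℍ, F τ ^ n = f τ := by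
  obtain ⟨τ₀, hτ₀⟩ := hne
  obtain ⟨G, hG, hGp⟩ := exists_nthRoot_upperHalfPlane hn (analyticOnNhd_comp_ofComplex hf)
    ⟨(τ₀ : ℂ), τ₀.im_pos, by simpa [UpperHalfPlane.ofComplex_apply] using hτ₀⟩
    (fun z hz => hdiv ⟨z, hz⟩)
  refine ⟨fun τ => G (τ : ℂ), mdifferentiable_comp_coe hG, fun τ => ?_⟩
  have := hGp (τ : ℂ) τ.im_pos
  simpa [UpperHalfPlane.ofComplex_apply] using this

/-- Two holomorphic `n`-th roots of the same function on `ℍ` differ by an `n`-th root of unity. -/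
theorem exists_root_of_unity_of_pow_eq_uhp {n : ℕ} (hn : n ≠ 0) {G₁ G₂ : ℍ → ℂ}
    (h₁ : MDifferentiable 𝓘(ℂ) 𝓘(ℂ) G₁) (h₂ : MDifferentiable 𝓘(ℂ) 𝓘(ℂ) G₂)
    (hpow : ∀ τ : ℍ, G₂ τ ^ n = G₁ τ ^ n) :
    ∃ ζ : ℂ, ζ ^ n = 1 ∧ ∀ τ : ℍ, G₂ τ = ζ * G₁ τ := by
  obtain ⟨ζ, hζ, h⟩ := exists_root_of_unity_of_pow_eq hn
    (convex_halfSpace_im_gt 0).isPreconnected
    (analyticOnNhd_comp_ofComplex h₁) (analyticOnNhd_comp_ofComplex h₂)
    (fun z hz => by simpa using hpow (UpperHalfPlane.ofComplex z))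
  refine ⟨ζ, hζ, fun τ => ?_⟩
  simpa [UpperHalfPlane.ofComplex_apply] using h (τ : ℂ) τ.im_pos

theorem pow_slash_SL' (f : ℍ → ℂ) (k : ℤ) (n : ℕ) (A : SL(2, ℤ)) :
    (f ^ n) ∣[k * n] A = (f ∣[k] A) ^ n := by
  funext z
  simp only [ModularForm.SL_slash_apply, Pi.pow_apply]
  rw [mul_pow, ← zpow_natCast (denom _ _ ^ (-k)) n, ← zpow_mul]
  congr 2
  ring

theorem const_mul_slash_SL (c : ℂ) (f : ℍ → ℂ) (k : ℤ) (A : SL(2, ℤ)) :
    (fun z => c * f z) ∣[k] A = fun z => c * (f ∣[k] A) z := by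
  funext z
  simp only [ModularForm.SL_slash_apply]
  ring

/-- **The character of a root.** If `F` is holomorphic on `ℍ`, not identically zero, and `F ^ n`
is invariant of weight `k * n` under the subgroup `Γ` of `SL(2, ℤ)`, then `F` transforms
under `Γ` in weight `k` by a character with values in the `n`-th roots of unity. -/
theorem exists_character_of_root (Γ : Subgroup SL(2, ℤ)) {k : ℤ} {n : ℕ} (hn : n ≠ 0)
    {F : ℍ → ℂ} (hF : MDifferentiable 𝓘(ℂ) 𝓘(ℂ) F) (hF0 : ∃ τ : ℍ, F τ ≠ 0)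
    (hinv : ∀ γ ∈ Γ, (F ^ n) ∣[k * n] γ = F ^ n) :
    ∃ χ : ↥Γ →* ℂˣ, (∀ γ, χ γ ^ n = 1) ∧
      ∀ γ : ↥Γ, F ∣[k] (γ : SL(2, ℤ)) = fun z => ((χ γ : ℂˣ) : ℂ) * F z := by
  obtain ⟨τ₀, hτ₀⟩ := hF0
  have hex : ∀ γ : ↥Γ, ∃ ζ : ℂ, ζ ^ n = 1 ∧ ∀ τ : ℍ, (F ∣[k] (γ : SL(2, ℤ))) τ = ζ * F τ := by
    intro γ
    refine exists_root_of_unity_of_pow_eq_uhp hn hF (hF.slash k _) fun τ => ?_
    have h := congrFun (hinv γ γ.2) τ
    rw [pow_slash_SL'] at h
    simpa using h
  choose ζ hζ hζF using hex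
  have hζ0 : ∀ γ, ζ γ ≠ 0 := fun γ h0 => by
    have := hζ γ
    rw [h0, zero_pow hn] at this
    exact zero_ne_one this
  have hone : ζ 1 = 1 := by
    have h := hζF 1 τ₀
    simp only [OneMemClass.coe_one, SlashAction.slash_one] at h
    have h2 : (ζ 1 - 1) * F τ₀ = 0 := by linear_combination -h
    rcases mul_eq_zero.mp h2 with h3 | h3
    · exact sub_eq_zero.mp h3
    · exact absurd h3 hτ₀
  have hmul : ∀ γ δ, ζ (γ * δ) = ζ γ * ζ δ := by
    intro γ δ
    have h := hζF (γ * δ) τ₀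
    have h1 : F ∣[k] (((γ * δ : ↥Γ)) : SL(2, ℤ)) = fun z => ζ γ * (ζ δ * F z) := by
      rw [Subgroup.coe_mul, SlashAction.slash_mul]
      have : F ∣[k] (γ : SL(2, ℤ)) = fun z => ζ γ * F z := funext (hζF γ)
      rw [this, const_mul_slash_SL]
      funext z
      rw [hζF δ z]
    rw [h1] at h
    have h2 : (ζ (γ * δ) - ζ γ * ζ δ) * F τ₀ = 0 := by linear_combination -h
    rcases mul_eq_zero.mp h2 with h3 | h3
    · exact sub_eq_zero.mp h3
    · exact absurd h3 hτ₀
  refine ⟨{ toFun := fun γ => Units.mk0 (ζ γ) (hζ0 γ)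
            map_one' := Units.ext (by simpa using hone)
            map_mul' := fun γ δ => Units.ext (by simpa using hmul γ δ) }, ?_, ?_⟩
  · intro γ
    apply Units.ext
    simpa using hζ γ
  · intro γ
    funext z
    simpa using hζF γ z

/-- A root of a function bounded at `i∞` is bounded at `i∞`. -/
theorem isBoundedAtImInfty_of_pow {G : ℍ → ℂ} {n : ℕ} (hn : n ≠ 0)
    (h : IsBoundedAtImInfty (G ^ n)) : IsBoundedAtImInfty G := by
  rw [UpperHalfPlane.isBoundedAtImInfty_iff] at h ⊢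
  obtain ⟨M, A, hMA⟩ := h
  refine ⟨max M 1, A, fun z hz => ?_⟩
  have h1 : ‖G z‖ ^ n ≤ M := by
    have := hMA z hz
    simpa [norm_pow] using this
  by_contra hcon
  rw [not_le] at hcon
  have h2 : 1 < ‖G z‖ := lt_of_le_of_lt (le_max_right M 1) hcon
  have h3 : ‖G z‖ ≤ ‖G z‖ ^ n := le_self_pow₀ h2.le hn
  have h4 : M < ‖G z‖ := lt_of_le_of_lt (le_max_left M 1) hcon
  linarith

end UHP

end Fermat.Agent.Lib.NthRoot
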