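import Mathlib
import Fermat.Prelude.Thm_ModularForm_sturm_bound_Gamma0

set_option autoImplicit false

open UpperHalfPlane ModularFormClass
open scoped MatrixGroups

namespace Fermat.Agent.Lib.CuspFormGamma0

/-- A cusp form on `Γ₀(N)` of weight `k` with `k * [SL₂(ℤ) : Γ₀(N)] < 12` vanishes
(consequence of the Sturm bound). -/
theorem cuspForm_eq_zero_of_index_lt (N : ℕ) [NeZero N] {k : ℤ}
    (hk : (k * (CongruenceSubgroup.Gamma0 N).index).toNat / 12 = 0)
    (f : CuspForm (CongruenceSubgroup.Gamma0 N) k) : f = 0 := by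
  have h1 : (1 : ℝ) ∈ (CongruenceSubgroup.Gamma0 N : Subgroup (GL (Fin 2) ℝ)).strictPeriods := by
    simp [CongruenceSubgroup.strictPeriods_Gamma0]
  have hg : (CuspForm.toModularFormₗ f) = 0 := by
    apply ModularForm.sturm_bound_Gamma0 N
    intro n hn
    rw [hk] at hn
    obtain rfl : n = 0 := by omega
    have := CuspFormClass.qExpansion_coeff_zero (f := f) (h := 1) one_pos h1
    exact this
  exact CuspForm.toModularFormₗ_injective (by simpa using hg)

end Fermat.Agent.Lib.CuspFormGamma0
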