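import Fermat.Agent.Lib.TwistedEisenstein
import Mathlib.NumberTheory.ModularForms.Basic
import Mathlib.NumberTheory.ModularForms.BoundedAtCusp

/-!
# Twisted Eisenstein series for a character of `Γ₀(N)` (helper96)

Let `χ : Γ₀(N) →* ℂˣ` be a unitary character which is trivial on the upper triangular elements
of `Γ₀(N)` (i.e. on `± T ^ m`).  For even `k ≥ 4` the series
`twEis N k χ z = (1/2) ∑ χ(γ)⁻¹ (c z + d) ^ (-k)` (sum over bottom rows `(c, d)` of `Γ₀(N)`)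
is holomorphic, satisfies `twEis ∣[k] γ = χ γ • twEis` for `γ ∈ Γ₀(N)`, tends to `1` at `i∞`
and is bounded at every cusp.
-/

set_option autoImplicit false

open UpperHalfPlane ModularForm EisensteinSeries Matrix Filter Topology Complex Set
open scoped MatrixGroups Manifold

noncomputable section

namespace Fermat.Agent.Lib.TwistedEisenstein

/-- The bottom row of an element of `SL(2, ℤ)`. -/
def bottomRow (A : SL(2, ℤ)) : Fin 2 → ℤ := (A : Matrix (Fin 2) (Fin 2) ℤ) 1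

theorem bottomRow_apply (A : SL(2, ℤ)) (j : Fin 2) :
    bottomRow A j = (A : Matrix (Fin 2) (Fin 2) ℤ) 1 j := rfl

theorem bottomRow_mul (A B : SL(2, ℤ)) :
    bottomRow (A * B) = bottomRow A ᵥ* (B : Matrix (Fin 2) (Fin 2) ℤ) := by
  funext j
  simp [bottomRow, Matrix.SpecialLinearGroup.coe_mul, Matrix.mul_apply, Matrix.vecMul,
    dotProduct, Fin.sum_univ_two]

theorem bottomRow_one : bottomRow (1 : SL(2, ℤ)) = ![0, 1] := by
  funext j
  fin_cases j <;> simp [bottomRow]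

theorem bottomRow_neg_one : bottomRow (-1 : SL(2, ℤ)) = ![0, -1] := by
  funext j
  fin_cases j <;> simp [bottomRow]

/-- If `A` and `B` have the same bottom row then `A * B⁻¹` is upper triangular. -/
theorem mul_inv_lower_left_eq_zero {A B : SL(2, ℤ)} (h : bottomRow A = bottomRow B) :
    ((A * B⁻¹ : SL(2, ℤ)) : Matrix (Fin 2) (Fin 2) ℤ) 1 0 = 0 := by
  have h0 : (A : Matrix (Fin 2) (Fin 2) ℤ) 1 0 = (B : Matrix (Fin 2) (Fin 2) ℤ) 1 0 :=
    congrFun h 0
  have h1 : (A : Matrix (Fin 2) (Fin 2) ℤ) 1 1 = (B : Matrix (Fin 2) (Fin 2) ℤ) 1 1 :=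
    congrFun h 1
  rw [Matrix.SpecialLinearGroup.coe_mul, Matrix.SpecialLinearGroup.coe_inv,
    Matrix.adjugate_fin_two, Matrix.mul_apply, Fin.sum_univ_two]
  simp only [Matrix.of_apply, Matrix.cons_val', Matrix.cons_val_zero, Matrix.cons_val_one,
    Matrix.cons_val_fin_one]
  rw [h0, h1]
  ring

variable (N : ℕ) (χ : ↥(CongruenceSubgroup.Gamma0 N) →* ℂˣ)

/-- The weight function of the twisted Eisenstein series: `χ(γ)⁻¹` on the bottom row of
`γ ∈ Γ₀(N)`, zero elsewhere. -/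
def chiWeight (v : Fin 2 → ℤ) : ℂ := by
  classical
  exact if h : ∃ γ : ↥(CongruenceSubgroup.Gamma0 N), bottomRow (γ : SL(2, ℤ)) = v
    then (((χ h.choose)⁻¹ : ℂˣ) : ℂ) else 0

/-- `χ` is trivial on the upper triangular elements of `Γ₀(N)`. -/
def TrivialAtInfty : Prop :=
  ∀ γ : ↥(CongruenceSubgroup.Gamma0 N), ((γ : SL(2, ℤ)) : Matrix (Fin 2) (Fin 2) ℤ) 1 0 = 0 →
    χ γ = 1

/-- `χ` is unitary. -/
def IsUnitary : Prop := ∀ γ : ↥(CongruenceSubgroup.Gamma0 N), ‖((χ γ : ℂˣ) : ℂ)‖ = 1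

variable {N χ}

theorem chi_eq_of_bottomRow_eq (htri : TrivialAtInfty N χ)
    {γ δ : ↥(CongruenceSubgroup.Gamma0 N)}
    (h : bottomRow (γ : SL(2, ℤ)) = bottomRow (δ : SL(2, ℤ))) : χ γ = χ δ := by
  have h1 : χ (γ * δ⁻¹) = 1 := htri _ (by
    have := mul_inv_lower_left_eq_zero h
    simpa using this)
  rw [map_mul, map_inv, mul_inv_eq_one] at h1
  exact h1

theorem chiWeight_bottomRow (htri : TrivialAtInfty N χ) (γ : ↥(CongruenceSubgroup.Gamma0 N)) :
    chiWeight N χ (bottomRow (γ : SL(2, ℤ))) = (((χ γ)⁻¹ : ℂˣ) : ℂ) := by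
  classical
  have h : ∃ δ : ↥(CongruenceSubgroup.Gamma0 N),
      bottomRow (δ : SL(2, ℤ)) = bottomRow (γ : SL(2, ℤ)) := ⟨γ, rfl⟩
  unfold chiWeight
  rw [dif_pos h, chi_eq_of_bottomRow_eq htri h.choose_spec]

theorem chiWeight_of_not (v : Fin 2 → ℤ)
    (h : ¬ ∃ γ : ↥(CongruenceSubgroup.Gamma0 N), bottomRow (γ : SL(2, ℤ)) = v) :
    chiWeight N χ v = 0 := by
  classical
  unfold chiWeight
  rw [dif_neg h]

theorem norm_chiWeight_le (hu : IsUnitary N χ) (v : Fin 2 → ℤ) : ‖chiWeight N χ v‖ ≤ 1 := by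
  classical
  unfold chiWeight
  split_ifs with h
  · rw [Units.val_inv_eq_inv_val, norm_inv, hu, inv_one]
  · simp

/-- **Transformation of the weight** under `γ ∈ Γ₀(N)`. -/
theorem wSlash_chiWeight (htri : TrivialAtInfty N χ) (γ : ↥(CongruenceSubgroup.Gamma0 N)) :
    wSlash (chiWeight N χ) (γ : SL(2, ℤ)) = fun v => ((χ γ : ℂˣ) : ℂ) * chiWeight N χ v := by
  funext v
  rw [wSlash_apply]
  by_cases h : ∃ δ : ↥(CongruenceSubgroup.Gamma0 N), bottomRow (δ : SL(2, ℤ)) = v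
  · obtain ⟨δ, rfl⟩ := h
    have h1 : bottomRow (δ : SL(2, ℤ)) ᵥ* (((γ : SL(2, ℤ))⁻¹ : SL(2, ℤ)) :
        Matrix (Fin 2) (Fin 2) ℤ) = bottomRow ((δ * γ⁻¹ : ↥(CongruenceSubgroup.Gamma0 N)) :
          SL(2, ℤ)) := by
      rw [Subgroup.coe_mul, Subgroup.coe_inv, bottomRow_mul]
    rw [h1, chiWeight_bottomRow htri, chiWeight_bottomRow htri, map_mul, map_inv]
    push_cast
    rw [mul_inv, inv_inv, mul_comm]
  · have h' : ¬ ∃ δ : ↥(CongruenceSubgroup.Gamma0 N), bottomRow (δ : SL(2, ℤ)) =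
        v ᵥ* (((γ : SL(2, ℤ))⁻¹ : SL(2, ℤ)) : Matrix (Fin 2) (Fin 2) ℤ) := by
      rintro ⟨δ, hδ⟩
      refine h ⟨δ * γ, ?_⟩
      rw [Subgroup.coe_mul, bottomRow_mul, hδ, vecMul_inv_vecMul]
    rw [chiWeight_of_not _ h, chiWeight_of_not _ h', mul_zero]

theorem tInvariant_chiWeight (htri : TrivialAtInfty N χ) : TInvariant (chiWeight N χ) := by
  intro v
  have hT : ModularGroup.T⁻¹ ∈ CongruenceSubgroup.Gamma0 N := by
    apply inv_mem
    rw [CongruenceSubgroup.Gamma0_mem]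
    simp [ModularGroup.T]
  have h1 := congrFun (wSlash_chiWeight htri ⟨ModularGroup.T⁻¹, hT⟩) v
  rw [wSlash_apply] at h1
  have h2 : χ ⟨ModularGroup.T⁻¹, hT⟩ = 1 := htri _ (by
    show ((ModularGroup.T⁻¹ : SL(2, ℤ)) : Matrix (Fin 2) (Fin 2) ℤ) 1 0 = 0
    rw [Matrix.SpecialLinearGroup.coe_inv, Matrix.adjugate_fin_two]
    simp [ModularGroup.T])
  rw [h2] at h1
  simp only [inv_inv, Units.val_one, one_mul] at h1
  exact h1

theorem wEis_const_mul (k : ℤ) (c : ℂ) (w : (Fin 2 → ℤ) → ℂ) (z : ℍ) :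
    wEis k (fun v => c * w v) z = c * wEis k w z := by
  simp only [wEis, mul_assoc]
  exact tsum_mul_left

variable (N χ)

/-- **The twisted Eisenstein series** of weight `k` for the character `χ` of `Γ₀(N)`. -/
def twEis (k : ℤ) : ℍ → ℂ := fun z => (1 / 2 : ℂ) * wEis k (chiWeight N χ) z

variable {N χ} {k : ℤ}

theorem twEis_apply (z : ℍ) : twEis N χ k z = (1 / 2 : ℂ) * wEis k (chiWeight N χ) z := rfl

/-- (TE1) The twisted Eisenstein series is holomorphic. -/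
theorem twEis_mdifferentiable (hk : 3 ≤ k) (hu : IsUnitary N χ) : MDiff (twEis N χ k) := by
  have h := wEis_mdifferentiable hk (norm_chiWeight_le hu)
  exact mdifferentiable_const.mul h

theorem twEis_slash_SL (A : SL(2, ℤ)) (z : ℍ) :
    (twEis N χ k ∣[k] A) z = (1 / 2 : ℂ) * wEis k (wSlash (chiWeight N χ) A) z := by
  have h := congrFun (wEis_slash k (chiWeight N χ) A) z
  rw [SL_slash_apply] at h ⊢
  rw [twEis_apply, mul_assoc, h]

/-- (TE2) The transformation law: `twEis ∣[k] γ = χ γ • twEis` for `γ ∈ Γ₀(N)`. -/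
theorem twEis_slash (htri : TrivialAtInfty N χ) (γ : ↥(CongruenceSubgroup.Gamma0 N)) :
    twEis N χ k ∣[k] (γ : SL(2, ℤ)) = fun z => ((χ γ : ℂˣ) : ℂ) * twEis N χ k z := by
  funext z
  rw [twEis_slash_SL, wSlash_chiWeight htri, wEis_const_mul, twEis_apply]
  ring

/-- (TE2') The transformation law in terms of values. -/
theorem twEis_smul (htri : TrivialAtInfty N χ) (γ : ↥(CongruenceSubgroup.Gamma0 N)) (z : ℍ) :
    twEis N χ k ((γ : SL(2, ℤ)) • z)
      = ((χ γ : ℂˣ) : ℂ) * denom (γ : SL(2, ℤ)) z ^ k * twEis N χ k z := by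
  have h := congrFun (twEis_slash (k := k) htri γ) z
  rw [SL_slash_apply] at h
  have hd : denom (γ : SL(2, ℤ)) z ^ k ≠ 0 := zpow_ne_zero _ (denom_ne_zero _ z)
  rw [zpow_neg, mul_inv_eq_iff_eq_mul₀ hd] at h
  rw [h]
  ring

/-- (TE4) The twisted Eisenstein series is bounded at every cusp. -/
theorem isBoundedAtImInfty_twEis_slash (hk : 3 ≤ k) (hu : IsUnitary N χ) (A : SL(2, ℤ)) :
    IsBoundedAtImInfty (twEis N χ k ∣[k] A) := by
  have h := isBoundedAtImInfty_wEis hk (norm_wSlash_le (norm_chiWeight_le hu) A)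
  rw [UpperHalfPlane.isBoundedAtImInfty_iff] at h ⊢
  obtain ⟨M, B, hM⟩ := h
  refine ⟨M, B, fun z hz => ?_⟩
  rw [twEis_slash_SL, norm_mul]
  have h2 : ‖(1 / 2 : ℂ)‖ ≤ 1 := by
    rw [norm_div, norm_one]
    simp
    norm_num
  calc ‖(1 / 2 : ℂ)‖ * ‖wEis k (wSlash (chiWeight N χ) A) z‖
      ≤ 1 * M := mul_le_mul h2 (hM z hz) (norm_nonneg _) zero_le_one
    _ = M := one_mul M

/-! ### The limit at `i∞` -/

theorem bottomRow_one_eq_of_zero {A : SL(2, ℤ)} (h : bottomRow A 0 = 0) :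
    bottomRow A 1 = 1 ∨ bottomRow A 1 = -1 := by
  have hdet := A.det_coe
  rw [Matrix.det_fin_two] at hdet
  have h0 : (A : Matrix (Fin 2) (Fin 2) ℤ) 1 0 = 0 := h
  rw [h0, mul_zero, sub_zero] at hdet
  have hu : IsUnit ((A : Matrix (Fin 2) (Fin 2) ℤ) 1 1) :=
    IsUnit.of_mul_eq_one _ (by rw [mul_comm]; exact hdet)
  exact Int.isUnit_iff.mp hu

theorem one_mem_Gamma0 : (1 : SL(2, ℤ)) ∈ CongruenceSubgroup.Gamma0 N := one_mem _

theorem neg_one_mem_Gamma0 : (-1 : SL(2, ℤ)) ∈ CongruenceSubgroup.Gamma0 N := by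
  rw [CongruenceSubgroup.Gamma0_mem]
  simp

theorem chiWeight_zero_one (htri : TrivialAtInfty N χ) : chiWeight N χ ![0, 1] = 1 := by
  have h := chiWeight_bottomRow htri (1 : ↥(CongruenceSubgroup.Gamma0 N))
  rw [map_one] at h
  simpa [bottomRow_one] using h

theorem chiWeight_zero_neg_one (htri : TrivialAtInfty N χ) : chiWeight N χ ![0, -1] = 1 := by
  have h := chiWeight_bottomRow htri (⟨-1, neg_one_mem_Gamma0⟩ : ↥(CongruenceSubgroup.Gamma0 N))
  have h2 : χ ⟨-1, neg_one_mem_Gamma0⟩ = 1 := htri _ (by simp)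
  rw [h2] at h
  simpa [bottomRow_neg_one] using h

theorem limitTerm_chiWeight_eq_zero (k : ℤ) (v : Fin 2 → ℤ)
    (hv : v ∉ ({![0, 1], ![0, -1]} : Finset (Fin 2 → ℤ))) :
    limitTerm k (chiWeight N χ) v = 0 := by
  unfold limitTerm
  split_ifs with h0
  · by_cases h : ∃ γ : ↥(CongruenceSubgroup.Gamma0 N), bottomRow (γ : SL(2, ℤ)) = v
    · exfalso
      obtain ⟨γ, rfl⟩ := h
      apply hv
      rcases bottomRow_one_eq_of_zero h0 with h1 | h1
      · have : bottomRow (γ : SL(2, ℤ)) = ![0, 1] := by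
          funext j
          fin_cases j
          · exact h0
          · exact h1
        simp [this]
      · have : bottomRow (γ : SL(2, ℤ)) = ![0, -1] := by
          funext j
          fin_cases j
          · exact h0
          · exact h1
        simp [this]
    · rw [chiWeight_of_not _ h, zero_mul]
  · rfl

theorem tsum_limitTerm_chiWeight (htri : TrivialAtInfty N χ) (hk2 : Even k) :
    ∑' v : Fin 2 → ℤ, limitTerm k (chiWeight N χ) v = 2 := by
  rw [tsum_eq_sum (s := ({![0, 1], ![0, -1]} : Finset (Fin 2 → ℤ)))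
    (fun v hv => limitTerm_chiWeight_eq_zero k v hv)]
  have hne : (![0, 1] : Fin 2 → ℤ) ≠ ![0, -1] := by
    intro h
    have := congrFun h 1
    simp at this
  rw [Finset.sum_pair hne]
  have h1 : limitTerm k (chiWeight N χ) ![0, 1] = 1 := by
    simp [limitTerm, chiWeight_zero_one htri]
  have h2 : limitTerm k (chiWeight N χ) ![0, -1] = 1 := by
    have : ((-1 : ℂ)) ^ (-k) = 1 := by
      rw [zpow_neg, hk2.neg_one_zpow, inv_one]
    simp [limitTerm, chiWeight_zero_neg_one htri, this]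
  rw [h1, h2]
  norm_num

/-- (TE3) The twisted Eisenstein series tends to `1` at `i∞`. -/
theorem tendsto_twEis (hk : 3 ≤ k) (hk2 : Even k) (hu : IsUnitary N χ)
    (htri : TrivialAtInfty N χ) : Tendsto (twEis N χ k) atImInfty (𝓝 1) := by
  have h := (tendsto_wEis hk (norm_chiWeight_le hu) (tInvariant_chiWeight htri)).const_mul
    (1 / 2 : ℂ)
  rw [tsum_limitTerm_chiWeight htri hk2] at h
  have h2 : (1 / 2 : ℂ) * 2 = 1 := by norm_num
  rw [h2] at h
  exact h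

/-- The twisted Eisenstein series is eventually non-zero at `i∞`. -/
theorem eventually_twEis_ne_zero (hk : 3 ≤ k) (hk2 : Even k) (hu : IsUnitary N χ)
    (htri : TrivialAtInfty N χ) : ∀ᶠ z in atImInfty, twEis N χ k z ≠ 0 :=
  (tendsto_twEis hk hk2 hu htri).eventually_ne one_ne_zero

/-- The twisted Eisenstein series does not vanish identically. -/
theorem exists_twEis_ne_zero (hk : 3 ≤ k) (hk2 : Even k) (hu : IsUnitary N χ)
    (htri : TrivialAtInfty N χ) : ∃ z : ℍ, twEis N χ k z ≠ 0 :=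
  (eventually_twEis_ne_zero hk hk2 hu htri).exists

/-! ### Behaviour at the other cusps -/

theorem smul_slash_SL (c : ℂ) (f : ℍ → ℂ) (k : ℤ) (A : SL(2, ℤ)) :
    (fun z => c * f z) ∣[k] A = fun z => c * (f ∣[k] A) z := by
  funext z
  simp only [SL_slash_apply]
  ring

/-- Slashing with `γ * σ`, `γ ∈ Γ₀(N)`. -/
theorem twEis_slash_mul (htri : TrivialAtInfty N χ) (γ : ↥(CongruenceSubgroup.Gamma0 N))
    (σ : SL(2, ℤ)) :
    twEis N χ k ∣[k] ((γ : SL(2, ℤ)) * σ)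
      = fun z => ((χ γ : ℂˣ) : ℂ) * (twEis N χ k ∣[k] σ) z := by
  rw [SlashAction.slash_mul, twEis_slash htri, smul_slash_SL]

theorem conj_T_pow_mem_Gamma0 (N : ℕ) (σ : SL(2, ℤ)) :
    σ * ModularGroup.T ^ N * σ⁻¹ ∈ CongruenceSubgroup.Gamma0 N := by
  have h1 : ModularGroup.T ^ N ∈ CongruenceSubgroup.Gamma N := by
    have := CongruenceSubgroup.ModularGroup_T_pow_mem_Gamma N N (dvd_refl _)
    exact_mod_cast this
  have h2 : σ * ModularGroup.T ^ N * σ⁻¹ ∈ CongruenceSubgroup.Gamma N :=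
    (CongruenceSubgroup.Gamma_normal N).conj_mem _ h1 σ
  rw [CongruenceSubgroup.Gamma_mem] at h2
  rw [CongruenceSubgroup.Gamma0_mem]
  exact h2.2.2.1

/-- (TE5) Quasi-periodicity at the cusp `σ ∞`: translation by `N` multiplies
`twEis ∣[k] σ` by the value of `χ` on the parabolic element `σ T ^ N σ⁻¹ ∈ Γ₀(N)`. -/
theorem twEis_slash_T_pow (htri : TrivialAtInfty N χ) (σ : SL(2, ℤ)) :
    twEis N χ k ∣[k] (σ * ModularGroup.T ^ N)
      = fun z => ((χ ⟨σ * ModularGroup.T ^ N * σ⁻¹, conj_T_pow_mem_Gamma0 N σ⟩ : ℂˣ) : ℂ)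
          * (twEis N χ k ∣[k] σ) z := by
  have h := twEis_slash_mul (k := k) htri ⟨σ * ModularGroup.T ^ N * σ⁻¹,
    conj_T_pow_mem_Gamma0 N σ⟩ σ
  simp only [inv_mul_cancel_right] at h
  exact h

/-! ### Powers: genuine modular forms on `Γ₀(N)` -/

theorem pow_slash_SL (f : ℍ → ℂ) (k : ℤ) (n : ℕ) (A : SL(2, ℤ)) :
    (f ^ n) ∣[k * n] A = (f ∣[k] A) ^ n := by
  funext z
  simp only [SL_slash_apply, Pi.pow_apply]
  rw [mul_pow, ← zpow_natCast (denom _ _ ^ (-k)) n, ← zpow_mul]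
  congr 2
  ring

theorem isUnitary_of_pow_eq_one {n : ℕ} (hn : n ≠ 0)
    (hχ : ∀ γ : ↥(CongruenceSubgroup.Gamma0 N), χ γ ^ n = 1) : IsUnitary N χ := by
  intro γ
  have h1 : ‖((χ γ : ℂˣ) : ℂ)‖ ^ n = 1 := by
    rw [← norm_pow, ← Units.val_pow_eq_pow_val, hχ γ]
    simp
  exact (pow_eq_one_iff_of_nonneg (norm_nonneg _) hn).mp h1

/-- (TE6) If `χ ^ n = 1` then the `n`-th power of the twisted Eisenstein series is a modular
form of weight `k * n` on `Γ₀(N)`. -/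
def twEisPow (N : ℕ) [NeZero N] (χ : ↥(CongruenceSubgroup.Gamma0 N) →* ℂˣ) {k : ℤ}
    (hk : 3 ≤ k) {n : ℕ}
    (hn : n ≠ 0) (hχ : ∀ γ : ↥(CongruenceSubgroup.Gamma0 N), χ γ ^ n = 1)
    (htri : TrivialAtInfty N χ) :
    ModularForm (CongruenceSubgroup.Gamma0 N : Subgroup (GL (Fin 2) ℝ)) (k * n) where
  toFun := twEis N χ k ^ n
  slash_action_eq' A hA := by
    obtain ⟨γ, hγ, rfl⟩ := hA
    have h1 : (twEis N χ k ^ n) ∣[k * n] γ = twEis N χ k ^ n := by
      rw [pow_slash_SL, twEis_slash htri ⟨γ, hγ⟩]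
      funext z
      simp only [Pi.pow_apply]
      rw [mul_pow, ← Units.val_pow_eq_pow_val, hχ ⟨γ, hγ⟩]
      simp
    simpa [SpecialLinearGroup.mapGL, ← SL_slash] using h1
  holo' := by
    have h := twEis_mdifferentiable (k := k) hk (isUnitary_of_pow_eq_one hn hχ)
    exact h.pow n
  bdd_at_cusps' {c} hc := by
    rw [Subgroup.IsArithmetic.isCusp_iff_isCusp_SL2Z] at hc
    rw [OnePoint.isBoundedAt_iff_forall_SL2Z hc]
    intro A _
    rw [pow_slash_SL]
    have h := isBoundedAtImInfty_twEis_slash (k := k) hk (isUnitary_of_pow_eq_one hn hχ) A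
    rw [UpperHalfPlane.isBoundedAtImInfty_iff] at h ⊢
    obtain ⟨M, B, hM⟩ := h
    refine ⟨M ^ n, B, fun z hz => ?_⟩
    rw [Pi.pow_apply, norm_pow]
    exact pow_le_pow_left₀ (norm_nonneg _) (hM z hz) n

theorem twEisPow_apply [NeZero N] {k : ℤ} (hk : 3 ≤ k) {n : ℕ}
    (hn : n ≠ 0) (hχ : ∀ γ : ↥(CongruenceSubgroup.Gamma0 N), χ γ ^ n = 1)
    (htri : TrivialAtInfty N χ) (z : ℍ) :
    twEisPow N χ hk hn hχ htri z = twEis N χ k z ^ n := rfl

theorem twEisPow_ne_zero [NeZero N] {k : ℤ} (hk : 3 ≤ k) (hk2 : Even k) {n : ℕ}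
    (hn : n ≠ 0) (hχ : ∀ γ : ↥(CongruenceSubgroup.Gamma0 N), χ γ ^ n = 1)
    (htri : TrivialAtInfty N χ) : twEisPow N χ hk hn hχ htri ≠ 0 := by
  obtain ⟨z, hz⟩ := exists_twEis_ne_zero hk hk2 (isUnitary_of_pow_eq_one hn hχ) htri
  intro h
  have := congrArg (fun F : ModularForm _ _ => F z) h
  simp only [twEisPow_apply, _root_.zero_apply] at this
  exact hz (pow_eq_zero_iff hn |>.mp this)

end Fermat.Agent.Lib.TwistedEisenstein
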