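import Mathlib

/-!
# A crude bound for the different and the discriminant of a Galois number field (helper25)

For a Galois number field `K` of degree `n` such that every nonzero prime of `𝓞 K` not
containing the natural number `B ≠ 0` is unramified over `ℤ`:

* `natCast_mem_differentIdeal` : `B * n ∈ 𝔇_{K/ℚ}`;
* `natAbs_discr_dvd` : `|discr K| ∣ (B * n) ^ n`.

Proof.  (A) `Tr (1 / m) = n / m`, so `(m) ∤ 𝔇` as soon as `m ∤ n`
(`not_span_dvd_differentIdeal`).  (B) `𝔇` is stable under `Gal(K/ℚ)`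
(`smul_mem_differentIdeal`).  (C) If `P ^ (e k) ∣ 𝔇` for one prime `P` over `p` then, by (B) and
transitivity of the Galois action on the primes over `p`, `(p) ^ k ∣ 𝔇`
(`span_pow_dvd_differentIdeal`).  With `k = v_p(n) + 1` (A) and (C) give `v_P(𝔇) ≤ e k`, i.e.
`v_P(𝔇) ≤ v_P(p ^ k) ≤ v_P(B n)` for the ramified primes.

This is the arithmetic input of the Hermite–Minkowski finiteness theorem
(`Fermat/Agent/Lib/H25_HermiteMinkowski.lean`).
-/

set_option autoImplicit false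
set_option linter.style.haveILetI false
set_option linter.unusedSectionVars false

open NumberField UniqueFactorizationMonoid
open scoped Pointwise nonZeroDivisors

namespace Fermat.Agent.Lib.H25HM

section Dedekind

variable {R : Type*} [CommRing R] [IsDedekindDomain R]

theorem pow_dvd_iff_le_count {P I : Ideal R} (hP : Irreducible P) (hI : I ≠ ⊥) (j : ℕ) :
    P ^ j ∣ I ↔ j ≤ (normalizedFactors I).count P := by
  rw [pow_dvd_iff_le_emultiplicity, emultiplicity_eq_count_normalizedFactors hP hI, normalize_eq]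
  exact Nat.cast_le

theorem dvd_of_forall_prime_pow_dvd {I J : Ideal R} (hI : I ≠ ⊥) (hJ : J ≠ ⊥)
    (h : ∀ (P : Ideal R) (j : ℕ), P.IsPrime → P ≠ ⊥ → P ^ j ∣ I → P ^ j ∣ J) : I ∣ J := by
  classical
  rw [dvd_iff_normalizedFactors_le_normalizedFactors hI hJ, Multiset.le_iff_count]
  intro P
  by_cases hP : P ∈ normalizedFactors I
  · have hirr : Irreducible P := irreducible_of_normalized_factor P hP
    have hprime : Prime P := prime_of_normalized_factor P hP
    have h1 := h P ((normalizedFactors I).count P) ((Ideal.prime_iff_isPrime hprime.ne_zero).1 hprime)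
      hprime.ne_zero ((pow_dvd_iff_le_count hirr hI _).2 le_rfl)
    exact (pow_dvd_iff_le_count hirr hJ _).1 h1
  · rw [Multiset.count_eq_zero_of_notMem hP]
    exact Nat.zero_le _

end Dedekind

section Different

variable (K : Type*) [Field K] [NumberField K]

/-- Claim A: if `m ∤ [K : ℚ]` then `(m) ∤ 𝔇`. -/
theorem not_span_dvd_differentIdeal (m : ℕ) (hm0 : m ≠ 0) (hm : ¬ m ∣ Module.finrank ℚ K) :
    ¬ Ideal.span {(m : 𝓞 K)} ∣ differentIdeal ℤ (𝓞 K) := by
  intro h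
  rw [Ideal.dvd_iff_le] at h
  have hne : Ideal.span {(m : 𝓞 K)} ≠ ⊥ := by
    rw [Ne, Ideal.span_singleton_eq_bot]
    exact_mod_cast hm0
  rw [differentialIdeal_le_iff (K := ℚ) (L := K) hne] at h
  have hmem : (algebraMap ℚ K ((m : ℚ)⁻¹)) ∈
      (((Ideal.span {(m : 𝓞 K)} : Ideal (𝓞 K)) : FractionalIdeal (𝓞 K)⁰ K)⁻¹ :
        FractionalIdeal (𝓞 K)⁰ K) := by
    rw [FractionalIdeal.coeIdeal_span_singleton, FractionalIdeal.spanSingleton_inv]
    rw [FractionalIdeal.mem_spanSingleton]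
    refine ⟨1, ?_⟩
    rw [one_smul, map_natCast, map_inv₀, map_natCast]
  have h2 : (Algebra.trace ℚ K) (algebraMap ℚ K ((m : ℚ)⁻¹)) ∈ (1 : Submodule ℤ ℚ) := by
    apply h
    exact Submodule.mem_map_of_mem (f := (Algebra.trace ℚ K).restrictScalars ℤ) hmem
  rw [Algebra.trace_algebraMap, Submodule.mem_one] at h2
  obtain ⟨z, hz⟩ := h2
  apply hm
  have hmq : (m : ℚ) ≠ 0 := by exact_mod_cast hm0
  have h3 : ((Module.finrank ℚ K : ℤ) : ℚ) = ((m : ℤ) * z : ℤ) := by
    push_cast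
    rw [eq_intCast] at hz
    rw [hz, nsmul_eq_mul]
    field_simp
  have h4 : (Module.finrank ℚ K : ℤ) = (m : ℤ) * z := by exact_mod_cast h3
  exact Int.natCast_dvd_natCast.1 ⟨z, h4⟩

/-- Membership in the different ideal, elementwise. -/
theorem mem_differentIdeal_iff (x : 𝓞 K) :
    x ∈ differentIdeal ℤ (𝓞 K) ↔
      ∀ y : K, (∀ a : 𝓞 K, Algebra.trace ℚ K (y * (a : K)) ∈ (algebraMap ℤ ℚ).range) →
        ∃ b : 𝓞 K, (b : K) = (x : K) * y := by
  have h := coeSubmodule_differentIdeal (A := ℤ) (K := ℚ) (L := K) (B := 𝓞 K)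
  have h1 : x ∈ differentIdeal ℤ (𝓞 K) ↔
      (algebraMap (𝓞 K) K x) ∈ IsLocalization.coeSubmodule K (differentIdeal ℤ (𝓞 K)) := by
    rw [IsLocalization.mem_coeSubmodule]
    constructor
    · intro hx
      exact ⟨x, hx, rfl⟩
    · rintro ⟨z, hz, hzx⟩
      have := FaithfulSMul.algebraMap_injective (𝓞 K) K hzx
      rwa [← this]
  rw [h1, h, Submodule.mem_div_iff_forall_mul_mem]
  constructor
  · intro hx y hy
    have hy' : y ∈ Submodule.traceDual ℤ ℚ (1 : Submodule (𝓞 K) K) := by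
      rw [Submodule.mem_traceDual]
      intro a ha
      rw [Submodule.mem_one] at ha
      obtain ⟨a', rfl⟩ := ha
      rw [Algebra.traceForm_apply]
      exact hy a'
    have := hx y hy'
    rw [Submodule.mem_one] at this
    obtain ⟨b, hb⟩ := this
    exact ⟨b, hb⟩
  · intro hx y hy
    rw [Submodule.mem_traceDual] at hy
    obtain ⟨b, hb⟩ := hx y (fun a => by
      have := hy (algebraMap (𝓞 K) K a) (Submodule.mem_one.2 ⟨a, rfl⟩)
      rwa [Algebra.traceForm_apply] at this)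
    rw [Submodule.mem_one]
    exact ⟨b, hb⟩

/-- Claim B: the different is stable under automorphisms. -/
theorem smul_mem_differentIdeal (σ : K ≃ₐ[ℚ] K) (x : 𝓞 K) (hx : x ∈ differentIdeal ℤ (𝓞 K)) :
    σ • x ∈ differentIdeal ℤ (𝓞 K) := by
  rw [mem_differentIdeal_iff] at hx ⊢
  intro y hy
  obtain ⟨b, hb⟩ := hx (σ.symm y) (fun a => by
    have h1 := hy (σ • a)
    have h2 : Algebra.trace ℚ K (σ.symm y * (a : K)) = Algebra.trace ℚ K (y * ((σ • a : 𝓞 K) : K)) := by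
      rw [← Algebra.trace_eq_of_algEquiv σ (σ.symm y * (a : K)), map_mul, AlgEquiv.apply_symm_apply]
      rfl
    rw [h2]
    exact h1)
  refine ⟨σ • b, ?_⟩
  have h3 : ((σ • b : 𝓞 K) : K) = σ (b : K) := rfl
  have h4 : ((σ • x : 𝓞 K) : K) = σ (x : K) := rfl
  rw [h3, h4, hb, map_mul, AlgEquiv.apply_symm_apply]

theorem differentIdeal_le_smul (σ : K ≃ₐ[ℚ] K) (I : Ideal (𝓞 K))
    (h : differentIdeal ℤ (𝓞 K) ≤ I) : differentIdeal ℤ (𝓞 K) ≤ σ • I := by
  intro x hx
  rw [Ideal.mem_pointwise_smul_iff_inv_smul_mem]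
  exact h (smul_mem_differentIdeal K σ⁻¹ x hx)

/-- Claim C. -/
theorem span_pow_dvd_differentIdeal [IsGalois ℚ K] (P : Ideal (𝓞 K)) [P.IsPrime]
    (p : ℕ) (hp : p.Prime) (hpP : (p : 𝓞 K) ∈ P) (k : ℕ)
    (h : P ^ (P.ramificationIdx ℤ * k) ∣ differentIdeal ℤ (𝓞 K)) :
    Ideal.span {((p ^ k : ℕ) : 𝓞 K)} ∣ differentIdeal ℤ (𝓞 K) := by
  classical
  have hpZ : (Ideal.span {(p : ℤ)}).IsMaximal :=
    (Ideal.span_singleton_prime (by exact_mod_cast hp.ne_zero)).2
      (Nat.prime_iff_prime_int.1 hp) |>.isMaximal (by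
        rw [Ne, Ideal.span_singleton_eq_bot]; exact_mod_cast hp.ne_zero)
  have hp0 : (p : 𝓞 K) ≠ 0 := by exact_mod_cast hp.ne_zero
  have hmap : (Ideal.span {(p : ℤ)}).map (algebraMap ℤ (𝓞 K)) = Ideal.span {(p : 𝓞 K)} := by
    rw [Ideal.map_span, Set.image_singleton, map_natCast]
  have hIp0 : Ideal.span {(p : 𝓞 K)} ≠ ⊥ := by
    rw [Ne, Ideal.span_singleton_eq_bot]; exact hp0
  have hD0 : differentIdeal ℤ (𝓞 K) ≠ ⊥ := differentIdeal_ne_bot
  have hspan : Ideal.span {((p ^ k : ℕ) : 𝓞 K)} = Ideal.span {(p : 𝓞 K)} ^ k := by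
    rw [Ideal.span_singleton_pow, Nat.cast_pow]
  rw [hspan]
  have hover : ∀ Q : Ideal (𝓞 K), Q.IsPrime → (p : 𝓞 K) ∈ Q → Q.LiesOver (Ideal.span {(p : ℤ)}) := by
    intro Q hQ hpQ
    refine ⟨?_⟩
    have hle : Ideal.span {(p : ℤ)} ≤ Q.under ℤ := by
      rw [Ideal.span_singleton_le_iff_mem, Ideal.mem_comap, map_natCast]
      exact hpQ
    exact hpZ.eq_of_le (Ideal.IsPrime.ne_top inferInstance) hle
  haveI := hover P inferInstance hpP
  refine dvd_of_forall_prime_pow_dvd (pow_ne_zero _ hIp0) hD0 ?_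
  intro Q i hQ hQ0 hQi
  rcases Nat.eq_zero_or_pos i with rfl | hi
  · rw [pow_zero]; exact one_dvd _
  have hQirr : Irreducible Q := (Ideal.prime_of_isPrime hQ0 hQ).irreducible
  have hQp : (p : 𝓞 K) ∈ Q := by
    have h1 : Q ∣ Ideal.span {(p : 𝓞 K)} ^ k := dvd_trans (dvd_pow_self Q hi.ne') hQi
    have h2 : Q ∣ Ideal.span {(p : 𝓞 K)} := (Ideal.prime_of_isPrime hQ0 hQ).dvd_of_dvd_pow h1
    rw [Ideal.dvd_iff_le, Ideal.span_singleton_le_iff_mem] at h2
    exact h2
  haveI := hover Q hQ hQp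
  have hcount : i ≤ P.ramificationIdx ℤ * k := by
    have h1 := (pow_dvd_iff_le_count hQirr (pow_ne_zero _ hIp0) i).1 hQi
    rw [normalizedFactors_pow, Multiset.count_nsmul, ← hmap,
      ← Ideal.IsDedekindDomain.ramificationIdx_eq_normalizedFactors_count
        (p := Ideal.span {(p : ℤ)}) (q := Q) (by rw [hmap]; exact hIp0),
      Ideal.ramificationIdx_eq_of_isGaloisGroup (Ideal.span {(p : ℤ)}) Q P (K ≃ₐ[ℚ] K)] at h1
    rw [mul_comm]; exact h1
  obtain ⟨σ, hσ⟩ := Ideal.exists_smul_eq_of_isGaloisGroup (Ideal.span {(p : ℤ)}) P Q (K ≃ₐ[ℚ] K)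
  rw [Ideal.dvd_iff_le] at h ⊢
  have h3 := differentIdeal_le_smul K σ _ h
  rw [smul_pow', hσ] at h3
  exact h3.trans (Ideal.pow_le_pow_right hcount)

/-- A prime ideal of `𝓞 K` contains a rational prime. -/
theorem exists_prime_natCast_mem (P : Ideal (𝓞 K)) [P.IsPrime] (hP0 : P ≠ ⊥) :
    ∃ p : ℕ, p.Prime ∧ (p : 𝓞 K) ∈ P ∧ ∀ B : ℕ, (B : 𝓞 K) ∈ P → p ∣ B := by
  obtain ⟨q, hq : _ = Ideal.span _⟩ := IsPrincipalIdealRing.principal (P.under ℤ)
  have hq0 : q ≠ 0 := by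
    rintro rfl
    apply hP0
    apply Ideal.eq_bot_of_comap_eq_bot (R := ℤ)
    rw [← Ideal.under_def, hq]
    simp
  have hqprime : Prime q := by
    rw [← Ideal.span_singleton_prime hq0, ← hq]; infer_instance
  refine ⟨q.natAbs, Int.prime_iff_natAbs_prime.mp hqprime, ?_, ?_⟩
  · have h1 : (q.natAbs : ℤ) ∈ P.under ℤ := by
      rw [hq, ← Int.span_natAbs]
      exact Ideal.subset_span rfl
    rw [Ideal.under_def, Ideal.mem_comap, map_natCast] at h1
    exact h1
  · intro B hB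
    have h1 : (B : ℤ) ∈ P.under ℤ := by
      rw [Ideal.under_def, Ideal.mem_comap, map_natCast]
      exact hB
    rw [hq, Ideal.mem_span_singleton] at h1
    have h2 := Int.natAbs_dvd_natAbs.2 h1
    rwa [Int.natAbs_natCast] at h2

/-- **Crude bound for the different of a Galois number field**: if all primes not containing
`B` are unramified, then `B * [K : ℚ]` lies in the different. -/
theorem natCast_mem_differentIdeal [IsGalois ℚ K] (B : ℕ) (hB : B ≠ 0)
    (h : ∀ (P : Ideal (𝓞 K)) [P.IsPrime], P ≠ ⊥ → (B : 𝓞 K) ∉ P →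
      Algebra.IsUnramifiedAt ℤ P) :
    ((B * Module.finrank ℚ K : ℕ) : 𝓞 K) ∈ differentIdeal ℤ (𝓞 K) := by
  classical
  set n := Module.finrank ℚ K with hn
  have hn0 : n ≠ 0 := Module.finrank_pos.ne'
  have hm0 : ((B * n : ℕ) : 𝓞 K) ≠ 0 := by
    exact_mod_cast Nat.mul_ne_zero hB hn0
  have hD0 : differentIdeal ℤ (𝓞 K) ≠ ⊥ := differentIdeal_ne_bot
  have hJ0 : Ideal.span {((B * n : ℕ) : 𝓞 K)} ≠ ⊥ := by
    rw [Ne, Ideal.span_singleton_eq_bot]; exact hm0
  suffices hdvd : differentIdeal ℤ (𝓞 K) ∣ Ideal.span {((B * n : ℕ) : 𝓞 K)} by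
    rw [Ideal.dvd_iff_le, Ideal.span_singleton_le_iff_mem] at hdvd
    exact hdvd
  refine dvd_of_forall_prime_pow_dvd hD0 hJ0 ?_
  intro P j hP hP0 hPj
  rcases Nat.eq_zero_or_pos j with rfl | hj
  · rw [pow_zero]; exact one_dvd _
  have hPD : P ∣ differentIdeal ℤ (𝓞 K) := dvd_trans (dvd_pow_self P hj.ne') hPj
  have hram : ¬ Algebra.IsUnramifiedAt ℤ P := (dvd_differentIdeal_iff (A := ℤ)).1 hPD
  have hBP : (B : 𝓞 K) ∈ P := by
    by_contra hcon
    exact hram (h P hP0 hcon)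
  obtain ⟨p, hp, hpP, hpdvd⟩ := exists_prime_natCast_mem K P hP0
  have hpB : p ∣ B := hpdvd B hBP
  set k := n.factorization p + 1 with hk
  have hk1 : ¬ p ^ k ∣ n := Nat.pow_succ_factorization_not_dvd hn0 hp
  have hk2 : p ^ k ∣ B * n := by
    rw [hk, pow_succ, mul_comm]
    exact Nat.mul_dvd_mul hpB (Nat.ordProj_dvd n p)
  have hA := not_span_dvd_differentIdeal K (p ^ k) (pow_ne_zero _ hp.ne_zero) hk1
  have hle : j ≤ P.ramificationIdx ℤ * k := by
    by_contra hcon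
    push Not at hcon
    apply hA
    apply span_pow_dvd_differentIdeal K P p hp hpP k
    exact dvd_trans (pow_dvd_pow P hcon.le) hPj
  -- P ^ (e k) ∣ (p ^ k) ∣ (B n)
  have hpZ : (Ideal.span {(p : ℤ)}).IsMaximal :=
    (Ideal.span_singleton_prime (by exact_mod_cast hp.ne_zero)).2
      (Nat.prime_iff_prime_int.1 hp) |>.isMaximal (by
        rw [Ne, Ideal.span_singleton_eq_bot]; exact_mod_cast hp.ne_zero)
  have hp0 : (p : 𝓞 K) ≠ 0 := by exact_mod_cast hp.ne_zero
  have hmap : (Ideal.span {(p : ℤ)}).map (algebraMap ℤ (𝓞 K)) = Ideal.span {(p : 𝓞 K)} := by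
    rw [Ideal.map_span, Set.image_singleton, map_natCast]
  have hIp0 : Ideal.span {(p : 𝓞 K)} ≠ ⊥ := by
    rw [Ne, Ideal.span_singleton_eq_bot]; exact hp0
  have hover : P.LiesOver (Ideal.span {(p : ℤ)}) := by
    refine ⟨?_⟩
    have hle : Ideal.span {(p : ℤ)} ≤ P.under ℤ := by
      rw [Ideal.span_singleton_le_iff_mem, Ideal.mem_comap, map_natCast]
      exact hpP
    exact hpZ.eq_of_le (Ideal.IsPrime.ne_top inferInstance) hle
  have hPirr : Irreducible P := (Ideal.prime_of_isPrime hP0 hP).irreducible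
  have h1 : P ^ (P.ramificationIdx ℤ * k) ∣ Ideal.span {(p : 𝓞 K)} ^ k := by
    rw [pow_dvd_iff_le_count hPirr (pow_ne_zero _ hIp0), normalizedFactors_pow,
      Multiset.count_nsmul, ← hmap,
      ← Ideal.IsDedekindDomain.ramificationIdx_eq_normalizedFactors_count
        (p := Ideal.span {(p : ℤ)}) (q := P) (by rw [hmap]; exact hIp0), mul_comm]
  have h2 : Ideal.span {(p : 𝓞 K)} ^ k ∣ Ideal.span {((B * n : ℕ) : 𝓞 K)} := by
    rw [Ideal.span_singleton_pow, Ideal.dvd_iff_le, Ideal.span_singleton_le_span_singleton]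
    obtain ⟨c, hc⟩ := hk2
    refine ⟨(c : 𝓞 K), ?_⟩
    rw [hc]
    push_cast
    rfl
  exact dvd_trans (pow_dvd_pow P hle) (dvd_trans h1 h2)

/-- **Discriminant bound** for a Galois number field unramified outside `B`. -/
theorem natAbs_discr_dvd [IsGalois ℚ K] (B : ℕ) (hB : B ≠ 0)
    (h : ∀ (P : Ideal (𝓞 K)) [P.IsPrime], P ≠ ⊥ → (B : 𝓞 K) ∉ P →
      Algebra.IsUnramifiedAt ℤ P) :
    (discr K).natAbs ∣ (B * Module.finrank ℚ K) ^ Module.finrank ℚ K := by
  have hmem := natCast_mem_differentIdeal K B hB h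
  have hle : Ideal.span {((B * Module.finrank ℚ K : ℕ) : 𝓞 K)} ≤ differentIdeal ℤ (𝓞 K) := by
    rw [Ideal.span_singleton_le_iff_mem]; exact hmem
  have h1 := Ideal.absNorm_dvd_absNorm_of_le hle
  rw [absNorm_differentIdeal (K := K), Ideal.absNorm_span_singleton] at h1
  have h2 : (Algebra.norm ℤ ((B * Module.finrank ℚ K : ℕ) : 𝓞 K)).natAbs
      = (B * Module.finrank ℚ K) ^ Module.finrank ℚ K := by
    have h3 : ((B * Module.finrank ℚ K : ℕ) : 𝓞 K)
        = algebraMap ℤ (𝓞 K) ((B * Module.finrank ℚ K : ℕ) : ℤ) := by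
      rw [map_natCast]
    rw [h3, Algebra.norm_algebraMap_of_basis (RingOfIntegers.basis K), Int.natAbs_pow,
      Int.natAbs_natCast, ← Module.finrank_eq_card_basis (RingOfIntegers.basis K),
      RingOfIntegers.rank]
  rw [h2] at h1
  exact h1

end Different

end Fermat.Agent.Lib.H25HM
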