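import Fermat.Agent.Lib.Minkowski
import Fermat.Agent.Lib.InertiaBridge
import Fermat.Agent.Lib.H25_DiffBound
import Fermat.Agent.S17.WeakMW

/-!
# Hermite–Minkowski: finitely many number fields of bounded degree unramified outside a
finite set of primes (S17 leaf W5; shared with the finiteness of `H¹(G_{ℚ,S}, M)`)  (helper25)

`stmt_HM : Fermat.Agent.S17.Stmt_HM` : for `B ≠ 0` and `d`, the set of subfields `F ⊂ ℚ̄`, finite
over `ℚ` of degree `≤ d`, such that the inertia group of every valuation subring of `ℚ̄` over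
every prime `ℓ ∤ B` fixes `F`, is finite.

Route.
* `unrOutside_normalClosure` : the normal closure `L` of `F` is unramified outside `B`, too
  (inertia groups of conjugate valuation subrings are conjugate: `conj_mem_inertiaSubgroupIn`).
* `finrank_normalClosure_le` : `[L : ℚ] ≤ [F : ℚ] ^ [F : ℚ]`.
* `isUnramifiedAt_of_unrOutside` : bridge to `Algebra.IsUnramifiedAt ℤ P` for the primes `P` of
  `𝓞 L` not containing `B` (`Lib/MinkowskiCore.inertia_primeBelow_eq_bot`).
* `Lib/H25_DiffBound.natAbs_discr_dvd` : `|discr L| ∣ (B n) ^ n`, `n = [L : ℚ]`.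
* Mathlib `NumberField.discr_dvd_discr` and Hermite's theorem `NumberField.finite_of_discr_bdd`.
-/

set_option autoImplicit false
set_option linter.style.haveILetI false
set_option linter.unusedSectionVars false

open NumberField IntermediateField
open scoped Pointwise

namespace Fermat.Agent.Lib.H25HM

open Fermat.Agent.Lib.InertiaBridge Fermat.Agent.Lib.Minkowski

attribute [local instance] qbar_isAlgebraic qbar_isAlgClosure qbar_isGalois qbar_normal

local notation "Qbar" => AlgebraicClosure ℚ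
local notation "GQ" => (AlgebraicClosure ℚ ≃ₐ[ℚ] AlgebraicClosure ℚ)

/-- nonunits of a conjugate valuation subring -/
theorem smul_mem_nonunits_smul_iff {K L : Type*} [Field K] [Field L] [Algebra K L]
    (A : ValuationSubring L) (τ : L ≃ₐ[K] L) (x : L) :
    τ x ∈ (τ • A).nonunits ↔ x ∈ A.nonunits := by
  rw [ValuationSubring.mem_nonunits_iff_or, ValuationSubring.mem_nonunits_iff_or]
  have h1 : τ x = 0 ↔ x = 0 := by
    constructor
    · intro h
      have := congrArg τ.symm h
      simpa using this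
    · intro h
      rw [h, map_zero]
  have h2 : (τ x)⁻¹ ∈ τ • A ↔ x⁻¹ ∈ A := by
    rw [← map_inv₀]
    exact ValuationSubring.smul_mem_pointwise_smul_iff (g := τ) (S := A) (x := x⁻¹)
  rw [h1, h2]

theorem liesOverPrime_smul (A : ValuationSubring Qbar) (τ : GQ) (ℓ : ℕ)
    (hA : A.LiesOverPrime ℓ) : (τ • A).LiesOverPrime ℓ := by
  unfold ValuationSubring.LiesOverPrime at hA ⊢
  have := (smul_mem_nonunits_smul_iff A τ (ℓ : Qbar)).2 hA
  rwa [map_natCast] at this

/-- Conjugation of inertia groups. -/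
theorem conj_mem_inertiaSubgroupIn {K L : Type*} [Field K] [Field L] [Algebra K L]
    (A : ValuationSubring L) (τ σ : L ≃ₐ[K] L) (hσ : σ ∈ A.inertiaSubgroupIn K) :
    τ * σ * τ⁻¹ ∈ (τ • A).inertiaSubgroupIn K := by
  rw [mem_inertiaSubgroupIn_iff_forall] at hσ ⊢
  obtain ⟨hdec, hin⟩ := hσ
  refine ⟨?_, ?_⟩
  · rw [ValuationSubring.decompositionSubgroup, MulAction.mem_stabilizer_iff] at hdec ⊢
    rw [mul_smul, mul_smul, inv_smul_smul, hdec]
  · intro a ha
    rw [ValuationSubring.mem_pointwise_smul_iff_inv_smul_mem] at ha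
    have h1 := hin (τ⁻¹ • a) ha
    rw [← ValuationSubring.mem_nonunits_iff] at h1 ⊢
    have h2 := (smul_mem_nonunits_smul_iff A τ _).2 h1
    have h3 : τ (σ (τ⁻¹ • a) - τ⁻¹ • a) = (τ * σ * τ⁻¹) a - a := by
      rw [map_sub]
      have e1 : τ (τ⁻¹ • a) = a := by
        show τ (τ⁻¹ a) = a
        exact AlgEquiv.apply_symm_apply τ a
      rw [e1]
      rfl
    rwa [h3] at h2

/-- "unramified outside `B`" in the prelude's sense -/
def UnrOutside (B : ℕ) (F : IntermediateField ℚ Qbar) : Prop :=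
  ∀ ℓ : ℕ, ℓ.Prime → ¬ ℓ ∣ B → ∀ A : ValuationSubring Qbar,
    A.LiesOverPrime ℓ → A.inertiaSubgroupIn ℚ ≤ F.fixingSubgroup

theorem unrOutside_normalClosure (B : ℕ) (F : IntermediateField ℚ Qbar) (h : UnrOutside B F) :
    UnrOutside B (normalClosure ℚ F Qbar) := by
  intro ℓ hℓ hℓB A hA σ hσ
  rw [IntermediateField.mem_fixingSubgroup_iff]
  -- the fixed field of σ
  let E : IntermediateField ℚ Qbar := IntermediateField.fixedField (Subgroup.zpowers σ)
  have hE : ∀ x, x ∈ E ↔ σ x = x := by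
    intro x
    constructor
    · intro hx
      exact hx ⟨σ, Subgroup.mem_zpowers σ⟩
    · intro hx
      rintro ⟨g, hg⟩
      obtain ⟨n, rfl⟩ := Subgroup.mem_zpowers_iff.1 hg
      show (σ ^ n) • x = x
      have hfix : σ ∈ MulAction.stabilizer GQ x := hx
      exact (MulAction.stabilizer GQ x).zpow_mem hfix n
  suffices hle : normalClosure ℚ F Qbar ≤ E from fun x hx => (hE x).1 (hle hx)
  refine le_trans (le_of_eq (IntermediateField.normalClosure_def'' F)) ?_
  rw [iSup_le_iff]
  intro τ x hx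
  rw [IntermediateField.mem_map] at hx
  obtain ⟨y, hy, rfl⟩ := hx
  rw [hE]
  have h1 := conj_mem_inertiaSubgroupIn A τ⁻¹ σ hσ
  have h2 := h ℓ hℓ hℓB (τ⁻¹ • A) (liesOverPrime_smul A τ⁻¹ ℓ hA) h1
  rw [IntermediateField.mem_fixingSubgroup_iff] at h2
  have h3 := h2 y hy
  rw [inv_inv] at h3
  have h4 : (τ⁻¹ * σ * τ) y = τ⁻¹ (σ (τ y)) := rfl
  rw [h4] at h3
  have h5 := congrArg τ h3
  have e1 : τ (τ⁻¹ (σ (τ y))) = σ (τ y) := AlgEquiv.apply_symm_apply τ _
  rw [e1] at h5
  exact h5

section Degree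

variable {F L : Type*} [Field F] [Field L] [Algebra F L]

theorem finrank_congr {X Y : IntermediateField F L} (h : X = Y) :
    Module.finrank F ↥X = Module.finrank F ↥Y := by
  subst h; rfl

theorem finrank_biSup_le {ι : Type*} (E : ι → IntermediateField F L) (s : Finset ι) :
    Module.finrank F ↥(⨆ i ∈ s, E i) ≤ ∏ i ∈ s, Module.finrank F ↥(E i) := by
  classical
  induction s using Finset.induction_on with
  | empty =>
    have h : (⨆ i ∈ (∅ : Finset ι), E i) = ⊥ := by simp
    rw [finrank_congr h, IntermediateField.finrank_bot, Finset.prod_empty]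
  | insert a s ha ih =>
    have h : (⨆ i ∈ insert a s, E i) = E a ⊔ ⨆ i ∈ s, E i := Finset.iSup_insert a s E
    rw [finrank_congr h, Finset.prod_insert ha]
    exact (IntermediateField.finrank_sup_le _ _).trans (Nat.mul_le_mul_left _ ih)

theorem finrank_iSup_le {ι : Type*} [Fintype ι] (E : ι → IntermediateField F L) :
    Module.finrank F ↥(⨆ i, E i) ≤ ∏ i, Module.finrank F ↥(E i) := by
  have h := finrank_biSup_le E Finset.univ
  have h2 : (⨆ i ∈ (Finset.univ : Finset ι), E i) = ⨆ i, E i := by simp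
  rwa [finrank_congr h2] at h

/-- The degree of the normal closure of an extension of degree `n` is at most `n ^ n`. -/
theorem finrank_normalClosure_le (K : Type*) [Field K] [Algebra F K] [FiniteDimensional F K]
    [Algebra.IsSeparable F K] [IsAlgClosed L] :
    Module.finrank F ↥(normalClosure F K L) ≤ Module.finrank F K ^ Module.finrank F K := by
  classical
  rw [finrank_congr (normalClosure_def F K L)]
  refine (finrank_iSup_le _).trans ?_
  have h1 : ∀ f : K →ₐ[F] L, Module.finrank F ↥f.fieldRange = Module.finrank F K := fun f =>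
    (LinearEquiv.finrank_eq (AlgEquiv.ofInjectiveField f).toLinearEquiv).symm
  simp only [h1, Finset.prod_const, Finset.card_univ]
  rw [AlgHom.card]

end Degree

theorem liesOver_span_of_mem {K : Type*} [Field K] [NumberField K] (p : ℕ) (hp : p.Prime)
    (Q : Ideal (𝓞 K)) [Q.IsPrime] (hpQ : (p : 𝓞 K) ∈ Q) :
    Q.LiesOver (Ideal.span {(p : ℤ)}) := by
  have hpZ : (Ideal.span {(p : ℤ)}).IsMaximal :=
    (Ideal.span_singleton_prime (by exact_mod_cast hp.ne_zero)).2
      (Nat.prime_iff_prime_int.1 hp) |>.isMaximal (by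
        rw [Ne, Ideal.span_singleton_eq_bot]; exact_mod_cast hp.ne_zero)
  refine ⟨?_⟩
  have hle : Ideal.span {(p : ℤ)} ≤ Q.under ℤ := by
    rw [Ideal.span_singleton_le_iff_mem, Ideal.mem_comap, map_natCast]
    exact hpQ
  exact hpZ.eq_of_le (Ideal.IsPrime.ne_top inferInstance) hle

/-- Bridge: for a finite normal `L`, unramified outside `B` in the prelude's sense implies that
every nonzero prime of `𝓞 L` not containing `B` is unramified over `ℤ`. -/
theorem isUnramifiedAt_of_unrOutside (B : ℕ) (L : IntermediateField ℚ Qbar)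
    [FiniteDimensional ℚ L] [Normal ℚ L] (h : UnrOutside B L)
    (P : Ideal (𝓞 L)) [P.IsPrime] (hP0 : P ≠ ⊥) (hB : (B : 𝓞 L) ∉ P) :
    Algebra.IsUnramifiedAt ℤ P := by
  haveI : NumberField L := ⟨⟩
  haveI : IsGalois ℚ L := ⟨⟩
  obtain ⟨p, hp, hpP, hpdvd⟩ := exists_prime_natCast_mem L P hP0
  have hpB : ¬ p ∣ B := by
    rintro ⟨c, rfl⟩
    apply hB
    rw [Nat.cast_mul]
    exact Ideal.mul_mem_right _ _ hpP
  obtain ⟨A, hA⟩ := Fermat.Agent.Lib.FrobExists.exists_liesOverPrime p hp
  haveI := primeBelow_isPrime L A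
  have hmem : (p : 𝓞 L) ∈ primeBelow L A := natCast_mem_primeBelow L A p hA
  have hI : (primeBelow L A).inertia (L ≃ₐ[ℚ] L) = ⊥ :=
    inertia_primeBelow_eq_bot L liftStmt p hp A hA (by
      intro σ hσ x hx
      exact (IntermediateField.mem_fixingSubgroup_iff _ _).mp (h p hp hpB A hA hσ) x hx)
  haveI h1 := liesOver_span_of_mem p hp P hpP
  haveI h2 := liesOver_span_of_mem p hp (primeBelow L A) hmem
  haveI hpZ : (Ideal.span {(p : ℤ)}).IsPrime :=
    (Ideal.span_singleton_prime (by exact_mod_cast hp.ne_zero)).2 (Nat.prime_iff_prime_int.1 hp)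
  rw [← Ideal.ramificationIdx_eq_one_iff,
    ← Ideal.ramificationIdxIn_eq_ramificationIdx (Ideal.span {(p : ℤ)}) P (L ≃ₐ[ℚ] L),
    ← Ideal.card_inertia_eq_ramificationIdxIn (G := L ≃ₐ[ℚ] L) (Ideal.span {(p : ℤ)})
      (primeBelow L A), hI]
  simp

/-- Discriminant bound for a finite normal `L ⊂ ℚ̄` unramified outside `B`. -/
theorem natAbs_discr_le_of_normal (B : ℕ) (hB : B ≠ 0) (L : IntermediateField ℚ Qbar)
    [FiniteDimensional ℚ L] [Normal ℚ L] (h : UnrOutside B L) :
    haveI : NumberField L := ⟨⟩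
    (discr L).natAbs ≤ (B * Module.finrank ℚ L) ^ Module.finrank ℚ L := by
  haveI : NumberField L := ⟨⟩
  haveI : IsGalois ℚ L := ⟨⟩
  have hdvd := natAbs_discr_dvd L B hB (fun P _ hP0 hBP =>
    isUnramifiedAt_of_unrOutside B L h P hP0 hBP)
  refine Nat.le_of_dvd (pow_pos (Nat.mul_pos (Nat.pos_of_ne_zero hB) Module.finrank_pos) _) hdvd

/-- Discriminant bound for a finite `F ⊂ ℚ̄` of degree `≤ d` unramified outside `B`. -/
theorem natAbs_discr_le (B d : ℕ) (hB : B ≠ 0) (F : IntermediateField ℚ Qbar)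
    [FiniteDimensional ℚ F] (hd : Module.finrank ℚ F ≤ d) (h : UnrOutside B F) :
    haveI : NumberField F := ⟨⟩
    (discr F).natAbs ≤ (B * d ^ d) ^ (d ^ d) := by
  haveI : NumberField F := ⟨⟩
  set L : IntermediateField ℚ Qbar := normalClosure ℚ F Qbar with hL
  haveI : FiniteDimensional ℚ L := normalClosure.is_finiteDimensional ℚ F Qbar
  haveI : Normal ℚ L := normalClosure.normal ℚ F Qbar
  haveI : NumberField L := ⟨⟩
  have hunr : UnrOutside B L := unrOutside_normalClosure B F h
  have h1 := natAbs_discr_le_of_normal B hB L hunr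
  have hn : Module.finrank ℚ L ≤ d ^ d := by
    have h2 := finrank_normalClosure_le (F := ℚ) (L := Qbar) F
    have hpos : 0 < Module.finrank ℚ F := Module.finrank_pos
    calc Module.finrank ℚ L ≤ Module.finrank ℚ F ^ Module.finrank ℚ F := h2
      _ ≤ d ^ Module.finrank ℚ F := Nat.pow_le_pow_left hd _
      _ ≤ d ^ d := Nat.pow_le_pow_right (by omega) hd
  have hFL : F ≤ L := IntermediateField.le_normalClosure F
  letI : Algebra F L := (IntermediateField.inclusion hFL).toRingHom.toAlgebra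
  have h3 : discr F ∣ discr L := discr_dvd_discr F L
  have h4 : (discr F).natAbs ≤ (discr L).natAbs :=
    Nat.le_of_dvd (Int.natAbs_pos.2 (discr_ne_zero L)) (Int.natAbs_dvd_natAbs.2 h3)
  calc (discr F).natAbs ≤ (discr L).natAbs := h4
    _ ≤ (B * Module.finrank ℚ L) ^ Module.finrank ℚ L := h1
    _ ≤ (B * d ^ d) ^ Module.finrank ℚ L := Nat.pow_le_pow_left (Nat.mul_le_mul_left _ hn) _
    _ ≤ (B * d ^ d) ^ (d ^ d) := Nat.pow_le_pow_right
        (Nat.mul_pos (Nat.pos_of_ne_zero hB) (Nat.pos_of_ne_zero (by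
          have hpos : 0 < Module.finrank ℚ F := Module.finrank_pos
          have : d ≠ 0 := by omega
          exact pow_ne_zero _ this))) hn

/-- **Hermite–Minkowski** (S17 W5). -/
theorem stmt_HM : Fermat.Agent.S17.Stmt_HM := by
  intro B d hB
  have hfin := NumberField.finite_of_discr_bdd Qbar (N := (B * d ^ d) ^ (d ^ d))
  refine Set.Finite.subset (hfin.image Subtype.val) ?_
  rintro F ⟨hFfd, hFd, hFunr⟩
  refine ⟨⟨F, hFfd⟩, ?_, rfl⟩
  haveI := hFfd
  haveI : NumberField F := ⟨⟩
  have h := natAbs_discr_le B d hB F hFd hFunr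
  show |discr F| ≤ _
  rw [Int.abs_eq_natAbs]
  exact_mod_cast h

end Fermat.Agent.Lib.H25HM
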