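import Mathlib
import Fermat.Prelude.Def_GaloisRep_CompletionBridge
import Fermat.Agent.Lib.InertiaBridge

/-!
# The image of the local Galois group is dense in the decomposition group (helper13)

`padicPlace q` is the valuation subring of `ℚ̄` cut out by the embedding `ℚ̄ → ℚ̄_q` of the
prelude, and `localGaloisToGlobal q : Gal(ℚ̄_q/ℚ_q) → Gal(ℚ̄/ℚ)` is the restriction map.

* `norm_padicEmbedding_map`: every element of the decomposition group of `padicPlace q` is an
  isometry for the `q`-adic norm.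
* `exists_local_lift`: for `s` in the decomposition group and `α ∈ ℚ̄` there is a local
  automorphism `τ` with `localGaloisToGlobal q τ α = s α`.
* `exists_local_lift_field`: the same on a finite-dimensional intermediate field.
-/

set_option autoImplicit false
set_option linter.unusedSectionVars false
set_option linter.style.haveILetI false
set_option linter.unusedVariables false

namespace Fermat.Agent.Lib.LocalGlobalDense

open Fermat.Agent.Lib.InertiaBridge

variable (q : ℕ) [Fact q.Prime]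

/-- The `q`-adic absolute value on `ℚ̄`. -/
noncomputable def absQ : AbsoluteValue (AlgebraicClosure ℚ) ℝ :=
  (IsAbsoluteValue.toAbsoluteValue (norm : PadicAlgCl q → ℝ)).comp
    (f := (padicEmbedding q).toRingHom) (padicEmbedding q).toRingHom.injective

theorem absQ_apply (x : AlgebraicClosure ℚ) : absQ q x = ‖padicEmbedding q x‖ := rfl

theorem absQ_le_one_iff (x : AlgebraicClosure ℚ) : absQ q x ≤ 1 ↔ x ∈ padicPlace q := by
  rw [mem_padicPlace_iff, absQ_apply, ← coe_nnnorm]
  exact_mod_cast Iff.rfl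

theorem absQ_natCast_self : absQ q (q : AlgebraicClosure ℚ) = (q : ℝ)⁻¹ := by
  rw [absQ_apply, map_natCast]
  have h1 : algebraMap ℚ_[q] (PadicAlgCl q) (q : ℚ_[q]) = (q : PadicAlgCl q) :=
    map_natCast _ _
  rw [← h1]
  have h2 := PadicAlgCl.norm_extends q (q : ℚ_[q])
  rw [h2, Padic.norm_p]

/-- Elements of the decomposition group are isometries. -/
theorem absQ_map (s : AlgebraicClosure ℚ ≃ₐ[ℚ] AlgebraicClosure ℚ)
    (hs : s ∈ (padicPlace q).decompositionSubgroup ℚ) (x : AlgebraicClosure ℚ) :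
    absQ q (s x) = absQ q x := by
  have hmem : ∀ a, s a ∈ padicPlace q ↔ a ∈ padicPlace q :=
    (mem_decompositionSubgroup_iff_forall _ s).mp hs
  let v₂ : AbsoluteValue (AlgebraicClosure ℚ) ℝ :=
    (absQ q).comp (f := (s : AlgebraicClosure ℚ →+* AlgebraicClosure ℚ)) s.injective
  have hv₂ : ∀ a, v₂ a = absQ q (s a) := fun a => rfl
  have hle : ∀ a, v₂ a ≤ 1 ↔ absQ q a ≤ 1 := fun a => by
    rw [hv₂, absQ_le_one_iff, absQ_le_one_iff]
    exact hmem a
  have hlt : ∀ a, absQ q a < 1 ↔ v₂ a < 1 := by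
    intro a
    by_cases ha : a = 0
    · subst ha
      simp
    · have h1 := hle a⁻¹
      rw [map_inv₀, map_inv₀] at h1
      have hpos1 : 0 < absQ q a := (absQ q).pos ha
      have hpos2 : 0 < v₂ a := v₂.pos ha
      rw [inv_le_one_iff₀, inv_le_one_iff₀] at h1
      constructor
      · intro h
        by_contra hcon
        push Not at hcon
        have := h1.mp (Or.inr hcon)
        rcases this with h0 | h1'
        · linarith
        · linarith
      · intro h
        by_contra hcon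
        push Not at hcon
        have := h1.mpr (Or.inr hcon)
        rcases this with h0 | h1'
        · linarith
        · linarith
  have heq : (absQ q).IsEquiv v₂ := AbsoluteValue.isEquiv_iff_lt_one_iff.mpr hlt
  obtain ⟨c, hc, hcv⟩ := AbsoluteValue.isEquiv_iff_exists_rpow_eq.mp heq
  have hq1 : (1 : ℝ) < q := by exact_mod_cast (Fact.out : q.Prime).one_lt
  have hval : v₂ (q : AlgebraicClosure ℚ) = (q : ℝ)⁻¹ := by
    rw [hv₂, map_natCast, absQ_natCast_self]
  have hc1 : c = 1 := by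
    have h1 : (absQ q (q : AlgebraicClosure ℚ)) ^ c = v₂ (q : AlgebraicClosure ℚ) :=
      congrFun hcv (q : AlgebraicClosure ℚ)
    rw [hval, absQ_natCast_self] at h1
    have hpos : (0 : ℝ) < (q : ℝ)⁻¹ := inv_pos.mpr (by linarith)
    have hne : ((q : ℝ)⁻¹) ≠ 1 := by
      intro h
      have : (q : ℝ) = 1 := by
        rw [← inv_inv (q : ℝ), h, inv_one]
      linarith
    have h2 : ((q : ℝ)⁻¹) ^ c = ((q : ℝ)⁻¹) ^ (1 : ℝ) := by rw [h1, Real.rpow_one]
    have hlog := congrArg Real.log h2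
    rw [Real.log_rpow hpos, Real.log_rpow hpos] at hlog
    have hlogne : Real.log ((q : ℝ)⁻¹) ≠ 0 := by
      rw [Real.log_ne_zero]
      refine ⟨hpos.ne', hne, ?_⟩
      linarith
    exact mul_right_cancel₀ hlogne hlog
  have h3 : (absQ q x) ^ c = v₂ x := congrFun hcv x
  rw [hc1, Real.rpow_one] at h3
  rw [← hv₂, ← h3]

/-- Elements of the decomposition group are isometries. -/
theorem norm_padicEmbedding_map (s : AlgebraicClosure ℚ ≃ₐ[ℚ] AlgebraicClosure ℚ)
    (hs : s ∈ (padicPlace q).decompositionSubgroup ℚ) (x : AlgebraicClosure ℚ) :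
    ‖padicEmbedding q (s x)‖ = ‖padicEmbedding q x‖ :=
  absQ_map q s hs x

section Approx

/-- Bound for the difference between a polynomial value and an approximating sum. -/
theorem norm_aeval_sub_le (g : Polynomial ℚ_[q]) (r : ℕ → ℚ) (δ : ℝ)
    (hr : ∀ i, ‖g.coeff i - (r i : ℚ_[q])‖ ≤ δ) (y : PadicAlgCl q) :
    ‖Polynomial.aeval y g - ∑ i ∈ Finset.range (g.natDegree + 1),
        algebraMap ℚ_[q] (PadicAlgCl q) (r i : ℚ_[q]) * y ^ i‖
      ≤ δ * ∑ i ∈ Finset.range (g.natDegree + 1), ‖y‖ ^ i := by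
  rw [Polynomial.aeval_eq_sum_range, ← Finset.sum_sub_distrib, Finset.mul_sum]
  refine (norm_sum_le _ _).trans (Finset.sum_le_sum fun i _ => ?_)
  have h1 : g.coeff i • y ^ i - algebraMap ℚ_[q] (PadicAlgCl q) (r i : ℚ_[q]) * y ^ i
      = (g.coeff i - (r i : ℚ_[q])) • y ^ i := by
    rw [sub_smul, Algebra.smul_def, Algebra.smul_def]
  rw [h1, norm_smul, norm_pow]
  exact mul_le_mul_of_nonneg_right (hr i) (pow_nonneg (norm_nonneg _) _)

theorem padicEmbedding_sum (r : ℕ → ℚ) (n : ℕ) (a : AlgebraicClosure ℚ) :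
    padicEmbedding q (∑ i ∈ Finset.range n, algebraMap ℚ (AlgebraicClosure ℚ) (r i) * a ^ i)
      = ∑ i ∈ Finset.range n,
          algebraMap ℚ_[q] (PadicAlgCl q) (r i : ℚ_[q]) * (padicEmbedding q a) ^ i := by
  rw [map_sum]
  refine Finset.sum_congr rfl fun i _ => ?_
  rw [map_mul, map_pow, AlgHom.commutes]
  congr 1

end Approx

/-- **Local lift.** For `s` in the decomposition group of `padicPlace q` and `α ∈ ℚ̄` there
is a local automorphism agreeing with `s` on `α`. -/
theorem exists_local_lift (s : AlgebraicClosure ℚ ≃ₐ[ℚ] AlgebraicClosure ℚ)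
    (hs : s ∈ (padicPlace q).decompositionSubgroup ℚ) (α : AlgebraicClosure ℚ) :
    ∃ τ : PadicAlgCl q ≃ₐ[ℚ_[q]] PadicAlgCl q, localGaloisToGlobal q τ α = s α := by
  obtain ⟨β, hβ⟩ : ∃ β, β = padicEmbedding q α := ⟨_, rfl⟩
  obtain ⟨β', hβ'⟩ : ∃ β', β' = padicEmbedding q (s α) := ⟨_, rfl⟩
  have halg : IsAlgebraic ℚ_[q] β := Algebra.IsAlgebraic.isAlgebraic β
  have hroot : Polynomial.aeval β' (minpoly ℚ_[q] β) = 0 := by
    obtain ⟨g, hg⟩ : ∃ g, g = minpoly ℚ_[q] β := ⟨_, rfl⟩
    rw [← hg]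
    have hgβ : Polynomial.aeval β g = 0 := by rw [hg]; exact minpoly.aeval _ _
    rw [← norm_eq_zero]
    obtain ⟨C, hCdef⟩ : ∃ C : ℝ, C = ∑ i ∈ Finset.range (g.natDegree + 1), ‖β‖ ^ i
        + ∑ i ∈ Finset.range (g.natDegree + 1), ‖β'‖ ^ i := ⟨_, rfl⟩
    have hC : 0 ≤ C := by
      rw [hCdef]
      exact add_nonneg (Finset.sum_nonneg fun i _ => pow_nonneg (norm_nonneg _) _)
        (Finset.sum_nonneg fun i _ => pow_nonneg (norm_nonneg _) _)
    apply le_antisymm _ (norm_nonneg _)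
    apply le_of_forall_pos_le_add
    intro ε hε
    rw [zero_add]
    obtain ⟨δ, hδdef⟩ : ∃ δ : ℝ, δ = ε / (C + 1) := ⟨_, rfl⟩
    have hδ : 0 < δ := by rw [hδdef]; positivity
    have hδC : δ * C ≤ ε := by
      rw [hδdef, div_mul_eq_mul_div, div_le_iff₀ (by positivity)]
      nlinarith
    have hex : ∀ i : ℕ, ∃ r : ℚ, ‖g.coeff i - (r : ℚ_[q])‖ < δ :=
      fun i => Padic.rat_dense q (g.coeff i) hδ
    choose r hr using hex
    have hr' : ∀ i, ‖g.coeff i - (r i : ℚ_[q])‖ ≤ δ := fun i => (hr i).le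
    obtain ⟨e, he⟩ : ∃ e : AlgebraicClosure ℚ, e = ∑ i ∈ Finset.range (g.natDegree + 1),
        algebraMap ℚ (AlgebraicClosure ℚ) (r i) * α ^ i := ⟨_, rfl⟩
    have h1 : padicEmbedding q e = ∑ i ∈ Finset.range (g.natDegree + 1),
        algebraMap ℚ_[q] (PadicAlgCl q) (r i : ℚ_[q]) * β ^ i := by
      rw [he, padicEmbedding_sum, hβ]
    have hse : s e = ∑ i ∈ Finset.range (g.natDegree + 1),
        algebraMap ℚ (AlgebraicClosure ℚ) (r i) * (s α) ^ i := by
      rw [he, map_sum]
      refine Finset.sum_congr rfl fun i _ => ?_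
      rw [map_mul, map_pow, AlgEquiv.commutes]
    have h2 : padicEmbedding q (s e) = ∑ i ∈ Finset.range (g.natDegree + 1),
        algebraMap ℚ_[q] (PadicAlgCl q) (r i : ℚ_[q]) * β' ^ i := by
      rw [hse, padicEmbedding_sum, hβ']
    have h3 : ‖padicEmbedding q (s e)‖ = ‖padicEmbedding q e‖ :=
      norm_padicEmbedding_map q s hs e
    have h4 := norm_aeval_sub_le q g r δ hr' β
    have h5 := norm_aeval_sub_le q g r δ hr' β'
    rw [hgβ, zero_sub, norm_neg, ← h1] at h4
    rw [← h2] at h5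
    calc ‖Polynomial.aeval β' g‖
        = ‖(Polynomial.aeval β' g - padicEmbedding q (s e)) + padicEmbedding q (s e)‖ := by
          rw [sub_add_cancel]
      _ ≤ ‖Polynomial.aeval β' g - padicEmbedding q (s e)‖ + ‖padicEmbedding q (s e)‖ :=
          norm_add_le _ _
      _ ≤ δ * ∑ i ∈ Finset.range (g.natDegree + 1), ‖β'‖ ^ i
          + δ * ∑ i ∈ Finset.range (g.natDegree + 1), ‖β‖ ^ i := by
          rw [h3]
          exact add_le_add h5 h4
      _ = δ * C := by rw [hCdef]; ring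
      _ ≤ ε := hδC
  haveI : Normal ℚ_[q] (PadicAlgCl q) := IsAlgClosure.normal ℚ_[q] (PadicAlgCl q)
  obtain ⟨σ, hσ⟩ := minpoly.exists_algEquiv_of_root halg hroot
  refine ⟨σ.symm, ?_⟩
  apply (padicEmbedding q).toRingHom.injective
  show padicEmbedding q (localGaloisToGlobal q σ.symm α) = padicEmbedding q (s α)
  rw [padicEmbedding_localGaloisToGlobal, ← hβ, ← hβ', ← hσ]
  exact σ.symm_apply_apply β'

/-- **Local lift on a finite extension.** -/
theorem exists_local_lift_field (s : AlgebraicClosure ℚ ≃ₐ[ℚ] AlgebraicClosure ℚ)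
    (hs : s ∈ (padicPlace q).decompositionSubgroup ℚ)
    (L : IntermediateField ℚ (AlgebraicClosure ℚ)) [FiniteDimensional ℚ L] :
    ∃ τ : PadicAlgCl q ≃ₐ[ℚ_[q]] PadicAlgCl q, ∀ x ∈ L, localGaloisToGlobal q τ x = s x := by
  obtain ⟨α, hα⟩ := Field.exists_primitive_element ℚ L
  obtain ⟨τ, hτ⟩ := exists_local_lift q s hs (α : AlgebraicClosure ℚ)
  refine ⟨τ, fun x hx => ?_⟩
  -- the two restrictions to `L` agree on the generator
  let f₁ : L →ₐ[ℚ] AlgebraicClosure ℚ :=
    ((localGaloisToGlobal q τ : AlgebraicClosure ℚ ≃ₐ[ℚ] AlgebraicClosure ℚ) :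
      AlgebraicClosure ℚ →ₐ[ℚ] AlgebraicClosure ℚ).comp L.val
  let f₂ : L →ₐ[ℚ] AlgebraicClosure ℚ :=
    ((s : AlgebraicClosure ℚ ≃ₐ[ℚ] AlgebraicClosure ℚ) :
      AlgebraicClosure ℚ →ₐ[ℚ] AlgebraicClosure ℚ).comp L.val
  have hf : f₁ = f₂ := by
    have h1 : Algebra.adjoin ℚ {α} = ⊤ := by
      have h2 := IntermediateField.adjoin_simple_toSubalgebra_of_isAlgebraic
        (Algebra.IsAlgebraic.isAlgebraic (R := ℚ) α)
      rw [hα, IntermediateField.top_toSubalgebra] at h2
      exact h2.symm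
    refine AlgHom.ext_of_adjoin_eq_top h1 (fun y hy => ?_)
    rw [Set.mem_singleton_iff] at hy
    subst hy
    exact hτ
  exact DFunLike.congr_fun hf ⟨x, hx⟩

end Fermat.Agent.Lib.LocalGlobalDense
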