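import Mathlib.NumberTheory.NumberField.ClassNumber
import Mathlib.Analysis.SpecialFunctions.Log.Basic
import Mathlib.Analysis.SpecialFunctions.Pow.Real
import Mathlib.Analysis.Complex.Basic
import Mathlib.Topology.Algebra.InfiniteSum.Basic

/-!
# Interface for `Fermat.Agent.Lib.ZetaPrimes` (S14 package B2)

Definitions and the exact `Prop`s proved in `Fermat/Agent/Lib/ZetaPrimes.lean` and
`Fermat/Agent/Lib/ClassLSeries.lean`.  Downstream files can take these `Prop`s as hypotheses.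
-/

namespace Fermat.Agent.Lib.ZetaPrimes

open NumberField IsDedekindDomain Filter Topology Ideal nonZeroDivisors

variable (K : Type*) [Field K] [NumberField K]

/-- The class of a nonzero prime ideal in the class group. -/
noncomputable def primeClass (v : HeightOneSpectrum (𝓞 K)) : ClassGroup (𝓞 K) :=
  ClassGroup.mk0 ⟨v.asIdeal, mem_nonZeroDivisors_of_ne_zero v.ne_bot⟩

/-- The term `N(𝔭)^{-s}`. -/
noncomputable def primeTerm (s : ℝ) (v : HeightOneSpectrum (𝓞 K)) : ℝ :=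
  (absNorm v.asIdeal : ℝ) ^ (-s)

/-- `∑_𝔭 N𝔭^{-s}` converges for `s > 1`. -/
def StmtSummablePrimeTerm : Prop :=
  ∀ s : ℝ, 1 < s → Summable (primeTerm K s)

/-- `∑_𝔭 N𝔭^{-s} ≥ log (1/(s-1)) - C` as `s → 1⁺`. -/
def StmtPrimeSumGe : Prop :=
  ∃ C : ℝ, ∀ᶠ s in 𝓝[>] (1 : ℝ), Real.log (1 / (s - 1)) - C ≤ ∑' v, primeTerm K s v

/-- `∑_𝔭 N𝔭^{-s} ≤ log (1/(s-1)) + C` as `s → 1⁺`. -/
def StmtPrimeSumLe : Prop :=
  ∃ C : ℝ, ∀ᶠ s in 𝓝[>] (1 : ℝ), ∑' v, primeTerm K s v ≤ Real.log (1 / (s - 1)) + C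

/-- The primes whose absolute norm is not a prime number contribute `O(1)`. -/
def StmtNotPrimeNormLe : Prop :=
  ∃ C : ℝ, ∀ s : ℝ, 1 < s →
    ∑' v : {v : HeightOneSpectrum (𝓞 K) // ¬ (absNorm v.asIdeal).Prime}, primeTerm K s v ≤ C

/-- The counting hypothesis (package B1): ideals of norm `≤ t` in a class, with error term. -/
def CountingBound (κ δ A : ℝ) : Prop :=
  ∀ (C : ClassGroup (𝓞 K)) (t : ℝ), 1 ≤ t →
    |(Nat.card {I : (Ideal (𝓞 K))⁰ //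
        absNorm (I : Ideal (𝓞 K)) ≤ t ∧ ClassGroup.mk0 I = C} : ℝ) - κ * t| ≤ A * t ^ (1 - δ)

/-- For a nontrivial class group character `χ`, `Re ∑_𝔭 χ(𝔭) N𝔭^{-s}` is bounded above
on `(1, 2]` (given the counting bound). -/
def StmtCharPrimeSumLe : Prop :=
  ∀ (κ δ A : ℝ), 0 < δ → CountingBound K κ δ A →
    ∀ χ : ClassGroup (𝓞 K) →* ℂˣ, χ ≠ 1 →
      ∃ C : ℝ, ∀ s : ℝ, 1 < s → s ≤ 2 →
        (∑' v, ((χ (primeClass K v) : ℂˣ) : ℂ) * ((primeTerm K s v : ℝ) : ℂ)).re ≤ C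

end Fermat.Agent.Lib.ZetaPrimes
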