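import Fermat.Agent.Lib.ClassLSeries
import Mathlib.Analysis.SpecialFunctions.ImproperIntegrals

/-!
# Boundedness of `L(s, χ)` near `s = 1` for nontrivial class group characters

Given the counting bound with error term (`CountingBound`), we show that `‖L(s, χ)‖` is bounded
on `(1, 2]` for `χ ≠ 1`, and deduce `StmtCharPrimeSumLe K`.
-/

namespace Fermat.Agent.Lib.ZetaPrimes

open NumberField IsDedekindDomain Filter Topology Ideal nonZeroDivisors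

variable {K : Type*} [Field K] [NumberField K]

/-- The coefficients of the L-series of `χ`. -/
noncomputable def lCoeff (χ : ClassGroup (𝓞 K) →* ℂˣ) (n : ℕ) : ℂ :=
  ∑' I : {I : Ideal (𝓞 K) // absNorm I = n}, chiIdeal χ I

/-- `L(s, χ)` is the sum of the L-series with coefficients `lCoeff χ`. -/
theorem hasSum_term_lCoeff (χ : ClassGroup (𝓞 K) →* ℂˣ) {s : ℝ} (hs : 1 < s) :
    HasSum (LSeries.term (lCoeff χ) (s : ℂ)) (lValue χ s) := by
  have hF : HasSum (lTerm χ s) (lValue χ s) := (summable_lTerm χ hs).hasSum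
  rw [← (Equiv.sigmaFiberEquiv (fun I : Ideal (𝓞 K) ↦ absNorm I)).hasSum_iff] at hF
  refine HasSum.sigma hF (fun n ↦ ?_)
  have hc : ∀ I : {I : Ideal (𝓞 K) // absNorm I = n},
      (lTerm χ s ∘ (Equiv.sigmaFiberEquiv (fun I : Ideal (𝓞 K) ↦ absNorm I))) ⟨n, I⟩ =
        chiIdeal χ I * (((n : ℝ) ^ (-s) : ℝ) : ℂ) := by
    intro I
    simp [lTerm, normPow, I.2]
  simp_rw [hc]
  have h1 : HasSum (fun I : {I : Ideal (𝓞 K) // absNorm I = n} ↦ chiIdeal χ (I : Ideal (𝓞 K)))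
      (lCoeff χ n) := (Summable.of_finite).hasSum
  have h2 := h1.mul_right (((n : ℝ) ^ (-s) : ℝ) : ℂ)
  have hterm : LSeries.term (lCoeff χ) (s : ℂ) n = lCoeff χ n * (((n : ℝ) ^ (-s) : ℝ) : ℂ) := by
    rw [LSeries.term]
    split_ifs with hn
    · simp [hn, Real.zero_rpow (neg_ne_zero.mpr (zero_lt_one.trans hs).ne')]
    · rw [Complex.ofReal_cpow (Nat.cast_nonneg _), Complex.ofReal_neg, Complex.cpow_neg,
        div_eq_mul_inv, Complex.ofReal_natCast]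
  rw [hterm]
  exact h2

theorem lseriesSummable_lCoeff (χ : ClassGroup (𝓞 K) →* ℂˣ) {s : ℝ} (hs : 1 < s) :
    LSeriesSummable (lCoeff χ) (s : ℂ) :=
  (hasSum_term_lCoeff χ hs).summable

theorem lValue_eq_LSeries (χ : ClassGroup (𝓞 K) →* ℂˣ) {s : ℝ} (hs : 1 < s) :
    lValue χ s = LSeries (lCoeff χ) (s : ℂ) :=
  (hasSum_term_lCoeff χ hs).tsum_eq.symm

/-- The finite set of nonzero ideals of norm `≤ n`. -/
noncomputable def idealsLe (K : Type*) [Field K] [NumberField K] (n : ℕ) :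
    Finset (Ideal (𝓞 K)) :=
  open Classical in
  (finite_setOfPred_absNorm_le (S := 𝓞 K) n).toFinset.filter (fun I ↦ I ≠ ⊥)

lemma mem_idealsLe {n : ℕ} {I : Ideal (𝓞 K)} :
    I ∈ idealsLe K n ↔ absNorm I ≤ n ∧ I ≠ ⊥ := by
  simp [idealsLe]

lemma mem_idealsLe' {n : ℕ} {I : Ideal (𝓞 K)} :
    I ∈ idealsLe K n ↔ absNorm I ∈ Finset.Icc 1 n := by
  rw [mem_idealsLe, Finset.mem_Icc, Nat.one_le_iff_ne_zero, Ne, Ne, Ideal.absNorm_eq_zero_iff]
  tauto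

/-- Partial sums of the coefficients as a sum over ideals. -/
theorem sum_lCoeff_eq_sum_idealsLe (χ : ClassGroup (𝓞 K) →* ℂˣ) (n : ℕ) :
    ∑ k ∈ Finset.Icc 1 n, lCoeff χ k = ∑ I ∈ idealsLe K n, chiIdeal χ I := by
  classical
  have h1 : ∀ k ∈ Finset.Icc 1 n, lCoeff χ k =
      ∑ I ∈ idealsLe K n, if absNorm I = k then chiIdeal χ I else 0 := by
    intro k hk
    have h0 : lCoeff χ k = ∑' I : ({I : Ideal (𝓞 K) | absNorm I = k} : Set (Ideal (𝓞 K))),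
        chiIdeal χ I := rfl
    rw [h0, tsum_subtype {I : Ideal (𝓞 K) | absNorm I = k} (fun I ↦ chiIdeal χ I)]
    rw [tsum_eq_sum (s := idealsLe K n)]
    · refine Finset.sum_congr rfl (fun I _ ↦ ?_)
      simp [Set.indicator_apply]
    · intro I hI
      rw [Set.indicator_apply, if_neg]
      intro hIk
      apply hI
      rw [mem_idealsLe']
      have : absNorm I = k := hIk
      rwa [this]
  rw [Finset.sum_congr rfl h1, Finset.sum_comm]
  refine Finset.sum_congr rfl (fun I hI ↦ ?_)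
  rw [Finset.sum_ite_eq, if_pos (mem_idealsLe'.mp hI)]

/-- The number of ideals of norm `≤ n` in a class, via `idealsLe`. -/
theorem card_filter_idealsLe (n : ℕ) (C : ClassGroup (𝓞 K)) :
    open Classical in
    ((idealsLe K n).filter (fun I ↦ idealClass K I = C)).card =
      Nat.card {I : (Ideal (𝓞 K))⁰ //
        (absNorm (I : Ideal (𝓞 K)) : ℝ) ≤ (n : ℝ) ∧ ClassGroup.mk0 I = C} := by
  classical
  rw [← Nat.card_eq_finsetCard]
  refine Nat.card_congr ?_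
  refine
    { toFun := fun I ↦ ⟨⟨I.1, mem_nonZeroDivisors_of_ne_zero
          (mem_idealsLe.mp (Finset.mem_filter.mp I.2).1).2⟩, ?_, ?_⟩
      invFun := fun I ↦ ⟨(I.1 : Ideal (𝓞 K)), ?_⟩
      left_inv := fun I ↦ rfl
      right_inv := fun I ↦ rfl }
  · exact_mod_cast (mem_idealsLe.mp (Finset.mem_filter.mp I.2).1).1
  · rw [← idealClass_coe]
    exact (Finset.mem_filter.mp I.2).2
  · rw [Finset.mem_filter, mem_idealsLe]
    refine ⟨⟨by exact_mod_cast I.2.1, nonZeroDivisors.coe_ne_zero I.1⟩, ?_⟩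
    rw [idealClass_coe]
    exact I.2.2

/-- Partial sums of the coefficients in terms of class counts. -/
theorem sum_lCoeff_eq_sum_class (χ : ClassGroup (𝓞 K) →* ℂˣ) (n : ℕ) :
    ∑ k ∈ Finset.Icc 1 n, lCoeff χ k = ∑ C : ClassGroup (𝓞 K), ((χ C : ℂˣ) : ℂ) *
      (Nat.card {I : (Ideal (𝓞 K))⁰ //
        (absNorm (I : Ideal (𝓞 K)) : ℝ) ≤ (n : ℝ) ∧ ClassGroup.mk0 I = C} : ℂ) := by
  classical
  rw [sum_lCoeff_eq_sum_idealsLe, ← Finset.sum_fiberwise (idealsLe K n) (idealClass K)]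
  refine Finset.sum_congr rfl (fun C _ ↦ ?_)
  rw [← card_filter_idealsLe, mul_comm, ← nsmul_eq_mul, ← Finset.sum_const]
  refine Finset.sum_congr rfl (fun I hI ↦ ?_)
  obtain ⟨hI1, hI2⟩ := Finset.mem_filter.mp hI
  rw [chiIdeal_of_ne_bot χ (mem_idealsLe.mp hI1).2, hI2]

/-- The sum of the values of a nontrivial character vanishes. -/
theorem sum_char_eq_zero {χ : ClassGroup (𝓞 K) →* ℂˣ} (hχ : χ ≠ 1) :
    ∑ C : ClassGroup (𝓞 K), ((χ C : ℂˣ) : ℂ) = 0 := by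
  obtain ⟨g, hg⟩ : ∃ g, χ g ≠ 1 := by
    by_contra h
    refine hχ (MonoidHom.ext fun g ↦ ?_)
    by_contra hg
    exact h ⟨g, hg⟩
  have h1 : ∑ C : ClassGroup (𝓞 K), ((χ C : ℂˣ) : ℂ) =
      ((χ g : ℂˣ) : ℂ) * ∑ C : ClassGroup (𝓞 K), ((χ C : ℂˣ) : ℂ) := by
    rw [Finset.mul_sum, ← Fintype.sum_equiv (Equiv.mulLeft g) (fun C ↦ ((χ (g * C) : ℂˣ) : ℂ))
      (fun C ↦ ((χ C : ℂˣ) : ℂ)) (fun C ↦ rfl)]
    refine Finset.sum_congr rfl (fun C _ ↦ ?_)
    rw [map_mul, Units.val_mul]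
  have h2 : (1 - ((χ g : ℂˣ) : ℂ)) * ∑ C : ClassGroup (𝓞 K), ((χ C : ℂˣ) : ℂ) = 0 := by
    rw [sub_mul, one_mul, ← h1, sub_self]
  rcases mul_eq_zero.mp h2 with h | h
  · exfalso
    apply hg
    rw [sub_eq_zero] at h
    exact Units.ext h.symm
  · exact h

/-- The partial sums of the coefficients of `L(s, χ)`, `χ ≠ 1`, are `O(n^{1-δ})`. -/
theorem norm_sum_lCoeff_le {κ δ A : ℝ} (hcb : CountingBound K κ δ A)
    {χ : ClassGroup (𝓞 K) →* ℂˣ} (hχ : χ ≠ 1) {n : ℕ} (hn : 1 ≤ n) :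
    ‖∑ k ∈ Finset.Icc 1 n, lCoeff χ k‖ ≤
      Fintype.card (ClassGroup (𝓞 K)) * (A * (n : ℝ) ^ (1 - δ)) := by
  have h0 : ∑ C : ClassGroup (𝓞 K), ((χ C : ℂˣ) : ℂ) * ((κ * n : ℝ) : ℂ) = 0 := by
    rw [← Finset.sum_mul, sum_char_eq_zero hχ, zero_mul]
  rw [sum_lCoeff_eq_sum_class, ← sub_zero (∑ C : ClassGroup (𝓞 K), _), ← h0,
    ← Finset.sum_sub_distrib]
  refine (norm_sum_le _ _).trans ?_
  have : ∀ C ∈ (Finset.univ : Finset (ClassGroup (𝓞 K))),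
      ‖((χ C : ℂˣ) : ℂ) * (Nat.card {I : (Ideal (𝓞 K))⁰ //
        (absNorm (I : Ideal (𝓞 K)) : ℝ) ≤ (n : ℝ) ∧ ClassGroup.mk0 I = C} : ℂ) -
        ((χ C : ℂˣ) : ℂ) * ((κ * n : ℝ) : ℂ)‖ ≤ A * (n : ℝ) ^ (1 - δ) := by
    intro C _
    rw [← mul_sub, norm_mul, norm_char_eq_one, one_mul]
    have h1 := hcb C (n : ℝ) (by exact_mod_cast hn)
    have h2 : ((Nat.card {I : (Ideal (𝓞 K))⁰ //
        (absNorm (I : Ideal (𝓞 K)) : ℝ) ≤ (n : ℝ) ∧ ClassGroup.mk0 I = C} : ℂ) -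
        ((κ * n : ℝ) : ℂ)) = (((Nat.card {I : (Ideal (𝓞 K))⁰ //
        (absNorm (I : Ideal (𝓞 K)) : ℝ) ≤ (n : ℝ) ∧ ClassGroup.mk0 I = C} : ℝ) -
        κ * n : ℝ) : ℂ) := by
      push_cast
      ring
    rw [h2, Complex.norm_real, Real.norm_eq_abs]
    exact h1
  calc ∑ C : ClassGroup (𝓞 K), ‖_‖ ≤ ∑ _C : ClassGroup (𝓞 K), A * (n : ℝ) ^ (1 - δ) :=
        Finset.sum_le_sum this
    _ = Fintype.card (ClassGroup (𝓞 K)) * (A * (n : ℝ) ^ (1 - δ)) := by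
        rw [Finset.sum_const, Finset.card_univ, nsmul_eq_mul]

lemma countingBound_nonneg {κ δ A : ℝ} (hcb : CountingBound K κ δ A) : 0 ≤ A := by
  have h := hcb 1 1 le_rfl
  simp only [Real.one_rpow, mul_one] at h
  exact le_trans (abs_nonneg _) h

/-- `‖L(s, χ)‖` is bounded on `(1, 2]` for `χ ≠ 1`. -/
theorem norm_lValue_le {κ δ A : ℝ} (hδ : 0 < δ) (hcb : CountingBound K κ δ A)
    {χ : ClassGroup (𝓞 K) →* ℂˣ} (hχ : χ ≠ 1) {s : ℝ} (hs : 1 < s) (hs2 : s ≤ 2) :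
    ‖lValue χ s‖ ≤ 2 * (Fintype.card (ClassGroup (𝓞 K)) * A) / min δ 1 := by
  set δ' : ℝ := min δ 1 with hδ'
  have hδ'pos : 0 < δ' := lt_min hδ one_pos
  have hδ'le : δ' ≤ 1 := min_le_right _ _
  have hδ'δ : δ' ≤ δ := min_le_left _ _
  set r : ℝ := 1 - δ' with hr
  have hr0 : 0 ≤ r := by linarith
  have hrs : r < s := by linarith
  have hA : 0 ≤ A := countingBound_nonneg hcb
  set M : ℝ := Fintype.card (ClassGroup (𝓞 K)) * A with hM
  have hM0 : 0 ≤ M := mul_nonneg (Nat.cast_nonneg _) hA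
  have hbound : ∀ n : ℕ, 1 ≤ n → ‖∑ k ∈ Finset.Icc 1 n, lCoeff χ k‖ ≤ M * (n : ℝ) ^ r := by
    intro n hn
    refine (norm_sum_lCoeff_le hcb hχ hn).trans ?_
    rw [hM, mul_assoc]
    refine mul_le_mul_of_nonneg_left (mul_le_mul_of_nonneg_left ?_ hA) (Nat.cast_nonneg _)
    exact Real.rpow_le_rpow_of_exponent_le (by exact_mod_cast hn) (by linarith)
  have hO : (fun n : ℕ ↦ ∑ k ∈ Finset.Icc 1 n, lCoeff χ k) =O[atTop]
      fun n : ℕ ↦ (n : ℝ) ^ r := by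
    refine Asymptotics.IsBigO.of_bound M ?_
    filter_upwards [eventually_ge_atTop 1] with n hn
    rw [Real.norm_of_nonneg (Real.rpow_nonneg (Nat.cast_nonneg _) _)]
    exact hbound n hn
  have hsre : r < (s : ℂ).re := by simpa using hrs
  rw [lValue_eq_LSeries χ hs,
    LSeries_eq_mul_integral (lCoeff χ) hr0 hsre (lseriesSummable_lCoeff χ hs) hO, norm_mul]
  have hsnorm : ‖(s : ℂ)‖ = s := by
    rw [Complex.norm_real, Real.norm_of_nonneg (by linarith)]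
  rw [hsnorm]
  have ha : r - s - 1 < -1 := by linarith
  have hint : MeasureTheory.IntegrableOn (fun t : ℝ ↦ M * t ^ (r - s - 1)) (Set.Ioi 1) :=
    (integrableOn_Ioi_rpow_of_lt ha one_pos).const_mul M
  have hle : ‖∫ t in Set.Ioi (1 : ℝ), (∑ k ∈ Finset.Icc 1 ⌊t⌋₊, lCoeff χ k) *
      (t : ℂ) ^ (-((s : ℂ) + 1))‖ ≤ ∫ t in Set.Ioi (1 : ℝ), M * t ^ (r - s - 1) := by
    refine MeasureTheory.norm_integral_le_of_norm_le hint ?_
    refine (MeasureTheory.ae_restrict_iff' measurableSet_Ioi).mpr (Filter.Eventually.of_forall ?_)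
    intro t ht
    have ht1 : (1 : ℝ) < t := ht
    have ht0 : (0 : ℝ) < t := by linarith
    have hfl : 1 ≤ ⌊t⌋₊ := Nat.floor_pos.mpr ht1.le
    rw [norm_mul, Complex.norm_cpow_eq_rpow_re_of_pos ht0]
    have hre : (-((s : ℂ) + 1)).re = -(s + 1) := by simp
    rw [hre]
    have h1 : ‖∑ k ∈ Finset.Icc 1 ⌊t⌋₊, lCoeff χ k‖ ≤ M * t ^ r := by
      refine (hbound _ hfl).trans (mul_le_mul_of_nonneg_left ?_ hM0)
      exact Real.rpow_le_rpow (Nat.cast_nonneg _) (Nat.floor_le ht0.le) hr0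
    calc ‖∑ k ∈ Finset.Icc 1 ⌊t⌋₊, lCoeff χ k‖ * t ^ (-(s + 1))
        ≤ (M * t ^ r) * t ^ (-(s + 1)) :=
          mul_le_mul_of_nonneg_right h1 (Real.rpow_nonneg ht0.le _)
      _ = M * t ^ (r - s - 1) := by
          rw [mul_assoc, ← Real.rpow_add ht0]
          congr 2
          ring
  have hval : ∫ t in Set.Ioi (1 : ℝ), M * t ^ (r - s - 1) = M / (s - r) := by
    rw [MeasureTheory.integral_const_mul, integral_Ioi_rpow_of_lt ha one_pos, Real.one_rpow]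
    have : r - s - 1 + 1 = -(s - r) := by ring
    rw [this, neg_div_neg_eq, mul_one_div]
  rw [hval] at hle
  have hsr : δ' ≤ s - r := by linarith
  have hsrpos : 0 < s - r := by linarith
  calc s * ‖∫ t in Set.Ioi (1 : ℝ), (∑ k ∈ Finset.Icc 1 ⌊t⌋₊, lCoeff χ k) *
        (t : ℂ) ^ (-((s : ℂ) + 1))‖
      ≤ s * (M / (s - r)) := mul_le_mul_of_nonneg_left hle (by linarith)
    _ ≤ 2 * (M / δ') := by
        refine mul_le_mul hs2 ?_ (div_nonneg hM0 hsrpos.le) (by norm_num)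
        exact div_le_div_of_nonneg_left hM0 hδ'pos hsr
    _ = 2 * M / δ' := by ring

/-- **S14 package B2**: for a nontrivial class group character, `Re ∑_𝔭 χ(𝔭) N𝔭^{-s}` is
bounded above on `(1, 2]`, given the counting bound with error term. -/
theorem charPrimeSum_le (K : Type*) [Field K] [NumberField K] : StmtCharPrimeSumLe K := by
  intro κ δ A hδ hcb χ hχ
  refine ⟨Real.log (2 * (Fintype.card (ClassGroup (𝓞 K)) * A) / min δ 1) +
    ∑' v, primeTerm K 2 v, fun s hs hs2 ↦ ?_⟩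
  exact re_tsum_charPrimeTerm_le χ hs (norm_lValue_le hδ hcb hχ hs hs2)

end Fermat.Agent.Lib.ZetaPrimes
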