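import Mathlib.RingTheory.DedekindDomain.Factorization
import Mathlib.Analysis.Normed.Ring.InfiniteSum
import Mathlib.Analysis.SpecificLimits.Normed

/-!
# Euler products over the nonzero ideals of a Dedekind domain

For a Dedekind domain `R`, a complete normed field `F` and a completely multiplicative
`f : Ideal R →*₀ F` with `∑ ‖f I‖ < ∞`, we prove
`HasProd (fun v : HeightOneSpectrum R ↦ (1 - f v.asIdeal)⁻¹) (∑' I, f I)`.
-/

namespace Fermat.Agent.Lib.IdealEuler

open IsDedekindDomain Finset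

variable {R : Type*} [CommRing R] [IsDedekindDomain R]

/-- Nonzero ideals all of whose prime divisors lie in `T`. -/
def smoothIdeals (T : Finset (HeightOneSpectrum R)) : Set (Ideal R) :=
  {I | I ≠ ⊥ ∧ ∀ v : HeightOneSpectrum R, I ≤ v.asIdeal → v ∈ T}

omit [IsDedekindDomain R] in
lemma smoothIdeals_mono {T T' : Finset (HeightOneSpectrum R)} (h : T ⊆ T') :
    smoothIdeals T ⊆ smoothIdeals T' :=
  fun _ hI => ⟨hI.1, fun v hv => h (hI.2 v hv)⟩

lemma smoothIdeals_empty : smoothIdeals (∅ : Finset (HeightOneSpectrum R)) = {⊤} := by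
  ext I
  simp only [smoothIdeals, Set.mem_ofPred_eq, Finset.notMem_empty, imp_false,
    Set.mem_singleton_iff]
  constructor
  · rintro ⟨h0, h⟩
    by_contra hI
    obtain ⟨M, hM, hIM⟩ := Ideal.exists_le_maximal I hI
    have hMne : M ≠ ⊥ := fun hb => h0 (le_bot_iff.mp (hb ▸ hIM))
    exact h ⟨M, hM.isPrime, hMne⟩ hIM
  · rintro rfl
    refine ⟨top_ne_bot, fun v hv => ?_⟩
    exact v.isPrime.ne_top (top_le_iff.mp hv)

variable [DecidableEq (HeightOneSpectrum R)]

lemma pow_mul_mem_smoothIdeals {T : Finset (HeightOneSpectrum R)} (v : HeightOneSpectrum R)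
    (k : ℕ) {I : Ideal R} (hI : I ∈ smoothIdeals T) :
    v.asIdeal ^ k * I ∈ smoothIdeals (insert v T) := by
  refine ⟨mul_ne_zero (pow_ne_zero _ v.ne_bot) hI.1, fun w hw => ?_⟩
  rcases (w.isPrime.mul_le).mp hw with h | h
  · have h1 : v.asIdeal ≤ w.asIdeal := w.isPrime.le_of_pow_le h
    have h2 : v.asIdeal = w.asIdeal :=
      (v.isMaximal.eq_of_le w.isPrime.ne_top h1)
    have : v = w := HeightOneSpectrum.ext h2
    rw [← this]
    exact Finset.mem_insert_self v T
  · exact Finset.mem_insert_of_mem (hI.2 w h)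

/-- The map `(k, I) ↦ v ^ k * I`. -/
noncomputable def powMul {T : Finset (HeightOneSpectrum R)} (v : HeightOneSpectrum R)
    (x : ℕ × smoothIdeals T) : smoothIdeals (insert v T) :=
  ⟨v.asIdeal ^ x.1 * x.2.1, pow_mul_mem_smoothIdeals v x.1 x.2.2⟩

omit [IsDedekindDomain R] [DecidableEq (HeightOneSpectrum R)] in
lemma not_dvd_of_mem_smoothIdeals {T : Finset (HeightOneSpectrum R)} {v : HeightOneSpectrum R}
    (hv : v ∉ T) {I : Ideal R} (hI : I ∈ smoothIdeals T) : ¬ v.asIdeal ∣ I :=
  fun h => hv (hI.2 v (Ideal.le_of_dvd h))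

lemma powMul_injective {T : Finset (HeightOneSpectrum R)} {v : HeightOneSpectrum R}
    (hv : v ∉ T) : Function.Injective (powMul (T := T) v) := by
  have key : ∀ (k l : ℕ) (I J : Ideal R), I ∈ smoothIdeals T → J ∈ smoothIdeals T →
      k ≤ l → v.asIdeal ^ k * I = v.asIdeal ^ l * J → k = l ∧ I = J := by
    intro k l I J hI hJ hkl h
    obtain ⟨d, rfl⟩ := Nat.exists_eq_add_of_le hkl
    rw [pow_add, mul_assoc] at h
    have h' := mul_left_cancel₀ (pow_ne_zero k v.ne_bot) h
    rcases Nat.eq_zero_or_pos d with rfl | hd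
    · simpa using h'
    · exfalso
      apply not_dvd_of_mem_smoothIdeals hv hI
      rw [h']
      exact Dvd.dvd.mul_right (dvd_pow_self _ hd.ne') _
  rintro ⟨k, I, hI⟩ ⟨l, J, hJ⟩ h
  have h' : v.asIdeal ^ k * I = v.asIdeal ^ l * J := congrArg Subtype.val h
  rcases le_total k l with hkl | hkl
  · obtain ⟨rfl, rfl⟩ := key k l I J hI hJ hkl h'
    rfl
  · obtain ⟨rfl, rfl⟩ := key l k J I hJ hI hkl h'.symm
    rfl

lemma powMul_surjective {T : Finset (HeightOneSpectrum R)} (v : HeightOneSpectrum R) :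
    Function.Surjective (powMul (T := T) v) := by
  rintro ⟨I, hI0, hI⟩
  have hnu : ¬ IsUnit v.asIdeal := by
    rw [Ideal.isUnit_iff]
    exact v.isPrime.ne_top
  have hfin : FiniteMultiplicity v.asIdeal I := FiniteMultiplicity.of_not_isUnit hnu hI0
  obtain ⟨J, hJ, hvJ⟩ := hfin.exists_eq_pow_mul_and_not_dvd
  have hJ0 : J ≠ ⊥ := by
    rintro rfl
    exact hI0 (by simpa using hJ)
  refine ⟨⟨multiplicity v.asIdeal I, ⟨J, hJ0, fun w hw => ?_⟩⟩, Subtype.ext hJ.symm⟩
  have hwI : I ≤ w.asIdeal := by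
    rw [hJ]
    exact le_trans Ideal.mul_le_right hw
  rcases Finset.mem_insert.mp (hI w hwI) with h | h
  · exfalso
    apply hvJ
    rw [← h]
    exact Ideal.dvd_iff_le.mpr hw
  · exact h

variable {F : Type*} [NormedField F] [CompleteSpace F]

omit [DecidableEq (HeightOneSpectrum R)] in
/-- Finite Euler product = sum over smooth ideals. -/
theorem summable_and_hasSum_smoothIdeals (f : Ideal R →*₀ F)
    (hf : ∀ v : HeightOneSpectrum R, ‖f v.asIdeal‖ < 1) (T : Finset (HeightOneSpectrum R)) :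
    Summable (fun I : smoothIdeals T => ‖f I‖) ∧
      HasSum (fun I : smoothIdeals T => f I) (∏ v ∈ T, (1 - f v.asIdeal)⁻¹) := by
  classical
  induction T using Finset.induction with
  | empty =>
    rw [smoothIdeals_empty]
    simp only [Finset.prod_empty]
    refine ⟨(Set.finite_singleton ⊤).summable (fun I => ‖f I‖), ?_⟩
    have : f (⊤ : Ideal R) = 1 := by
      rw [← Ideal.one_eq_top]; exact map_one f
    rw [← this]
    exact hasSum_singleton ⊤ f
  | insert v T hv ih =>
    obtain ⟨e, he⟩ : ∃ e : ℕ × smoothIdeals T ≃ smoothIdeals (insert v T),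
        ∀ x, (e x : Ideal R) = v.asIdeal ^ x.1 * x.2.1 :=
      ⟨Equiv.ofBijective (powMul v) ⟨powMul_injective hv, powMul_surjective v⟩, fun x => rfl⟩
    have hgeo : Summable (fun n : ℕ => ‖f v.asIdeal ^ n‖) := by
      simp_rw [norm_pow]
      exact summable_geometric_of_lt_one (norm_nonneg _) (hf v)
    have hfe : ∀ x : ℕ × smoothIdeals T, f (e x : Ideal R) = f v.asIdeal ^ x.1 * f x.2.1 := by
      intro x
      rw [he, map_mul, map_pow]
    have key1 : (fun I : smoothIdeals (insert v T) => ‖f I‖) ∘ e =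
        fun x : ℕ × smoothIdeals T => ‖f v.asIdeal ^ x.1‖ * ‖f x.2.1‖ := by
      funext x
      simp only [Function.comp_apply]
      rw [hfe, norm_mul]
    have key2 : (fun I : smoothIdeals (insert v T) => f I) ∘ e =
        fun x : ℕ × smoothIdeals T => f v.asIdeal ^ x.1 * f x.2.1 := by
      funext x
      simp only [Function.comp_apply]
      rw [hfe]
    have h1 : Summable (fun x : ℕ × smoothIdeals T => ‖f v.asIdeal ^ x.1‖ * ‖f x.2.1‖) :=
      Summable.mul_of_nonneg (f := fun n : ℕ => ‖f v.asIdeal ^ n‖)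
        (g := fun I : smoothIdeals T => ‖f I‖) hgeo ih.1
        (fun _ => norm_nonneg _) (fun _ => norm_nonneg _)
    have h2 : Summable (fun x : ℕ × smoothIdeals T => f v.asIdeal ^ x.1 * f x.2.1) :=
      summable_mul_of_summable_norm (f := fun n : ℕ => f v.asIdeal ^ n)
        (g := fun I : smoothIdeals T => f I) hgeo ih.1
    have h3 : HasSum (fun x : ℕ × smoothIdeals T => f v.asIdeal ^ x.1 * f x.2.1)
        ((1 - f v.asIdeal)⁻¹ * ∏ v ∈ T, (1 - f v.asIdeal)⁻¹) :=
      HasSum.mul (f := fun n : ℕ => f v.asIdeal ^ n)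
        (g := fun I : smoothIdeals T => f I) (hasSum_geometric_of_norm_lt_one (hf v)) ih.2 h2
    constructor
    · rw [← e.summable_iff, key1]
      exact h1
    · rw [Finset.prod_insert hv, ← e.hasSum_iff, key2]
      exact h3

omit [DecidableEq (HeightOneSpectrum R)] in
/-- Every finite set of nonzero ideals is contained in `smoothIdeals T` for some `T`. -/
lemma exists_finset_forall_mem_smoothIdeals (A : Finset (Ideal R)) :
    ∃ T₀ : Finset (HeightOneSpectrum R), ∀ I ∈ A, I ≠ ⊥ → I ∈ smoothIdeals T₀ := by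
  classical
  induction A using Finset.induction with
  | empty => exact ⟨∅, by simp⟩
  | insert J A _ ih =>
    obtain ⟨T₀, hT₀⟩ := ih
    by_cases hJ : J = ⊥
    · refine ⟨T₀, fun I hI hI0 => ?_⟩
      rcases Finset.mem_insert.mp hI with rfl | h
      · exact absurd hJ hI0
      · exact hT₀ I h hI0
    · have hfin : {v : HeightOneSpectrum R | v.asIdeal ∣ J}.Finite := Ideal.finite_factors hJ
      refine ⟨T₀ ∪ hfin.toFinset, fun I hI hI0 => ?_⟩
      rcases Finset.mem_insert.mp hI with rfl | h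
      · refine ⟨hI0, fun v hv => Finset.mem_union_right _ ?_⟩
        rw [Set.Finite.mem_toFinset]
        exact Ideal.dvd_iff_le.mpr hv
      · exact smoothIdeals_mono Finset.subset_union_left (hT₀ I h hI0)

omit [DecidableEq (HeightOneSpectrum R)] in
/-- Summing over `T`-smooth ideals for large `T` approximates the full sum. -/
lemma norm_tsum_sub_tsum_smoothIdeals_lt {f : Ideal R → F} (hsum : Summable f)
    (hf₀ : f ⊥ = 0) {ε : ℝ} (hε : 0 < ε) :
    ∃ T₀ : Finset (HeightOneSpectrum R), ∀ T : Finset (HeightOneSpectrum R), T₀ ⊆ T →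
      ‖(∑' I : Ideal R, f I) - ∑' I : smoothIdeals T, f I‖ < ε := by
  classical
  obtain ⟨A, hA⟩ := hsum.tsum_vanishing (Metric.ball_mem_nhds (0 : F) hε)
  obtain ⟨T₀, hT₀⟩ := exists_finset_forall_mem_smoothIdeals A
  refine ⟨T₀, fun T hT => ?_⟩
  have hdisj : Disjoint ((smoothIdeals T)ᶜ \ {⊥}) (A : Set (Ideal R)) := by
    rw [Set.disjoint_left]
    rintro I ⟨hI, hI0⟩ hIA
    exact hI (smoothIdeals_mono hT (hT₀ I hIA hI0))
  have := hA _ hdisj
  rw [mem_ball_zero_iff] at this
  rwa [← hsum.tsum_subtype_add_tsum_subtype_compl (smoothIdeals T),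
    add_sub_cancel_left, tsum_eq_tsum_sdiff_singleton (smoothIdeals T)ᶜ hf₀]

omit [DecidableEq (HeightOneSpectrum R)] in
/-- **Euler product** over the prime ideals of a Dedekind domain, for a completely
multiplicative function with summable norm. -/
theorem hasProd_ideal (f : Ideal R →*₀ F) (hsum : Summable (fun I : Ideal R => ‖f I‖)) :
    HasProd (fun v : HeightOneSpectrum R => (1 - f v.asIdeal)⁻¹) (∑' I : Ideal R, f I) := by
  classical
  have hlt : ∀ v : HeightOneSpectrum R, ‖f v.asIdeal‖ < 1 := by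
    intro v
    refine summable_geometric_iff_norm_lt_one.mp ?_
    have hinj : Function.Injective (fun n : ℕ => v.asIdeal ^ n) := by
      have hnu : ¬ IsUnit v.asIdeal := by
        rw [Ideal.isUnit_iff]
        exact v.isPrime.ne_top
      exact pow_injective_of_not_isUnit hnu v.ne_bot
    have := hsum.of_norm.comp_injective hinj
    refine this.congr (fun n => ?_)
    simp [Function.comp_apply, map_pow]
  rw [HasProd, SummationFilter.unconditional, Metric.tendsto_atTop]
  intro ε hε
  obtain ⟨T₀, hT₀⟩ := norm_tsum_sub_tsum_smoothIdeals_lt hsum.of_norm (map_zero f) hε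
  refine ⟨T₀, fun T hT => ?_⟩
  rw [dist_eq_norm, ← (summable_and_hasSum_smoothIdeals f hlt T).2.tsum_eq, norm_sub_rev]
  exact hT₀ T hT

end Fermat.Agent.Lib.IdealEuler
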