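import Mathlib.NumberTheory.NumberField.DedekindZeta
import Mathlib.NumberTheory.NumberField.DirichletDensity
import Fermat.Agent.Lib.IdealEuler
import Fermat.Agent.Lib.ZetaPrimesDefs

/-!
# Prime ideal sums and the Dedekind zeta function near `s = 1`

For a number field `K` and real `s > 1` we relate `∑_𝔭 N𝔭^{-s}` to `log ζ_K(s)` via the
Euler product and deduce `∑_𝔭 N𝔭^{-s} = log (1/(s-1)) + O(1)` as `s → 1⁺`.
-/

namespace Fermat.Agent.Lib.ZetaPrimes

open NumberField IsDedekindDomain Filter Topology Ideal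

variable (K : Type*) [Field K] [NumberField K]

/-- Partial sums of the coefficients of the Dedekind zeta function, divided by `n`. -/
theorem tendsto_sum_card_div :
    Tendsto (fun n : ℕ ↦ (∑ k ∈ Finset.Icc 1 n,
      (Nat.card {I : Ideal (𝓞 K) // absNorm I = k} : ℝ)) / n) atTop
      (𝓝 (dedekindZeta_residue K)) := by
  refine ((NumberField.Ideal.tendsto_norm_le_div_atTop₀ K).comp
    tendsto_natCast_atTop_atTop).congr fun n ↦ ?_
  simp only [Function.comp_apply, Nat.cast_le, ← Nat.cast_sum]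
  congr
  rw [← add_left_inj 1, ← card_norm_le_eq_card_norm_le_add_one,
    show Finset.Icc 1 n = Finset.Ioc 0 n from Finset.Icc_succ_left_eq_Ioc _ _,
    show 1 = Nat.card {I : Ideal (𝓞 K) // absNorm I = 0} by simp [Ideal.absNorm_eq_zero_iff],
    Finset.sum_Ioc_add_eq_sum_Icc (n.zero_le),
    ← Finset.card_preimage_eq_sum_card_image_eq (fun k _ ↦ finite_setOfPred_absNorm_eq k)]
  simp [Set.coe_eq_subtype]

/-- The partial sums of the Dedekind coefficients are `O(n)`. -/
theorem isBigO_sum_card :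
    (fun n : ℕ ↦ ∑ k ∈ Finset.Icc 1 n, (Nat.card {I : Ideal (𝓞 K) // absNorm I = k} : ℝ))
      =O[atTop] fun n : ℕ ↦ (n : ℝ) ^ (1 : ℝ) := by
  simp_rw [Real.rpow_one]
  refine Asymptotics.isBigO_of_div_tendsto_nhds ?_ _ (tendsto_sum_card_div K)
  filter_upwards [eventually_ne_atTop 0] with n hn h
  exact absurd h (Nat.cast_ne_zero.mpr hn)

/-- The Dedekind zeta L-series is summable for `re s > 1`. -/
theorem lseriesSummable_card {s : ℂ} (hs : 1 < s.re) :
    LSeriesSummable (fun n ↦ (Nat.card {I : Ideal (𝓞 K) // absNorm I = n} : ℂ)) s := by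
  have := LSeriesSummable_of_sum_norm_bigO_and_nonneg (isBigO_sum_card K)
    (fun _ ↦ Nat.cast_nonneg _) zero_le_one hs
  simpa using this

/-- The function `I ↦ N(I)^{-s}` on ideals. -/
noncomputable def normPow (s : ℝ) (I : Ideal (𝓞 K)) : ℝ := (absNorm I : ℝ) ^ (-s)

lemma normPow_nonneg (s : ℝ) (I : Ideal (𝓞 K)) : 0 ≤ normPow K s I :=
  Real.rpow_nonneg (Nat.cast_nonneg _) _

instance (n : ℕ) : Finite {I : Ideal (𝓞 K) // absNorm I = n} :=
  (finite_setOfPred_absNorm_eq n).to_subtype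

/-- Real summability of the terms of the Dedekind zeta function indexed by `ℕ`. -/
theorem summable_card_mul_rpow {s : ℝ} (hs : 1 < s) :
    Summable (fun n : ℕ ↦ (Nat.card {I : Ideal (𝓞 K) // absNorm I = n} : ℝ) *
      (n : ℝ) ^ (-s)) := by
  have h := (lseriesSummable_card K (s := (s : ℂ)) (by simpa using hs)).norm
  refine h.congr (fun n ↦ ?_)
  rw [LSeries.norm_term_eq]
  split_ifs with hn
  · simp [hn, Real.zero_rpow (neg_ne_zero.mpr (zero_lt_one.trans hs).ne')]
  · simp only [Complex.norm_natCast, Complex.ofReal_re]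
    rw [Real.rpow_neg (Nat.cast_nonneg _), div_eq_mul_inv]

/-- `∑_I N(I)^{-s}` converges for `s > 1`, with value given by the sum over `ℕ`. -/
theorem hasSum_normPow {s : ℝ} (hs : 1 < s) :
    HasSum (normPow K s) (∑' n : ℕ, (Nat.card {I : Ideal (𝓞 K) // absNorm I = n} : ℝ) *
      (n : ℝ) ^ (-s)) := by
  rw [← (Equiv.sigmaFiberEquiv (fun I : Ideal (𝓞 K) ↦ absNorm I)).hasSum_iff]
  have hinner : ∀ n : ℕ, HasSum (fun I : {I : Ideal (𝓞 K) // absNorm I = n} ↦
      (normPow K s ∘ (Equiv.sigmaFiberEquiv (fun I : Ideal (𝓞 K) ↦ absNorm I))) ⟨n, I⟩)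
      ((Nat.card {I : Ideal (𝓞 K) // absNorm I = n} : ℝ) * (n : ℝ) ^ (-s)) := by
    intro n
    have : (fun I : {I : Ideal (𝓞 K) // absNorm I = n} ↦
      (normPow K s ∘ (Equiv.sigmaFiberEquiv (fun I : Ideal (𝓞 K) ↦ absNorm I))) ⟨n, I⟩) =
        fun _ ↦ (n : ℝ) ^ (-s) := by
      funext I
      simp [normPow, I.2]
    rw [this]
    have := Fintype.ofFinite {I : Ideal (𝓞 K) // absNorm I = n}
    convert hasSum_fintype (fun _ : {I : Ideal (𝓞 K) // absNorm I = n} ↦ (n : ℝ) ^ (-s)) using 1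
    simp [Nat.card_eq_fintype_card]
  refine HasSum.sigma_of_hasSum (summable_card_mul_rpow K hs).hasSum hinner ?_
  refine (summable_sigma_of_nonneg (fun x ↦ normPow_nonneg K s _)).mpr
    ⟨fun n ↦ (hinner n).summable, ?_⟩
  refine (summable_card_mul_rpow K hs).congr (fun n ↦ ?_)
  exact (hinner n).tsum_eq.symm

theorem summable_normPow {s : ℝ} (hs : 1 < s) : Summable (normPow K s) :=
  (hasSum_normPow K hs).summable

/-- The value of the Dedekind zeta function at real `s > 1` as a real number. -/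
noncomputable def zetaReal (s : ℝ) : ℝ := ∑' I : Ideal (𝓞 K), normPow K s I

theorem zetaReal_eq_dedekindZeta {s : ℝ} (hs : 1 < s) :
    ((zetaReal K s : ℝ) : ℂ) = dedekindZeta K s := by
  rw [zetaReal, (hasSum_normPow K hs).tsum_eq, dedekindZeta, LSeries, Complex.ofReal_tsum]
  refine tsum_congr (fun n ↦ ?_)
  rw [LSeries.term]
  split_ifs with hn
  · simp [hn, Real.zero_rpow (neg_ne_zero.mpr (zero_lt_one.trans hs).ne')]
  · push_cast
    rw [Complex.ofReal_cpow (Nat.cast_nonneg _), Complex.ofReal_neg, Complex.cpow_neg,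
      div_eq_mul_inv, Complex.ofReal_natCast]

theorem tendsto_sub_one_mul_zetaReal :
    Tendsto (fun s : ℝ ↦ (s - 1) * zetaReal K s) (𝓝[>] 1) (𝓝 (dedekindZeta_residue K)) := by
  have h := tendsto_sub_one_mul_dedekindZeta_nhdsGT K
  have h2 := (Complex.continuous_re.tendsto _).comp h
  simp only [Complex.ofReal_re] at h2
  refine h2.congr' ?_
  filter_upwards [self_mem_nhdsWithin] with s hs
  simp only [Function.comp_apply]
  rw [← zetaReal_eq_dedekindZeta K hs, ← Complex.ofReal_one, ← Complex.ofReal_sub,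
    ← Complex.ofReal_mul, Complex.ofReal_re]

/-! ### The Euler product and prime sums -/

/-- `N^{-s}` as a monoid-with-zero hom (`s ≠ 0`). -/
noncomputable def normPowHom (s : ℝ) (hs : s ≠ 0) : Ideal (𝓞 K) →*₀ ℝ where
  toFun := normPow K s
  map_zero' := by
    simp [normPow, Real.zero_rpow (neg_ne_zero.mpr hs)]
  map_one' := by
    simp [normPow]
  map_mul' I J := by
    simp only [normPow, map_mul, Nat.cast_mul]
    exact Real.mul_rpow (Nat.cast_nonneg _) (Nat.cast_nonneg _)

@[simp] lemma normPowHom_apply (s : ℝ) (hs : s ≠ 0) (I : Ideal (𝓞 K)) :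
    normPowHom K s hs I = normPow K s I := rfl

lemma primeTerm_eq (s : ℝ) (v : HeightOneSpectrum (𝓞 K)) :
    primeTerm K s v = normPow K s v.asIdeal := rfl

lemma two_le_absNorm (v : HeightOneSpectrum (𝓞 K)) : 2 ≤ absNorm v.asIdeal := by
  have h0 : absNorm v.asIdeal ≠ 0 := by
    rw [Ne, Ideal.absNorm_eq_zero_iff]
    exact v.ne_bot
  have h1 : absNorm v.asIdeal ≠ 1 := by
    rw [Ne, Ideal.absNorm_eq_one_iff]
    exact v.isPrime.ne_top
  omega

lemma primeTerm_nonneg (s : ℝ) (v : HeightOneSpectrum (𝓞 K)) : 0 ≤ primeTerm K s v :=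
  normPow_nonneg K s _

lemma primeTerm_pos (s : ℝ) (v : HeightOneSpectrum (𝓞 K)) : 0 < primeTerm K s v := by
  have : (0 : ℝ) < absNorm v.asIdeal := by
    have := two_le_absNorm K v
    positivity
  exact Real.rpow_pos_of_pos this _

lemma primeTerm_le_half {s : ℝ} (hs : 1 ≤ s) (v : HeightOneSpectrum (𝓞 K)) :
    primeTerm K s v ≤ 1 / 2 := by
  have h2 : (2 : ℝ) ≤ absNorm v.asIdeal := by exact_mod_cast two_le_absNorm K v
  have h0 : (0 : ℝ) < absNorm v.asIdeal := by linarith
  rw [primeTerm, Real.rpow_neg h0.le, one_div]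
  refine inv_anti₀ (by norm_num) ?_
  calc (2 : ℝ) = 2 ^ (1 : ℝ) := by simp
    _ ≤ (absNorm v.asIdeal : ℝ) ^ (1 : ℝ) := by simpa using h2
    _ ≤ (absNorm v.asIdeal : ℝ) ^ s :=
      Real.rpow_le_rpow_of_exponent_le (by linarith) hs

lemma primeTerm_anti {s t : ℝ} (hst : s ≤ t) (v : HeightOneSpectrum (𝓞 K)) :
    primeTerm K t v ≤ primeTerm K s v := by
  have h2 : (2 : ℝ) ≤ absNorm v.asIdeal := by exact_mod_cast two_le_absNorm K v
  exact Real.rpow_le_rpow_of_exponent_le (by linarith) (by linarith)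

theorem summable_primeTerm : StmtSummablePrimeTerm K := by
  intro s hs
  have hinj : Function.Injective (fun v : HeightOneSpectrum (𝓞 K) ↦ v.asIdeal) :=
    fun v w h ↦ HeightOneSpectrum.ext h
  exact (summable_normPow K hs).comp_injective hinj

/-- The Euler product for the Dedekind zeta function at real `s > 1`. -/
theorem hasProd_zetaReal {s : ℝ} (hs : 1 < s) :
    HasProd (fun v : HeightOneSpectrum (𝓞 K) ↦ (1 - primeTerm K s v)⁻¹) (zetaReal K s) := by
  have hs0 : s ≠ 0 := (zero_lt_one.trans hs).ne'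
  have h := IdealEuler.hasProd_ideal (normPowHom K s hs0) (by
    have := (summable_normPow K hs).norm
    simpa using this)
  exact h

lemma zetaReal_pos {s : ℝ} (hs : 1 < s) : 0 < zetaReal K s := by
  have h1 : normPow K s ⊤ ≤ zetaReal K s :=
    (summable_normPow K hs).le_tsum ⊤ (fun J _ ↦ normPow_nonneg K s J)
  have : normPow K s ⊤ = 1 := by simp [normPow]
  linarith

/-- Partial products of a convergent real product with factors `≥ 1` are bounded by the
product. -/
lemma prod_le_of_hasProd {ι : Type*} {f : ι → ℝ} {a : ℝ} (hf : ∀ i, 1 ≤ f i)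
    (h : HasProd f a) (T : Finset ι) : ∏ i ∈ T, f i ≤ a := by
  have h' : Tendsto (fun s : Finset ι ↦ ∏ b ∈ s, f b) atTop (𝓝 a) := h
  refine ge_of_tendsto h' ?_
  filter_upwards [Filter.eventually_ge_atTop T] with T' hT'
  exact Finset.prod_le_prod_of_subset_of_one_le hT' (fun i _ ↦ zero_le_one.trans (hf i))
    (fun i _ _ ↦ hf i)

private lemma exp_le_inv_one_sub {x : ℝ} (hx : x < 1) : Real.exp x ≤ (1 - x)⁻¹ := by
  have h1 : 0 < 1 - x := by linarith
  rw [le_inv_comm₀ (Real.exp_pos _) h1, ← Real.exp_neg]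
  have := Real.add_one_le_exp (-x)
  linarith

private lemma inv_one_sub_le_exp {x : ℝ} (hx0 : 0 ≤ x) (hx : x ≤ 1 / 2) :
    (1 - x)⁻¹ ≤ Real.exp (x + 2 * x ^ 2) := by
  have h1 : 0 < 1 - x := by linarith
  rw [inv_le_comm₀ h1 (Real.exp_pos _), ← Real.exp_neg]
  have h2 := Real.add_one_le_exp (x + 2 * x ^ 2)
  have h3 : 0 < Real.exp (x + 2 * x ^ 2) := Real.exp_pos _
  rw [Real.exp_neg, inv_le_comm₀ h3 h1]
  have h4 : (1 - x)⁻¹ ≤ x + 2 * x ^ 2 + 1 := by
    rw [inv_le_iff_one_le_mul₀ h1]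
    nlinarith [mul_nonneg hx0 hx0, mul_nonneg (mul_nonneg hx0 hx0) (by linarith : 0 ≤ 1 - 2 * x)]
  linarith

/-- `∑_𝔭 N𝔭^{-s} ≤ log ζ_K(s)`. -/
theorem tsum_primeTerm_le_log_zetaReal {s : ℝ} (hs : 1 < s) :
    ∑' v, primeTerm K s v ≤ Real.log (zetaReal K s) := by
  refine (summable_primeTerm K s hs).tsum_le_of_sum_le (fun T ↦ ?_)
  rw [Real.le_log_iff_exp_le (zetaReal_pos K hs), Real.exp_sum]
  calc ∏ v ∈ T, Real.exp (primeTerm K s v)
      ≤ ∏ v ∈ T, (1 - primeTerm K s v)⁻¹ := by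
        refine Finset.prod_le_prod (fun v _ ↦ (Real.exp_pos _).le) (fun v _ ↦ ?_)
        exact exp_le_inv_one_sub (by linarith [primeTerm_le_half K hs.le v])
    _ ≤ zetaReal K s := by
        refine prod_le_of_hasProd (fun v ↦ ?_) (hasProd_zetaReal K hs) T
        have h1 := primeTerm_le_half K hs.le v
        have h2 := primeTerm_nonneg K s v
        rw [one_le_inv₀ (by linarith)]
        linarith

/-- `log ζ_K(s) ≤ ∑_𝔭 N𝔭^{-s} + 2 ∑_𝔭 N𝔭^{-2}`. -/
theorem log_zetaReal_le {s : ℝ} (hs : 1 < s) :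
    Real.log (zetaReal K s) ≤ ∑' v, primeTerm K s v + 2 * ∑' v, primeTerm K 2 v := by
  rw [Real.log_le_iff_le_exp (zetaReal_pos K hs)]
  refine hasProd_le_of_prod_le (hasProd_zetaReal K hs) (fun T ↦ ?_)
  have hsum2 := summable_primeTerm K 2 (by norm_num)
  calc ∏ v ∈ T, (1 - primeTerm K s v)⁻¹
      ≤ ∏ v ∈ T, Real.exp (primeTerm K s v + 2 * primeTerm K s v ^ 2) := by
        refine Finset.prod_le_prod (fun v _ ↦ ?_) (fun v _ ↦ ?_)
        · have h1 := primeTerm_le_half K hs.le v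
          exact inv_nonneg.mpr (by linarith)
        · exact inv_one_sub_le_exp (primeTerm_nonneg K s v) (primeTerm_le_half K hs.le v)
    _ = Real.exp (∑ v ∈ T, (primeTerm K s v + 2 * primeTerm K s v ^ 2)) := by
        rw [Real.exp_sum]
    _ ≤ Real.exp (∑' v, primeTerm K s v + 2 * ∑' v, primeTerm K 2 v) := by
        rw [Real.exp_le_exp, Finset.sum_add_distrib, ← Finset.mul_sum]
        have h1 : ∑ v ∈ T, primeTerm K s v ≤ ∑' v, primeTerm K s v :=
          (summable_primeTerm K s hs).sum_le_tsum T (fun v _ ↦ primeTerm_nonneg K s v)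
        have h2 : ∑ v ∈ T, primeTerm K s v ^ 2 ≤ ∑' v, primeTerm K 2 v := by
          refine le_trans (Finset.sum_le_sum (fun v _ ↦ ?_))
            (hsum2.sum_le_tsum T (fun v _ ↦ primeTerm_nonneg K 2 v))
          have hh := primeTerm_le_half K hs.le v
          have h0 := primeTerm_nonneg K s v
          have h3 : primeTerm K s v ^ 2 = primeTerm K (2 * s) v := by
            have hN : (0 : ℝ) ≤ absNorm v.asIdeal := Nat.cast_nonneg _
            rw [primeTerm, primeTerm, ← Real.rpow_natCast, ← Real.rpow_mul hN]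
            congr 1
            push_cast
            ring
          rw [h3]
          exact primeTerm_anti K (by linarith) v
        linarith

/-- Eventually as `s → 1⁺`, `(s - 1) ζ_K(s)` lies in `[κ/2, 2κ]`. -/
theorem eventually_zetaReal_bounds :
    ∀ᶠ s in 𝓝[>] (1 : ℝ), dedekindZeta_residue K / 2 ≤ (s - 1) * zetaReal K s ∧
      (s - 1) * zetaReal K s ≤ 2 * dedekindZeta_residue K := by
  have hκ := dedekindZeta_residue_pos K
  have h := tendsto_sub_one_mul_zetaReal K
  have h1 : ∀ᶠ s in 𝓝[>] (1 : ℝ), dedekindZeta_residue K / 2 < (s - 1) * zetaReal K s :=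
    h.eventually (lt_mem_nhds (by linarith))
  have h2 : ∀ᶠ s in 𝓝[>] (1 : ℝ), (s - 1) * zetaReal K s < 2 * dedekindZeta_residue K :=
    h.eventually (gt_mem_nhds (by linarith))
  filter_upwards [h1, h2] with s hs1 hs2 using ⟨hs1.le, hs2.le⟩

private lemma log_zeta_split {s z : ℝ} (hs : 1 < s) (hz : 0 < z) :
    Real.log z = Real.log (1 / (s - 1)) + Real.log ((s - 1) * z) := by
  have h1 : 0 < s - 1 := by linarith
  rw [← Real.log_mul (by positivity) (by positivity)]
  congr 1
  field_simp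

theorem primeSum_ge : StmtPrimeSumGe K := by
  have hκ := dedekindZeta_residue_pos K
  refine ⟨2 * ∑' v, primeTerm K 2 v - Real.log (dedekindZeta_residue K / 2), ?_⟩
  filter_upwards [eventually_zetaReal_bounds K, self_mem_nhdsWithin] with s hb hs
  have hs1 : (1 : ℝ) < s := hs
  have h1 := log_zetaReal_le K hs1
  have h2 := log_zeta_split hs1 (zetaReal_pos K hs1)
  have h3 : Real.log (dedekindZeta_residue K / 2) ≤ Real.log ((s - 1) * zetaReal K s) :=
    Real.log_le_log (by linarith) hb.1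
  linarith

theorem primeSum_le : StmtPrimeSumLe K := by
  have hκ := dedekindZeta_residue_pos K
  refine ⟨Real.log (2 * dedekindZeta_residue K), ?_⟩
  filter_upwards [eventually_zetaReal_bounds K, self_mem_nhdsWithin] with s hb hs
  have hs1 : (1 : ℝ) < s := hs
  have h1 := tsum_primeTerm_le_log_zetaReal K hs1
  have h2 := log_zeta_split hs1 (zetaReal_pos K hs1)
  have h3 : Real.log ((s - 1) * zetaReal K s) ≤ Real.log (2 * dedekindZeta_residue K) :=
    Real.log_le_log (mul_pos (by linarith) (zetaReal_pos K hs1)) hb.2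
  linarith

end Fermat.Agent.Lib.ZetaPrimes
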