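import Mathlib.NumberTheory.ModularForms.EisensteinSeries.IsBoundedAtImInfty
import Mathlib.NumberTheory.ModularForms.EisensteinSeries.MDifferentiable
import Mathlib.NumberTheory.ModularForms.EisensteinSeries.UniformConvergence
import Mathlib.NumberTheory.ModularForms.CongruenceSubgroups
import Mathlib.NumberTheory.Modular
import Mathlib.NumberTheory.ModularForms.QExpansion
import Mathlib.Analysis.Normed.Group.Tannery

/-!
# Weighted and twisted Eisenstein series (helper96)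

For a bounded weight function `w : (Fin 2 → ℤ) → ℂ` and `k ≥ 3` we study
`wEis k w z = ∑' v, w v * (v 0 * z + v 1) ^ (-k)`.
It is holomorphic on `ℍ`, bounded at `i∞`, and the slash action of `SL(2, ℤ)` permutes the weights.

Specialising `w` to (the inverse of) a character `χ` of `Γ₀(N)` which is trivial on `T` and `-1`,
supported on the bottom rows of `Γ₀(N)`, gives the twisted Eisenstein series `E_{k,χ}` with
`E_{k,χ} ∣[k] γ = χ γ • E_{k,χ}`.
-/

set_option autoImplicit false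

open UpperHalfPlane ModularForm EisensteinSeries Matrix Filter Topology Complex Set
open scoped MatrixGroups Manifold

noncomputable section

namespace Fermat.Agent.Lib.TwistedEisenstein

/-- The weighted Eisenstein series. -/
def wEis (k : ℤ) (w : (Fin 2 → ℤ) → ℂ) (z : ℍ) : ℂ := ∑' v : Fin 2 → ℤ, w v * eisSummand k v z

variable {k : ℤ} {w : (Fin 2 → ℤ) → ℂ}

theorem norm_term_le (hw : ∀ v, ‖w v‖ ≤ 1) (v : Fin 2 → ℤ) (z : ℍ) :
    ‖w v * eisSummand k v z‖ ≤ ‖eisSummand k v z‖ := by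
  rw [norm_mul]
  exact mul_le_of_le_one_left (norm_nonneg _) (hw v)

theorem summable_norm_term (hk : 3 ≤ k) (hw : ∀ v, ‖w v‖ ≤ 1) (z : ℍ) :
    Summable fun v : Fin 2 → ℤ => ‖w v * eisSummand k v z‖ :=
  (summable_norm_eisSummand hk z).of_nonneg_of_le (fun _ => norm_nonneg _)
    (fun v => norm_term_le hw v z)

theorem summable_term (hk : 3 ≤ k) (hw : ∀ v, ‖w v‖ ≤ 1) (z : ℍ) :
    Summable fun v : Fin 2 → ℤ => w v * eisSummand k v z :=
  (summable_norm_term hk hw z).of_norm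

theorem norm_wEis_le (hk : 3 ≤ k) (hw : ∀ v, ‖w v‖ ≤ 1) (z : ℍ) :
    ‖wEis k w z‖ ≤ ∑' v : Fin 2 → ℤ, ‖eisSummand k v z‖ := by
  refine (norm_tsum_le_tsum_norm (summable_norm_term hk hw z)).trans ?_
  exact (summable_norm_term hk hw z).tsum_le_tsum (fun v => norm_term_le hw v z)
    (summable_norm_eisSummand hk z)

theorem vecMul_vecMul_inv (A : SL(2, ℤ)) (v : Fin 2 → ℤ) :
    (v ᵥ* (A : Matrix (Fin 2) (Fin 2) ℤ)) ᵥ* ((A⁻¹ : SL(2, ℤ)) : Matrix (Fin 2) (Fin 2) ℤ)
      = v := by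
  rw [vecMul_vecMul, ← Matrix.SpecialLinearGroup.coe_mul, mul_inv_cancel,
    Matrix.SpecialLinearGroup.coe_one, vecMul_one]

theorem vecMul_inv_vecMul (A : SL(2, ℤ)) (v : Fin 2 → ℤ) :
    (v ᵥ* ((A⁻¹ : SL(2, ℤ)) : Matrix (Fin 2) (Fin 2) ℤ)) ᵥ* (A : Matrix (Fin 2) (Fin 2) ℤ)
      = v := by
  rw [vecMul_vecMul, ← Matrix.SpecialLinearGroup.coe_mul, inv_mul_cancel,
    Matrix.SpecialLinearGroup.coe_one, vecMul_one]

/-- Right multiplication by `A ∈ SL(2, ℤ)` as a permutation of `Fin 2 → ℤ`. -/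
def vecMulEquiv (A : SL(2, ℤ)) : (Fin 2 → ℤ) ≃ (Fin 2 → ℤ) where
  toFun v := v ᵥ* (A : Matrix (Fin 2) (Fin 2) ℤ)
  invFun v := v ᵥ* ((A⁻¹ : SL(2, ℤ)) : Matrix (Fin 2) (Fin 2) ℤ)
  left_inv v := vecMul_vecMul_inv A v
  right_inv v := vecMul_inv_vecMul A v

@[simp] theorem vecMulEquiv_apply (A : SL(2, ℤ)) (v : Fin 2 → ℤ) :
    vecMulEquiv A v = v ᵥ* (A : Matrix (Fin 2) (Fin 2) ℤ) := rfl

@[simp] theorem vecMulEquiv_symm_apply (A : SL(2, ℤ)) (v : Fin 2 → ℤ) :
    (vecMulEquiv A).symm v = v ᵥ* ((A⁻¹ : SL(2, ℤ)) : Matrix (Fin 2) (Fin 2) ℤ) := rfl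

/-- The weight function transported by `A`. -/
def wSlash (w : (Fin 2 → ℤ) → ℂ) (A : SL(2, ℤ)) : (Fin 2 → ℤ) → ℂ :=
  fun v => w (v ᵥ* ((A⁻¹ : SL(2, ℤ)) : Matrix (Fin 2) (Fin 2) ℤ))

theorem wSlash_apply (w : (Fin 2 → ℤ) → ℂ) (A : SL(2, ℤ)) (v : Fin 2 → ℤ) :
    wSlash w A v = w (v ᵥ* ((A⁻¹ : SL(2, ℤ)) : Matrix (Fin 2) (Fin 2) ℤ)) := rfl

theorem norm_wSlash_le (hw : ∀ v, ‖w v‖ ≤ 1) (A : SL(2, ℤ)) (v : Fin 2 → ℤ) :
    ‖wSlash w A v‖ ≤ 1 := hw _

/-- **The slash action permutes the weights.** -/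
theorem wEis_slash (k : ℤ) (w : (Fin 2 → ℤ) → ℂ) (A : SL(2, ℤ)) :
    wEis k w ∣[k] A = wEis k (wSlash w A) := by
  ext1 z
  simp_rw [SL_slash_apply, zpow_neg,
    mul_inv_eq_iff_eq_mul₀ (zpow_ne_zero _ <| denom_ne_zero _ z),
    wEis, eisSummand_SL2_apply, ← tsum_mul_right]
  rw [← (vecMulEquiv A).tsum_eq (fun u => wSlash w A u * eisSummand k u z * denom A z ^ k)]
  refine tsum_congr fun v => ?_
  simp only [vecMulEquiv_apply, wSlash_apply, vecMul_vecMul_inv]
  ring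

/-! ### Holomorphy -/

theorem wEis_tendstoLocallyUniformly (hk : 3 ≤ k) (hw : ∀ v, ‖w v‖ ≤ 1) :
    TendstoLocallyUniformly (fun (s : Finset (Fin 2 → ℤ)) ↦ (∑ x ∈ s, w x * eisSummand k x ·))
      (wEis k w ·) Filter.atTop := by
  have hk' : (2 : ℝ) < k := by norm_cast
  have p_sum : Summable fun x : Fin 2 → ℤ ↦ ‖x‖ ^ (-k) :=
    mod_cast (summable_one_div_norm_rpow hk')
  simp only [tendstoLocallyUniformly_iff_forall_isCompact, wEis]
  intro K hK
  obtain ⟨A, B, hB, HABK⟩ := subset_verticalStrip_of_isCompact hK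
  refine (tendstoUniformlyOn_tsum (hu := p_sum.mul_left <| r ⟨⟨A, B⟩, hB⟩ ^ (-k : ℝ))
    (fun p z hz ↦ ?_)).mono HABK
  refine (norm_term_le hw p z).trans ?_
  simpa only [eisSummand, one_div, ← zpow_neg, norm_zpow, ← Real.rpow_intCast,
    Int.cast_neg] using summand_bound_of_mem_verticalStrip (by positivity) p hB hz

theorem wEis_tendstoLocallyUniformlyOn (hk : 3 ≤ k) (hw : ∀ v, ‖w v‖ ≤ 1) :
    TendstoLocallyUniformlyOn (fun (s : Finset (Fin 2 → ℤ)) ↦
      ((fun (z : ℍ) ↦ ∑ x ∈ s, w x * eisSummand k x z) ∘ ofComplex)) ((wEis k w) ∘ ofComplex)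
          Filter.atTop {z : ℂ | 0 < z.im} := by
  rw [← upperHalfPlaneSet, ← range_coe, ← image_univ]
  apply TendstoLocallyUniformlyOn.comp (s := ⊤) _ _ _ (OpenPartialHomeomorph.continuousOn_symm _)
  · simp only [Set.top_eq_univ, tendstoLocallyUniformlyOn_univ]
    exact wEis_tendstoLocallyUniformly hk hw
  · simp only [IsOpenEmbedding.toOpenPartialHomeomorph_target, Set.top_eq_univ, mapsTo_range_iff,
    Set.mem_univ, forall_const]

theorem term_extension_differentiableOn (k : ℤ) (c : ℂ) (a : Fin 2 → ℤ) :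
    DifferentiableOn ℂ ((fun z : ℍ => c * eisSummand k a z) ∘ ofComplex) {z : ℂ | 0 < z.im} := by
  have h := (eisSummand_extension_differentiableOn k a).const_mul c
  refine h.congr fun z _ => ?_
  simp [Function.comp]

/-- **The weighted Eisenstein series is holomorphic.** -/
theorem wEis_mdifferentiable (hk : 3 ≤ k) (hw : ∀ v, ‖w v‖ ≤ 1) : MDiff (wEis k w) := by
  intro τ
  suffices DifferentiableAt ℂ ((wEis k w) ∘ ofComplex) τ.1 by
    convert!
      MDifferentiableAt.comp τ (DifferentiableAt.mdifferentiableAt this) τ.mdifferentiable_coe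
    exact funext fun z ↦ (comp_ofComplex (wEis k w) z).symm
  refine DifferentiableOn.differentiableAt ?_ (isOpen_upperHalfPlaneSet.mem_nhds τ.2)
  refine (wEis_tendstoLocallyUniformlyOn hk hw).differentiableOn
    (Eventually.of_forall fun s ↦ ?_) isOpen_upperHalfPlaneSet
  have : ((fun (z : ℍ) ↦ ∑ x ∈ s, w x * eisSummand k x z) ∘ ofComplex)
      = fun z : ℂ => ∑ x ∈ s, ((fun z : ℍ => w x * eisSummand k x z) ∘ ofComplex) z := by
    funext z
    simp [Function.comp]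
  rw [this]
  exact DifferentiableOn.fun_sum fun x _ ↦ term_extension_differentiableOn k (w x) x

/-! ### Boundedness at `i∞` -/

/-- The majorant of all weighted Eisenstein series. -/
def majorant (k : ℤ) (z : ℍ) : ℝ := ∑' v : Fin 2 → ℤ, ‖eisSummand k v z‖

theorem norm_wEis_le_majorant (hk : 3 ≤ k) (hw : ∀ v, ‖w v‖ ≤ 1) (z : ℍ) :
    ‖wEis k w z‖ ≤ majorant k z := norm_wEis_le hk hw z

theorem majorant_smul (k : ℤ) (A : SL(2, ℤ)) (z : ℍ) :
    majorant k (A • z) = ‖denom A z‖ ^ k * majorant k z := by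
  simp only [majorant, eisSummand_SL2_apply, norm_mul, norm_zpow]
  rw [tsum_mul_left]
  congr 1
  exact (vecMulEquiv A).tsum_eq (fun u => ‖eisSummand k u z‖)

theorem denom_T_zpow (n : ℤ) (z : ℍ) : denom ((ModularGroup.T ^ n : SL(2, ℤ))) z = 1 := by
  rw [ModularGroup.denom_apply, ModularGroup.coe_T_zpow]
  simp

theorem majorant_T_zpow (k : ℤ) (n : ℤ) (z : ℍ) :
    majorant k ((ModularGroup.T ^ n : SL(2, ℤ)) • z) = majorant k z := by
  rw [majorant_smul, denom_T_zpow]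
  simp

theorem majorant_le_of_mem_verticalStrip (hk : 3 ≤ k) {A B : ℝ} (hB : 0 < B) {z : ℍ}
    (hz : z ∈ verticalStrip A B) :
    majorant k z ≤ ∑' x : Fin 2 → ℤ, r ⟨⟨A, B⟩, hB⟩ ^ (-k) * ‖x‖ ^ (-k) := by
  have hk' : (2 : ℝ) < k := by norm_cast
  apply (summable_norm_eisSummand hk _).tsum_le_tsum _
  · exact_mod_cast (summable_one_div_norm_rpow hk').mul_left <| r ⟨⟨A, B⟩, hB⟩ ^ (-k)
  · intro x
    simp_rw [eisSummand, norm_zpow]
    exact_mod_cast
      summand_bound_of_mem_verticalStrip (lt_trans two_pos hk').le x hB hz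

/-- The majorant is bounded on `{z | 2 ≤ im z}`. -/
theorem majorant_le (hk : 3 ≤ k) {z : ℍ} (hz : 2 ≤ z.im) :
    majorant k z ≤ ∑' x : Fin 2 → ℤ, r ⟨⟨1, 2⟩, two_pos⟩ ^ (-k) * ‖x‖ ^ (-k) := by
  obtain ⟨n, hn⟩ := ModularGroup_T_zpow_mem_verticalStrip z (N := 1) one_pos
  have h1 : majorant k z = majorant k ((ModularGroup.T ^ ((1 : ℕ) * n : ℤ) : SL(2, ℤ)) • z) :=
    (majorant_T_zpow k _ z).symm
  rw [h1]
  refine majorant_le_of_mem_verticalStrip hk two_pos ?_
  have := verticalStrip_anti_right (1 : ℕ) hz hn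
  simpa using this

/-- **Weighted Eisenstein series are bounded at `i∞`.** -/
theorem isBoundedAtImInfty_wEis (hk : 3 ≤ k) (hw : ∀ v, ‖w v‖ ≤ 1) :
    IsBoundedAtImInfty (wEis k w) := by
  rw [UpperHalfPlane.isBoundedAtImInfty_iff]
  exact ⟨_, 2, fun z hz => (norm_wEis_le_majorant hk hw z).trans (majorant_le hk hz)⟩

/-- **Weighted Eisenstein series are bounded at every cusp.** -/
theorem isBoundedAtImInfty_wEis_slash (hk : 3 ≤ k) (hw : ∀ v, ‖w v‖ ≤ 1) (A : SL(2, ℤ)) :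
    IsBoundedAtImInfty (wEis k w ∣[k] A) := by
  rw [wEis_slash]
  exact isBoundedAtImInfty_wEis hk (norm_wSlash_le hw A)

/-! ### Periodicity and the limit at `i∞` -/

/-- A weight is `T`-invariant if it is invariant under right multiplication by `T`. -/
def TInvariant (w : (Fin 2 → ℤ) → ℂ) : Prop :=
  ∀ v : Fin 2 → ℤ, w (v ᵥ* (ModularGroup.T : Matrix (Fin 2) (Fin 2) ℤ)) = w v

theorem TInvariant.wSlash_T (hT : TInvariant w) : wSlash w ModularGroup.T = w := by
  funext v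
  rw [wSlash_apply, ← hT (v ᵥ* ((ModularGroup.T⁻¹ : SL(2, ℤ)) : Matrix (Fin 2) (Fin 2) ℤ)),
    vecMul_inv_vecMul]

theorem wEis_T_smul (hT : TInvariant w) (z : ℍ) :
    wEis k w (ModularGroup.T • z) = wEis k w z := by
  have h1 : (wEis k w ∣[k] ModularGroup.T) z = wEis k w z := by
    rw [wEis_slash, hT.wSlash_T]
  rw [SL_slash_apply] at h1
  have h2 : denom (ModularGroup.T : SL(2, ℤ)) z = 1 := by
    have := denom_T_zpow 1 z
    simpa using this
  rw [h2] at h1
  simpa using h1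

theorem wEis_vadd_one (hT : TInvariant w) (z : ℍ) :
    wEis k w ((1 : ℝ) +ᵥ z) = wEis k w z := by
  rw [← modular_T_smul, wEis_T_smul hT]

theorem periodic_wEis (hT : TInvariant w) :
    Function.Periodic ((wEis k w) ∘ ofComplex) (1 : ℝ) := by
  intro x
  by_cases! hx : 0 < im x
  · have : 0 < im (x + (1 : ℝ)) := by simp [hx]
    simp only [Function.comp_apply, ofComplex_apply_of_im_pos this, ofComplex_apply_of_im_pos hx]
    rw [← wEis_vadd_one (k := k) hT ⟨x, hx⟩]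
    congr 1
    ext
    simp [add_comm]
  · have h1 : im (x + ((1 : ℝ) : ℂ)) ≤ 0 := by simpa using hx
    simp only [Function.comp_apply]
    rw [ofComplex_apply_eq_of_im_nonpos h1 hx]

/-- For a `T`-invariant weight the weighted Eisenstein series has a limit at `i∞`. -/
theorem exists_tendsto_wEis (hk : 3 ≤ k) (hw : ∀ v, ‖w v‖ ≤ 1) (hT : TInvariant w) :
    ∃ L : ℂ, Tendsto (wEis k w) atImInfty (𝓝 L) := by
  have hper := periodic_wEis (k := k) hT
  have han := analyticAt_cuspFunction_zero one_pos hper (wEis_mdifferentiable hk hw)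
    (isBoundedAtImInfty_wEis hk hw)
  refine ⟨cuspFunction 1 (wEis k w) 0, ?_⟩
  have : (cuspFunction 1 (wEis k w) ∘ fun τ : ℍ ↦ Function.Periodic.qParam 1 τ : ℍ → ℂ)
      = wEis k w := by
    funext τ
    simpa using eq_cuspFunction τ one_ne_zero hper
  simpa [this] using han.continuousAt.tendsto.comp (qParam_tendsto_atImInfty one_pos)

/-- The value at `i∞`: only the terms with `v 0 = 0` survive. -/
def limitTerm (k : ℤ) (w : (Fin 2 → ℤ) → ℂ) (v : Fin 2 → ℤ) : ℂ :=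
  if v 0 = 0 then w v * ((v 1 : ℤ) : ℂ) ^ (-k) else 0

/-- The filter `i∞` restricted to the strip `|re z| ≤ 1`. -/
def stripFilter : Filter ℍ := atImInfty ⊓ 𝓟 {z : ℍ | |z.re| ≤ 1}

theorem stripFilter_le : stripFilter ≤ atImInfty := inf_le_left

instance stripFilter_neBot : stripFilter.NeBot := by
  rw [stripFilter, Filter.inf_principal_neBot_iff]
  intro s hs
  rw [atImInfty_mem] at hs
  obtain ⟨A, hA⟩ := hs
  refine ⟨⟨⟨0, max A 1⟩, by simp⟩, hA _ ?_, ?_⟩
  · show A ≤ max A 1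
    exact le_max_left _ _
  · show |(0 : ℝ)| ≤ 1
    simp

theorem eventually_stripFilter_mem_verticalStrip :
    ∀ᶠ z in stripFilter, z ∈ verticalStrip 1 2 := by
  have h1 : ∀ᶠ z in stripFilter, |z.re| ≤ 1 :=
    Filter.eventually_inf_principal.mpr (Eventually.of_forall fun z hz => hz)
  have h2 : ∀ᶠ z : ℍ in stripFilter, 2 ≤ z.im := by
    refine Filter.Eventually.filter_mono stripFilter_le ?_
    rw [Filter.Eventually, atImInfty_mem]
    exact ⟨2, fun z hz => hz⟩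
  filter_upwards [h1, h2] with z hz1 hz2
  exact ⟨hz1, hz2⟩

theorem tendsto_eisSummand_atImInfty (hk : 3 ≤ k) (v : Fin 2 → ℤ) (hv : v 0 ≠ 0) :
    Tendsto (fun z : ℍ => eisSummand k v z) atImInfty (𝓝 0) := by
  have hk0 : 0 < k := by omega
  -- `‖v 0 * z + v 1‖ ≥ im z`
  have h1 : Tendsto (fun z : ℍ => ‖(v 0 : ℂ) * z + v 1‖) atImInfty atTop := by
    refine tendsto_atTop_mono (f := fun z : ℍ => z.im) (fun z => ?_) ?_
    · have h2 : |((v 0 : ℂ) * z + v 1).im| ≤ ‖(v 0 : ℂ) * z + v 1‖ := Complex.abs_im_le_norm _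
      have h3 : ((v 0 : ℂ) * z + v 1).im = (v 0 : ℝ) * z.im := by
        simp
      rw [h3, abs_mul] at h2
      have h4 : (1 : ℝ) ≤ |(v 0 : ℝ)| := by
        have : (1 : ℤ) ≤ |v 0| := Int.one_le_abs hv
        exact_mod_cast this
      have h5 : z.im ≤ |(v 0 : ℝ)| * |z.im| := by
        rw [abs_of_pos z.im_pos]
        nlinarith [z.im_pos]
      linarith
    · exact tendsto_comap
  have h2 : Tendsto (fun z : ℍ => ‖(v 0 : ℂ) * z + v 1‖ ^ (-k)) atImInfty (𝓝 0) := by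
    have := (tendsto_zpow_atTop_zero (𝕜 := ℝ) (n := -k) (by omega)).comp h1
    exact this
  rw [tendsto_zero_iff_norm_tendsto_zero]
  refine h2.congr fun z => ?_
  simp [eisSummand, norm_zpow]

theorem tendsto_term (hk : 3 ≤ k) (w : (Fin 2 → ℤ) → ℂ) (v : Fin 2 → ℤ) :
    Tendsto (fun z : ℍ => w v * eisSummand k v z) stripFilter (𝓝 (limitTerm k w v)) := by
  unfold limitTerm
  split_ifs with hv
  · have : (fun z : ℍ => w v * eisSummand k v z) = fun _ => w v * ((v 1 : ℤ) : ℂ) ^ (-k) := by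
      funext z
      simp [eisSummand, hv]
    rw [this]
    exact tendsto_const_nhds
  · have := ((tendsto_eisSummand_atImInfty hk v hv).const_mul (w v)).mono_left stripFilter_le
    simpa using this

/-- **The limit at `i∞` of a `T`-invariant weighted Eisenstein series.** -/
theorem tendsto_wEis (hk : 3 ≤ k) (hw : ∀ v, ‖w v‖ ≤ 1) (hT : TInvariant w) :
    Tendsto (wEis k w) atImInfty (𝓝 (∑' v : Fin 2 → ℤ, limitTerm k w v)) := by
  obtain ⟨L, hL⟩ := exists_tendsto_wEis hk hw hT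
  have hk' : (2 : ℝ) < k := by norm_cast
  have h1 : Tendsto (wEis k w) stripFilter (𝓝 (∑' v : Fin 2 → ℤ, limitTerm k w v)) := by
    refine tendsto_tsum_of_dominated_convergence
      (bound := fun x : Fin 2 → ℤ => r ⟨⟨1, 2⟩, two_pos⟩ ^ (-k) * ‖x‖ ^ (-k)) ?_
      (fun v => tendsto_term hk w v) ?_
    · exact_mod_cast (summable_one_div_norm_rpow hk').mul_left <| r ⟨⟨1, 2⟩, two_pos⟩ ^ (-k)
    · filter_upwards [eventually_stripFilter_mem_verticalStrip] with z hz v
      refine (norm_term_le hw v z).trans ?_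
      simp_rw [eisSummand, norm_zpow]
      exact_mod_cast
        summand_bound_of_mem_verticalStrip (lt_trans two_pos hk').le v two_pos hz
  have h2 := hL.mono_left stripFilter_le
  rw [← tendsto_nhds_unique h2 h1]
  exact hL

end Fermat.Agent.Lib.TwistedEisenstein
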