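import Mathlib
import Fermat.Prelude.Def_FLTPrelim_Ramification

/-!
# Minkowski: a normal open subgroup of `Gal(ℚ̄/ℚ)` containing an inertia group at every prime
is everything (core argument, relative to an inertia lifting statement)

`minkowski_of_lift` : given the inertia lifting statement `LiftStmt` (proved in
`Fermat/Agent/Lib/InertiaLift.lean`), a normal subgroup `H` of `Gal(ℚ̄/ℚ)` that contains the
pointwise stabiliser of a finite set and, for every prime `ℓ`, the inertia group of SOME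
valuation subring over `ℓ`, is all of `Gal(ℚ̄/ℚ)`.

Proof: the fixed field `L` of `H` is a finite Galois extension of `ℚ`.  If `L ≠ ℚ`, Mathlib's
Minkowski theorem gives a prime `p` such that every prime of `𝓞 L` over `p` is ramified.  But the
prime `P` of `𝓞 L` cut out by the given valuation subring `A` over `p` has trivial inertia group
in `Gal(L/ℚ)`: an element `τ` of it lifts to `σ ∈ I_A ≤ H`, which fixes `L`, so `τ = 1`.
-/

set_option autoImplicit false

open scoped Pointwise NumberField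

namespace Fermat.Agent.Lib.Minkowski

theorem qbar_isAlgebraic : Algebra.IsAlgebraic ℚ (AlgebraicClosure ℚ) :=
  AlgebraicClosure.isAlgebraic ℚ

attribute [local instance] qbar_isAlgebraic

theorem qbar_isAlgClosure : IsAlgClosure ℚ (AlgebraicClosure ℚ) :=
  ⟨inferInstance, inferInstance⟩

attribute [local instance] qbar_isAlgClosure

theorem qbar_isGalois : IsGalois ℚ (AlgebraicClosure ℚ) := inferInstance

attribute [local instance] qbar_isGalois

theorem qbar_normal : Normal ℚ (AlgebraicClosure ℚ) := IsGalois.to_normal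

attribute [local instance] qbar_normal

/-- The inertia lifting statement (interface; proved in `Lib/InertiaLift.lean`). -/
def LiftStmt : Prop :=
  ∀ (ℓ : ℕ) (_ : ℓ.Prime) (A : ValuationSubring (AlgebraicClosure ℚ)) (_ : A.LiesOverPrime ℓ)
    (F : IntermediateField ℚ (AlgebraicClosure ℚ)) [Normal ℚ F]
    (σ₀ : AlgebraicClosure ℚ ≃ₐ[ℚ] AlgebraicClosure ℚ)
    (_ : ∀ x : AlgebraicClosure ℚ, x ∈ F → IsIntegral ℤ x → σ₀ x - x ∈ A.nonunits),
    ∃ σ ∈ A.inertiaSubgroupIn ℚ, ∀ x ∈ F, σ x = σ₀ x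

/-- Algebraic integers lie in every valuation subring. -/
theorem val_le_one_of_isIntegral {K : Type*} [Field K] (A : ValuationSubring K) (x : K)
    (hx : IsIntegral ℤ x) : A.valuation x ≤ 1 := by
  have h1 : IsIntegral A x := hx.tower_top
  exact (Valuation.Integers.isIntegral_iff_v_le_one
    (Valuation.valuationSubring.integers A.valuation) (x := x)).mp
    (by rw [A.valuationSubring_valuation]; exact h1) |>.trans_eq' rfl

section

variable (L : IntermediateField ℚ (AlgebraicClosure ℚ))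

theorem val_algebraMap_le_one (A : ValuationSubring (AlgebraicClosure ℚ)) (c : 𝓞 L) :
    A.valuation (algebraMap (𝓞 L) (AlgebraicClosure ℚ) c) ≤ 1 := by
  apply val_le_one_of_isIntegral
  have h := NumberField.RingOfIntegers.isIntegral_coe c
  have h2 := h.map (IsScalarTower.toAlgHom ℤ L (AlgebraicClosure ℚ))
  exact h2

/-- The prime of `𝓞 L` cut out by a valuation subring of `ℚ̄`. -/
def primeBelow (A : ValuationSubring (AlgebraicClosure ℚ)) : Ideal (𝓞 L) where
  carrier := {b | A.valuation (algebraMap (𝓞 L) (AlgebraicClosure ℚ) b) < 1}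
  add_mem' := fun {x y} hx hy => by
    show A.valuation (algebraMap (𝓞 L) (AlgebraicClosure ℚ) (x + y)) < 1
    rw [map_add]
    exact lt_of_le_of_lt (A.valuation.map_add _ _) (max_lt hx hy)
  zero_mem' := by
    show A.valuation (algebraMap (𝓞 L) (AlgebraicClosure ℚ) 0) < 1
    rw [map_zero, map_zero]
    exact zero_lt_one
  smul_mem' := fun c x hx => by
    show A.valuation (algebraMap (𝓞 L) (AlgebraicClosure ℚ) (c • x)) < 1
    rw [smul_eq_mul, map_mul, map_mul]
    have hc := val_algebraMap_le_one L A c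
    calc A.valuation (algebraMap (𝓞 L) (AlgebraicClosure ℚ) c)
          * A.valuation (algebraMap (𝓞 L) (AlgebraicClosure ℚ) x)
        ≤ 1 * A.valuation (algebraMap (𝓞 L) (AlgebraicClosure ℚ) x) := mul_le_mul_left hc _
      _ = A.valuation (algebraMap (𝓞 L) (AlgebraicClosure ℚ) x) := one_mul _
      _ < 1 := hx

theorem mem_primeBelow (A : ValuationSubring (AlgebraicClosure ℚ)) (b : 𝓞 L) :
    b ∈ primeBelow L A ↔ A.valuation (algebraMap (𝓞 L) (AlgebraicClosure ℚ) b) < 1 := Iff.rfl

theorem primeBelow_isPrime (A : ValuationSubring (AlgebraicClosure ℚ)) :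
    (primeBelow L A).IsPrime := by
  refine ⟨?_, ?_⟩
  · intro h
    have h1 : (1 : 𝓞 L) ∈ primeBelow L A := by
      rw [h]; exact Submodule.mem_top
    rw [mem_primeBelow, map_one, map_one] at h1
    exact lt_irrefl _ h1
  · intro x y hxy
    rw [mem_primeBelow, map_mul, map_mul] at hxy
    by_contra hcon
    rw [not_or] at hcon
    have hx : A.valuation (algebraMap (𝓞 L) (AlgebraicClosure ℚ) x) = 1 :=
      le_antisymm (val_algebraMap_le_one L A x) (not_lt.mp hcon.1)
    have hy : A.valuation (algebraMap (𝓞 L) (AlgebraicClosure ℚ) y) = 1 :=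
      le_antisymm (val_algebraMap_le_one L A y) (not_lt.mp hcon.2)
    rw [hx, hy, one_mul] at hxy
    exact lt_irrefl _ hxy

theorem natCast_mem_primeBelow (A : ValuationSubring (AlgebraicClosure ℚ)) (ℓ : ℕ)
    (hA : A.LiesOverPrime ℓ) : (ℓ : 𝓞 L) ∈ primeBelow L A := by
  rw [mem_primeBelow, map_natCast]
  exact A.mem_nonunits_iff.mp hA

/-- If every element of the inertia group of `A` fixes `L` pointwise, then the inertia group of
`primeBelow L A` in `Gal(L/ℚ)` is trivial. -/
theorem inertia_primeBelow_eq_bot (hlift : LiftStmt) [Normal ℚ L] (ℓ : ℕ) (hℓ : ℓ.Prime)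
    (A : ValuationSubring (AlgebraicClosure ℚ)) (hA : A.LiesOverPrime ℓ)
    (hfix : ∀ σ ∈ A.inertiaSubgroupIn ℚ, ∀ x ∈ L, σ x = x) :
    (primeBelow L A).inertia (L ≃ₐ[ℚ] L) = ⊥ := by
  rw [eq_bot_iff]
  intro τ hτ
  rw [Subgroup.mem_bot]
  obtain ⟨σ₀, hσ₀⟩ := AlgEquiv.restrictNormalHom_surjective (F := ℚ) (K₁ := L)
    (AlgebraicClosure ℚ) τ
  have hcomm : ∀ x : L, ((τ x : L) : AlgebraicClosure ℚ) = σ₀ (x : AlgebraicClosure ℚ) := by
    intro x
    rw [← hσ₀]
    exact AlgEquiv.restrictNormal_commutes σ₀ L x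
  have key : ∀ x : AlgebraicClosure ℚ, x ∈ L → IsIntegral ℤ x → σ₀ x - x ∈ A.nonunits := by
    intro x hxL hxint
    have hxint' : IsIntegral ℤ (⟨x, hxL⟩ : L) := by
      rw [← isIntegral_algebraMap_iff (FaithfulSMul.algebraMap_injective L (AlgebraicClosure ℚ))]
      exact hxint
    let b : 𝓞 L := ⟨⟨x, hxL⟩, hxint'⟩
    have h1 : τ • b - b ∈ primeBelow L A := hτ b
    rw [mem_primeBelow, map_sub] at h1
    have h2 : algebraMap (𝓞 L) (AlgebraicClosure ℚ) (τ • b) = σ₀ x := by
      have h3 : algebraMap (𝓞 L) (AlgebraicClosure ℚ) (τ • b)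
          = ((τ (⟨x, hxL⟩ : L) : L) : AlgebraicClosure ℚ) := rfl
      rw [h3, hcomm]
    have h4 : algebraMap (𝓞 L) (AlgebraicClosure ℚ) b = x := rfl
    rw [h2, h4] at h1
    exact A.mem_nonunits_iff.mpr h1
  obtain ⟨σ, hσ, hσeq⟩ := hlift ℓ hℓ A hA L σ₀ key
  ext x
  rw [hcomm, ← hσeq x x.2, hfix σ hσ x x.2]
  rfl

end

/-- Minkowski, relative to the inertia lifting statement. -/
theorem minkowski_of_lift (hlift : LiftStmt)
    (H : Subgroup (AlgebraicClosure ℚ ≃ₐ[ℚ] AlgebraicClosure ℚ)) (hHn : H.Normal)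
    (hS : ∃ S : Finset (AlgebraicClosure ℚ),
      ∀ σ : AlgebraicClosure ℚ ≃ₐ[ℚ] AlgebraicClosure ℚ, (∀ x ∈ S, σ x = x) → σ ∈ H)
    (hinert : ∀ ℓ : ℕ, ℓ.Prime → ∃ A : ValuationSubring (AlgebraicClosure ℚ),
      A.LiesOverPrime ℓ ∧ A.inertiaSubgroupIn ℚ ≤ H) :
    H = ⊤ := by
  obtain ⟨S, hS⟩ := hS
  -- Step 1: `H` contains the fixing subgroup of a finite extension, so it is open and closed.
  let F₀ : IntermediateField ℚ (AlgebraicClosure ℚ) :=
    IntermediateField.adjoin ℚ (S : Set (AlgebraicClosure ℚ))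
  have hF₀fin : FiniteDimensional ℚ F₀ :=
    IntermediateField.finiteDimensional_adjoin (fun x _ => Algebra.IsIntegral.isIntegral x)
  have hF₀H : F₀.fixingSubgroup ≤ H := by
    intro σ hσ
    apply hS
    intro x hx
    exact (IntermediateField.mem_fixingSubgroup_iff _ _).mp hσ x
      (IntermediateField.subset_adjoin ℚ _ hx)
  have hHopen : IsOpen (H : Set (AlgebraicClosure ℚ ≃ₐ[ℚ] AlgebraicClosure ℚ)) :=
    Subgroup.isOpen_mono hF₀H (IntermediateField.fixingSubgroup_isOpen F₀)
  have hHclosed : IsClosed (H : Set (AlgebraicClosure ℚ ≃ₐ[ℚ] AlgebraicClosure ℚ)) :=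
    Subgroup.isClosed_of_isOpen H hHopen
  -- Step 2: the fixed field.
  let L : IntermediateField ℚ (AlgebraicClosure ℚ) := IntermediateField.fixedField H
  have hLH : L.fixingSubgroup = H := InfiniteGalois.fixingSubgroup_fixedField ⟨H, hHclosed⟩
  have hLfin : FiniteDimensional ℚ L :=
    (InfiniteGalois.isOpen_iff_finite L).mp (by rw [hLH]; exact hHopen)
  have hLgal : IsGalois ℚ L :=
    (InfiniteGalois.normal_iff_isGalois L).mp (by rw [hLH]; exact hHn)
  have : NumberField L := ⟨⟩
  by_contra hne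
  have hrank : 1 < Module.finrank ℚ L := by
    have hpos : 0 < Module.finrank ℚ L := Module.finrank_pos
    have hne1 : Module.finrank ℚ L ≠ 1 := by
      intro h1
      have hbot : L = ⊥ := IntermediateField.finrank_eq_one_iff.mp h1
      apply hne
      rw [← hLH, hbot]
      exact IntermediateField.fixingSubgroup_bot
    omega
  obtain ⟨p, hp, hram⟩ :=
    NumberField.exists_not_isUnramifiedAt_int_of_isGalois (K := L) (𝒪 := 𝓞 L) hrank
  obtain ⟨A, hA, hAH⟩ := hinert p hp
  have := primeBelow_isPrime L A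
  have hmem : (p : 𝓞 L) ∈ primeBelow L A := natCast_mem_primeBelow L A p hA
  apply hram (primeBelow L A) inferInstance hmem
  have hI : (primeBelow L A).inertia (L ≃ₐ[ℚ] L) = ⊥ :=
    inertia_primeBelow_eq_bot L hlift p hp A hA (by
      intro σ hσ x hx
      have hσL : σ ∈ L.fixingSubgroup := by rw [hLH]; exact hAH hσ
      exact (IntermediateField.mem_fixingSubgroup_iff _ _).mp hσL x hx)
  rw [← Ideal.ramificationIdx_eq_one_iff,
    ← Ideal.ramificationIdxIn_eq_ramificationIdx ((primeBelow L A).under ℤ) _ (L ≃ₐ[ℚ] L),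
    ← Ideal.card_inertia_eq_ramificationIdxIn (G := L ≃ₐ[ℚ] L) ((primeBelow L A).under ℤ)
      (primeBelow L A), hI]
  simp

end Fermat.Agent.Lib.Minkowski
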