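import Mathlib

/-!
# ANA-fin: closed rings of functions on a finite set (item 71 / S19, helper98)

`K` a field, `A` a valuation subring of `K`, `X` a finite set, `H` a ring of functions `X → K`.
`π ∈ K` is a *gauge* of `A` if every element of the maximal ideal of `A` has a power divisible by
`π` (`IsGauge`); `H` is *closed* if every function which is approximated modulo `π ^ n` by
elements of `H`, for every `n`, lies in `H` (`Closed`).  For `K = ℚ̄`, `A` over `ℓ`, `π = ℓ`
both hold as soon as `H` separates the points (helper32, `Lib/HopfOrderLoc/CL.lean`); the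
wrappers are in `Lib/AnaFinQbar.lean`.

Main results (all for `H` closed, `π` a gauge, `X` finite):

* `mem_of_gauge_approx` : `H` is closed under `t`-adic approximation for EVERY function `t`
  with values in the maximal ideal;
* `inv_mem` : inverses of functions with unit values;
* `mem_of_powerSeries`, `mem_of_mvPowerSeries` : values of power series in elements of `H`;
* `mem_of_hensel_zero`, `mem_of_hensel`, `mem_of_hensel_series` : simple roots (modulo `t ^ n`,
  for every `n`) of polynomials with coefficients in `H`.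
-/

set_option autoImplicit false

open Polynomial

namespace Fermat.Agent.Lib.AnaFin

variable {K : Type*} [Field K] (A : ValuationSubring K) {X : Type*}

/-! ### Valuations -/

/-- `v a ≤ v b` iff `a = b * c` with `c ∈ A`. -/
lemma val_le_iff_exists (a b : K) :
    A.valuation a ≤ A.valuation b ↔ ∃ c ∈ A, a = b * c := by
  rw [ValuationSubring.valuation_le_iff]
  constructor
  · rintro ⟨c, hc⟩
    exact ⟨c, c.2, by rw [← hc, mul_comm]⟩
  · rintro ⟨c, hc, h⟩
    exact ⟨⟨c, hc⟩, by rw [h, mul_comm]⟩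

lemma val_pow_le_one {z : K} (hz : A.valuation z ≤ 1) (n : ℕ) : A.valuation z ^ n ≤ 1 :=
  pow_le_one' hz n

/-- Larger powers of an element of `A` have smaller valuation. -/
lemma val_pow_anti {z : K} (hz : A.valuation z ≤ 1) {m n : ℕ} (hmn : m ≤ n) :
    A.valuation z ^ n ≤ A.valuation z ^ m := by
  obtain ⟨k, rfl⟩ := Nat.exists_eq_add_of_le hmn
  rw [pow_add]
  calc A.valuation z ^ m * A.valuation z ^ k ≤ A.valuation z ^ m * 1 :=
        mul_le_mul_right (pow_le_one' hz k) _
    _ = A.valuation z ^ m := mul_one _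

lemma val_sum_le {ι : Type*} (s : Finset ι) (f : ι → K) (g : A.ValueGroup)
    (h : ∀ i ∈ s, A.valuation (f i) ≤ g) : A.valuation (∑ i ∈ s, f i) ≤ g :=
  Valuation.map_sum_le _ h

/-! ### Gauges and closed rings -/

/-- `π` is a gauge of `A`: every element of the maximal ideal has a power divisible by `π`. -/
def IsGauge (π : K) : Prop :=
  ∀ z : K, A.valuation z < 1 → ∃ n : ℕ, A.valuation z ^ n ≤ A.valuation π

/-- `H` is closed under `π`-adic approximation. -/
def Closed (π : K) (H : Subring (X → K)) : Prop :=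
  ∀ φ : X → K, (∀ n : ℕ, ∃ ψ ∈ H, ∀ x, A.valuation (φ x - ψ x) ≤ A.valuation π ^ n) → φ ∈ H

/-- The form of closedness used in `Lib/HopfOrderLoc`. -/
lemma closed_iff (π : K) (H : Subring (X → K)) :
    Closed A π H ↔ ∀ φ : X → K,
      (∀ n : ℕ, ∃ ψ ∈ H, ∀ x, ∃ a ∈ A, φ x - ψ x = π ^ n * a) → φ ∈ H := by
  have key : ∀ (φ ψ : X → K) (n : ℕ) (x : X),
      A.valuation (φ x - ψ x) ≤ A.valuation π ^ n ↔ ∃ a ∈ A, φ x - ψ x = π ^ n * a := by
    intro φ ψ n x
    rw [← map_pow, val_le_iff_exists]
  constructor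
  · intro h φ hφ
    refine h φ fun n => ?_
    obtain ⟨ψ, hψ, hx⟩ := hφ n
    exact ⟨ψ, hψ, fun x => (key φ ψ n x).mpr (hx x)⟩
  · intro h φ hφ
    refine h φ fun n => ?_
    obtain ⟨ψ, hψ, hx⟩ := hφ n
    exact ⟨ψ, hψ, fun x => (key φ ψ n x).mp (hx x)⟩

/-- A uniform exponent on a finite set. -/
lemma exists_uniform_pow [Finite X] {π : K} (hπ : IsGauge A π) (t : X → K)
    (ht : ∀ x, A.valuation (t x) < 1) :
    ∃ N : ℕ, ∀ x, A.valuation (t x) ^ N ≤ A.valuation π := by
  classical
  have := Fintype.ofFinite X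
  choose N hN using fun x => hπ (t x) (ht x)
  refine ⟨∑ x, N x, fun x => ?_⟩
  refine le_trans (val_pow_anti A (le_of_lt (ht x)) ?_) (hN x)
  exact Finset.single_le_sum (f := N) (fun _ _ => Nat.zero_le _) (Finset.mem_univ x)

/-- **Gauge limit.** A closed ring is closed under `t`-adic approximation for every function
`t` with values in the maximal ideal. -/
theorem mem_of_gauge_approx [Finite X] {π : K} (hπ : IsGauge A π) {H : Subring (X → K)}
    (hcl : Closed A π H) (t : X → K) (ht : ∀ x, A.valuation (t x) < 1) (φ : X → K)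
    (h : ∀ n : ℕ, ∃ ψ ∈ H, ∀ x, A.valuation (φ x - ψ x) ≤ A.valuation (t x) ^ n) : φ ∈ H := by
  obtain ⟨N, hN⟩ := exists_uniform_pow A hπ t ht
  refine hcl φ fun n => ?_
  obtain ⟨ψ, hψ, hx⟩ := h (N * n)
  refine ⟨ψ, hψ, fun x => le_trans (hx x) ?_⟩
  rw [pow_mul]
  exact pow_le_pow_left' (hN x) n

/-! ### Inverses -/

/-- The polynomial `∏ (Z - h x)`. -/
noncomputable def rootPoly [Fintype X] (h : X → K) : K[X] :=
  ∏ x : X, (Polynomial.X - C (h x))

lemma rootPoly_eval [Fintype X] (h : X → K) (x : X) : (rootPoly h).eval (h x) = 0 := by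
  rw [rootPoly, eval_prod]
  exact Finset.prod_eq_zero (Finset.mem_univ x) (by simp)

lemma rootPoly_coeff_mem [Fintype X] (h : X → K) (hA : ∀ x, h x ∈ A) (n : ℕ) :
    (rootPoly h).coeff n ∈ A := by
  have : rootPoly h = (∏ x : X, (Polynomial.X - C (⟨h x, hA x⟩ : A))).map A.subtype := by
    rw [rootPoly, Polynomial.map_prod]
    refine Finset.prod_congr rfl fun x _ => ?_
    simp
  rw [this, coeff_map]
  exact Subtype.property _

/-- The value at `φ` of a polynomial with coefficients in `A` lies in `H`. -/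
lemma constPoly_eval_mem {H : Subring (X → K)} (hconst : ∀ a ∈ A, (fun _ : X => a) ∈ H)
    (P : K[X]) (hP : ∀ n, P.coeff n ∈ A) {φ : X → K} (hφ : φ ∈ H) :
    (fun x => P.eval (φ x)) ∈ H := by
  have : (fun x => P.eval (φ x)) =
      ∑ n ∈ Finset.range (P.natDegree + 1), (fun _ : X => P.coeff n) * φ ^ n := by
    funext x
    rw [Finset.sum_apply, eval_eq_sum_range]
    rfl
  rw [this]
  exact Subring.sum_mem _ fun n _ => Subring.mul_mem _ (hconst _ (hP n)) (Subring.pow_mem _ hφ n)

/-- **(a) INV.** The inverse of a function of `H` with unit values lies in `H`. -/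
theorem inv_mem [Finite X] {H : Subring (X → K)} (hconst : ∀ a ∈ A, (fun _ : X => a) ∈ H)
    {φ : X → K} (hφ : φ ∈ H) (hu : ∀ x, A.valuation (φ x) = 1) :
    (fun x => (φ x)⁻¹) ∈ H := by
  classical
  have := Fintype.ofFinite X
  have hne : ∀ x, φ x ≠ 0 := fun x h => by
    have := hu x
    rw [h, map_zero] at this
    exact zero_ne_one this
  have hφA : ∀ x, φ x ∈ A := fun x => (A.valuation_le_one_iff _).mp (le_of_eq (hu x))
  have hinvA : ∀ x, (φ x)⁻¹ ∈ A := fun x => by
    rw [← A.valuation_le_one_iff, map_inv₀, hu x, inv_one]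
  set P := rootPoly φ with hP
  have hc0 : P.coeff 0 = ∏ x : X, (- φ x) := by
    rw [hP, rootPoly, coeff_zero_eq_eval_zero, eval_prod]
    refine Finset.prod_congr rfl fun x _ => ?_
    simp
  have hc0ne : P.coeff 0 ≠ 0 := by
    rw [hc0]
    exact Finset.prod_ne_zero_iff.mpr fun x _ => neg_ne_zero.mpr (hne x)
  have hc0inv : (P.coeff 0)⁻¹ ∈ A := by
    rw [hc0, ← Finset.prod_inv_distrib]
    refine Subring.prod_mem A.toSubring fun x _ => ?_
    rw [inv_neg]
    exact A.neg_mem _ (hinvA x)
  have hQ : (fun x => P.divX.eval (φ x)) ∈ H :=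
    constPoly_eval_mem A hconst P.divX
      (fun n => by rw [coeff_divX]; exact rootPoly_coeff_mem A φ hφA _) hφ
  have key : ∀ x, (φ x)⁻¹ = - (P.coeff 0)⁻¹ * P.divX.eval (φ x) := by
    intro x
    have h1 : P.eval (φ x) = 0 := rootPoly_eval φ x
    have h2 : P = P.divX * Polynomial.X + C (P.coeff 0) := (divX_mul_X_add P).symm
    rw [h2, eval_add, eval_mul, eval_X, eval_C] at h1
    have h3 : P.divX.eval (φ x) * φ x = - P.coeff 0 := by linear_combination h1
    have h4 : (- (P.coeff 0)⁻¹ * P.divX.eval (φ x)) * φ x = 1 := by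
      rw [mul_assoc, h3, neg_mul_neg, inv_mul_cancel₀ hc0ne]
    exact (eq_inv_of_mul_eq_one_left h4).symm
  have : (fun x => (φ x)⁻¹) = (fun _ : X => - (P.coeff 0)⁻¹) * (fun x => P.divX.eval (φ x)) := by
    funext x
    rw [key x]
    rfl
  rw [this]
  exact Subring.mul_mem _ (hconst _ (A.neg_mem _ hc0inv)) hQ

/-- Division by a function of `H` with unit values. -/
theorem div_mem [Finite X] {H : Subring (X → K)} (hconst : ∀ a ∈ A, (fun _ : X => a) ∈ H)
    {φ ψ : X → K} (hφ : φ ∈ H) (hψ : ψ ∈ H) (hu : ∀ x, A.valuation (φ x) = 1) :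
    (fun x => ψ x / φ x) ∈ H := by
  have h := Subring.mul_mem _ hψ (inv_mem A hconst hφ hu)
  have : (fun x => ψ x / φ x) = ψ * fun x => (φ x)⁻¹ := by
    funext x
    exact div_eq_mul_inv _ _
  rw [this]
  exact h

/-! ### Power series -/

/-- **(b) PS, one variable.** If `φ x = ∑ a m x * s x ^ m` (as a convergent series, i.e. modulo
`s x ^ n` for every `n`) with `a m ∈ H`, `s ∈ H` with values in the maximal ideal, then
`φ ∈ H`. -/
theorem mem_of_powerSeries [Finite X] {π : K} (hπ : IsGauge A π) {H : Subring (X → K)}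
    (hcl : Closed A π H) (a : ℕ → X → K) (ha : ∀ m, a m ∈ H) (s : X → K) (hs : s ∈ H)
    (hs1 : ∀ x, A.valuation (s x) < 1) (φ : X → K)
    (h : ∀ n x, A.valuation (φ x - ∑ m ∈ Finset.range n, a m x * s x ^ m) ≤
      A.valuation (s x) ^ n) : φ ∈ H := by
  refine mem_of_gauge_approx A hπ hcl s hs1 φ fun n => ?_
  refine ⟨∑ m ∈ Finset.range n, a m * s ^ m, ?_, fun x => ?_⟩
  · exact Subring.sum_mem _ fun m _ => Subring.mul_mem _ (ha m) (Subring.pow_mem _ hs m)
  · have : (∑ m ∈ Finset.range n, a m * s ^ m) x = ∑ m ∈ Finset.range n, a m x * s x ^ m := by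
      rw [Finset.sum_apply]
      rfl
    rw [this]
    exact h n x

/-- **(b) PS, several variables.** `t` is a gauge function (values in the maximal ideal); for
every `n` some finite partial sum of `∑ a m * ∏ s i ^ m i` approximates `φ` modulo `t ^ n`. -/
theorem mem_of_mvPowerSeries [Finite X] {π : K} (hπ : IsGauge A π) {H : Subring (X → K)}
    (hcl : Closed A π H) {σ : Type*} (a : (σ →₀ ℕ) → X → K) (ha : ∀ m, a m ∈ H)
    (s : σ → X → K) (hs : ∀ i, s i ∈ H) (t : X → K) (ht : ∀ x, A.valuation (t x) < 1)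
    (φ : X → K)
    (h : ∀ n : ℕ, ∃ F : Finset (σ →₀ ℕ), ∀ x,
      A.valuation (φ x - ∑ m ∈ F, a m x * m.prod fun i k => s i x ^ k) ≤
        A.valuation (t x) ^ n) : φ ∈ H := by
  refine mem_of_gauge_approx A hπ hcl t ht φ fun n => ?_
  obtain ⟨F, hF⟩ := h n
  refine ⟨∑ m ∈ F, a m * m.prod fun i k => s i ^ k, ?_, fun x => ?_⟩
  · exact Subring.sum_mem _ fun m _ => Subring.mul_mem _ (ha m)
      (Subring.prod_mem _ fun i _ => Subring.pow_mem _ (hs i) _)
  · have : (∑ m ∈ F, a m * m.prod fun i k => s i ^ k) x =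
        ∑ m ∈ F, a m x * m.prod fun i k => s i x ^ k := by
      rw [Finset.sum_apply]
      refine Finset.sum_congr rfl fun m _ => ?_
      show a m x * (m.prod fun i k => s i ^ k) x = _
      congr 1
      rw [Finsupp.prod, Finsupp.prod, Finset.prod_apply]
      rfl
    rw [this]
    exact hF x

/-! ### Hensel -/

/-- `v (w ^ (m + 1) - z ^ (m + 1)) ≤ v (w - z) * τ ^ m` if `v w, v z ≤ τ`. -/
lemma val_pow_sub_pow_le {w z : K} {τ : A.ValueGroup} (hw : A.valuation w ≤ τ)
    (hz : A.valuation z ≤ τ) (m : ℕ) :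
    A.valuation (w ^ (m + 1) - z ^ (m + 1)) ≤ A.valuation (w - z) * τ ^ m := by
  induction m with
  | zero => simp
  | succ m ih =>
    have e : w ^ (m + 1 + 1) - z ^ (m + 1 + 1) =
        w * (w ^ (m + 1) - z ^ (m + 1)) + (w - z) * z ^ (m + 1) := by ring
    rw [e]
    refine le_trans (Valuation.map_add _ _ _) (max_le ?_ ?_)
    · rw [map_mul]
      calc A.valuation w * A.valuation (w ^ (m + 1) - z ^ (m + 1))
          ≤ τ * (A.valuation (w - z) * τ ^ m) := mul_le_mul' hw ih
        _ = A.valuation (w - z) * τ ^ (m + 1) := by rw [pow_succ]; ac_rfl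
    · rw [map_mul, map_pow]
      exact mul_le_mul_right (pow_le_pow_left' hz _) _

/-- **Newton step**, at one point: for a polynomial `P` with coefficients in `A` and unit linear
coefficient, `w ↦ w - P.eval w / P.coeff 1` improves the approximation of a root `z` in the
maximal ideal. -/
lemma val_newton_step (P : K[X]) (hP : ∀ m, A.valuation (P.coeff m) ≤ 1) (u : K)
    (hu : u * P.coeff 1 = 1) (hu1 : A.valuation u ≤ 1) {w z : K} {τ : A.ValueGroup}
    (hτ : τ ≤ 1) (hw : A.valuation w ≤ τ) (hz : A.valuation z ≤ τ) :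
    A.valuation (w - u * P.eval w - z) ≤
      max (A.valuation (w - z) * τ) (A.valuation (P.eval z)) := by
  have h1 : P.coeff 1 ≠ 0 := right_ne_zero_of_mul_eq_one hu
  have hd : 1 ∈ Finset.range (P.natDegree + 1) := by
    rw [Finset.mem_range, Nat.lt_succ_iff]
    exact le_natDegree_of_ne_zero h1
  set R : K := ∑ m ∈ (Finset.range (P.natDegree + 1)).erase 1, P.coeff m * (w ^ m - z ^ m)
    with hR
  have hsum : P.eval w - P.eval z = P.coeff 1 * (w - z) + R := by
    rw [eval_eq_sum_range, eval_eq_sum_range, ← Finset.sum_sub_distrib, hR,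
      ← Finset.add_sum_erase _ _ hd]
    congr 1
    · rw [pow_one, pow_one, mul_sub]
    · exact Finset.sum_congr rfl fun m _ => (mul_sub _ _ _).symm
  have hRv : A.valuation R ≤ A.valuation (w - z) * τ := by
    refine val_sum_le A _ _ _ fun m hm => ?_
    rw [Finset.mem_erase] at hm
    rcases Nat.lt_or_ge m 2 with h | h
    · have hm0 : m = 0 := by omega
      subst hm0
      simp
    · obtain ⟨k, rfl⟩ : ∃ k, m = k + 1 + 1 := ⟨m - 2, by omega⟩
      rw [map_mul]
      calc A.valuation (P.coeff (k + 1 + 1)) * A.valuation (w ^ (k + 1 + 1) - z ^ (k + 1 + 1))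
          ≤ 1 * (A.valuation (w - z) * τ ^ (k + 1)) :=
            mul_le_mul' (hP _) (val_pow_sub_pow_le A hw hz _)
        _ = A.valuation (w - z) * (τ * τ ^ k) := by rw [one_mul, pow_succ']
        _ ≤ A.valuation (w - z) * (τ * 1) :=
            mul_le_mul_right (mul_le_mul_right (pow_le_one' hτ k) _) _
        _ = A.valuation (w - z) * τ := by rw [mul_one]
  have e : w - u * P.eval w - z = - (u * R) + - (u * P.eval z) := by
    have : P.eval w = P.eval z + (P.coeff 1 * (w - z) + R) := by rw [← hsum]; ring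
    rw [this]
    linear_combination (-(w - z)) * hu
  rw [e]
  refine le_trans (Valuation.map_add _ _ _) (max_le_max ?_ ?_)
  · rw [Valuation.map_neg, map_mul]
    calc A.valuation u * A.valuation R ≤ 1 * (A.valuation (w - z) * τ) := mul_le_mul' hu1 hRv
      _ = _ := one_mul _
  · rw [Valuation.map_neg, map_mul]
    calc A.valuation u * A.valuation (P.eval z) ≤ 1 * A.valuation (P.eval z) :=
          mul_le_mul_left hu1 _
      _ = _ := one_mul _

/-- The value of a polynomial with coefficients in `H` at an element of `H` lies in `H`. -/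
lemma eval_mem {R : Type*} [CommRing R] (H : Subring R) (Φ : R[X]) (hΦ : ∀ m, Φ.coeff m ∈ H)
    {w : R} (hw : w ∈ H) : Φ.eval w ∈ H := by
  rw [eval_eq_sum_range]
  exact Subring.sum_mem _ fun m _ => Subring.mul_mem _ (hΦ m) (Subring.pow_mem _ hw m)

/-- Evaluation of polynomials over a ring of functions is pointwise. -/
lemma eval_apply (Φ : (X → K)[X]) (w : X → K) (x : X) :
    (Φ.eval w) x = (Φ.map (Pi.evalRingHom (fun _ : X => K) x)).eval (w x) := by
  rw [eval_map]
  exact (eval₂_at_apply (Pi.evalRingHom (fun _ : X => K) x) w).symm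

/-- **Hensel, centred at `0`.** `H` closed, `t` a gauge function, `z` a function with
`z x ∈ t x • A`.  If for every `n` there is a polynomial `Φ` with coefficients in `H`, whose
linear coefficient has unit values, with `Φ(z) ≡ 0` modulo `t ^ n`, then `z ∈ H`. -/
theorem mem_of_hensel_zero [Finite X] {π : K} (hπ : IsGauge A π) {H : Subring (X → K)}
    (hcl : Closed A π H) (hconst : ∀ a ∈ A, (fun _ : X => a) ∈ H)
    (hval : ∀ g ∈ H, ∀ x, g x ∈ A) (t : X → K) (ht : ∀ x, A.valuation (t x) < 1)
    (z : X → K) (hz : ∀ x, A.valuation (z x) ≤ A.valuation (t x))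
    (h : ∀ n : ℕ, ∃ Φ : (X → K)[X], (∀ m, Φ.coeff m ∈ H) ∧
      (∀ x, A.valuation (Φ.coeff 1 x) = 1) ∧
      ∀ x, A.valuation ((Φ.eval z) x) ≤ A.valuation (t x) ^ n) : z ∈ H := by
  refine mem_of_gauge_approx A hπ hcl t ht z fun n => ?_
  rcases Nat.eq_zero_or_pos n with hn | hn
  · refine ⟨0, H.zero_mem, fun x => ?_⟩
    rw [hn, pow_zero, Pi.zero_apply, sub_zero]
    exact le_trans (hz x) (le_of_lt (ht x))
  obtain ⟨Φ, hΦ, hlin, hroot⟩ := h n
  -- the inverse of the linear coefficient
  set u : X → K := fun x => (Φ.coeff 1 x)⁻¹ with hu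
  have huH : u ∈ H := inv_mem A hconst (hΦ 1) hlin
  have hne : ∀ x, Φ.coeff 1 x ≠ 0 := fun x h => by
    have := hlin x
    rw [h, map_zero] at this
    exact zero_ne_one this
  -- the iteration
  set G : (X → K) → (X → K) := fun w => w - u * Φ.eval w with hG
  have hGH : ∀ k : ℕ, G^[k] 0 ∈ H := by
    intro k
    induction k with
    | zero => exact H.zero_mem
    | succ k ih =>
      rw [Function.iterate_succ_apply']
      exact H.sub_mem ih (H.mul_mem huH (eval_mem H Φ hΦ ih))
  have hstep : ∀ (k : ℕ) (x : X),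
      A.valuation ((G^[k] 0) x - z x) ≤ A.valuation (t x) ^ (min (k + 1) n) := by
    intro k
    induction k with
    | zero =>
      intro x
      have : min (0 + 1) n = 1 := by omega
      rw [this, Function.iterate_zero, id, Pi.zero_apply, zero_sub, Valuation.map_neg, pow_one]
      exact hz x
    | succ k ih =>
      intro x
      set w := G^[k] 0 with hw
      have hτ : A.valuation (t x) ≤ 1 := le_of_lt (ht x)
      have hwz : A.valuation (w x - z x) ≤ A.valuation (t x) := by
        refine le_trans (ih x) ?_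
        calc A.valuation (t x) ^ (min (k + 1) n) ≤ A.valuation (t x) ^ 1 :=
              val_pow_anti A hτ (by omega)
          _ = A.valuation (t x) := pow_one _
      have hwt : A.valuation (w x) ≤ A.valuation (t x) := by
        have : w x = (w x - z x) + z x := by ring
        rw [this]
        exact le_trans (Valuation.map_add _ _ _) (max_le hwz (hz x))
      have hP : ∀ m, A.valuation ((Φ.map (Pi.evalRingHom (fun _ : X => K) x)).coeff m) ≤ 1 := by
        intro m
        rw [coeff_map, A.valuation_le_one_iff]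
        exact hval _ (hΦ m) x
      have hu' : u x * (Φ.map (Pi.evalRingHom (fun _ : X => K) x)).coeff 1 = 1 := by
        rw [coeff_map]
        exact inv_mul_cancel₀ (hne x)
      have hu1 : A.valuation (u x) ≤ 1 := by
        rw [A.valuation_le_one_iff]
        exact hval _ huH x
      have key := val_newton_step A (Φ.map (Pi.evalRingHom (fun _ : X => K) x)) hP (u x) hu' hu1
        hτ hwt (hz x)
      have e : (G^[k + 1] 0) x - z x =
          w x - u x * (Φ.map (Pi.evalRingHom (fun _ : X => K) x)).eval (w x) - z x := by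
        rw [Function.iterate_succ_apply', ← hw, hG]
        show w x - u x * (Φ.eval w) x - z x = _
        rw [eval_apply]
      rw [e]
      refine le_trans key (max_le ?_ ?_)
      · calc A.valuation (w x - z x) * A.valuation (t x)
            ≤ A.valuation (t x) ^ (min (k + 1) n) * A.valuation (t x) :=
              mul_le_mul_left (ih x) _
          _ = A.valuation (t x) ^ (min (k + 1) n + 1) := (pow_succ _ _).symm
          _ ≤ A.valuation (t x) ^ (min (k + 1 + 1) n) := val_pow_anti A hτ (by omega)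
      · rw [← eval_apply]
        exact le_trans (hroot x) (val_pow_anti A hτ (by omega))
  refine ⟨G^[n] 0, hGH n, fun x => ?_⟩
  rw [Valuation.map_sub_swap]
  refine le_trans (hstep n x) (le_of_eq ?_)
  congr 1
  omega

/-- The coefficients of a Taylor shift by an element of `H` of a polynomial with coefficients
in `H` lie in `H`. -/
lemma taylor_coeff_mem {R : Type*} [CommRing R] (H : Subring R) (Φ : R[X])
    (hΦ : ∀ m, Φ.coeff m ∈ H) {w : R} (hw : w ∈ H) (m : ℕ) : (taylor w Φ).coeff m ∈ H := by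
  rw [taylor_coeff]
  refine eval_mem H _ (fun k => ?_) hw
  rw [hasseDeriv_coeff]
  exact H.mul_mem (natCast_mem H _) (hΦ _)

/-- **Hensel.** `H` closed, `t` a gauge function, `w₀ ∈ H`, `z ≡ w₀` modulo `t`.  If for every
`n` there is a polynomial `Φ` with coefficients in `H` with `Φ'(w₀)` a unit (at every point)
and `Φ(z) ≡ 0` modulo `t ^ n`, then `z ∈ H`. -/
theorem mem_of_hensel [Finite X] {π : K} (hπ : IsGauge A π) {H : Subring (X → K)}
    (hcl : Closed A π H) (hconst : ∀ a ∈ A, (fun _ : X => a) ∈ H)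
    (hval : ∀ g ∈ H, ∀ x, g x ∈ A) (t : X → K) (ht : ∀ x, A.valuation (t x) < 1)
    (w₀ : X → K) (hw₀ : w₀ ∈ H)
    (z : X → K) (hz : ∀ x, A.valuation (z x - w₀ x) ≤ A.valuation (t x))
    (h : ∀ n : ℕ, ∃ Φ : (X → K)[X], (∀ m, Φ.coeff m ∈ H) ∧
      (∀ x, A.valuation ((Φ.derivative.eval w₀) x) = 1) ∧
      ∀ x, A.valuation ((Φ.eval z) x) ≤ A.valuation (t x) ^ n) : z ∈ H := by
  have hz' : z - w₀ ∈ H := by
    refine mem_of_hensel_zero A hπ hcl hconst hval t ht (z - w₀) hz fun n => ?_
    obtain ⟨Φ, hΦ, hlin, hroot⟩ := h n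
    refine ⟨taylor w₀ Φ, taylor_coeff_mem H Φ hΦ hw₀, fun x => ?_, fun x => ?_⟩
    · rw [taylor_coeff_one]
      exact hlin x
    · rw [taylor_eval, sub_add_cancel]
      exact hroot x
  have : z = (z - w₀) + w₀ := by ring
  rw [this]
  exact H.add_mem hz' hw₀

/-- **(c) HENSEL, power series form.** `b m ∈ H`, `b 1` with unit values, `z` with values in the
maximal ideal and `∑ b m * z ^ m = 0` (modulo `z ^ n` for every `n`).  Then `z ∈ H`. -/
theorem mem_of_hensel_series [Finite X] {π : K} (hπ : IsGauge A π) {H : Subring (X → K)}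
    (hcl : Closed A π H) (hconst : ∀ a ∈ A, (fun _ : X => a) ∈ H)
    (hval : ∀ g ∈ H, ∀ x, g x ∈ A) (b : ℕ → X → K) (hb : ∀ m, b m ∈ H)
    (hb1 : ∀ x, A.valuation (b 1 x) = 1) (z : X → K) (hz : ∀ x, A.valuation (z x) < 1)
    (h : ∀ n x, A.valuation (∑ m ∈ Finset.range n, b m x * z x ^ m) ≤ A.valuation (z x) ^ n) :
    z ∈ H := by
  refine mem_of_hensel_zero A hπ hcl hconst hval z hz z (fun x => le_rfl) fun n => ?_
  set N := n + 2 with hN
  refine ⟨∑ m ∈ Finset.range N, C (b m) * Polynomial.X ^ m, fun k => ?_, fun x => ?_,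
    fun x => ?_⟩
  · rw [finsetSum_coeff]
    refine Subring.sum_mem _ fun m _ => ?_
    rw [coeff_C_mul, coeff_X_pow]
    split_ifs
    · rw [mul_one]; exact hb m
    · rw [mul_zero]; exact H.zero_mem
  · have : (∑ m ∈ Finset.range N, C (b m) * Polynomial.X ^ m).coeff 1 = b 1 := by
      rw [finsetSum_coeff, Finset.sum_eq_single 1]
      · rw [coeff_C_mul, coeff_X_pow, if_pos rfl, mul_one]
      · intro m _ hm
        rw [coeff_C_mul, coeff_X_pow, if_neg (Ne.symm hm), mul_zero]
      · intro h1
        exact absurd (Finset.mem_range.mpr (by omega)) h1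
    rw [this]
    exact hb1 x
  · have : (eval z (∑ m ∈ Finset.range N, C (b m) * Polynomial.X ^ m)) x =
        ∑ m ∈ Finset.range N, b m x * z x ^ m := by
      rw [eval_finsetSum, Finset.sum_apply]
      refine Finset.sum_congr rfl fun m _ => ?_
      rw [eval_mul, eval_C, eval_pow, eval_X]
      rfl
    rw [this]
    exact le_trans (h N x) (val_pow_anti A (le_of_lt (hz x)) (by omega))

end Fermat.Agent.Lib.AnaFin
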