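import Fermat.Agent.Lib.AnaFin
import Fermat.Agent.Lib.HopfOrderLoc.CL

/-!
# ANA-fin over `ℚ̄` (item 71 / S19, helper98)

`A` a valuation subring of `ℚ̄` over `ℓ`.  Then `ℓ` is a gauge of `A`, and every ring of
`A`-valued functions on a finite set which contains the constants of `A` and separates the
points is closed (helper32, `Lib/HopfOrderLoc/CL.lean`).  So the results of `Lib/AnaFin.lean`
apply to such rings, in particular to `genRing A h` and `pairRing A f`.
-/

set_option autoImplicit false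

open Polynomial

namespace Fermat.Agent.Lib.AnaFin

open Fermat.Agent.Lib.HopfOrder Fermat.Agent.Lib.HopfOrderLoc

local notation "K" => AlgebraicClosure ℚ

section Qbar

variable (ℓ : ℕ) (hℓ : ℓ.Prime) (A : ValuationSubring K) (hA : A.LiesOverPrime ℓ)

include hℓ hA in
/-- `ℓ` is a gauge of every valuation subring of `ℚ̄` over `ℓ`. -/
theorem isGauge_prime : IsGauge A (ℓ : K) := fun z hz => exists_pow_le_prime ℓ hℓ A hA z hz

variable {S : Type} [Finite S] (T : Subring (S → K))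

include hℓ hA in
/-- A separating ring of `A`-valued functions containing the constants is closed. -/
theorem closed_of_separates (hconst : ∀ a ∈ A, (fun _ : S => a) ∈ T)
    (hval : ∀ g ∈ T, ∀ s, g s ∈ A) (hsep : ∀ s s' : S, s ≠ s' → ∃ g ∈ T, g s ≠ g s') :
    Closed A (ℓ : K) T := by
  rw [closed_iff]
  exact fun φ hφ => mem_of_approx ℓ hℓ A hA T hconst hval hsep φ hφ

/-- The hypotheses on a ring of functions: constants, values in `A`, separation. -/
structure IsFunRing (T : Subring (S → K)) : Prop where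
  const : ∀ a ∈ A, (fun _ : S => a) ∈ T
  val : ∀ g ∈ T, ∀ s, g s ∈ A
  sep : ∀ s s' : S, s ≠ s' → ∃ g ∈ T, g s ≠ g s'

variable {A T}

include hℓ hA in
theorem IsFunRing.closed (hT : IsFunRing A T) : Closed A (ℓ : K) T :=
  closed_of_separates ℓ hℓ A hA T hT.const hT.val hT.sep

include hℓ hA in
/-- **Gauge limit** over `ℚ̄`. -/
theorem IsFunRing.mem_of_gauge_approx (hT : IsFunRing A T) (t : S → K)
    (ht : ∀ x, A.valuation (t x) < 1) (φ : S → K)
    (h : ∀ n : ℕ, ∃ ψ ∈ T, ∀ x, A.valuation (φ x - ψ x) ≤ A.valuation (t x) ^ n) : φ ∈ T :=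
  AnaFin.mem_of_gauge_approx A (isGauge_prime ℓ hℓ A hA) (hT.closed ℓ hℓ hA) t ht φ h

/-- **(a) INV** over `ℚ̄`. -/
theorem IsFunRing.inv_mem (hT : IsFunRing A T) {φ : S → K} (hφ : φ ∈ T)
    (hu : ∀ x, A.valuation (φ x) = 1) : (fun x => (φ x)⁻¹) ∈ T :=
  AnaFin.inv_mem A hT.const hφ hu

include hℓ hA in
/-- **(b) PS** over `ℚ̄`, one variable. -/
theorem IsFunRing.mem_of_powerSeries (hT : IsFunRing A T) (a : ℕ → S → K) (ha : ∀ m, a m ∈ T)
    (s : S → K) (hs : s ∈ T) (hs1 : ∀ x, A.valuation (s x) < 1) (φ : S → K)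
    (h : ∀ n x, A.valuation (φ x - ∑ m ∈ Finset.range n, a m x * s x ^ m) ≤
      A.valuation (s x) ^ n) : φ ∈ T :=
  AnaFin.mem_of_powerSeries A (isGauge_prime ℓ hℓ A hA) (hT.closed ℓ hℓ hA) a ha s hs hs1 φ h

include hℓ hA in
/-- **(c) HENSEL** over `ℚ̄`, polynomial form. -/
theorem IsFunRing.mem_of_hensel (hT : IsFunRing A T) (t : S → K)
    (ht : ∀ x, A.valuation (t x) < 1) (w₀ : S → K) (hw₀ : w₀ ∈ T)
    (z : S → K) (hz : ∀ x, A.valuation (z x - w₀ x) ≤ A.valuation (t x))
    (h : ∀ n : ℕ, ∃ Φ : (S → K)[X], (∀ m, Φ.coeff m ∈ T) ∧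
      (∀ x, A.valuation ((Φ.derivative.eval w₀) x) = 1) ∧
      ∀ x, A.valuation ((Φ.eval z) x) ≤ A.valuation (t x) ^ n) : z ∈ T :=
  AnaFin.mem_of_hensel A (isGauge_prime ℓ hℓ A hA) (hT.closed ℓ hℓ hA) hT.const hT.val t ht
    w₀ hw₀ z hz h

include hℓ hA in
/-- **(c) HENSEL** over `ℚ̄`, power series form. -/
theorem IsFunRing.mem_of_hensel_series (hT : IsFunRing A T) (b : ℕ → S → K)
    (hb : ∀ m, b m ∈ T) (hb1 : ∀ x, A.valuation (b 1 x) = 1) (z : S → K)
    (hz : ∀ x, A.valuation (z x) < 1)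
    (h : ∀ n x, A.valuation (∑ m ∈ Finset.range n, b m x * z x ^ m) ≤ A.valuation (z x) ^ n) :
    z ∈ T :=
  AnaFin.mem_of_hensel_series A (isGauge_prime ℓ hℓ A hA) (hT.closed ℓ hℓ hA) hT.const hT.val
    b hb hb1 z hz h

end Qbar

section Gen

variable {M ι : Type}

/-- `genRing A h` is a ring of functions in the sense of `IsFunRing`. -/
theorem isFunRing_genRing [Finite M] (A : ValuationSubring K) (h : ι → M → K)
    (integral : ∀ j x, h j x ∈ A) (separates : ∀ x y, x ≠ y → ∃ j, h j x ≠ h j y) :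
    IsFunRing A (genRing A.toSubring h) where
  const := fun _ ha => const_mem_genRing A.toSubring h ha
  val := fun _ hg x => genRing_val_mem A.toSubring h integral hg x
  sep := fun x y hxy => by
    obtain ⟨j, hj⟩ := separates x y hxy
    exact ⟨h j, gen_mem_genRing A.toSubring h j, hj⟩

/-- `pairRing A f` is a ring of functions in the sense of `IsFunRing`. -/
theorem isFunRing_pairRing [AddCommGroup M] [Finite M] (A : ValuationSubring K) (f : ι → M → K)
    (integral : ∀ j x, f j x ∈ A) (separates : ∀ x y, x ≠ y → ∃ j, f j x ≠ f j y) :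
    IsFunRing A (pairRing A.toSubring f) where
  const := fun _ ha => const_mem_pairRing A.toSubring f ha
  val := fun _ hg q => pairRing_val_mem A.toSubring f integral hg q
  sep := fun q q' hqq' => by
    by_cases h1 : q.1 = q'.1
    · have h2 : q.2 ≠ q'.2 := fun h2 => hqq' (Prod.ext h1 h2)
      obtain ⟨j, hj⟩ := separates _ _ h2
      exact ⟨_, snd_mem_pairRing A.toSubring f j, hj⟩
    · obtain ⟨j, hj⟩ := separates _ _ h1
      exact ⟨_, fst_mem_pairRing A.toSubring f j, hj⟩

end Gen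

end Fermat.Agent.Lib.AnaFin
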