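import Fermat.Agent.Lib.ZetaPrimes

/-!
# L-series of class group characters near `s = 1`

For a number field `K` and a character `χ` of the class group we define
`L(s, χ) = ∑_I χ(I) N(I)^{-s}` (real `s > 1`), prove its Euler product, and show that an upper
bound for `‖L(s, χ)‖` gives an upper bound for `Re ∑_𝔭 χ(𝔭) N𝔭^{-s}`.
-/

namespace Fermat.Agent.Lib.ZetaPrimes

open NumberField IsDedekindDomain Filter Topology Ideal nonZeroDivisors

variable (K : Type*) [Field K] [NumberField K]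

/-- The class of an ideal (`1` for the zero ideal). -/
noncomputable def idealClass (I : Ideal (𝓞 K)) : ClassGroup (𝓞 K) :=
  open Classical in
  if h : I = ⊥ then 1 else ClassGroup.mk0 ⟨I, mem_nonZeroDivisors_of_ne_zero h⟩

lemma idealClass_of_ne_bot {I : Ideal (𝓞 K)} (h : I ≠ ⊥) :
    idealClass K I = ClassGroup.mk0 ⟨I, mem_nonZeroDivisors_of_ne_zero h⟩ := by
  simp [idealClass, h]

lemma idealClass_coe (I : (Ideal (𝓞 K))⁰) : idealClass K (I : Ideal (𝓞 K)) = ClassGroup.mk0 I := by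
  rw [idealClass_of_ne_bot K (nonZeroDivisors.coe_ne_zero I)]

lemma idealClass_mul {I J : Ideal (𝓞 K)} (hI : I ≠ ⊥) (hJ : J ≠ ⊥) :
    idealClass K (I * J) = idealClass K I * idealClass K J := by
  rw [idealClass_of_ne_bot K hI, idealClass_of_ne_bot K hJ,
    idealClass_of_ne_bot K (mul_ne_zero hI hJ), ← map_mul]
  rfl

lemma idealClass_one : idealClass K (1 : Ideal (𝓞 K)) = 1 := by
  rw [idealClass_of_ne_bot K (one_ne_zero)]
  exact map_one ClassGroup.mk0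

lemma idealClass_asIdeal (v : HeightOneSpectrum (𝓞 K)) :
    idealClass K v.asIdeal = primeClass K v :=
  idealClass_of_ne_bot K v.ne_bot

variable {K}

/-- A class group character as a completely multiplicative function on ideals. -/
noncomputable def chiIdeal (χ : ClassGroup (𝓞 K) →* ℂˣ) : Ideal (𝓞 K) →*₀ ℂ where
  toFun I := open Classical in if I = ⊥ then 0 else ((χ (idealClass K I) : ℂˣ) : ℂ)
  map_zero' := by simp
  map_one' := by
    have h1 : (1 : Ideal (𝓞 K)) ≠ ⊥ := one_ne_zero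
    rw [if_neg h1, idealClass_one, map_one, Units.val_one]
  map_mul' I J := by
    classical
    by_cases hI : I = ⊥
    · simp [hI]
    by_cases hJ : J = ⊥
    · simp [hJ]
    have hIJ : I * J ≠ ⊥ := mul_ne_zero hI hJ
    rw [if_neg hI, if_neg hJ, if_neg hIJ, idealClass_mul K hI hJ, map_mul, Units.val_mul]

lemma chiIdeal_of_ne_bot (χ : ClassGroup (𝓞 K) →* ℂˣ) {I : Ideal (𝓞 K)} (h : I ≠ ⊥) :
    chiIdeal χ I = ((χ (idealClass K I) : ℂˣ) : ℂ) := by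
  simp [chiIdeal, h]

lemma chiIdeal_bot (χ : ClassGroup (𝓞 K) →* ℂˣ) : chiIdeal χ (⊥ : Ideal (𝓞 K)) = 0 := by
  simp [chiIdeal]

lemma norm_char_eq_one (χ : ClassGroup (𝓞 K) →* ℂˣ) (g : ClassGroup (𝓞 K)) :
    ‖((χ g : ℂˣ) : ℂ)‖ = 1 := by
  have hfin : IsOfFinOrder g := isOfFinOrder_of_finite g
  obtain ⟨n, hn, hg⟩ := hfin.exists_pow_eq_one
  have h1 : ((χ g : ℂˣ) : ℂ) ^ n = 1 := by
    rw [← Units.val_pow_eq_pow_val, ← map_pow, hg, map_one, Units.val_one]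
  have h2 : ‖((χ g : ℂˣ) : ℂ)‖ ^ n = 1 := by
    rw [← norm_pow, h1, norm_one]
  exact (pow_eq_one_iff_of_nonneg (norm_nonneg _) hn.ne').mp h2

lemma norm_chiIdeal_le (χ : ClassGroup (𝓞 K) →* ℂˣ) (I : Ideal (𝓞 K)) :
    ‖chiIdeal χ I‖ ≤ 1 := by
  by_cases h : I = ⊥
  · simp [h, chiIdeal_bot]
  · rw [chiIdeal_of_ne_bot χ h, norm_char_eq_one]

lemma chiIdeal_asIdeal (χ : ClassGroup (𝓞 K) →* ℂˣ) (v : HeightOneSpectrum (𝓞 K)) :
    chiIdeal χ v.asIdeal = ((χ (primeClass K v) : ℂˣ) : ℂ) := by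
  rw [chiIdeal_of_ne_bot χ v.ne_bot, idealClass_asIdeal]

variable (K)

/-- `N^{-s}` as a complex-valued monoid-with-zero hom. -/
noncomputable def normPowHomC (s : ℝ) (hs : s ≠ 0) : Ideal (𝓞 K) →*₀ ℂ :=
  (Complex.ofRealHom : ℝ →+* ℂ).toMonoidWithZeroHom.comp (normPowHom K s hs)

@[simp] lemma normPowHomC_apply (s : ℝ) (hs : s ≠ 0) (I : Ideal (𝓞 K)) :
    normPowHomC K s hs I = ((normPow K s I : ℝ) : ℂ) := rfl

variable {K}

/-- The terms of the L-series of `χ`. -/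
noncomputable def lTerm (χ : ClassGroup (𝓞 K) →* ℂˣ) (s : ℝ) (I : Ideal (𝓞 K)) : ℂ :=
  chiIdeal χ I * ((normPow K s I : ℝ) : ℂ)

/-- The terms of the L-series of `χ`, as a monoid-with-zero hom. -/
noncomputable def lTermHom (χ : ClassGroup (𝓞 K) →* ℂˣ) (s : ℝ) (hs : s ≠ 0) :
    Ideal (𝓞 K) →*₀ ℂ :=
  chiIdeal χ * normPowHomC K s hs

lemma lTermHom_apply (χ : ClassGroup (𝓞 K) →* ℂˣ) (s : ℝ) (hs : s ≠ 0) (I : Ideal (𝓞 K)) :
    lTermHom χ s hs I = lTerm χ s I := rfl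

lemma norm_lTerm_le (χ : ClassGroup (𝓞 K) →* ℂˣ) (s : ℝ) (I : Ideal (𝓞 K)) :
    ‖lTerm χ s I‖ ≤ normPow K s I := by
  rw [lTerm, norm_mul, Complex.norm_real, Real.norm_of_nonneg (normPow_nonneg K s I)]
  calc ‖chiIdeal χ I‖ * normPow K s I ≤ 1 * normPow K s I :=
        mul_le_mul_of_nonneg_right (norm_chiIdeal_le χ I) (normPow_nonneg K s I)
    _ = normPow K s I := one_mul _

lemma summable_norm_lTerm (χ : ClassGroup (𝓞 K) →* ℂˣ) {s : ℝ} (hs : 1 < s) :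
    Summable (fun I : Ideal (𝓞 K) ↦ ‖lTerm χ s I‖) :=
  Summable.of_nonneg_of_le (fun _ ↦ norm_nonneg _) (norm_lTerm_le χ s) (summable_normPow K hs)

lemma summable_lTerm (χ : ClassGroup (𝓞 K) →* ℂˣ) {s : ℝ} (hs : 1 < s) :
    Summable (lTerm χ s) :=
  (summable_norm_lTerm χ hs).of_norm

/-- The L-function of a class group character at real `s > 1`. -/
noncomputable def lValue (χ : ClassGroup (𝓞 K) →* ℂˣ) (s : ℝ) : ℂ :=
  ∑' I : Ideal (𝓞 K), lTerm χ s I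

/-- The prime terms `χ(𝔭) N𝔭^{-s}`. -/
noncomputable def charPrimeTerm (χ : ClassGroup (𝓞 K) →* ℂˣ) (s : ℝ)
    (v : HeightOneSpectrum (𝓞 K)) : ℂ :=
  ((χ (primeClass K v) : ℂˣ) : ℂ) * ((primeTerm K s v : ℝ) : ℂ)

lemma lTerm_asIdeal (χ : ClassGroup (𝓞 K) →* ℂˣ) (s : ℝ) (v : HeightOneSpectrum (𝓞 K)) :
    lTerm χ s v.asIdeal = charPrimeTerm χ s v := by
  rw [lTerm, chiIdeal_asIdeal, charPrimeTerm, primeTerm_eq]

lemma norm_charPrimeTerm (χ : ClassGroup (𝓞 K) →* ℂˣ) (s : ℝ) (v : HeightOneSpectrum (𝓞 K)) :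
    ‖charPrimeTerm χ s v‖ = primeTerm K s v := by
  rw [charPrimeTerm, norm_mul, norm_char_eq_one, one_mul, Complex.norm_real,
    Real.norm_of_nonneg (primeTerm_nonneg K s v)]

lemma summable_charPrimeTerm (χ : ClassGroup (𝓞 K) →* ℂˣ) {s : ℝ} (hs : 1 < s) :
    Summable (charPrimeTerm χ s) := by
  refine Summable.of_norm ?_
  simp_rw [norm_charPrimeTerm]
  exact summable_primeTerm K s hs

/-- Euler product for `L(s, χ)`. -/
theorem hasProd_lValue (χ : ClassGroup (𝓞 K) →* ℂˣ) {s : ℝ} (hs : 1 < s) :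
    HasProd (fun v : HeightOneSpectrum (𝓞 K) ↦ (1 - charPrimeTerm χ s v)⁻¹) (lValue χ s) := by
  have hs0 : s ≠ 0 := (zero_lt_one.trans hs).ne'
  have h := IdealEuler.hasProd_ideal (lTermHom χ s hs0) (summable_norm_lTerm χ hs)
  simp only [lTermHom_apply, lTerm_asIdeal] at h
  exact h

/-- The key pointwise inequality `exp (Re z - ‖z‖²) ≤ ‖(1 - z)⁻¹‖`. -/
lemma exp_le_norm_inv_one_sub {z : ℂ} (hz : z ≠ 1) :
    Real.exp (z.re - ‖z‖ ^ 2) ≤ ‖(1 - z)⁻¹‖ := by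
  have hne : (1 : ℂ) - z ≠ 0 := sub_ne_zero.mpr (Ne.symm hz)
  have hpos : 0 < ‖1 - z‖ := norm_pos_iff.mpr hne
  rw [norm_inv, le_inv_comm₀ (Real.exp_pos _) hpos, ← Real.exp_neg]
  -- `‖1 - z‖ ≤ exp (‖z‖² - Re z)`
  have hsq : ‖1 - z‖ ^ 2 = 1 - 2 * z.re + ‖z‖ ^ 2 := by
    rw [Complex.sq_norm, Complex.sq_norm, Complex.normSq_apply, Complex.normSq_apply]
    simp only [Complex.sub_re, Complex.one_re, Complex.sub_im, Complex.one_im]
    ring
  have h1 : ‖1 - z‖ ^ 2 ≤ Real.exp (-(z.re - ‖z‖ ^ 2)) ^ 2 := by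
    rw [hsq, ← Real.exp_nat_mul]
    have := Real.add_one_le_exp ((2 : ℕ) * (-(z.re - ‖z‖ ^ 2)))
    push_cast at this ⊢
    nlinarith [sq_nonneg ‖z‖]
  exact (pow_le_pow_iff_left₀ hpos.le (Real.exp_pos _).le two_ne_zero).mp h1

/-- If `‖L(s, χ)‖ ≤ B` then `Re ∑_𝔭 χ(𝔭) N𝔭^{-s} ≤ log B + ∑_𝔭 N𝔭^{-2}`. -/
theorem re_tsum_charPrimeTerm_le (χ : ClassGroup (𝓞 K) →* ℂˣ) {s : ℝ} (hs : 1 < s)
    {B : ℝ} (hB : ‖lValue χ s‖ ≤ B) :
    (∑' v, charPrimeTerm χ s v).re ≤ Real.log B + ∑' v, primeTerm K 2 v := by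
  have hsum := summable_charPrimeTerm χ hs
  have hsum2 : Summable (fun v : HeightOneSpectrum (𝓞 K) ↦ ‖charPrimeTerm χ s v‖ ^ 2) := by
    refine Summable.of_nonneg_of_le (fun _ ↦ sq_nonneg _) (fun v ↦ ?_)
      (summable_primeTerm K s hs)
    rw [norm_charPrimeTerm]
    have h1 := primeTerm_le_half K hs.le v
    have h0 := primeTerm_nonneg K s v
    nlinarith
  -- partial sums and partial products
  have hre : HasSum (fun v ↦ (charPrimeTerm χ s v).re) (∑' v, charPrimeTerm χ s v).re :=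
    Complex.hasSum_re hsum.hasSum
  have hS : HasSum (fun v ↦ (charPrimeTerm χ s v).re - ‖charPrimeTerm χ s v‖ ^ 2)
      ((∑' v, charPrimeTerm χ s v).re - ∑' v, ‖charPrimeTerm χ s v‖ ^ 2) :=
    hre.sub hsum2.hasSum
  have hS' : Tendsto (fun T : Finset (HeightOneSpectrum (𝓞 K)) ↦
      Real.exp (∑ v ∈ T, ((charPrimeTerm χ s v).re - ‖charPrimeTerm χ s v‖ ^ 2))) atTop
      (𝓝 (Real.exp ((∑' v, charPrimeTerm χ s v).re - ∑' v, ‖charPrimeTerm χ s v‖ ^ 2))) :=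
    (Real.continuous_exp.tendsto _).comp hS
  have hP : Tendsto (fun T : Finset (HeightOneSpectrum (𝓞 K)) ↦
      ‖∏ v ∈ T, (1 - charPrimeTerm χ s v)⁻¹‖) atTop (𝓝 ‖lValue χ s‖) :=
    (continuous_norm.tendsto _).comp (hasProd_lValue χ hs)
  have hne : ∀ v, charPrimeTerm χ s v ≠ 1 := by
    intro v h
    have h1 := norm_charPrimeTerm χ s v
    rw [h, norm_one] at h1
    have := primeTerm_le_half K hs.le v
    linarith
  have hle : Real.exp ((∑' v, charPrimeTerm χ s v).re - ∑' v, ‖charPrimeTerm χ s v‖ ^ 2) ≤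
      ‖lValue χ s‖ := by
    refine le_of_tendsto_of_tendsto' hS' hP (fun T ↦ ?_)
    rw [Real.exp_sum, norm_prod]
    exact Finset.prod_le_prod (fun v _ ↦ (Real.exp_pos _).le)
      (fun v _ ↦ exp_le_norm_inv_one_sub (hne v))
  have hBpos : 0 < B := lt_of_lt_of_le (Real.exp_pos _) (hle.trans hB)
  have h3 : (∑' v, charPrimeTerm χ s v).re - ∑' v, ‖charPrimeTerm χ s v‖ ^ 2 ≤ Real.log B := by
    rw [Real.le_log_iff_exp_le hBpos]
    exact hle.trans hB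
  have h4 : ∑' v, ‖charPrimeTerm χ s v‖ ^ 2 ≤ ∑' v, primeTerm K 2 v := by
    refine hsum2.tsum_le_tsum (fun v ↦ ?_) (summable_primeTerm K 2 (by norm_num))
    rw [norm_charPrimeTerm]
    have h3 : primeTerm K s v ^ 2 = primeTerm K (2 * s) v := by
      have hN : (0 : ℝ) ≤ absNorm v.asIdeal := Nat.cast_nonneg _
      rw [primeTerm, primeTerm, ← Real.rpow_natCast, ← Real.rpow_mul hN]
      congr 1
      push_cast
      ring
    rw [h3]
    exact primeTerm_anti K (by linarith) v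
  linarith

end Fermat.Agent.Lib.ZetaPrimes
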