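import Mathlib

/-!
# `ℤ[ζ₁₃]` is a principal ideal domain

Minkowski bound (`≈ 306.4`) plus explicit generators for the primes of norm
`27, 53, 79, 131, 157` and `13`.
-/

set_option autoImplicit false

namespace Fermat.Agent.Lib.Cyclo13PID

open NumberField Polynomial Ideal IsCyclotomicExtension



theorem fact_prime_thirteen : Fact (Nat.Prime 13) := ⟨by norm_num⟩

theorem fact_prime_fiftythree : Fact (Nat.Prime 53) := ⟨by norm_num⟩

theorem fact_prime_seventynine : Fact (Nat.Prime 79) := ⟨by norm_num⟩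

theorem fact_prime_onehundredthirtyone : Fact (Nat.Prime 131) := ⟨by norm_num⟩

theorem fact_prime_onehundredfiftyseven : Fact (Nat.Prime 157) := ⟨by norm_num⟩

theorem fact_prime_three : Fact (Nat.Prime 3) := ⟨by norm_num⟩

attribute [local instance] fact_prime_thirteen fact_prime_fiftythree fact_prime_seventynine fact_prime_onehundredthirtyone fact_prime_onehundredfiftyseven fact_prime_three

variable (K : Type*) [Field K] [NumberField K] [IsCyclotomicExtension {13} ℚ K]

/-- The chosen primitive 13-th root of unity, as an algebraic integer. -/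
noncomputable def theta : 𝓞 K := (zeta_spec 13 ℚ K).toInteger

lemma theta_isPrimitiveRoot : IsPrimitiveRoot (theta K) 13 :=
  (zeta_spec 13 ℚ K).toInteger_isPrimitiveRoot

lemma theta_sum :
    1 + theta K + theta K ^ 2 + theta K ^ 3 + theta K ^ 4 + theta K ^ 5 + theta K ^ 6 +
      theta K ^ 7 + theta K ^ 8 + theta K ^ 9 + theta K ^ 10 + theta K ^ 11 + theta K ^ 12 = 0 := by
  have h := (theta_isPrimitiveRoot K).isRoot_cyclotomic (by norm_num)
  rw [Polynomial.cyclotomic_prime, Polynomial.IsRoot.def] at h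
  simpa [Finset.sum_range_succ, Polynomial.eval_finsetSum] using h

lemma minpoly_theta : minpoly ℤ (theta K) = cyclotomic 13 ℤ := by
  have h1 := Polynomial.cyclotomic_eq_minpoly (zeta_spec 13 ℚ K) (by norm_num)
  rw [h1, ← (zeta_spec 13 ℚ K).coe_toInteger, ← RingOfIntegers.minpoly_coe]
  rfl

lemma exponent_theta : RingOfIntegers.exponent (theta K) = 1 :=
  RingOfIntegers.exponent_eq_one_iff.mpr <| Rat.adjoin_singleton_eq_top (zeta_spec 13 ℚ K)

/-- Kummer–Dedekind packaged: if `Q mod p` is a monic irreducible factor of `Φ₁₃ mod p` and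
`π` generates `(p, Q(θ))`, then there is a principal prime above `p`. -/
lemma exists_principal_primesOver (p : ℕ) [Fact p.Prime] (Q : ℤ[X])
    (hirr : Irreducible (Q.map (Int.castRingHom (ZMod p))))
    (hmonic : (Q.map (Int.castRingHom (ZMod p))).Monic)
    (hdvd : Q.map (Int.castRingHom (ZMod p)) ∣ cyclotomic 13 (ZMod p))
    (π : 𝓞 K) (h1 : π ∣ (p : 𝓞 K)) (h2 : π ∣ aeval (theta K) Q)
    (h3 : π ∈ span {(p : 𝓞 K), aeval (theta K) Q}) :
    ∃ P ∈ primesOver (span {(p : ℤ)}) (𝓞 K), Submodule.IsPrincipal P := by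
  have hp : ¬ p ∣ RingOfIntegers.exponent (theta K) := by
    rw [exponent_theta]; exact (Fact.out : p.Prime).not_dvd_one
  have hQ : Q.map (Int.castRingHom (ZMod p)) ∈ RingOfIntegers.monicFactorsMod (theta K) p := by
    rw [Multiset.mem_toFinset, Polynomial.mem_normalizedFactors_iff
      (map_monic_ne_zero (minpoly.monic (theta K).isIntegral))]
    refine ⟨hirr, hmonic, ?_⟩
    rw [minpoly_theta, map_cyclotomic]
    exact hdvd
  refine ⟨span {(p : 𝓞 K), aeval (theta K) Q}, ?_, ?_⟩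
  · rw [← NumberField.Ideal.primesOverSpanEquivMonicFactorsMod_symm_apply_eq_span hp hQ]
    exact ((NumberField.Ideal.primesOverSpanEquivMonicFactorsMod hp).symm ⟨_, hQ⟩).prop
  · have : span {(p : 𝓞 K), aeval (theta K) Q} = span {π} := by
      apply le_antisymm
      · rw [Ideal.span_le]
        intro x hx
        simp only [Set.mem_insert_iff, Set.mem_singleton_iff] at hx
        rcases hx with rfl | rfl
        · exact Ideal.mem_span_singleton.mpr h1
        · exact Ideal.mem_span_singleton.mpr h2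
      · rw [Ideal.span_singleton_le_iff_mem]
        exact h3
    rw [this]
    exact ⟨⟨π, rfl⟩⟩


lemma principal_53 :
    ∃ P ∈ primesOver (span {((53 : ℕ) : ℤ)}) (𝓞 K), Submodule.IsPrincipal P := by
  have hs := theta_sum K
  have hmap : Polynomial.map (Int.castRingHom (ZMod 53)) (X - 16) = X - C (16 : ZMod 53) := by
    rw [Polynomial.map_sub, Polynomial.map_X, Polynomial.map_ofNat, ← map_ofNat C 16]
  have haeval : aeval (theta K) (X - 16 : ℤ[X]) = theta K - 16 := by
    simp only [map_sub, aeval_X, map_ofNat]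
  refine exists_principal_primesOver K 53 (X - 16) ?_ ?_ ?_
    (1 - theta K + theta K ^ 3) ?_ ?_ ?_
  · rw [hmap]
    exact irreducible_X_sub_C _
  · rw [hmap]
    exact monic_X_sub_C _
  · rw [hmap, Polynomial.dvd_iff_isRoot, cyclotomic_prime, Polynomial.IsRoot.def]
    simp only [Finset.sum_range_succ, Finset.sum_range_zero, eval_add, eval_pow, eval_X,
      eval_zero]
    decide
  · refine ⟨25 + 10 * theta K + 19 * theta K ^ 2 + 3 * theta K ^ 3 + 2 * theta K ^ 4 - 8 * theta K ^ 5 - 2 * theta K ^ 6 + 5 * theta K ^ 7 + 22 * theta K ^ 8 + 33 * theta K ^ 9 + 37 * theta K ^ 10 + 24 * theta K ^ 11, ?_⟩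
    push_cast
    linear_combination (-(-28 + 13 * theta K + 24 * theta K ^ 2)) * hs
  · rw [haeval]
    refine ⟨-8 - 3 * theta K - 6 * theta K ^ 2 - theta K ^ 3 - theta K ^ 4 + 2 * theta K ^ 5 - 2 * theta K ^ 7 - 7 * theta K ^ 8 - 10 * theta K ^ 9 - 11 * theta K ^ 10 - 7 * theta K ^ 11, ?_⟩
    linear_combination (-(8 - 4 * theta K - 7 * theta K ^ 2)) * hs
  · rw [Ideal.mem_span_pair, haeval]
    refine ⟨77, 255 + 16 * theta K + theta K ^ 2, ?_⟩
    push_cast
    ring


lemma principal_79 :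
    ∃ P ∈ primesOver (span {((79 : ℕ) : ℤ)}) (𝓞 K), Submodule.IsPrincipal P := by
  have hs := theta_sum K
  have hmap : Polynomial.map (Int.castRingHom (ZMod 79)) (X - 62) = X - C (62 : ZMod 79) := by
    rw [Polynomial.map_sub, Polynomial.map_X, Polynomial.map_ofNat, ← map_ofNat C 62]
  have haeval : aeval (theta K) (X - 62 : ℤ[X]) = theta K - 62 := by
    simp only [map_sub, aeval_X, map_ofNat]
  refine exists_principal_primesOver K 79 (X - 62) ?_ ?_ ?_
    (1 - theta K - theta K ^ 4) ?_ ?_ ?_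
  · rw [hmap]
    exact irreducible_X_sub_C _
  · rw [hmap]
    exact monic_X_sub_C _
  · rw [hmap, Polynomial.dvd_iff_isRoot, cyclotomic_prime, Polynomial.IsRoot.def]
    simp only [Finset.sum_range_succ, Finset.sum_range_zero, eval_add, eval_pow, eval_X,
      eval_zero]
    decide
  · refine ⟨62 + 63 * theta K + 49 * theta K ^ 2 + 8 * theta K ^ 3 + 29 * theta K ^ 4 + 51 * theta K ^ 5 + 59 * theta K ^ 6 + 26 * theta K ^ 7 + 14 * theta K ^ 8 + 24 * theta K ^ 9 + 42 * theta K ^ 10 + 27 * theta K ^ 11, ?_⟩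
    push_cast
    linear_combination (-(-17 + 18 * theta K - 15 * theta K ^ 2 - 27 * theta K ^ 3)) * hs
  · rw [haeval]
    refine ⟨-49 - 49 * theta K - 38 * theta K ^ 2 - 6 * theta K ^ 3 - 23 * theta K ^ 4 - 40 * theta K ^ 5 - 46 * theta K ^ 6 - 20 * theta K ^ 7 - 11 * theta K ^ 8 - 19 * theta K ^ 9 - 33 * theta K ^ 10 - 21 * theta K ^ 11, ?_⟩
    linear_combination (-(13 - 14 * theta K + 12 * theta K ^ 2 + 21 * theta K ^ 3)) * hs
  · rw [Ideal.mem_span_pair, haeval]
    refine ⟨-187043, -238329 - 3844 * theta K - 62 * theta K ^ 2 - theta K ^ 3, ?_⟩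
    push_cast
    ring


lemma principal_131 :
    ∃ P ∈ primesOver (span {((131 : ℕ) : ℤ)}) (𝓞 K), Submodule.IsPrincipal P := by
  have hs := theta_sum K
  have hmap : Polynomial.map (Int.castRingHom (ZMod 131)) (X - 80) = X - C (80 : ZMod 131) := by
    rw [Polynomial.map_sub, Polynomial.map_X, Polynomial.map_ofNat, ← map_ofNat C 80]
  have haeval : aeval (theta K) (X - 80 : ℤ[X]) = theta K - 80 := by
    simp only [map_sub, aeval_X, map_ofNat]
  refine exists_principal_primesOver K 131 (X - 80) ?_ ?_ ?_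
    (1 - theta K - theta K ^ 3) ?_ ?_ ?_
  · rw [hmap]
    exact irreducible_X_sub_C _
  · rw [hmap]
    exact monic_X_sub_C _
  · rw [hmap, Polynomial.dvd_iff_isRoot, cyclotomic_prime, Polynomial.IsRoot.def]
    simp only [Finset.sum_range_succ, Finset.sum_range_zero, eval_add, eval_pow, eval_X,
      eval_zero]
    decide
  · refine ⟨111 + 78 * theta K + 17 * theta K ^ 2 + 67 * theta K ^ 3 + 84 * theta K ^ 4 + 40 * theta K ^ 5 + 46 * theta K ^ 6 + 69 * theta K ^ 7 + 48 * theta K ^ 8 + 33 * theta K ^ 9 + 41 * theta K ^ 10 + 28 * theta K ^ 11, ?_⟩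
    push_cast
    linear_combination (-(-20 - 13 * theta K - 28 * theta K ^ 2)) * hs
  · rw [haeval]
    refine ⟨-68 - 47 * theta K - 10 * theta K ^ 2 - 41 * theta K ^ 3 - 51 * theta K ^ 4 - 24 * theta K ^ 5 - 28 * theta K ^ 6 - 42 * theta K ^ 7 - 29 * theta K ^ 8 - 20 * theta K ^ 9 - 25 * theta K ^ 10 - 17 * theta K ^ 11, ?_⟩
    linear_combination (-(12 + 8 * theta K + 17 * theta K ^ 2)) * hs
  · rw [Ideal.mem_span_pair, haeval]
    refine ⟨-3909, -6401 - 80 * theta K - theta K ^ 2, ?_⟩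
    push_cast
    ring


lemma principal_157 :
    ∃ P ∈ primesOver (span {((157 : ℕ) : ℤ)}) (𝓞 K), Submodule.IsPrincipal P := by
  have hs := theta_sum K
  have hmap : Polynomial.map (Int.castRingHom (ZMod 157)) (X - 75) = X - C (75 : ZMod 157) := by
    rw [Polynomial.map_sub, Polynomial.map_X, Polynomial.map_ofNat, ← map_ofNat C 75]
  have haeval : aeval (theta K) (X - 75 : ℤ[X]) = theta K - 75 := by
    simp only [map_sub, aeval_X, map_ofNat]
  refine exists_principal_primesOver K 157 (X - 75) ?_ ?_ ?_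
    (1 - theta K + theta K ^ 2 + theta K ^ 4) ?_ ?_ ?_
  · rw [hmap]
    exact irreducible_X_sub_C _
  · rw [hmap]
    exact monic_X_sub_C _
  · rw [hmap, Polynomial.dvd_iff_isRoot, cyclotomic_prime, Polynomial.IsRoot.def]
    simp only [Finset.sum_range_succ, Finset.sum_range_zero, eval_add, eval_pow, eval_X,
      eval_zero]
    decide
  · refine ⟨89 + 86 * theta K + 42 * theta K ^ 2 + 77 * theta K ^ 3 + 67 * theta K ^ 4 + 25 * theta K ^ 5 + 37 * theta K ^ 6 + 56 * theta K ^ 7 + 73 * theta K ^ 8 + 113 * theta K ^ 9 + 124 * theta K ^ 10 + 76 * theta K ^ 11, ?_⟩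
    push_cast
    linear_combination (-(-68 + 65 * theta K + 48 * theta K ^ 2 + 76 * theta K ^ 3)) * hs
  · rw [haeval]
    refine ⟨-43 - 41 * theta K - 20 * theta K ^ 2 - 37 * theta K ^ 3 - 32 * theta K ^ 4 - 12 * theta K ^ 5 - 18 * theta K ^ 6 - 27 * theta K ^ 7 - 35 * theta K ^ 8 - 54 * theta K ^ 9 - 59 * theta K ^ 10 - 36 * theta K ^ 11, ?_⟩
    linear_combination (-(32 - 31 * theta K - 23 * theta K ^ 2 - 36 * theta K ^ 3)) * hs
  · rw [Ideal.mem_span_pair, haeval]
    refine ⟨201568, 421949 + 5626 * theta K + 75 * theta K ^ 2 + theta K ^ 3, ?_⟩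
    push_cast
    ring


lemma principal_3 :
    ∃ P ∈ primesOver (span {((3 : ℕ) : ℤ)}) (𝓞 K), Submodule.IsPrincipal P := by
  have hs := theta_sum K
  have hmap : Polynomial.map (Int.castRingHom (ZMod 3)) (X ^ 3 - X - 1) = X ^ 3 - X - 1 := by
    simp only [Polynomial.map_sub, Polynomial.map_X, Polynomial.map_pow, Polynomial.map_one]
  have haeval : aeval (theta K) (X ^ 3 - X - 1 : ℤ[X]) = theta K ^ 3 - theta K - 1 := by
    simp only [map_sub, aeval_X, map_pow, map_one]
  refine exists_principal_primesOver K 3 (X ^ 3 - X - 1) ?_ ?_ ?_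
    (1 + theta K - theta K ^ 3) ?_ ?_ ?_
  · rw [hmap]
    apply irreducible_of_degree_le_three_of_not_isRoot
    · have : (X ^ 3 - X - 1 : (ZMod 3)[X]).natDegree = 3 := by compute_degree!
      rw [this]
      decide
    · intro x
      simp only [IsRoot.def, eval_sub, eval_pow, eval_X, eval_one]
      revert x
      decide
  · rw [hmap]
    monicity!
  · rw [hmap, cyclotomic_prime]
    simp only [Finset.sum_range_succ, Finset.sum_range_zero]
    have h3 : (3 : (ZMod 3)[X]) = 0 := by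
      rw [← map_ofNat C 3]
      have : (3 : ZMod 3) = 0 := by decide
      rw [this, map_zero]
    refine ⟨-1 - X ^ 2 - X ^ 3 + X ^ 5 - X ^ 7 + X ^ 8 + X ^ 9, ?_⟩
    linear_combination (X ^ 5 + X ^ 6 + X ^ 9 + X ^ 10) * h3
  · refine ⟨-1 - theta K ^ 2 - theta K ^ 3 - 2 * theta K ^ 5 - theta K ^ 7 - 2 * theta K ^ 8 + theta K ^ 9 - 3 * theta K ^ 10, ?_⟩
    push_cast
    linear_combination (-(-4 + 3 * theta K)) * hs
  · rw [haeval]
    refine ⟨-1, ?_⟩
    ring
  · rw [Ideal.mem_span_pair, haeval]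
    refine ⟨0, -1, ?_⟩
    ring

theorem small_cases (p f : ℕ) (hp : p.Prime) (hf : 1 ≤ f) (hle : p ^ f ≤ 312)
    (hmod : p ^ f % 13 = 1) : p = 3 ∨ p = 53 ∨ p = 79 ∨ p = 131 ∨ p = 157 := by
  have hp2 : 2 ≤ p := hp.two_le
  have hf8 : f ≤ 8 := by
    by_contra h
    have h' : 9 ≤ f := by omega
    have : 2 ^ 9 ≤ p ^ f :=
      (Nat.pow_le_pow_left hp2 9).trans (Nat.pow_le_pow_right (by omega) h')
    omega
  have hpf : p ≤ p ^ f := Nat.le_self_pow (by omega) p
  rcases Nat.lt_or_ge 1 f with h1 | h1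
  · have hsq : p ^ 2 ≤ p ^ f := Nat.pow_le_pow_right (by omega) h1
    have hp17 : p ≤ 17 := by nlinarith
    interval_cases p <;> interval_cases f <;> simp_all (config := {decide := true})
  · have hf1 : f = 1 := by omega
    subst hf1
    rw [pow_one] at hle hmod
    obtain ⟨k, rfl⟩ : ∃ k, p = 13 * k + 1 := ⟨p / 13, by omega⟩
    have hk : k ≤ 23 := by omega
    interval_cases k <;> first | omega | (exfalso; norm_num at hp)

theorem minkowski_bound_num :
    (4 / Real.pi) ^ 6 * ((Nat.factorial 12 : ℝ) / 12 ^ 12 * √(13 ^ 11 : ℝ)) < 313 := by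
  have h1 : √(13 ^ 11 : ℝ) ≤ 13 ^ 5 * 3.61 := by
    rw [Real.sqrt_le_iff]
    constructor
    · positivity
    · norm_num
  have h2 : (4 / Real.pi) ^ 6 ≤ (4 / 3.14) ^ 6 := by
    gcongr
    exact Real.pi_gt_d2.le
  have h3 : (0:ℝ) ≤ (Nat.factorial 12 : ℝ) / 12 ^ 12 := by positivity
  calc (4 / Real.pi) ^ 6 * ((Nat.factorial 12 : ℝ) / 12 ^ 12 * √(13 ^ 11 : ℝ))
      ≤ (4 / 3.14) ^ 6 * ((Nat.factorial 12 : ℝ) / 12 ^ 12 * (13 ^ 5 * 3.61)) := by
        gcongr
    _ < 313 := by
        norm_num [Nat.factorial]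

lemma finrank_eq : Module.finrank ℚ K = 12 := by
  rw [IsCyclotomicExtension.finrank (n := 13) K (cyclotomic.irreducible_rat (by norm_num))]
  rfl

lemma nrComplexPlaces_eq : InfinitePlace.nrComplexPlaces K = 6 := by
  rw [Rat.nrComplexPlaces_eq_totient_div_two 13]
  rfl

lemma discr_eq : NumberField.discr K = 13 ^ 11 := by
  rw [Rat.discr_prime 13 K]
  norm_num

lemma floor_minkowski_le :
    ⌊(4 / Real.pi) ^ InfinitePlace.nrComplexPlaces K *
      ((Module.finrank ℚ K).factorial / (Module.finrank ℚ K) ^ (Module.finrank ℚ K) *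
        √|(NumberField.discr K : ℝ)|)⌋₊ ≤ 312 := by
  rw [finrank_eq, nrComplexPlaces_eq, discr_eq]
  have h := minkowski_bound_num
  have habs : |((13 ^ 11 : ℤ) : ℝ)| = (13 ^ 11 : ℝ) := by
    rw [abs_of_pos (by positivity)]
    norm_num
  rw [habs]
  have : ⌊(4 / Real.pi) ^ 6 * ((Nat.factorial 12 : ℝ) / ((12 : ℕ) : ℝ) ^ 12 * √(13 ^ 11 : ℝ))⌋₊ < 313 := by
    rw [Nat.floor_lt (by positivity)]
    exact_mod_cast h
  omega

/-- The ring of integers of the 13-th cyclotomic field is a principal ideal domain. -/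
theorem pid : IsPrincipalIdealRing (𝓞 K) := by
  haveI : IsGalois ℚ K := IsCyclotomicExtension.isGalois {13} ℚ K
  apply RingOfIntegers.isPrincipalIdealRing_of_isPrincipal_of_lt_or_isPrincipal_of_mem_primesOver_of_mem_Icc
  intro p hp hpprime
  rw [Finset.mem_Icc] at hp
  have hM := floor_minkowski_le K
  have hp312 : p ≤ 312 := hp.2.trans hM
  by_cases h13 : p = 13
  · subst h13
    haveI : IsCyclotomicExtension {13 ^ (0 + 1)} ℚ K := by simpa using ‹IsCyclotomicExtension {13} ℚ K›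
    have hζ : IsPrimitiveRoot (zeta 13 ℚ K) (13 ^ (0 + 1)) := by simpa using zeta_spec 13 ℚ K
    refine ⟨span {hζ.toInteger - 1}, ⟨Rat.isPrime_span_zeta_sub_one 13 0 hζ,
      Rat.liesOver_span_zeta_sub_one 13 0 hζ⟩, Or.inr ⟨⟨_, rfl⟩⟩⟩
  by_cases hS : p = 3 ∨ p = 53 ∨ p = 79 ∨ p = 131 ∨ p = 157
  · rcases hS with rfl | rfl | rfl | rfl | rfl
    · obtain ⟨P, hP, hprin⟩ := principal_3 K
      exact ⟨P, hP, Or.inr hprin⟩
    · obtain ⟨P, hP, hprin⟩ := principal_53 K
      exact ⟨P, hP, Or.inr hprin⟩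
    · obtain ⟨P, hP, hprin⟩ := principal_79 K
      exact ⟨P, hP, Or.inr hprin⟩
    · obtain ⟨P, hP, hprin⟩ := principal_131 K
      exact ⟨P, hP, Or.inr hprin⟩
    · obtain ⟨P, hP, hprin⟩ := principal_157 K
      exact ⟨P, hP, Or.inr hprin⟩
  · haveI : Fact p.Prime := ⟨hpprime⟩
    obtain ⟨⟨P, hP1, hP2⟩⟩ := (span {(p : ℤ)}).nonempty_primesOver (S := 𝓞 K)
    refine ⟨P, ⟨hP1, hP2⟩, Or.inl ?_⟩
    have hndvd : ¬ p ∣ 13 := by
      intro h
      exact h13 ((Nat.prime_dvd_prime_iff_eq hpprime (by norm_num)).mp h)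
    have hf := Rat.inertiaDeg_eq_of_not_dvd (m := 13) p K P hndvd
    by_contra hcon
    have hcon' : p ^ P.inertiaDeg ℤ ≤ 312 := (not_lt.mp hcon).trans hM
    have hcop : p.Coprime 13 := (Nat.Prime.coprime_iff_not_dvd hpprime).mpr hndvd
    have hpow : ((p : ZMod 13)) ^ P.inertiaDeg ℤ = 1 := by
      rw [hf]
      exact pow_orderOf_eq_one _
    have hmod : p ^ P.inertiaDeg ℤ % 13 = 1 := by
      have h1 : ((p ^ P.inertiaDeg ℤ : ℕ) : ZMod 13) = ((1 : ℕ) : ZMod 13) := by
        push_cast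
        exact hpow
      have h2 := (ZMod.natCast_eq_natCast_iff' _ _ _).mp h1
      simpa using h2
    have hf1 : 1 ≤ P.inertiaDeg ℤ := by
      rw [hf]
      have hu : IsUnit ((p : ZMod 13)) := (ZMod.isUnit_iff_coprime p 13).mpr hcop
      exact Nat.one_le_iff_ne_zero.mpr (orderOf_pos_iff.mpr hu.isOfFinOrder).ne'
    exact hS (small_cases p _ hpprime hf1 hcon' hmod)

end Fermat.Agent.Lib.Cyclo13PID
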