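import Mathlib

/-!
# Norms in prime cyclotomic fields as explicit products (helper18)

`norm_aeval_eq_prod`: for `K = ℚ(ζ_p)`, `g : ℤ[X]`,
`N_{K/ℚ}(g(ζ)) = ∏_{k=1}^{p-1} g(ζ^k)`.
-/

set_option autoImplicit false

namespace Fermat.Agent.Lib.CycloNorm

open NumberField Polynomial Finset

/-- A product over the units of `ZMod p` is a product over `1 ≤ k < p`. -/
theorem prod_units_zmod_eq_prod_Ico {M : Type*} [CommMonoid M] (p : ℕ) [Fact p.Prime]
    (F : ℕ → M) : ∏ t : (ZMod p)ˣ, F (t : ZMod p).val = ∏ k ∈ Ico 1 p, F k := by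
  have hp : 0 < p := (Fact.out (p := p.Prime)).pos
  refine prod_bij (fun a _ => (a : ZMod p).val) ?_ ?_ ?_ ?_
  · intro a _
    rw [mem_Ico]
    constructor
    · apply Nat.pos_of_ne_zero
      rw [← @ZMod.val_zero p]
      intro h
      exact Units.ne_zero a (ZMod.val_injective p h)
    · exact ZMod.val_lt _
  · intro _ _ _ _ h
    rw [Units.ext_iff]
    exact ZMod.val_injective p h
  · intro b hb
    rw [mem_Ico] at hb
    have hb0 : (b : ZMod p) ≠ 0 := by
      intro h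
      have h2 := congrArg ZMod.val h
      rw [ZMod.val_cast_of_lt hb.2, ZMod.val_zero] at h2
      omega
    exact ⟨Units.mk0 (b : ZMod p) hb0, Finset.mem_univ _, by
      simp only [Units.val_mk0, ZMod.val_cast_of_lt hb.2]⟩
  · intro a _
    rfl

variable (p : ℕ) [hp : Fact p.Prime] (K : Type*) [Field K] [NumberField K]
  [hK : IsCyclotomicExtension {p} ℚ K]

/-- The norm of `g(ζ)` is the product of the `g(ζ^k)`, `1 ≤ k < p`. -/
theorem norm_aeval_eq_prod {ζ : K} (hζ : IsPrimitiveRoot ζ p) (g : ℤ[X]) :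
    ((Algebra.norm ℤ (aeval hζ.toInteger g : 𝓞 K) : ℤ) : K) =
      ∏ k ∈ Ico 1 p, aeval (ζ ^ k) g := by
  have hpne : NeZero p := ⟨hp.out.ne_zero⟩
  have hgal : IsGalois ℚ K := IsCyclotomicExtension.isGalois {p} ℚ K
  have hx : ((aeval hζ.toInteger g : 𝓞 K) : K) = aeval ζ g := by
    have h1 : ((aeval hζ.toInteger g : 𝓞 K) : K) =
        algebraMap (𝓞 K) K (aeval hζ.toInteger g) := rfl
    rw [h1, ← aeval_algebraMap_apply]
    rfl
  have h1 : ((Algebra.norm ℤ (aeval hζ.toInteger g : 𝓞 K) : ℤ) : K) =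
      algebraMap ℚ K (Algebra.norm ℚ ((aeval hζ.toInteger g : 𝓞 K) : K)) := by
    rw [← Algebra.coe_norm_int]
    simp
  rw [h1, Algebra.norm_eq_prod_automorphisms, hx]
  have h2 : ∀ σ : Gal(K/ℚ), σ (aeval ζ g) =
      aeval (ζ ^ ((IsCyclotomicExtension.Rat.galEquivZMod p K σ : (ZMod p)ˣ) : ZMod p).val) g := by
    intro σ
    rw [← IsCyclotomicExtension.Rat.galEquivZMod_apply_of_pow_eq p K σ hζ.pow_eq_one]
    have := Polynomial.aeval_algHom_apply (σ : K →ₐ[ℚ] K).toRingHom.toIntAlgHom ζ g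
    simpa using this.symm
  simp_rw [h2]
  rw [← prod_units_zmod_eq_prod_Ico p (fun k => aeval (ζ ^ k) g)]
  exact Fintype.prod_equiv (IsCyclotomicExtension.Rat.galEquivZMod p K).toEquiv _ _ (fun σ => rfl)

end Fermat.Agent.Lib.CycloNorm
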