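import Mathlib

/-!
# `𝓞 (ℚ(ζ₇))` is a principal ideal domain (helper18, part A of the S10/S11 project).
-/

set_option autoImplicit false

namespace Fermat.Agent.Lib.CycloPID

open NumberField Polynomial InfinitePlace Nat Real Ideal IsCyclotomicExtension.Rat

universe u

/-- For a prime `ℓ ≠ p`, the order of `ℓ` in `ZMod p` is positive. -/
theorem orderOf_natCast_pos {p ℓ : ℕ} (hp : p.Prime) (hℓ : ℓ.Prime) (hne : ℓ ≠ p) :
    0 < orderOf (ℓ : ZMod p) := by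
  have hcop : ℓ.Coprime p := (Nat.coprime_primes hℓ hp).mpr hne
  have hcast : (ℓ : ZMod p) = ((ZMod.unitOfCoprime ℓ hcop : (ZMod p)ˣ) : ZMod p) := by simp
  have : NeZero p := ⟨hp.ne_zero⟩
  rw [hcast, orderOf_units]
  exact orderOf_pos _

/-- Lower bound for `ℓ ^ orderOf ℓ` from a finite check. -/
theorem lt_pow_orderOf {p ℓ B k : ℕ} (hp : p.Prime) (hℓ : ℓ.Prime) (hne : ℓ ≠ p)
    (hk : B < ℓ ^ k) (h : ∀ m < k, 0 < m → (ℓ : ZMod p) ^ m ≠ 1) :
    B < ℓ ^ orderOf (ℓ : ZMod p) := by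
  have hpos := orderOf_natCast_pos hp hℓ hne
  have hle : k ≤ orderOf (ℓ : ZMod p) := by
    by_contra hlt
    exact h _ (not_le.mp hlt) hpos (pow_orderOf_eq_one _)
  exact lt_of_lt_of_le hk (Nat.pow_le_pow_right hℓ.pos hle)

theorem check7_2 : ∀ m < 3, 0 < m → ((2 : ℕ) : ZMod 7) ^ m ≠ 1 := by decide
theorem check7_3 : ∀ m < 2, 0 < m → ((3 : ℕ) : ZMod 7) ^ m ≠ 1 := by decide

variable (K : Type u) [Field K] [NumberField K]

/-- Minkowski bound of `ℚ(ζ₇)` is `< 5`. -/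
theorem minkowski_seven_lt [IsCyclotomicExtension {7} ℚ K] :
    (4 / π) ^ nrComplexPlaces K *
      ((Module.finrank ℚ K)! / (Module.finrank ℚ K) ^ (Module.finrank ℚ K) * √|discr K|) < 5 := by
  have : Fact (Nat.Prime 7) := ⟨by norm_num⟩
  rw [discr_prime 7 K, IsCyclotomicExtension.finrank (n := 7) K
    (cyclotomic.irreducible_rat (by norm_num)), nrComplexPlaces_eq_totient_div_two 7,
    totient_prime (by norm_num : Nat.Prime 7)]
  norm_num
  have h1 : 4 / π ≤ 4 / 3.14 := by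
    gcongr
    exact pi_gt_d2.le
  have h2 : √(16807 : ℝ) ≤ 130 := by
    rw [Real.sqrt_le_iff]
    norm_num
  calc (4 / π) ^ 3 * (5 / 324 * √16807) ≤ (4 / 3.14) ^ 3 * (5 / 324 * 130) := by gcongr
    _ < 5 := by norm_num

theorem seven_pid [IsCyclotomicExtension {7} ℚ K] : IsPrincipalIdealRing (𝓞 K) := by
  have : Fact (Nat.Prime 7) := ⟨by norm_num⟩
  have : IsGalois ℚ K := IsCyclotomicExtension.isGalois {7} ℚ K
  have hM := minkowski_seven_lt K
  have hfl : ⌊(4 / π) ^ nrComplexPlaces K *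
      ((Module.finrank ℚ K)! / (Module.finrank ℚ K) ^ (Module.finrank ℚ K) * √|discr K|)⌋₊ < 5 := by
    rw [Nat.floor_lt (by positivity)]
    exact_mod_cast hM
  refine RingOfIntegers.isPrincipalIdealRing_of_isPrincipal_of_lt_or_isPrincipal_of_mem_primesOver_of_mem_Icc
    (fun ℓ hℓmem hℓ ↦ ?_)
  rw [Finset.mem_Icc] at hℓmem
  have hℓ5 : ℓ < 5 := lt_of_le_of_lt hℓmem.2 hfl
  have : Fact ℓ.Prime := ⟨hℓ⟩
  obtain ⟨⟨P, hP1, hP2⟩⟩ := (span {(ℓ : ℤ)}).nonempty_primesOver (S := 𝓞 K)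
  have hne7 : ℓ ≠ 7 := by omega
  have hne : ¬ ℓ ∣ 7 := fun h ↦ hne7 ((Nat.prime_dvd_prime_iff_eq hℓ (by norm_num)).mp h)
  refine ⟨P, ⟨hP1, hP2⟩, Or.inl ?_⟩
  rw [inertiaDeg_eq_of_not_dvd ℓ K P hne]
  have h7 : Nat.Prime 7 := by norm_num
  interval_cases ℓ
  · exact absurd hℓ (by norm_num)
  · exact absurd hℓ (by norm_num)
  · exact lt_of_le_of_lt (Nat.lt_succ_iff.mp hfl) (lt_pow_orderOf h7 hℓ hne7 (k := 3) (by norm_num) check7_2)
  · exact lt_of_le_of_lt (Nat.lt_succ_iff.mp hfl) (lt_pow_orderOf h7 hℓ hne7 (k := 2) (by norm_num) check7_3)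
  · exact absurd hℓ (by norm_num)

end Fermat.Agent.Lib.CycloPID
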