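import Mathlib
import Fermat.Agent.Lib.CycloNorm

/-!
# Principal primes in prime cyclotomic fields from an element of the right norm (helper18)
-/

set_option autoImplicit false

namespace Fermat.Agent.Lib.CycloNorm

open NumberField Polynomial Finset Ideal

variable (p : ℕ) [hp : Fact p.Prime] (K : Type*) [Field K] [NumberField K]
  [hK : IsCyclotomicExtension {p} ℚ K]

/-- If `α ∈ 𝓞 ℚ(ζ_p)` has norm `± ℓ ^ f` with `f` the order of `ℓ` mod `p`, then `(α)` is a prime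
above `ℓ`. -/
theorem exists_isPrincipal_mem_primesOver_of_norm (ℓ : ℕ) [hℓ : Fact ℓ.Prime] (hne : ℓ ≠ p)
    (α : 𝓞 K) (hN : (Algebra.norm ℤ α).natAbs = ℓ ^ orderOf (ℓ : ZMod p)) :
    ∃ P ∈ primesOver (span {(ℓ : ℤ)}) (𝓞 K), Submodule.IsPrincipal P := by
  have hpne : NeZero p := ⟨hp.out.ne_zero⟩
  have hndvd : ¬ ℓ ∣ p := fun h ↦ hne ((Nat.prime_dvd_prime_iff_eq hℓ.out hp.out).mp h)
  set f := orderOf (ℓ : ZMod p) with hf
  have habs : absNorm (span {α}) = ℓ ^ f := by rw [absNorm_span_singleton, hN]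
  have hℓf : 1 < ℓ ^ f ∨ f = 0 := by
    rcases Nat.eq_zero_or_pos f with h | h
    · exact Or.inr h
    · exact Or.inl (Nat.one_lt_pow h.ne' hℓ.out.one_lt)
  -- the order is positive
  have hfpos : 0 < f := by
    have hcop : ℓ.Coprime p := (Nat.coprime_primes hℓ.out hp.out).mpr hne
    have hcast : (ℓ : ZMod p) = ((ZMod.unitOfCoprime ℓ hcop : (ZMod p)ˣ) : ZMod p) := by simp
    rw [hf, hcast, orderOf_units]
    exact orderOf_pos _
  have hgt : 1 < ℓ ^ f := Nat.one_lt_pow hfpos.ne' hℓ.out.one_lt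
  have hne_top : span {α} ≠ (⊤ : Ideal (𝓞 K)) := by
    intro h
    rw [← absNorm_eq_one_iff, habs] at h
    omega
  obtain ⟨P, hPmax, hle⟩ := Ideal.exists_le_maximal _ hne_top
  have hPprime : P.IsPrime := hPmax.isPrime
  have hmem : ((ℓ : ℤ) : 𝓞 K) ∈ P := by
    have h1 : ((ℓ ^ f : ℕ) : 𝓞 K) ∈ P := by
      rw [← habs]
      exact hle (absNorm_mem _)
    rw [Nat.cast_pow] at h1
    have := hPprime.mem_of_pow_mem _ h1
    simpa using this
  have hlies : P.LiesOver (span {(ℓ : ℤ)}) := by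
    constructor
    have hmaxℓ : (span {(ℓ : ℤ)}).IsMaximal :=
      (Ideal.span_singleton_prime (by exact_mod_cast hℓ.out.ne_zero)).mpr
        (Nat.prime_iff_prime_int.mp hℓ.out) |>.isMaximal (by simpa using hℓ.out.ne_zero)
    have hle' : span {(ℓ : ℤ)} ≤ P.under ℤ := by
      rw [Ideal.span_singleton_le_iff_mem, Ideal.under_def, Ideal.mem_comap]
      simpa using hmem
    have hunder_ne : P.under ℤ ≠ ⊤ := (Ideal.IsPrime.under ℤ P).ne_top
    exact (hmaxℓ.eq_of_le hunder_ne hle')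
  have hdeg : P.inertiaDeg ℤ = f := IsCyclotomicExtension.Rat.inertiaDeg_eq_of_not_dvd ℓ K P hndvd
  have hPabs : absNorm P = ℓ ^ f := by
    have hmaxℓ : (span {(ℓ : ℤ)}).IsMaximal :=
      (Ideal.span_singleton_prime (by exact_mod_cast hℓ.out.ne_zero)).mpr
        (Nat.prime_iff_prime_int.mp hℓ.out) |>.isMaximal (by simpa using hℓ.out.ne_zero)
    rw [absNorm_eq_pow_inertiaDeg' P hℓ.out, inertiaDeg'_eq_inertiaDeg, hdeg]
  -- now `span {α} ≤ P` with the same norm
  have hPeq : P = span {α} := by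
    obtain ⟨J, hJ⟩ := Ideal.dvd_iff_le.mpr hle
    have h1 : absNorm (span {α}) = absNorm P * absNorm J := by rw [hJ, map_mul]
    rw [habs, hPabs] at h1
    have h2 : absNorm J = 1 := by
      have hpos : 0 < ℓ ^ f := by positivity
      exact (Nat.eq_of_mul_eq_mul_left hpos (by rw [mul_one]; exact h1.symm))
    rw [absNorm_eq_one_iff] at h2
    rw [hJ, h2, Ideal.mul_top]
  refine ⟨P, ⟨hPprime, hlies⟩, ?_⟩
  rw [hPeq]
  exact ⟨⟨α, rfl⟩⟩

end Fermat.Agent.Lib.CycloNorm
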