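import Mathlib
import Fermat.Agent.Lib.CycloNorm
import Fermat.Agent.Lib.CycloPrincipal
import Fermat.Agent.Lib.CycloPID7

/-!
# `𝓞 (ℚ(ζ₁₁))` is a principal ideal domain (helper18, part A of the S10/S11 project).

The Minkowski bound is `< 60`. The only primes `ℓ ≠ 11` with a prime ideal of norm `≤ 59` above
them is `ℓ = 23`, and `1 - ζ + ζ ^ 3` has norm `23`.
-/

set_option autoImplicit false

namespace Fermat.Agent.Lib.CycloPID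

open NumberField Polynomial InfinitePlace Nat Real Ideal IsCyclotomicExtension.Rat
open Fermat.Agent.Lib.CycloNorm

universe u


/-- Explicit norm computation: `∏_{k=1}^{10} g(ζ^k) = 23` for `g = 1 - X + X^3`. -/
theorem prod_11_23 {R : Type*} [CommRing R] (ζ : R)
    (h : 1 + ζ + ζ^2 + ζ^3 + ζ^4 + ζ^5 + ζ^6 + ζ^7 + ζ^8 + ζ^9 + ζ^10 = 0) :
    (1 - (ζ^1) + (ζ^1)^3) * (1 - (ζ^2) + (ζ^2)^3) * (1 - (ζ^3) + (ζ^3)^3) * (1 - (ζ^4) + (ζ^4)^3) * (1 - (ζ^5) + (ζ^5)^3) * (1 - (ζ^6) + (ζ^6)^3) * (1 - (ζ^7) + (ζ^7)^3) * (1 - (ζ^8) + (ζ^8)^3) * (1 - (ζ^9) + (ζ^9)^3) * (1 - (ζ^10) + (ζ^10)^3) = 23 := by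
  linear_combination ((-22) + (21) * ζ + (2) * ζ^3 + (-1) * ζ^4 + (-1) * ζ^7 + (1) * ζ^8 + (1) * ζ^9 + (-1) * ζ^10 + (-21) * ζ^11 + (22) * ζ^12 + (-4) * ζ^13 + (2) * ζ^14 + (4) * ζ^15 + (-5) * ζ^16 + (2) * ζ^18 + (-2) * ζ^19 + (4) * ζ^20 + (-25) * ζ^22 + (26) * ζ^23 + (-7) * ζ^25 + (5) * ζ^26 + (-6) * ζ^28 + (1) * ζ^29 + (5) * ζ^30 + (-4) * ζ^31 + (3) * ζ^32 + (-18) * ζ^33 + (17) * ζ^34 + (10) * ζ^35 + (-4) * ζ^36 + (-10) * ζ^37 + (4) * ζ^38 + (6) * ζ^39 + (-13) * ζ^40 + (3) * ζ^41 + (5) * ζ^42 + (-10) * ζ^43 + (-13) * ζ^44 + (30) * ζ^45 + (-7) * ζ^46 + (6) * ζ^47 + (4) * ζ^48 + (-20) * ζ^49 + (19) * ζ^50 + (-1) * ζ^51 + (-19) * ζ^52 + (7) * ζ^53 + (3) * ζ^54 + (-31) * ζ^55 + (33) * ζ^56 + (4) * ζ^57 + (-15) * ζ^58 + (18) * ζ^59 + (-14) * ζ^61 + (10) * ζ^62 + (8) * ζ^63 + (-25) * ζ^64 + (15) * ζ^65 + (-20) * ζ^66 + (5) * ζ^67 + (12) * ζ^68 + (4)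 * ζ^69 + (-6) * ζ^70 + (7) * ζ^71 + (5) * ζ^72 + (-25) * ζ^73 + (24) * ζ^74 + (7) * ζ^75 + (-25) * ζ^76 + (-12) * ζ^77 + (29) * ζ^78 + (-28) * ζ^79 + (26) * ζ^80 + (8) * ζ^81 + (-27) * ζ^82 + (16) * ζ^83 + (-2) * ζ^84 + (-8) * ζ^85 + (18) * ζ^86 + (3) * ζ^87 + (-49) * ζ^88 + (41) * ζ^89 + (-1) * ζ^90 + (-16) * ζ^91 + (17) * ζ^92 + (3) * ζ^93 + (-24) * ζ^94 + (18) * ζ^95 + (6) * ζ^96 + (-17) * ζ^97 + (14) * ζ^98 + (-16) * ζ^99 + (4) * ζ^100 + (8) * ζ^101 + (8) * ζ^102 + (-25) * ζ^103 + (18) * ζ^104 + (3) * ζ^105 + (-17) * ζ^106 + (12) * ζ^107 + (9) * ζ^108 + (-23) * ζ^109 + (11) * ζ^110 + (8) * ζ^111 + (-18) * ζ^112 + (20) * ζ^113 + (-9) * ζ^114 + (-4) * ζ^115 + (7) * ζ^116 + (5) * ζ^117 + (-21) * ζ^118 + (16) * ζ^119 + (3) * ζ^120 + (-12) * ζ^121 + (8) * ζ^122 + (-1) * ζ^123 + (-4) * ζ^124 + (5) * ζ^125 + (2) * ζ^126 + (-9) * ζ^127 + (7) * ζ^128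 + (-4) * ζ^129 + (1) * ζ^130 + (3) * ζ^131 + (1) * ζ^132 + (-9) * ζ^133 + (6) * ζ^134 + (3) * ζ^135 + (-6) * ζ^136 + (5) * ζ^137 + (-4) * ζ^139 + (1) * ζ^140 + (3) * ζ^141 + (-3) * ζ^142 + (2) * ζ^143 + (-2) * ζ^144 + (2) * ζ^146 + (-2) * ζ^148 + (1) * ζ^149 + (1) * ζ^150 + (-2) * ζ^151 + (2) * ζ^152 + (-1) * ζ^153 + (-1) * ζ^154 + (1) * ζ^155) * h


theorem check11_2 : ∀ m < 6, 0 < m → ((2 : ℕ) : ZMod 11) ^ m ≠ 1 := by decide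
theorem check11_3 : ∀ m < 4, 0 < m → ((3 : ℕ) : ZMod 11) ^ m ≠ 1 := by decide
theorem check11_5 : ∀ m < 3, 0 < m → ((5 : ℕ) : ZMod 11) ^ m ≠ 1 := by decide
theorem check11_7 : ∀ m < 3, 0 < m → ((7 : ℕ) : ZMod 11) ^ m ≠ 1 := by decide

theorem orderOf11_23 : orderOf ((23 : ℕ) : ZMod 11) = 1 := by
  rw [orderOf_eq_one_iff]
  decide

/-- If `ℓ ≠ p` is a prime not congruent to `1` mod `p` and `B < ℓ ^ 2` then
`B < ℓ ^ orderOf ℓ`. -/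
theorem lt_pow_orderOf_of_mod_ne_one {p ℓ B : ℕ} (hp : p.Prime) (hℓ : ℓ.Prime) (hne : ℓ ≠ p)
    (hB : B < ℓ ^ 2) (hmod : ℓ % p ≠ 1) : B < ℓ ^ orderOf (ℓ : ZMod p) := by
  refine lt_pow_orderOf hp hℓ hne hB (fun m hm hm0 ↦ ?_)
  have hm1 : m = 1 := by omega
  subst hm1
  rw [pow_one]
  intro h
  apply hmod
  have h2 : ((ℓ : ℕ) : ZMod p) = ((1 : ℕ) : ZMod p) := by simpa using h
  rw [ZMod.natCast_eq_natCast_iff'] at h2
  rw [h2, Nat.mod_eq_of_lt hp.one_lt]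

variable (K : Type u) [Field K] [NumberField K]

/-- Minkowski bound of `ℚ(ζ₁₁)` is `< 60`. -/
theorem minkowski_eleven_lt [IsCyclotomicExtension {11} ℚ K] :
    (4 / π) ^ nrComplexPlaces K *
      ((Module.finrank ℚ K)! / (Module.finrank ℚ K) ^ (Module.finrank ℚ K) * √|discr K|) < 60 := by
  have : Fact (Nat.Prime 11) := ⟨by norm_num⟩
  rw [discr_prime 11 K, IsCyclotomicExtension.finrank (n := 11) K
    (cyclotomic.irreducible_rat (by norm_num)), nrComplexPlaces_eq_totient_div_two 11,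
    totient_prime (by norm_num : Nat.Prime 11)]
  norm_num [Nat.factorial]
  have h1 : 4 / π ≤ 4 / 3.14 := by
    gcongr
    exact pi_gt_d2.le
  have h2 : √(2357947691 : ℝ) ≤ 48559 := by
    rw [Real.sqrt_le_iff]
    norm_num
  calc (4 / π) ^ 5 * (567 / 1562500 * √2357947691)
      ≤ (4 / 3.14) ^ 5 * (567 / 1562500 * 48559) := by gcongr
    _ < 60 := by norm_num

/-- The element `1 - ζ + ζ ^ 3` of `𝓞 ℚ(ζ₁₁)` has norm `23`. -/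
theorem norm_eleven_23 [IsCyclotomicExtension {11} ℚ K] {ζ : K} (hζ : IsPrimitiveRoot ζ 11) :
    Algebra.norm ℤ (1 - hζ.toInteger + hζ.toInteger ^ 3 : 𝓞 K) = 23 := by
  have : Fact (Nat.Prime 11) := ⟨by norm_num⟩
  have h := norm_aeval_eq_prod 11 K hζ (1 - X + X ^ 3 : ℤ[X])
  have hsum := hζ.geom_sum_eq_zero (by norm_num)
  simp only [Finset.sum_range_succ, Finset.sum_range_zero, zero_add, pow_zero, pow_one] at hsum
  have hprod := prod_11_23 ζ hsum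
  have hIco : Finset.Ico 1 11 = {1, 2, 3, 4, 5, 6, 7, 8, 9, 10} := by decide
  rw [hIco] at h
  simp only [Finset.prod_insert, Finset.mem_insert, Finset.mem_singleton, Finset.prod_singleton,
    map_add, map_sub, map_one, aeval_X, map_pow, OfNat.one_ne_ofNat,
    Nat.reduceEqDiff, or_self, not_false_eq_true] at h
  have h3 : ((Algebra.norm ℤ (1 - hζ.toInteger + hζ.toInteger ^ 3 : 𝓞 K) : ℤ) : K) =
      ((23 : ℤ) : K) := by
    rw [h]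
    push_cast
    rw [← hprod]
    ring
  exact_mod_cast h3

theorem eleven_pid [IsCyclotomicExtension {11} ℚ K] : IsPrincipalIdealRing (𝓞 K) := by
  have : Fact (Nat.Prime 11) := ⟨by norm_num⟩
  have : IsGalois ℚ K := IsCyclotomicExtension.isGalois {11} ℚ K
  have hM := minkowski_eleven_lt K
  have hfl : ⌊(4 / π) ^ nrComplexPlaces K *
      ((Module.finrank ℚ K)! / (Module.finrank ℚ K) ^ (Module.finrank ℚ K) * √|discr K|)⌋₊ < 60 := by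
    rw [Nat.floor_lt (by positivity)]
    exact_mod_cast hM
  refine RingOfIntegers.isPrincipalIdealRing_of_isPrincipal_of_lt_or_isPrincipal_of_mem_primesOver_of_mem_Icc
    (fun ℓ hℓmem hℓ ↦ ?_)
  rw [Finset.mem_Icc] at hℓmem
  have hℓ60 : ℓ < 60 := lt_of_le_of_lt hℓmem.2 hfl
  have hfl' := Nat.lt_succ_iff.mp hfl
  have : Fact ℓ.Prime := ⟨hℓ⟩
  have h11 : Nat.Prime 11 := by norm_num
  have hζ := IsCyclotomicExtension.zeta_spec 11 ℚ K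
  by_cases hℓ11 : ℓ = 11
  · -- the prime above 11 is generated by `ζ - 1`
    subst hℓ11
    obtain ⟨⟨P, hP1, hP2⟩⟩ := (span {((11 : ℕ) : ℤ)}).nonempty_primesOver (S := 𝓞 K)
    refine ⟨P, ⟨hP1, hP2⟩, Or.inr ?_⟩
    rw [eq_span_zeta_sub_one_of_liesOver' 11 K hζ P]
    exact ⟨⟨_, rfl⟩⟩
  by_cases hℓ23 : ℓ = 23
  · subst hℓ23
    obtain ⟨P, hP, hprinc⟩ := exists_isPrincipal_mem_primesOver_of_norm 11 K 23 (by norm_num)
      (1 - hζ.toInteger + hζ.toInteger ^ 3)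
      (by rw [norm_eleven_23 K hζ, orderOf11_23]; rfl)
    exact ⟨P, hP, Or.inr hprinc⟩
  obtain ⟨⟨P, hP1, hP2⟩⟩ := (span {(ℓ : ℤ)}).nonempty_primesOver (S := 𝓞 K)
  have hne : ¬ ℓ ∣ 11 := fun h ↦ hℓ11 ((Nat.prime_dvd_prime_iff_eq hℓ (by norm_num)).mp h)
  refine ⟨P, ⟨hP1, hP2⟩, Or.inl (lt_of_le_of_lt hfl' ?_)⟩
  rw [inertiaDeg_eq_of_not_dvd ℓ K P hne]
  by_cases hsmall : ℓ < 8
  · have hℓ1 := hℓmem.1
    interval_cases ℓ
    · exact absurd hℓ (by norm_num)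
    · exact lt_pow_orderOf h11 hℓ hℓ11 (k := 6) (by norm_num) check11_2
    · exact lt_pow_orderOf h11 hℓ hℓ11 (k := 4) (by norm_num) check11_3
    · exact absurd hℓ (by norm_num)
    · exact lt_pow_orderOf h11 hℓ hℓ11 (k := 3) (by norm_num) check11_5
    · exact absurd hℓ (by norm_num)
    · exact lt_pow_orderOf h11 hℓ hℓ11 (k := 3) (by norm_num) check11_7
  · have hℓ8 : 8 ≤ ℓ := not_lt.mp hsmall
    refine lt_pow_orderOf_of_mod_ne_one h11 hℓ hℓ11 ?_ ?_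
    · nlinarith
    · intro hmod
      -- `ℓ = 11 j + 1` with `ℓ < 60`, prime, `ℓ ≠ 23`: impossible
      obtain ⟨j, hj⟩ : ∃ j, ℓ = 11 * j + 1 := ⟨ℓ / 11, by omega⟩
      have hj6 : j < 6 := by omega
      subst hj
      interval_cases j
      · exact absurd hℓ (by norm_num)
      · exact absurd hℓ (by norm_num)
      · exact hℓ23 rfl
      · exact absurd hℓ (by norm_num)
      · exact absurd hℓ (by norm_num)
      · exact absurd hℓ (by norm_num)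

end Fermat.Agent.Lib.CycloPID
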