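import Mathlib

set_option autoImplicit false

namespace Fermat.Agent.Lib.CycloPID13

open NumberField Ideal Polynomial RingOfIntegers NumberField.Ideal

universe u

variable {K : Type u} [Field K] [NumberField K]

theorem exists_isPrincipal_mem_primesOver {m : ℕ} [NeZero m] [IsCyclotomicExtension {m} ℚ K]
    {ζ : K} (hζ : IsPrimitiveRoot ζ m) (q : ℕ) [Fact q.Prime] (Q : ℤ[X])
    (hQirr : Irreducible (Q.map (Int.castRingHom (ZMod q))))
    (hQmonic : (Q.map (Int.castRingHom (ZMod q))).Monic)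
    (hQdvd : Q.map (Int.castRingHom (ZMod q)) ∣ cyclotomic m (ZMod q))
    (α β γ u v : 𝓞 K)
    (h1 : α * β = (q : 𝓞 K)) (h2 : α * γ = aeval hζ.toInteger Q)
    (h3 : α = (q : 𝓞 K) * u + aeval hζ.toInteger Q * v) :
    ∃ P ∈ primesOver (span {(q : ℤ)}) (𝓞 K), Submodule.IsPrincipal P := by
  have h₁ : ¬ q ∣ exponent hζ.toInteger := by
    rw [exponent_eq_one_iff.mpr <| IsCyclotomicExtension.Rat.adjoin_singleton_eq_top hζ]
    exact (Fact.out : q.Prime).not_dvd_one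
  have hmin : (minpoly ℤ hζ.toInteger).map (Int.castRingHom (ZMod q)) = cyclotomic m (ZMod q) := by
    rw [← map_cyclotomic_int, cyclotomic_eq_minpoly hζ (NeZero.pos _)]
    exact congrArg _ (RingOfIntegers.minpoly_coe hζ.toInteger).symm
  have hQ : Q.map (Int.castRingHom (ZMod q)) ∈ monicFactorsMod hζ.toInteger q := by
    rw [Multiset.mem_toFinset, Polynomial.mem_normalizedFactors_iff
      (map_monic_ne_zero (minpoly.monic hζ.toInteger.isIntegral))]
    exact ⟨hQirr, hQmonic, hmin ▸ hQdvd⟩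
  refine ⟨span {(q : 𝓞 K), aeval hζ.toInteger Q}, ?_, ?_⟩
  · rw [← primesOverSpanEquivMonicFactorsMod_symm_apply_eq_span h₁ hQ]
    exact ((primesOverSpanEquivMonicFactorsMod h₁).symm ⟨_, hQ⟩).2
  · have : span {(q : 𝓞 K), aeval hζ.toInteger Q} = span {α} := by
      apply le_antisymm
      · rw [Ideal.span_le]
        rintro x (rfl | rfl)
        · exact Ideal.mem_span_singleton.mpr ⟨β, h1.symm⟩
        · exact Ideal.mem_span_singleton.mpr ⟨γ, h2.symm⟩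
      · rw [Ideal.span_singleton_le_iff_mem, h3]
        exact Ideal.add_mem _ (Ideal.mul_mem_right _ _ (Ideal.subset_span (by simp)))
          (Ideal.mul_mem_right _ _ (Ideal.subset_span (by simp)))
    rw [this]
    exact ⟨⟨α, rfl⟩⟩

/-- Degree-one version: `r` is a root of the cyclotomic polynomial mod `q`. -/
theorem exists_isPrincipal_mem_primesOver_of_root {m : ℕ} [NeZero m]
    [IsCyclotomicExtension {m} ℚ K]
    {ζ : K} (hζ : IsPrimitiveRoot ζ m) (q : ℕ) [Fact q.Prime] (r : ℤ)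
    (hr : (cyclotomic m (ZMod q)).IsRoot (r : ZMod q))
    (α β γ u v : 𝓞 K)
    (h1 : α * β = (q : 𝓞 K)) (h2 : α * γ = hζ.toInteger - (r : 𝓞 K))
    (h3 : α = (q : 𝓞 K) * u + (hζ.toInteger - (r : 𝓞 K)) * v) :
    ∃ P ∈ primesOver (span {(q : ℤ)}) (𝓞 K), Submodule.IsPrincipal P := by
  have hmap : (X - C r : ℤ[X]).map (Int.castRingHom (ZMod q)) = X - C (r : ZMod q) := by
    simp
  have hev : aeval hζ.toInteger (X - C r : ℤ[X]) = hζ.toInteger - (r : 𝓞 K) := by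
    simp
  refine exists_isPrincipal_mem_primesOver hζ q (X - C r) ?_ ?_ ?_ α β γ u v h1 ?_ ?_
  · rw [hmap]; exact irreducible_X_sub_C _
  · rw [hmap]; exact monic_X_sub_C _
  · rw [hmap]; exact dvd_iff_isRoot.mpr hr
  · rw [hev]; exact h2
  · rw [hev]; exact h3

section thirteen

variable [IsCyclotomicExtension {13} ℚ K]

omit [NumberField K] [IsCyclotomicExtension {13} ℚ K] in
theorem geom_sum_thirteen {ζ : K} (hζ : IsPrimitiveRoot ζ 13) :
    1 + hζ.toInteger + hζ.toInteger ^ 2 + hζ.toInteger ^ 3 + hζ.toInteger ^ 4 +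
      hζ.toInteger ^ 5 + hζ.toInteger ^ 6 + hζ.toInteger ^ 7 + hζ.toInteger ^ 8 +
      hζ.toInteger ^ 9 + hζ.toInteger ^ 10 + hζ.toInteger ^ 11 + hζ.toInteger ^ 12 = 0 := by
  have h := hζ.toInteger_isPrimitiveRoot.geom_sum_eq_zero (by norm_num)
  simpa [Finset.sum_range_succ] using h

theorem isRoot_cyclotomic_thirteen_iff (q : ℕ) (r : ZMod q) :
    (cyclotomic 13 (ZMod q)).IsRoot r ↔
      1 + r + r ^ 2 + r ^ 3 + r ^ 4 + r ^ 5 + r ^ 6 + r ^ 7 + r ^ 8 + r ^ 9 + r ^ 10 + r ^ 11 +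
        r ^ 12 = 0 := by
  have : Fact (Nat.Prime 13) := ⟨by norm_num⟩
  rw [cyclotomic_prime, IsRoot.def, eval_finsetSum]
  simp [Finset.sum_range_succ]


theorem principal_53 {ζ : K} (hζ : IsPrimitiveRoot ζ 13) :
    ∃ P ∈ primesOver (span {((53 : ℕ) : ℤ)}) (𝓞 K), Submodule.IsPrincipal P := by
  have hr : (cyclotomic 13 (ZMod 53)).IsRoot (((36 : ℤ) : ZMod 53)) := by
    rw [isRoot_cyclotomic_thirteen_iff]
    decide
  have : Fact (Nat.Prime 53) := ⟨by norm_num⟩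
  have hΦ := geom_sum_thirteen hζ
  set η := hζ.toInteger with hη
  refine exists_isPrincipal_mem_primesOver_of_root hζ 53 36 hr
    (1 + η + η ^ 3)
    (1 - 24 * η - 35 * η ^ 2 - 25 * η ^ 3 - 10 * η ^ 4 - 14 * η ^ 5 - 20 * η ^ 6 - 29 * η ^ 7 - 16 * η ^ 8 - 23 * η ^ 9 - 7 * η ^ 10 - 36 * η ^ 11)
    (17 * η + 24 * η ^ 2 + 17 * η ^ 3 + 7 * η ^ 4 + 10 * η ^ 5 + 14 * η ^ 6 + 20 * η ^ 7 + 11 * η ^ 8 + 16 * η ^ 9 + 5 * η ^ 10 + 25 * η ^ 11)
    (881) (1297 + 36 * η + η ^ 2) ?_ ?_ ?_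
  · push_cast
    linear_combination (-52 + 29 * η - 36 * η ^ 2) * hΦ
  · push_cast
    linear_combination (36 - 20 * η + 25 * η ^ 2) * hΦ
  · push_cast
    ring

theorem principal_79 {ζ : K} (hζ : IsPrimitiveRoot ζ 13) :
    ∃ P ∈ primesOver (span {((79 : ℕ) : ℤ)}) (𝓞 K), Submodule.IsPrincipal P := by
  have hr : (cyclotomic 13 (ZMod 79)).IsRoot (((64 : ℤ) : ZMod 79)) := by
    rw [isRoot_cyclotomic_thirteen_iff]
    decide
  have : Fact (Nat.Prime 79) := ⟨by norm_num⟩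
  have hΦ := geom_sum_thirteen hζ
  set η := hζ.toInteger with hη
  refine exists_isPrincipal_mem_primesOver_of_root hζ 79 64 hr
    (1 + η - η ^ 4)
    (24 - 25 * η - 27 * η ^ 2 + 10 * η ^ 3 - 3 * η ^ 4 - 39 * η ^ 5 - 5 * η ^ 6 - 2 * η ^ 7 - 18 * η ^ 8 - 38 * η ^ 9 + 16 * η ^ 10 - 35 * η ^ 11)
    (-19 + 21 * η + 22 * η ^ 2 - 8 * η ^ 3 + 3 * η ^ 4 + 32 * η ^ 5 + 4 * η ^ 6 + 2 * η ^ 7 + 15 * η ^ 8 + 31 * η ^ 9 - 13 * η ^ 10 + 29 * η ^ 11)
    (-212369) (-262143 - 4096 * η - 64 * η ^ 2 - η ^ 3) ?_ ?_ ?_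
  · push_cast
    linear_combination (-55 + 54 * η - 51 * η ^ 2 + 35 * η ^ 3) * hΦ
  · push_cast
    linear_combination (45 - 44 * η + 42 * η ^ 2 - 29 * η ^ 3) * hΦ
  · push_cast
    ring

theorem principal_131 {ζ : K} (hζ : IsPrimitiveRoot ζ 13) :
    ∃ P ∈ primesOver (span {((131 : ℕ) : ℤ)}) (𝓞 K), Submodule.IsPrincipal P := by
  have hr : (cyclotomic 13 (ZMod 131)).IsRoot (((80 : ℤ) : ZMod 131)) := by
    rw [isRoot_cyclotomic_thirteen_iff]
    decide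
  have : Fact (Nat.Prime 131) := ⟨by norm_num⟩
  have hΦ := geom_sum_thirteen hζ
  set η := hζ.toInteger with hη
  refine exists_isPrincipal_mem_primesOver_of_root hζ 131 80 hr
    (1 - η - η ^ 3)
    (111 + 78 * η + 17 * η ^ 2 + 67 * η ^ 3 + 84 * η ^ 4 + 40 * η ^ 5 + 46 * η ^ 6 + 69 * η ^ 7 + 48 * η ^ 8 + 33 * η ^ 9 + 41 * η ^ 10 + 28 * η ^ 11)
    (-68 - 47 * η - 10 * η ^ 2 - 41 * η ^ 3 - 51 * η ^ 4 - 24 * η ^ 5 - 28 * η ^ 6 - 42 * η ^ 7 - 29 * η ^ 8 - 20 * η ^ 9 - 25 * η ^ 10 - 17 * η ^ 11)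
    (-3909) (-6401 - 80 * η - η ^ 2) ?_ ?_ ?_
  · push_cast
    linear_combination (-20 - 13 * η - 28 * η ^ 2) * hΦ
  · push_cast
    linear_combination (12 + 8 * η + 17 * η ^ 2) * hΦ
  · push_cast
    ring

theorem principal_157 {ζ : K} (hζ : IsPrimitiveRoot ζ 13) :
    ∃ P ∈ primesOver (span {((157 : ℕ) : ℤ)}) (𝓞 K), Submodule.IsPrincipal P := by
  have hr : (cyclotomic 13 (ZMod 157)).IsRoot (((75 : ℤ) : ZMod 157)) := by
    rw [isRoot_cyclotomic_thirteen_iff]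
    decide
  have : Fact (Nat.Prime 157) := ⟨by norm_num⟩
  have hΦ := geom_sum_thirteen hζ
  set η := hζ.toInteger with hη
  refine exists_isPrincipal_mem_primesOver_of_root hζ 157 75 hr
    (1 - η + η ^ 2 + η ^ 4)
    (89 + 86 * η + 42 * η ^ 2 + 77 * η ^ 3 + 67 * η ^ 4 + 25 * η ^ 5 + 37 * η ^ 6 + 56 * η ^ 7 + 73 * η ^ 8 + 113 * η ^ 9 + 124 * η ^ 10 + 76 * η ^ 11)
    (-43 - 41 * η - 20 * η ^ 2 - 37 * η ^ 3 - 32 * η ^ 4 - 12 * η ^ 5 - 18 * η ^ 6 - 27 * η ^ 7 - 35 * η ^ 8 - 54 * η ^ 9 - 59 * η ^ 10 - 36 * η ^ 11)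
    (201568) (421949 + 5626 * η + 75 * η ^ 2 + η ^ 3) ?_ ?_ ?_
  · push_cast
    linear_combination (-68 + 65 * η + 48 * η ^ 2 + 76 * η ^ 3) * hΦ
  · push_cast
    linear_combination (32 - 31 * η - 23 * η ^ 2 - 36 * η ^ 3) * hΦ
  · push_cast
    ring

theorem noroot_three : ∀ x : ZMod 3, x ^ 3 - x - 1 ≠ 0 := by decide

theorem three_eq_zero_poly : (3 : (ZMod 3)[X]) = 0 := by
  have h : (C (3 : ZMod 3) : (ZMod 3)[X]) = C 0 := congrArg C (by decide)
  rwa [C_0, show (C (3 : ZMod 3) : (ZMod 3)[X]) = 3 from map_ofNat C 3] at h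

theorem principal_3 {ζ : K} (hζ : IsPrimitiveRoot ζ 13) :
    ∃ P ∈ primesOver (span {((3 : ℕ) : ℤ)}) (𝓞 K), Submodule.IsPrincipal P := by
  have : Fact (Nat.Prime 3) := ⟨by norm_num⟩
  have : Fact (Nat.Prime 13) := ⟨by norm_num⟩
  have hΦ := geom_sum_thirteen hζ
  set η := hζ.toInteger with hη
  have hmap : (X ^ 3 - X - 1 : ℤ[X]).map (Int.castRingHom (ZMod 3)) = X ^ 3 - X - 1 := by
    simp
  have hdeg : (X ^ 3 - X - 1 : (ZMod 3)[X]).natDegree = 3 := by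
    compute_degree!
  have hmonic : (X ^ 3 - X - 1 : (ZMod 3)[X]).Monic := by
    monicity!
  have hev : aeval η (X ^ 3 - X - 1 : ℤ[X]) = η ^ 3 - η - 1 := by
    simp
  refine exists_isPrincipal_mem_primesOver hζ 3 (X ^ 3 - X - 1) ?_ ?_ ?_
    (1 + η - η ^ 3)
    (-1 - η ^ 2 - η ^ 3 - 2 * η ^ 5 - η ^ 7 - 2 * η ^ 8 + η ^ 9 - 3 * η ^ 10)
    (-1) 0 (-1) ?_ ?_ ?_
  · rw [hmap]
    refine irreducible_of_degree_le_three_of_not_isRoot (by rw [hdeg]; decide) ?_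
    intro x
    simp only [IsRoot.def, eval_sub, eval_pow, eval_X, eval_one]
    exact noroot_three x
  · rw [hmap]; exact hmonic
  · rw [hmap, cyclotomic_prime]
    refine ⟨-1 - X ^ 2 - X ^ 3 + X ^ 5 - X ^ 7 + X ^ 8 + X ^ 9, ?_⟩
    have h3 : (3 : (ZMod 3)[X]) = 0 := three_eq_zero_poly
    simp only [Finset.sum_range_succ, Finset.sum_range_zero]
    linear_combination (X ^ 5 + X ^ 6 + X ^ 9 + X ^ 10) * h3
  · push_cast
    linear_combination (-4 + 3 * η) * hΦ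
  · rw [hev]; ring
  · rw [hev]; ring

theorem sqrt_thirteen_pow_lt : Real.sqrt ((13 : ℝ) ^ 11) < 1338734 := by
  rw [Real.sqrt_lt' (by norm_num)]
  norm_num

theorem four_div_pi_lt : 4 / Real.pi < 200 / 157 := by
  have h := Real.pi_gt_d2
  rw [div_lt_div_iff₀ (by positivity) (by norm_num)]
  linarith

/-- The Minkowski bound of `ℚ(ζ₁₃)` is less than `313`. -/
theorem floor_minkowski_thirteen_lt (K : Type u) [Field K] [NumberField K]
    [IsCyclotomicExtension {13} ℚ K] :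
    ⌊(4 / Real.pi) ^ InfinitePlace.nrComplexPlaces K *
      (↑(Module.finrank ℚ K).factorial / ↑(Module.finrank ℚ K) ^ Module.finrank ℚ K *
        Real.sqrt |(discr K : ℝ)|)⌋₊ < 313 := by
  have : Fact (Nat.Prime 13) := ⟨by norm_num⟩
  rw [IsCyclotomicExtension.Rat.discr_prime 13 K, IsCyclotomicExtension.finrank (n := 13) K
    (cyclotomic.irreducible_rat (by simp)),
    IsCyclotomicExtension.Rat.nrComplexPlaces_eq_totient_div_two 13,
    Nat.totient_prime (by norm_num : Nat.Prime 13)]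
  have h12 : (12 : ℕ).factorial = 479001600 := by decide
  rw [Nat.floor_lt (by positivity)]
  simp only [h12]
  norm_num
  have h1 := sqrt_thirteen_pow_lt
  have h2 := four_div_pi_lt
  have h3 : (0 : ℝ) < 4 / Real.pi := by positivity
  calc (4 / Real.pi) ^ 6 * (1925 / 35831808 * Real.sqrt 1792160394037)
      ≤ (200 / 157) ^ 6 * (1925 / 35831808 * 1338734) := by
        have hs : Real.sqrt (1792160394037 : ℝ) ≤ 1338734 := by
          have := h1
          norm_num at this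
          exact this.le
        gcongr
    _ < 313 := by norm_num


theorem aux_list_thirteen : ∀ p ∈ Finset.range 313, ∀ f ∈ Finset.range 13,
    0 < f → p ^ f ≤ 312 → p ^ f % 13 = 1 →
    p ∈ ([1, 3, 12, 14, 27, 40, 53, 66, 79, 92, 105, 118, 131, 144, 157, 170, 183, 196, 209, 222,
      235, 248, 261, 274, 287, 300] : List ℕ) := by
  decide +kernel

theorem aux_prime_thirteen {p : ℕ} (hp : p.Prime)
    (h : p ∈ ([1, 3, 12, 14, 27, 40, 53, 66, 79, 92, 105, 118, 131, 144, 157, 170, 183, 196, 209,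
      222, 235, 248, 261, 274, 287, 300] : List ℕ)) :
    p = 3 ∨ p = 53 ∨ p = 79 ∨ p = 131 ∨ p = 157 := by
  simp only [List.mem_cons, List.not_mem_nil, or_false] at h
  rcases h with rfl | rfl | rfl | rfl | rfl | rfl | rfl | rfl | rfl | rfl | rfl | rfl | rfl | rfl |
    rfl | rfl | rfl | rfl | rfl | rfl | rfl | rfl | rfl | rfl | rfl | rfl <;>
  first
  | decide
  | (exfalso; revert hp; norm_num)

/-- If `IsCyclotomicExtension {13} ℚ K` then `𝓞 K` is a principal ideal domain. -/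
theorem thirteen_pid (K : Type u) [Field K] [NumberField K] [IsCyclotomicExtension {13} ℚ K] :
    IsPrincipalIdealRing (𝓞 K) := by
  have : IsGalois ℚ K := IsCyclotomicExtension.isGalois {13} ℚ K
  have h13 : Fact (Nat.Prime 13) := ⟨by norm_num⟩
  have hζ := IsCyclotomicExtension.zeta_spec 13 ℚ K
  apply RingOfIntegers.isPrincipalIdealRing_of_isPrincipal_of_lt_or_isPrincipal_of_mem_primesOver_of_mem_Icc
  intro p hp hpprime
  have hB := floor_minkowski_thirteen_lt K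
  have hp312 : p ≤ 312 := by
    have := (Finset.mem_Icc.mp hp).2
    omega
  have : Fact p.Prime := ⟨hpprime⟩
  by_cases hp13 : p = 13
  · subst hp13
    obtain ⟨⟨P, hP1, hP2⟩⟩ := (span {((13 : ℕ) : ℤ)}).nonempty_primesOver (S := 𝓞 K)
    refine ⟨P, ⟨hP1, hP2⟩, Or.inr ?_⟩
    rw [IsCyclotomicExtension.Rat.eq_span_zeta_sub_one_of_liesOver' 13 K hζ P]
    exact ⟨⟨_, rfl⟩⟩
  by_cases hlist : p = 3 ∨ p = 53 ∨ p = 79 ∨ p = 131 ∨ p = 157
  · rcases hlist with rfl | rfl | rfl | rfl | rfl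
    · obtain ⟨P, hP, hprin⟩ := principal_3 hζ
      exact ⟨P, hP, Or.inr hprin⟩
    · obtain ⟨P, hP, hprin⟩ := principal_53 hζ
      exact ⟨P, hP, Or.inr hprin⟩
    · obtain ⟨P, hP, hprin⟩ := principal_79 hζ
      exact ⟨P, hP, Or.inr hprin⟩
    · obtain ⟨P, hP, hprin⟩ := principal_131 hζ
      exact ⟨P, hP, Or.inr hprin⟩
    · obtain ⟨P, hP, hprin⟩ := principal_157 hζ
      exact ⟨P, hP, Or.inr hprin⟩
  · obtain ⟨⟨P, hP1, hP2⟩⟩ := (span {(p : ℤ)}).nonempty_primesOver (S := 𝓞 K)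
    refine ⟨P, ⟨hP1, hP2⟩, Or.inl ?_⟩
    have hndvd : ¬ p ∣ 13 := by
      intro h
      exact hp13 ((Nat.prime_dvd_prime_iff_eq hpprime (by norm_num)).mp h)
    rw [IsCyclotomicExtension.Rat.inertiaDeg_eq_of_not_dvd p K P hndvd]
    by_contra hcon
    rw [not_lt] at hcon
    have hle : p ^ orderOf (p : ZMod 13) ≤ 312 := by omega
    have hp0 : (p : ZMod 13) ≠ 0 := by
      intro h
      rw [ZMod.natCast_eq_zero_iff] at h
      exact hp13 ((Nat.prime_dvd_prime_iff_eq (by norm_num) hpprime).mp h).symm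
    have hpow : (p : ZMod 13) ^ 12 = 1 := ZMod.pow_card_sub_one_eq_one hp0
    have hdvd : orderOf (p : ZMod 13) ∣ 12 := orderOf_dvd_of_pow_eq_one hpow
    have hpos : 0 < orderOf (p : ZMod 13) := Nat.pos_of_dvd_of_pos hdvd (by norm_num)
    have hlt : orderOf (p : ZMod 13) < 13 := by
      have := Nat.le_of_dvd (by norm_num) hdvd
      omega
    have hone : p ^ orderOf (p : ZMod 13) % 13 = 1 := by
      have h1 : ((p ^ orderOf (p : ZMod 13) : ℕ) : ZMod 13) = ((1 : ℕ) : ZMod 13) := by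
        push_cast
        exact pow_orderOf_eq_one _
      have := (ZMod.natCast_eq_natCast_iff' _ _ _).mp h1
      simpa using this
    exact hlist (aux_prime_thirteen hpprime
      (aux_list_thirteen p (Finset.mem_range.mpr (by omega)) _ (Finset.mem_range.mpr hlt)
        hpos hle hone))

end thirteen

end Fermat.Agent.Lib.CycloPID13
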