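import Mathlib

/-!
# Generic steps for proving that `ℤ[ζ_p]` is a principal ideal domain

Helper for the direct `FLT_p` route (Kummer) to S10/S11.
Used by `CyclotomicPIDSeven`, `CyclotomicPIDEleven`, ...
-/

open NumberField Polynomial InfinitePlace Nat Real cyclotomic Ideal Module

namespace Fermat.Agent.Lib.CyclotomicPID

universe u

variable (K : Type u) [Field K] [NumberField K]

/-- A lower bound for `orderOf` from finitely many checks. -/
theorem le_orderOf_of_forall_lt {M : Type*} [Monoid M] (x : M) (f n : ℕ) (hn : 0 < n)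
    (hxn : x ^ n = 1) (h : ∀ k < f, 0 < k → x ^ k ≠ 1) : f ≤ orderOf x := by
  by_contra hlt
  have hpos : 0 < orderOf x := orderOf_pos_iff.mpr (isOfFinOrder_iff_pow_eq_one.mpr ⟨n, hn, hxn⟩)
  exact h (orderOf x) (by omega) hpos (pow_orderOf_eq_one x)

/-- Generic step: a prime `q` not dividing `m` with `B < q ^ orderOf (q : ZMod m)` satisfies the
left disjunct in the Minkowski-bound criterion for the `m`-th cyclotomic field. -/
theorem exists_primesOver_lt_pow {m : ℕ} [NeZero m] [IsCyclotomicExtension {m} ℚ K]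
    (q : ℕ) (hq : q.Prime) (hqm : ¬ q ∣ m) (B : ℕ) (hB : B < q ^ orderOf (q : ZMod m)) :
    ∃ P ∈ (span {(q : ℤ)}).primesOver (𝓞 K), B < q ^ P.inertiaDeg ℤ ∨ Submodule.IsPrincipal P := by
  have : Fact q.Prime := ⟨hq⟩
  have : (span {(q : ℤ)}).IsPrime :=
    (Ideal.span_singleton_prime (by exact_mod_cast hq.ne_zero)).mpr (Nat.prime_iff_prime_int.mp hq)
  obtain ⟨⟨P, hP1, hP2⟩⟩ := Ideal.nonempty_primesOver (S := 𝓞 K) (span {(q : ℤ)})
  refine ⟨P, ⟨hP1, hP2⟩, Or.inl ?_⟩
  rw [IsCyclotomicExtension.Rat.inertiaDeg_eq_of_not_dvd q K P hqm]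
  exact hB

/-- Variant of `exists_primesOver_lt_pow` with finitely many checks instead of `orderOf`. -/
theorem exists_primesOver_lt_pow' {m : ℕ} [NeZero m] [IsCyclotomicExtension {m} ℚ K]
    (q : ℕ) (hq : q.Prime) (hqm : ¬ q ∣ m) (B f n : ℕ) (hB : B < q ^ f) (hn : 0 < n)
    (hxn : (q : ZMod m) ^ n = 1) (h : ∀ k < f, 0 < k → (q : ZMod m) ^ k ≠ 1) :
    ∃ P ∈ (span {(q : ℤ)}).primesOver (𝓞 K), B < q ^ P.inertiaDeg ℤ ∨ Submodule.IsPrincipal P :=
  exists_primesOver_lt_pow K q hq hqm B <| hB.trans_le <|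
    Nat.pow_le_pow_right hq.pos (le_orderOf_of_forall_lt _ f n hn hxn h)

/-- Generic step: the prime `p` itself is principal in the `p`-th cyclotomic field. -/
theorem exists_primesOver_self_isPrincipal {p : ℕ} [hp : Fact p.Prime]
    [IsCyclotomicExtension {p} ℚ K] (B : ℕ) :
    ∃ P ∈ (span {(p : ℤ)}).primesOver (𝓞 K), B < p ^ P.inertiaDeg ℤ ∨ Submodule.IsPrincipal P := by
  have : (span {(p : ℤ)}).IsPrime :=
    (Ideal.span_singleton_prime (by exact_mod_cast hp.out.ne_zero)).mpr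
      (Nat.prime_iff_prime_int.mp hp.out)
  obtain ⟨⟨P, hP1, hP2⟩⟩ := Ideal.nonempty_primesOver (S := 𝓞 K) (span {(p : ℤ)})
  refine ⟨P, ⟨hP1, hP2⟩, Or.inr ?_⟩
  have hζ := IsCyclotomicExtension.zeta_spec p ℚ K
  rw [IsCyclotomicExtension.Rat.eq_span_zeta_sub_one_of_liesOver' p K hζ P]
  exact ⟨⟨_, rfl⟩⟩

open RingOfIntegers NumberField.Ideal IsCyclotomicExtension IsCyclotomicExtension.Rat in
/-- Generic step: an explicit principal prime above `q` in the `p`-th cyclotomic field, from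
explicit cofactor data. Here `ζ` is the chosen primitive root, `r` is an integer which is a root of
the `p`-th cyclotomic polynomial modulo `q`, and `α` generates the prime `(q, ζ - r)`. -/
theorem exists_primesOver_isPrincipal_of_data {p : ℕ} [hp : Fact p.Prime]
    [IsCyclotomicExtension {p} ℚ K] (q : ℕ) [hq : Fact q.Prime] (r : ℤ)
    (hr : ∑ i ∈ Finset.range p, (r : ZMod q) ^ i = 0)
    (ζ : 𝓞 K) (hζ : ζ = (zeta_spec p ℚ K).toInteger)
    (α β γ u v : 𝓞 K)
    (h1 : α * β = (q : 𝓞 K))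
    (h2 : α * γ = ζ - (r : 𝓞 K))
    (h3 : α = (q : 𝓞 K) * u + (ζ - (r : 𝓞 K)) * v)
    (B : ℕ) :
    ∃ P ∈ (span {(q : ℤ)}).primesOver (𝓞 K), B < q ^ P.inertiaDeg ℤ ∨ Submodule.IsPrincipal P := by
  subst hζ
  have h₁ : ¬ q ∣ exponent (zeta_spec p ℚ K).toInteger := by
    rw [exponent_eq_one_iff.mpr <| adjoin_singleton_eq_top (zeta_spec p ℚ K)]
    exact hq.out.not_dvd_one
  have hmin : minpoly ℤ (zeta_spec p ℚ K).toInteger = cyclotomic p ℤ := by
    rw [cyclotomic_eq_minpoly (zeta_spec p ℚ K) hp.out.pos]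
    exact (RingOfIntegers.minpoly_coe (zeta_spec p ℚ K).toInteger).symm
  have hQ : (X - C r : ℤ[X]).map (Int.castRingHom (ZMod q)) ∈
      monicFactorsMod (zeta_spec p ℚ K).toInteger q := by
    rw [monicFactorsMod, Multiset.mem_toFinset, Polynomial.mem_normalizedFactors_iff
      (map_monic_ne_zero (minpoly.monic (zeta_spec p ℚ K).toInteger.isIntegral))]
    have hmap : (X - C r : ℤ[X]).map (Int.castRingHom (ZMod q)) = X - C (r : ZMod q) := by
      simp
    rw [hmap]
    refine ⟨irreducible_X_sub_C _, monic_X_sub_C _, ?_⟩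
    rw [dvd_iff_isRoot, hmin, map_cyclotomic_int, IsRoot.def, cyclotomic_prime, eval_finsetSum]
    simpa using hr
  have hspan := primesOverSpanEquivMonicFactorsMod_symm_apply_eq_span h₁ hQ
  refine ⟨_, ((primesOverSpanEquivMonicFactorsMod h₁).symm ⟨_, hQ⟩).prop,
    Or.inr ?_⟩
  rw [hspan]
  refine ⟨⟨α, ?_⟩⟩
  have haeval : (aeval (zeta_spec p ℚ K).toInteger) (X - C r : ℤ[X]) =
      (zeta_spec p ℚ K).toInteger - (r : 𝓞 K) := by simp
  rw [haeval]
  apply le_antisymm
  · rw [Ideal.span_le]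
    rintro x (rfl | rfl)
    · exact Ideal.mem_span_singleton'.mpr ⟨β, by rw [mul_comm]; exact h1⟩
    · exact Ideal.mem_span_singleton'.mpr ⟨γ, by rw [mul_comm]; exact h2⟩
  · show Ideal.span {α} ≤ _
    rw [Ideal.span_le, Set.singleton_subset_iff, h3]
    refine Ideal.add_mem _ (Ideal.mul_mem_right _ _ (Ideal.subset_span (by simp)))
      (Ideal.mul_mem_right _ _ (Ideal.subset_span (by simp)))

end Fermat.Agent.Lib.CyclotomicPID
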