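import Fermat.Agent.Lib.CyclotomicPIDBasic

/-!
# `ℤ[ζ_11]` is a principal ideal domain (p = 11)

Helper for the direct `FLT_p` route (Kummer) to S10/S11.
Main result: `Fermat.Agent.Lib.CyclotomicPID.eleven_pid`.
-/

open NumberField Polynomial InfinitePlace Nat Real cyclotomic Ideal Module

namespace Fermat.Agent.Lib.CyclotomicPID

universe u

variable (K : Type u) [Field K] [NumberField K]

theorem eleven_minkowski_lt [IsCyclotomicExtension {11} ℚ K] :
    (4 / π) ^ nrComplexPlaces K *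
      (((finrank ℚ K)! : ℝ) / (finrank ℚ K : ℝ) ^ finrank ℚ K * √|(NumberField.discr K : ℝ)|)
        < 59 := by
  have : Fact (Nat.Prime 11) := ⟨by norm_num⟩
  rw [IsCyclotomicExtension.Rat.discr_prime 11 K, IsCyclotomicExtension.finrank (n := 11) K
    (irreducible_rat (by simp)), IsCyclotomicExtension.Rat.nrComplexPlaces_eq_totient_div_two 11,
    totient_prime (by norm_num : Nat.Prime 11)]
  have hfact : (10 : ℕ)! = 3628800 := by decide
  have hpi : (4 / π) < 1.27325 := by
    rw [div_lt_iff₀ Real.pi_pos]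
    have := Real.pi_gt_d6
    linarith
  have hpi0 : (0:ℝ) < 4 / π := by positivity
  have hsq : √|(((-1 : ℤ) ^ ((11 - 1) / 2) * (11 : ℤ) ^ (11 - 2) : ℤ) : ℝ)| < 48558.71 := by
    rw [show |(((-1 : ℤ) ^ ((11 - 1) / 2) * (11 : ℤ) ^ (11 - 2) : ℤ) : ℝ)| = 2357947691 by
      norm_num [abs_of_pos]]
    rw [Real.sqrt_lt' (by norm_num)]
    norm_num
  have hpow : (4 / π) ^ ((11 - 1) / 2) < 1.27325 ^ 5 := by
    show (4 / π) ^ 5 < 1.27325 ^ 5
    gcongr
  simp only [show (11 - 1 : ℕ) = 10 by norm_num, hfact]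
  calc (4 / π) ^ (10 / 2) * (((3628800 : ℕ) : ℝ) / ((10 : ℕ) : ℝ) ^ 10 *
        √|(((-1 : ℤ) ^ (10 / 2) * (11 : ℤ) ^ (11 - 2) : ℤ) : ℝ)|)
      ≤ 1.27325 ^ 5 * (((3628800 : ℕ) : ℝ) / ((10 : ℕ) : ℝ) ^ 10 * 48558.71) := by
        gcongr
    _ < 59 := by norm_num

theorem eleven_zeta_relation [IsCyclotomicExtension {11} ℚ K] :
    ∀ ζ : 𝓞 K, ζ = (IsCyclotomicExtension.zeta_spec 11 ℚ K).toInteger →
      1 + ζ + ζ ^ 2 + ζ ^ 3 + ζ ^ 4 + ζ ^ 5 + ζ ^ 6 + ζ ^ 7 + ζ ^ 8 + ζ ^ 9 + ζ ^ 10 = 0 := by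
  intro ζ hζ
  have h := (IsCyclotomicExtension.zeta_spec 11 ℚ K).toInteger_isPrimitiveRoot.geom_sum_eq_zero
    (by norm_num)
  rw [← hζ] at h
  simpa [Finset.sum_range_succ] using h

theorem eleven_exists_isPrincipal_23 [IsCyclotomicExtension {11} ℚ K] (B : ℕ) :
    ∃ P ∈ (span {((23 : ℕ) : ℤ)}).primesOver (𝓞 K),
      B < 23 ^ P.inertiaDeg ℤ ∨ Submodule.IsPrincipal P := by
  have hr : ∑ i ∈ Finset.range 11, (((4 : ℤ)) : ZMod 23) ^ i = 0 := by decide
  have : Fact (Nat.Prime 11) := ⟨by norm_num⟩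
  have : Fact (Nat.Prime 23) := ⟨by norm_num⟩
  obtain ⟨ζ, hζ⟩ : ∃ ζ : 𝓞 K, ζ = (IsCyclotomicExtension.zeta_spec 11 ℚ K).toInteger := ⟨_, rfl⟩
  have hΦ := eleven_zeta_relation K ζ hζ
  refine exists_primesOver_isPrincipal_of_data K (p := 11) 23 4 hr ζ hζ
    (1 + ζ + ζ ^ 3)
    (-2 - 14 * ζ - 17 * ζ ^ 2 - 12 * ζ ^ 3 - 5 * ζ ^ 4 - 9 * ζ ^ 5 - 10 * ζ ^ 6 - 16 * ζ ^ 7 - 6 * ζ ^ 8 - 15 * ζ ^ 9)
    (1 + 3 * ζ + 3 * ζ ^ 2 + 2 * ζ ^ 3 + ζ ^ 4 + 2 * ζ ^ 5 + 2 * ζ ^ 6 + 3 * ζ ^ 7 + ζ ^ 8 + 3 * ζ ^ 9)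
    (3)
    (17 + 4 * ζ + ζ ^ 2) ?_ ?_ ?_ B
  · push_cast
    linear_combination (-25 + 9 * ζ - 15 * ζ ^ 2) * hΦ
  · push_cast
    linear_combination (5 - 2 * ζ + 3 * ζ ^ 2) * hΦ
  · push_cast
    ring

/-- If `IsCyclotomicExtension {11} ℚ K` then `𝓞 K` is a principal ideal domain. -/
theorem eleven_pid [IsCyclotomicExtension {11} ℚ K] : IsPrincipalIdealRing (𝓞 K) := by
  have : Fact (Nat.Prime 11) := ⟨by norm_num⟩
  have : IsGalois ℚ K := IsCyclotomicExtension.isGalois {11} ℚ K
  have hM := eleven_minkowski_lt K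
  have hfloor : ⌊(4 / π) ^ nrComplexPlaces K *
      (((finrank ℚ K)! : ℝ) / (finrank ℚ K : ℝ) ^ finrank ℚ K * √|(NumberField.discr K : ℝ)|)⌋₊
        ≤ 58 := by
    rw [← Nat.lt_succ_iff]
    exact (Nat.floor_lt (by positivity)).mpr (by exact_mod_cast hM)
  apply RingOfIntegers.isPrincipalIdealRing_of_isPrincipal_of_lt_or_isPrincipal_of_mem_primesOver_of_mem_Icc
  intro q hq hqp
  rw [Finset.mem_Icc] at hq
  have hqB : q ≤ 58 := hq.2.trans hfloor
  have hq2 := hqp.two_le
  have hfl : ∀ n : ℕ, 58 < n → ⌊(4 / π) ^ nrComplexPlaces K *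
      (((finrank ℚ K)! : ℝ) / (finrank ℚ K : ℝ) ^ finrank ℚ K * √|(NumberField.discr K : ℝ)|)⌋₊
        < n := fun n hn => hfloor.trans_lt hn
  clear hq
  interval_cases q
  · exact exists_primesOver_lt_pow' (m := 11) K 2 hqp (by norm_num) _ 6 10
      (hfl _ (by norm_num)) (by norm_num) (by decide) (by decide)
  · exact exists_primesOver_lt_pow' (m := 11) K 3 hqp (by norm_num) _ 4 10
      (hfl _ (by norm_num)) (by norm_num) (by decide) (by decide)
  · exact absurd hqp (by norm_num)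
  · exact exists_primesOver_lt_pow' (m := 11) K 5 hqp (by norm_num) _ 3 10
      (hfl _ (by norm_num)) (by norm_num) (by decide) (by decide)
  · exact absurd hqp (by norm_num)
  · exact exists_primesOver_lt_pow' (m := 11) K 7 hqp (by norm_num) _ 3 10
      (hfl _ (by norm_num)) (by norm_num) (by decide) (by decide)
  · exact absurd hqp (by norm_num)
  · exact absurd hqp (by norm_num)
  · exact absurd hqp (by norm_num)
  · exact exists_primesOver_self_isPrincipal K (p := 11) _
  · exact absurd hqp (by norm_num)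
  · exact exists_primesOver_lt_pow' (m := 11) K 13 hqp (by norm_num) _ 2 10
      (hfl _ (by norm_num)) (by norm_num) (by decide) (by decide)
  · exact absurd hqp (by norm_num)
  · exact absurd hqp (by norm_num)
  · exact absurd hqp (by norm_num)
  · exact exists_primesOver_lt_pow' (m := 11) K 17 hqp (by norm_num) _ 2 10
      (hfl _ (by norm_num)) (by norm_num) (by decide) (by decide)
  · exact absurd hqp (by norm_num)
  · exact exists_primesOver_lt_pow' (m := 11) K 19 hqp (by norm_num) _ 2 10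
      (hfl _ (by norm_num)) (by norm_num) (by decide) (by decide)
  · exact absurd hqp (by norm_num)
  · exact absurd hqp (by norm_num)
  · exact absurd hqp (by norm_num)
  · exact eleven_exists_isPrincipal_23 K _
  · exact absurd hqp (by norm_num)
  · exact absurd hqp (by norm_num)
  · exact absurd hqp (by norm_num)
  · exact absurd hqp (by norm_num)
  · exact absurd hqp (by norm_num)
  · exact exists_primesOver_lt_pow' (m := 11) K 29 hqp (by norm_num) _ 2 10
      (hfl _ (by norm_num)) (by norm_num) (by decide) (by decide)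
  · exact absurd hqp (by norm_num)
  · exact exists_primesOver_lt_pow' (m := 11) K 31 hqp (by norm_num) _ 2 10
      (hfl _ (by norm_num)) (by norm_num) (by decide) (by decide)
  · exact absurd hqp (by norm_num)
  · exact absurd hqp (by norm_num)
  · exact absurd hqp (by norm_num)
  · exact absurd hqp (by norm_num)
  · exact absurd hqp (by norm_num)
  · exact exists_primesOver_lt_pow' (m := 11) K 37 hqp (by norm_num) _ 2 10
      (hfl _ (by norm_num)) (by norm_num) (by decide) (by decide)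
  · exact absurd hqp (by norm_num)
  · exact absurd hqp (by norm_num)
  · exact absurd hqp (by norm_num)
  · exact exists_primesOver_lt_pow' (m := 11) K 41 hqp (by norm_num) _ 2 10
      (hfl _ (by norm_num)) (by norm_num) (by decide) (by decide)
  · exact absurd hqp (by norm_num)
  · exact exists_primesOver_lt_pow' (m := 11) K 43 hqp (by norm_num) _ 2 10
      (hfl _ (by norm_num)) (by norm_num) (by decide) (by decide)
  · exact absurd hqp (by norm_num)
  · exact absurd hqp (by norm_num)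
  · exact absurd hqp (by norm_num)
  · exact exists_primesOver_lt_pow' (m := 11) K 47 hqp (by norm_num) _ 2 10
      (hfl _ (by norm_num)) (by norm_num) (by decide) (by decide)
  · exact absurd hqp (by norm_num)
  · exact absurd hqp (by norm_num)
  · exact absurd hqp (by norm_num)
  · exact absurd hqp (by norm_num)
  · exact absurd hqp (by norm_num)
  · exact exists_primesOver_lt_pow' (m := 11) K 53 hqp (by norm_num) _ 2 10
      (hfl _ (by norm_num)) (by norm_num) (by decide) (by decide)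
  · exact absurd hqp (by norm_num)
  · exact absurd hqp (by norm_num)
  · exact absurd hqp (by norm_num)
  · exact absurd hqp (by norm_num)
  · exact absurd hqp (by norm_num)

end Fermat.Agent.Lib.CyclotomicPID

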