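import Fermat.Agent.Lib.CyclotomicPIDBasic

/-!
# `ℤ[ζ₇]` is a principal ideal domain

Helper for the direct `FLT_p` route (Kummer) to S10/S11.
Main result: `Fermat.Agent.Lib.CyclotomicPID.seven_pid`.
-/

open NumberField Polynomial InfinitePlace Nat Real cyclotomic Ideal Module

namespace Fermat.Agent.Lib.CyclotomicPID

universe u

variable (K : Type u) [Field K] [NumberField K]

theorem seven_minkowski_lt [IsCyclotomicExtension {7} ℚ K] :
    (4 / π) ^ nrComplexPlaces K *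
      (((finrank ℚ K)! : ℝ) / (finrank ℚ K : ℝ) ^ finrank ℚ K * √|(NumberField.discr K : ℝ)|)
        < 5 := by
  have : Fact (Nat.Prime 7) := ⟨by norm_num⟩
  rw [IsCyclotomicExtension.Rat.discr_prime 7 K, IsCyclotomicExtension.finrank (n := 7) K
    (irreducible_rat (by simp)), IsCyclotomicExtension.Rat.nrComplexPlaces_eq_totient_div_two 7,
    totient_prime (by norm_num : Nat.Prime 7)]
  have h6 : (6 : ℕ)! = 720 := by decide
  have hpi : (4 / π) < 1.2733 := by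
    rw [div_lt_iff₀ Real.pi_pos]
    have := Real.pi_gt_d4
    linarith
  have hpi0 : (0:ℝ) < 4 / π := by positivity
  have hsq : √|(((-1 : ℤ) ^ ((7 - 1) / 2) * (7 : ℤ) ^ (7 - 2) : ℤ) : ℝ)| < 129.65 := by
    rw [show (((-1 : ℤ) ^ ((7 - 1) / 2) * (7 : ℤ) ^ (7 - 2) : ℤ) : ℝ) = -16807 by norm_num]
    rw [abs_neg, abs_of_pos (by norm_num)]
    rw [Real.sqrt_lt' (by norm_num)]
    norm_num
  have hpow : (4 / π) ^ ((7 - 1) / 2) < 1.2733 ^ 3 := by
    show (4 / π) ^ 3 < 1.2733 ^ 3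
    gcongr
  simp only [show (7 - 1 : ℕ) = 6 by norm_num, h6]
  calc (4 / π) ^ (6 / 2) * (((720 : ℕ) : ℝ) / ((6 : ℕ) : ℝ) ^ 6 *
        √|(((-1 : ℤ) ^ (6 / 2) * (7 : ℤ) ^ (7 - 2) : ℤ) : ℝ)|)
      ≤ 1.2733 ^ 3 * (((720 : ℕ) : ℝ) / ((6 : ℕ) : ℝ) ^ 6 * 129.65) := by
        gcongr
    _ < 5 := by norm_num

/-- If `IsCyclotomicExtension {7} ℚ K` then `𝓞 K` is a principal ideal domain. -/
theorem seven_pid [IsCyclotomicExtension {7} ℚ K] : IsPrincipalIdealRing (𝓞 K) := by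
  have : IsGalois ℚ K := IsCyclotomicExtension.isGalois {7} ℚ K
  have hM := seven_minkowski_lt K
  have hfloor : ⌊(4 / π) ^ nrComplexPlaces K *
      (((finrank ℚ K)! : ℝ) / (finrank ℚ K : ℝ) ^ finrank ℚ K * √|(NumberField.discr K : ℝ)|)⌋₊
        ≤ 4 := by
    rw [← Nat.lt_succ_iff]
    exact (Nat.floor_lt (by positivity)).mpr (by exact_mod_cast hM)
  apply RingOfIntegers.isPrincipalIdealRing_of_isPrincipal_of_lt_or_isPrincipal_of_mem_primesOver_of_mem_Icc
  intro q hq hqp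
  rw [Finset.mem_Icc] at hq
  have hq4 : q ≤ 4 := hq.2.trans hfloor
  have hq2 := hqp.two_le
  have hfl : ∀ n : ℕ, 4 < n → ⌊(4 / π) ^ nrComplexPlaces K *
      (((finrank ℚ K)! : ℝ) / (finrank ℚ K : ℝ) ^ finrank ℚ K * √|(NumberField.discr K : ℝ)|)⌋₊
        < n := fun n hn => hfloor.trans_lt hn
  clear hq
  interval_cases q
  · exact exists_primesOver_lt_pow' (m := 7) K 2 hqp (by norm_num) _ 3 6 (hfl _ (by norm_num))
      (by norm_num) (by decide) (by decide)
  · exact exists_primesOver_lt_pow' (m := 7) K 3 hqp (by norm_num) _ 2 6 (hfl _ (by norm_num))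
      (by norm_num) (by decide) (by decide)
  · exact absurd hqp (by norm_num)

end Fermat.Agent.Lib.CyclotomicPID
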