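import Mathlib.Analysis.SpecialFunctions.Log.Basic
import Mathlib.Analysis.SpecialFunctions.Pow.Real
import Mathlib.GroupTheory.SpecificGroups.Cyclic
import Mathlib.Topology.Algebra.InfiniteSum.Real
import Mathlib.Algebra.BigOperators.Field
import Mathlib.Algebra.Group.Subgroup.Finite

/-!
# The counting core of the Frobenius density theorem

Abstract form.  Let `P` be a type of "primes" with nonnegative weights `W s p` (think
`N(p)^{-s}`), summable for `s > 1` and bounded by `1`.  Let `frob : P → C` be a map to a finite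
group such that for every subgroup `H` of `C`
`∑_{frob p ∈ H} W s p = (|H| / |C|) log (1/(s-1)) + O(1)` as `s → 1⁺`.
Then for every `g : C` there are infinitely many `p` with `⟨frob p⟩ = ⟨g⟩`.
-/

namespace Fermat.Agent.Lib.FrobDensityCount

open Filter Topology

variable {P : Type*} {C : Type*} [Group C] [Finite C]

/-- The set of `p` whose `frob` generates the subgroup `H`. -/
def genSet (frob : P → C) (H : Subgroup C) : Set P :=
  {p | Subgroup.zpowers (frob p) = H}

/-- The number of generators of `H`. -/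
noncomputable def gens (H : Subgroup C) : ℕ :=
  Nat.card {x : C // Subgroup.zpowers x = H}

/-- The sum of the weights over a set. -/
noncomputable def wsum (W : ℝ → P → ℝ) (X : Set P) (s : ℝ) : ℝ :=
  ∑' p, X.indicator (W s) p

lemma wsum_eq_tsum_subtype (W : ℝ → P → ℝ) (X : Set P) (s : ℝ) :
    wsum W X s = ∑' p : X, W s p :=
  (tsum_subtype X (W s)).symm

omit [Finite C] in
/-- Additivity of `wsum` over the partition of `frob ⁻¹' H` by generated subgroups. -/
lemma wsum_preimage (W : ℝ → P → ℝ) (frob : P → C) {s : ℝ} (hs : Summable (W s))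
    (H : Subgroup C) [Fintype (Subgroup C)] [DecidableRel (· ≤ · : Subgroup C → Subgroup C → Prop)] :
    wsum W {p | frob p ∈ H} s =
      ∑ H' ∈ (Finset.univ : Finset (Subgroup C)).filter (· ≤ H), wsum W (genSet frob H') s := by
  classical
  unfold wsum
  rw [← Summable.tsum_finsetSum (fun H' _ ↦ hs.indicator _)]
  refine tsum_congr (fun p ↦ ?_)
  by_cases hp : frob p ∈ H
  · have hle : Subgroup.zpowers (frob p) ≤ H := (Subgroup.zpowers_le).mpr hp
    rw [Finset.sum_eq_single (Subgroup.zpowers (frob p))]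
    · rw [Set.indicator_of_mem (by exact hp), Set.indicator_of_mem (by rfl)]
    · intro H' _ hne
      rw [Set.indicator_of_notMem]
      exact fun h ↦ hne h.symm
    · intro h
      exact (h (Finset.mem_filter.mpr ⟨Finset.mem_univ _, hle⟩)).elim
  · rw [Set.indicator_of_notMem (by exact hp)]
    symm
    refine Finset.sum_eq_zero (fun H' hH' ↦ ?_)
    rw [Set.indicator_of_notMem]
    intro h
    apply hp
    have h1 : Subgroup.zpowers (frob p) = H' := h
    have h2 : H' ≤ H := (Finset.mem_filter.mp hH').2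
    exact h2 (h1 ▸ Subgroup.mem_zpowers (frob p))

/-- `|H| = ∑_{H' ≤ H} gens H'`. -/
lemma card_eq_sum_gens (H : Subgroup C) [Fintype (Subgroup C)]
    [DecidableRel (· ≤ · : Subgroup C → Subgroup C → Prop)] :
    Nat.card H = ∑ H' ∈ (Finset.univ : Finset (Subgroup C)).filter (· ≤ H), gens H' := by
  classical
  have := Fintype.ofFinite C
  have key : ∀ H' : Subgroup C, gens H' =
      ((Finset.univ : Finset C).filter (fun x ↦ Subgroup.zpowers x = H')).card := by
    intro H'
    rw [gens, Nat.card_eq_fintype_card, Fintype.card_subtype]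
  have hH : Nat.card H = ((Finset.univ : Finset C).filter (fun x ↦ x ∈ H)).card := by
    rw [Nat.card_eq_fintype_card, Fintype.card_subtype]
  rw [hH, Finset.card_eq_sum_card_fiberwise (f := fun x : C ↦ Subgroup.zpowers x)
    (t := (Finset.univ : Finset (Subgroup C)).filter (· ≤ H))]
  · refine Finset.sum_congr rfl (fun H' hH' ↦ ?_)
    rw [key]
    congr 1
    ext x
    simp only [Finset.mem_filter, Finset.mem_univ, true_and]
    constructor
    · exact fun h ↦ h.2
    · intro h
      refine ⟨?_, h⟩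
      have h2 : H' ≤ H := (Finset.mem_filter.mp hH').2
      exact h2 (h ▸ Subgroup.mem_zpowers x)
  · intro x hx
    have hx' : x ∈ H := (Finset.mem_filter.mp hx).2
    exact Finset.mem_filter.mpr ⟨Finset.mem_univ _, (Subgroup.zpowers_le).mpr hx'⟩

lemma gens_zpowers_pos (g : C) : 0 < gens (Subgroup.zpowers g) := by
  have : Nonempty {x : C // Subgroup.zpowers x = Subgroup.zpowers g} := ⟨⟨g, rfl⟩⟩
  exact Nat.card_pos

/-- The sets `genSet frob H` carry the density `gens H / |C|`. -/
theorem exists_bound_genSet (W : ℝ → P → ℝ) (hWs : ∀ s, 1 < s → Summable (W s))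
    (frob : P → C)
    (hyp : ∀ H : Subgroup C, ∃ B : ℝ, ∀ᶠ s in 𝓝[>] (1 : ℝ),
      |wsum W {p | frob p ∈ H} s - (Nat.card H : ℝ) / Nat.card C * Real.log (1 / (s - 1))| ≤ B)
    (H : Subgroup C) :
    ∃ B : ℝ, ∀ᶠ s in 𝓝[>] (1 : ℝ),
      |wsum W (genSet frob H) s - (gens H : ℝ) / Nat.card C * Real.log (1 / (s - 1))| ≤ B := by
  classical
  have hfinS : Finite (Subgroup C) := by
    have := Fintype.ofFinite C
    exact Finite.of_injective (fun H : Subgroup C ↦ (H : Set C)) SetLike.coe_injective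
  have := Fintype.ofFinite (Subgroup C)
  induction H using WellFoundedLT.induction with
  | ind H ih =>
    have hex : ∀ H' : Subgroup C, ∃ B : ℝ, H' < H → ∀ᶠ s in 𝓝[>] (1 : ℝ),
        |wsum W (genSet frob H') s - (gens H' : ℝ) / Nat.card C * Real.log (1 / (s - 1))| ≤ B := by
      intro H'
      by_cases h : H' < H
      · obtain ⟨B, hB⟩ := ih H' h
        exact ⟨B, fun _ ↦ hB⟩
      · exact ⟨0, fun h' ↦ absurd h' h⟩
    choose Bf hBf using hex
    obtain ⟨B₀, hB₀⟩ := hyp H
    set F : Finset (Subgroup C) := (Finset.univ : Finset (Subgroup C)).filter (· < H) with hF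
    have hsplit : (Finset.univ : Finset (Subgroup C)).filter (· ≤ H) = insert H F := by
      ext H'
      simp only [hF, Finset.mem_filter, Finset.mem_univ, true_and, Finset.mem_insert]
      exact le_iff_eq_or_lt
    have hHF : H ∉ F := by
      simp [hF]
    refine ⟨B₀ + ∑ H' ∈ F, Bf H', ?_⟩
    have hall : ∀ᶠ s in 𝓝[>] (1 : ℝ), ∀ H' ∈ F,
        |wsum W (genSet frob H') s - (gens H' : ℝ) / Nat.card C * Real.log (1 / (s - 1))|
          ≤ Bf H' := by
      rw [Filter.eventually_all_finset]
      intro H' hH'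
      exact hBf H' (Finset.mem_filter.mp hH').2
    filter_upwards [hB₀, hall, self_mem_nhdsWithin] with s hs0 hsall hs1
    have hs1' : (1 : ℝ) < s := hs1
    have h1 := wsum_preimage W frob (hWs s hs1') H
    rw [hsplit, Finset.sum_insert hHF] at h1
    have h2 := card_eq_sum_gens H
    rw [hsplit, Finset.sum_insert hHF] at h2
    have h2' : (Nat.card H : ℝ) = (gens H : ℝ) + ∑ H' ∈ F, (gens H' : ℝ) := by
      rw [h2]
      push_cast
      rfl
    have key : wsum W (genSet frob H) s - (gens H : ℝ) / Nat.card C * Real.log (1 / (s - 1)) =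
        (wsum W {p | frob p ∈ H} s - (Nat.card H : ℝ) / Nat.card C * Real.log (1 / (s - 1))) -
        ∑ H' ∈ F, (wsum W (genSet frob H') s -
          (gens H' : ℝ) / Nat.card C * Real.log (1 / (s - 1))) := by
      rw [h1, h2', Finset.sum_sub_distrib, ← Finset.sum_mul, ← Finset.sum_div]
      ring
    rw [key]
    calc |(wsum W {p | frob p ∈ H} s - (Nat.card H : ℝ) / Nat.card C * Real.log (1 / (s - 1))) -
          ∑ H' ∈ F, (wsum W (genSet frob H') s -
            (gens H' : ℝ) / Nat.card C * Real.log (1 / (s - 1)))|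
        ≤ |wsum W {p | frob p ∈ H} s - (Nat.card H : ℝ) / Nat.card C * Real.log (1 / (s - 1))| +
          |∑ H' ∈ F, (wsum W (genSet frob H') s -
            (gens H' : ℝ) / Nat.card C * Real.log (1 / (s - 1)))| := abs_sub _ _
      _ ≤ B₀ + ∑ H' ∈ F, Bf H' := by
          refine add_le_add hs0 ((Finset.abs_sum_le_sum_abs _ _).trans ?_)
          exact Finset.sum_le_sum hsall

/-- `log (1/(s-1)) → ∞` as `s → 1⁺`. -/
lemma tendsto_log_one_div_sub :
    Tendsto (fun s : ℝ ↦ Real.log (1 / (s - 1))) (𝓝[>] (1 : ℝ)) atTop := by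
  have h1 : Tendsto (fun s : ℝ ↦ s - 1) (𝓝[>] (1 : ℝ)) (𝓝[>] (0 : ℝ)) := by
    refine tendsto_nhdsWithin_of_tendsto_nhds_of_eventually_within _ ?_ ?_
    · have : Tendsto (fun s : ℝ ↦ s - 1) (𝓝 (1 : ℝ)) (𝓝 (1 - 1)) :=
        (continuous_id.sub continuous_const).tendsto 1
      rw [sub_self] at this
      exact this.mono_left nhdsWithin_le_nhds
    · filter_upwards [self_mem_nhdsWithin] with s hs
      have hs' : (1 : ℝ) < s := hs
      exact sub_pos.mpr hs'
  have h2 : Tendsto (fun x : ℝ ↦ 1 / x) (𝓝[>] (0 : ℝ)) atTop := by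
    simpa [one_div] using tendsto_inv_nhdsGT_zero (𝕜 := ℝ)
  exact Real.tendsto_log_atTop.comp (h2.comp h1)

/-- **Counting core of the Frobenius density theorem.** -/
theorem infinite_genSet (W : ℝ → P → ℝ)
    (hW1 : ∀ s p, 1 < s → W s p ≤ 1) (hWs : ∀ s, 1 < s → Summable (W s))
    (frob : P → C)
    (hyp : ∀ H : Subgroup C, ∃ B : ℝ, ∀ᶠ s in 𝓝[>] (1 : ℝ),
      |∑' p : {p : P // frob p ∈ H}, W s p -
        (Nat.card H : ℝ) / Nat.card C * Real.log (1 / (s - 1))| ≤ B)
    (g : C) : {p : P | Subgroup.zpowers (frob p) = Subgroup.zpowers g}.Infinite := by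
  classical
  have hyp' : ∀ H : Subgroup C, ∃ B : ℝ, ∀ᶠ s in 𝓝[>] (1 : ℝ),
      |wsum W {p | frob p ∈ H} s - (Nat.card H : ℝ) / Nat.card C * Real.log (1 / (s - 1))|
        ≤ B := by
    intro H
    obtain ⟨B, hB⟩ := hyp H
    refine ⟨B, hB.mono (fun s hs ↦ ?_)⟩
    rw [wsum_eq_tsum_subtype]
    exact hs
  obtain ⟨B, hB⟩ := exists_bound_genSet W hWs frob hyp' (Subgroup.zpowers g)
  intro hfin
  -- upper bound by the cardinality
  set A : Set P := genSet frob (Subgroup.zpowers g) with hA
  have hfinA : A.Finite := hfin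
  have hcpos : (0 : ℝ) < (gens (Subgroup.zpowers g) : ℝ) / Nat.card C := by
    have h1 : 0 < gens (Subgroup.zpowers g) := gens_zpowers_pos g
    have h2 : 0 < Nat.card C := Nat.card_pos
    positivity
  have hupper : ∀ s : ℝ, 1 < s → wsum W A s ≤ hfinA.toFinset.card := by
    intro s hs
    have h1 : wsum W A s = ∑ p ∈ hfinA.toFinset, W s p := by
      rw [wsum, tsum_eq_sum (s := hfinA.toFinset)]
      · refine Finset.sum_congr rfl (fun p hp ↦ ?_)
        rw [Set.indicator_of_mem ((Set.Finite.mem_toFinset hfinA).mp hp)]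
      · intro p hp
        rw [Set.indicator_of_notMem]
        exact fun h ↦ hp ((Set.Finite.mem_toFinset hfinA).mpr h)
    rw [h1]
    calc ∑ p ∈ hfinA.toFinset, W s p ≤ ∑ _p ∈ hfinA.toFinset, (1 : ℝ) :=
          Finset.sum_le_sum (fun p _ ↦ hW1 s p hs)
      _ = hfinA.toFinset.card := by simp
  have hlarge : ∀ᶠ s in 𝓝[>] (1 : ℝ),
      ((hfinA.toFinset.card : ℝ) + B) / ((gens (Subgroup.zpowers g) : ℝ) / Nat.card C) <
        Real.log (1 / (s - 1)) :=
    tendsto_log_one_div_sub.eventually_gt_atTop _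
  obtain ⟨s, hs1, hs2, hs3⟩ := (hB.and (hlarge.and self_mem_nhdsWithin)).exists
  have hs3' : (1 : ℝ) < s := hs3
  have h4 := hupper s hs3'
  have h5 := (abs_le.mp hs1).1
  rw [div_lt_iff₀ hcpos] at hs2
  linarith

end Fermat.Agent.Lib.FrobDensityCount
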