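import Mathlib.RepresentationTheory.Homological.GroupCohomology.LowDegree

/-!
# Elementary vanishing criteria for `H¹` of a group (helper1)

Cocycle-level statements for `A : Rep k G` (no finiteness of `A`, no topology):

* `mem_coboundaries₁_of_central`, `mem_coboundaries₁_of_commute` : a central element acting by
  a scalar `c` with `c - 1` a unit kills `H¹`.
* `exists_eq_on_of_cyclic` : cocycles on a subgroup which is cyclic modulo a trivially acting
  subgroup, when `ker (norm) ⊆ im (u - 1)`.
* `mem_coboundaries₁_of_restrict` : if a cocycle is a coboundary on a subgroup of finite index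
  which is invertible in `k`, it is a coboundary (injectivity of restriction to a Sylow subgroup).
* `H1_eq_zero_of_central`, `H1_eq_zero_of_restrict` : the same for classes.
-/

set_option autoImplicit false

universe u

namespace Fermat.Agent.Lib.H1Vanish

open groupCohomology

variable {k G : Type u} [CommRing k] [Group G] (A : Rep k G)

theorem mem_coboundaries₁_iff (f : G → A) :
    f ∈ coboundaries₁ A ↔ ∃ m : A, ∀ g : G, f g = A.ρ g m - m := by
  constructor
  · rintro ⟨m, rfl⟩
    exact ⟨m, fun g => rfl⟩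
  · rintro ⟨m, hm⟩
    exact ⟨m, funext fun g => (hm g).symm⟩

/-- **Central element trick**, general form. If `z` acts on `A` by a scalar `c` with `c - 1`
invertible and the cocycle `f` does not see the commutators with `z`
(`f (z * g) = f (g * z)`; e.g. `z` central, or central modulo a subgroup acting trivially on
which `f` vanishes), then `f` is a coboundary. -/
theorem mem_coboundaries₁_of_commute (z : G) (c : k)
    (hc : IsUnit (c - 1)) (hzc : ∀ a : A, A.ρ z a = c • a) (f : G → A) (hf : f ∈ cocycles₁ A)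
    (hz : ∀ g : G, f (z * g) = f (g * z)) :
    f ∈ coboundaries₁ A := by
  rw [mem_cocycles₁_iff] at hf
  obtain ⟨u, hu⟩ := hc
  rw [mem_coboundaries₁_iff]
  refine ⟨(↑u⁻¹ : k) • f z, fun g => ?_⟩
  have h1 := hf z g
  have h2 := hf g z
  rw [hz g, h2, hzc] at h1
  -- h1 : ρ g (f z) + f g = c • f g + f z
  have h3 : (c - 1) • f g = A.ρ g (f z) - f z := by
    rw [sub_smul, one_smul]
    have h4 : A.ρ g (f z) + f g - f z - f g = c • f g + f z - f z - f g := by rw [h1]
    have e1 : A.ρ g (f z) + f g - f z - f g = A.ρ g (f z) - f z := by abel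
    have e2 : c • f g + f z - f z - f g = c • f g - f g := by abel
    rw [e1, e2] at h4
    exact h4.symm
  rw [map_smul, ← smul_sub, ← h3, ← hu, smul_smul, Units.inv_mul, one_smul]

/-- **Central element trick.** If a central element `z` of `G` acts on `A` by a scalar `c` with
`c - 1` invertible, every 1-cocycle is a coboundary. -/
theorem mem_coboundaries₁_of_central (z : G) (hz : ∀ g : G, z * g = g * z) (c : k)
    (hc : IsUnit (c - 1)) (hzc : ∀ a : A, A.ρ z a = c • a) (f : G → A) (hf : f ∈ cocycles₁ A) :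
    f ∈ coboundaries₁ A :=
  mem_coboundaries₁_of_commute A z c hc hzc f hf (fun g => by rw [hz g])

/-- A cocycle vanishing on a subgroup `N` which acts trivially on `A` is constant on the cosets
`g N` and `N g`. -/
theorem cocycle_mul_right_of_mem (N : Subgroup G) (hN : ∀ n ∈ N, ∀ a : A, A.ρ n a = a)
    (f : G → A) (hf : f ∈ cocycles₁ A) (hfN : ∀ n ∈ N, f n = 0) (g n : G) (hn : n ∈ N) :
    f (g * n) = f g ∧ f (n * g) = f g := by
  rw [mem_cocycles₁_iff] at hf
  constructor
  · rw [hf, hfN n hn, map_zero, zero_add]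
  · rw [hf, hN n hn, hfN n hn, add_zero]

/-- The values of a cocycle on the powers of an element. -/
theorem cocycle_pow (f : G → A) (hf : f ∈ cocycles₁ A) (u : G) (n : ℕ) :
    f (u ^ n) = ∑ j ∈ Finset.range n, A.ρ (u ^ j) (f u) := by
  rw [mem_cocycles₁_iff] at hf
  induction n with
  | zero =>
    have h1 := hf 1 1
    rw [mul_one, map_one, Module.End.one_apply] at h1
    simpa using h1
  | succ n ih =>
    rw [pow_succ, hf, Finset.sum_range_succ, ih, add_comm]

/-- **Cyclic case.** Let `P` be generated by `u` modulo a subgroup `N` acting trivially on `A`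
(`u ^ n ∈ N`), and assume that the kernel of the norm `1 + u + ⋯ + u ^ (n - 1)` on `A` is
contained in the image of `u - 1`. Then a cocycle vanishing on `N` is a coboundary on `P`. -/
theorem exists_eq_on_of_cyclic (N P : Subgroup G) (hN : ∀ n ∈ N, ∀ a : A, A.ρ n a = a)
    (u : G) (n : ℕ) (hun : u ^ n ∈ N)
    (hP : ∀ h ∈ P, ∃ (j : ℕ) (x : G), x ∈ N ∧ h = u ^ j * x)
    (hker : ∀ a : A, (∑ j ∈ Finset.range n, A.ρ (u ^ j) a) = 0 → ∃ m : A, a = A.ρ u m - m)
    (f : G → A) (hf : f ∈ cocycles₁ A) (hfN : ∀ x ∈ N, f x = 0) :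
    ∃ m : A, ∀ h ∈ P, f h = A.ρ h m - m := by
  have h0 : (∑ j ∈ Finset.range n, A.ρ (u ^ j) (f u)) = 0 := by
    rw [← cocycle_pow A f hf u n]
    exact hfN _ hun
  obtain ⟨m, hm⟩ := hker (f u) h0
  -- telescoping sum
  have htel : ∀ j : ℕ, (∑ i ∈ Finset.range j, A.ρ (u ^ i) (A.ρ u m - m)) = A.ρ (u ^ j) m - m := by
    intro j
    induction j with
    | zero => simp
    | succ j ih =>
      rw [Finset.sum_range_succ, ih, pow_succ, map_mul, Module.End.mul_apply, map_sub]
      abel
  refine ⟨m, fun h hh => ?_⟩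
  obtain ⟨j, x, hx, rfl⟩ := hP h hh
  rw [(cocycle_mul_right_of_mem A N hN f hf hfN (u ^ j) x hx).1, map_mul, Module.End.mul_apply,
    hN x hx, cocycle_pow A f hf u j, hm, htel]

/-- **Restriction to a subgroup of invertible index is injective on `H¹`.** -/
theorem mem_coboundaries₁_of_restrict (P : Subgroup G) [P.FiniteIndex]
    (hidx : IsUnit ((P.index : ℕ) : k)) (f : G → A) (hf : f ∈ cocycles₁ A)
    (hP : ∃ m : A, ∀ h ∈ P, f h = A.ρ h m - m) : f ∈ coboundaries₁ A := by
  classical
  rw [mem_cocycles₁_iff] at hf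
  obtain ⟨m, hm⟩ := hP
  -- the modified cocycle
  set f' : G → A := fun g => f g - (A.ρ g m - m) with hf'
  have hf'c : ∀ g h : G, f' (g * h) = A.ρ g (f' h) + f' g := by
    intro g h
    simp only [hf', hf g h, map_mul, Module.End.mul_apply, map_sub]
    abel
  have hf'P : ∀ h ∈ P, f' h = 0 := fun h hh => by simp only [hf', hm h hh, sub_self]
  have hconst : ∀ (g : G) (h : G), h ∈ P → f' (g * h) = f' g := fun g h hh => by
    rw [hf'c, hf'P h hh, map_zero, zero_add]
  -- `f'` descends to `G ⧸ P`
  have hwd : ∀ a b : G, QuotientGroup.leftRel P a b → f' a = f' b := by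
    intro a b hab
    rw [QuotientGroup.leftRel_apply] at hab
    have := hconst a (a⁻¹ * b) hab
    rw [mul_inv_cancel_left] at this
    exact this.symm
  let F : G ⧸ P → A := Quotient.lift f' hwd
  have hF : ∀ g : G, F (g : G ⧸ P) = f' g := fun g => rfl
  haveI : Fintype (G ⧸ P) := Fintype.ofFinite _
  set s : A := ∑ q : G ⧸ P, F q with hs
  have hcard : (Fintype.card (G ⧸ P) : k) = ((P.index : ℕ) : k) := by
    rw [Subgroup.index, Nat.card_eq_fintype_card]
  have key : ∀ x : G, A.ρ x s = s - ((P.index : ℕ) : k) • f' x := by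
    intro x
    have h1 : ∀ q : G ⧸ P, A.ρ x (F q) = F (x • q) - f' x := by
      intro q
      induction q using QuotientGroup.induction_on with
      | H g =>
        rw [hF, MulAction.Quotient.smul_mk, hF, smul_eq_mul, hf'c]
        abel
    rw [hs, map_sum]
    simp only [h1, Finset.sum_sub_distrib, Finset.sum_const, Finset.card_univ]
    congr 1
    · exact Fintype.sum_equiv (MulAction.toPerm x) _ _ (fun q => rfl)
    · rw [← hcard, Nat.cast_smul_eq_nsmul]
  obtain ⟨u, hu⟩ := hidx
  rw [mem_coboundaries₁_iff]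
  refine ⟨m - (↑u⁻¹ : k) • s, fun g => ?_⟩
  have h2 : f g = f' g + (A.ρ g m - m) := by simp only [hf']; abel
  have h3 : (↑u⁻¹ : k) • (A.ρ g s) = (↑u⁻¹ : k) • s - f' g := by
    rw [key g, smul_sub, ← hu, smul_smul, Units.inv_mul, one_smul]
  rw [h2, map_sub, map_smul, h3]
  abel

/-- Class version of `mem_coboundaries₁_of_central`. -/
theorem H1_eq_zero_of_central (z : G) (hz : ∀ g : G, z * g = g * z) (c : k)
    (hc : IsUnit (c - 1)) (hzc : ∀ a : A, A.ρ z a = c • a) (x : H1 A) : x = 0 := by
  induction x using H1_induction_on with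
  | h f =>
    rw [H1π_eq_zero_iff]
    exact mem_coboundaries₁_of_central A z hz c hc hzc f f.2

/-- Class version of `mem_coboundaries₁_of_restrict`: if every cocycle is a coboundary on `P`
(e.g. `H¹(P, A) = 0`) and the index of `P` is invertible in `k`, then `H¹(G, A) = 0`. -/
theorem H1_eq_zero_of_restrict (P : Subgroup G) [P.FiniteIndex]
    (hidx : IsUnit ((P.index : ℕ) : k))
    (hP : ∀ f : G → A, f ∈ cocycles₁ A → ∃ m : A, ∀ h ∈ P, f h = A.ρ h m - m) (x : H1 A) :
    x = 0 := by
  induction x using H1_induction_on with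
  | h f =>
    rw [H1π_eq_zero_iff]
    exact mem_coboundaries₁_of_restrict A P hidx f f.2 (hP f f.2)

end Fermat.Agent.Lib.H1Vanish
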