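import Fermat.Agent.R.Flat.H54_Concrete

/-!
# Hopf orders (cluster G, S19; also usable for S32 and for elliptic curves)

Let `M` be a finite commutative group with an action `act` of `G`, and let `H` be a commutative
`R`-algebra with a family of `R`-algebra homomorphisms `ev x : H → K` (`x : M`), "evaluation at
`x`", such that

* `ev (act σ x) f = σ • ev x f` (the elements of `H` are equivariant functions);
* `H` is a finitely generated `R`-module;
* `f = 0` as soon as `ev x f = 0` for all `x` (`H` is a ring of functions on `M`);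
* `H` separates the points of `M`;
* for `f : H` the function `(x, y) ↦ f (x + y)` is a finite sum `∑ a i x * b i y`.

Then `H` is a finite flat cocommutative Hopf algebra over `R` whose `K`-points are `M`
(`Fermat.Agent.R.H54.AbsFlat`), provided `(R, K, G)` satisfies `DescentData`, `R` is a principal
ideal domain and `G`-fixed elements of `K` which are integral over `R` come from `R`.
-/

set_option autoImplicit false
set_option linter.unusedSectionVars false
set_option linter.style.haveILetI false

open scoped TensorProduct
open WithConv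

namespace Fermat.Agent.Lib.HopfOrder

open Fermat.Agent.R.H54

section Abstract

variable {R K G : Type} [CommRing R] [IsDomain R] [IsPrincipalIdealRing R] [Field K] [Algebra R K]
  [Group G] [MulSemiringAction G K]
variable {M : Type} [AddCommGroup M] [Finite M]
variable {H : Type} [CommRing H] [Algebra R H]

/-- A Hopf order: a ring of equivariant functions on `M`, closed under "comultiplication". -/
structure IsHopfOrder (act : G → M → M) (ev : M → (H →ₐ[R] K)) : Prop where
  equivariant : ∀ (f : H) (σ : G) (x : M), ev (act σ x) f = σ • ev x f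
  finite : Module.Finite R H
  faithful : ∀ f : H, (∀ x, ev x f = 0) → f = 0
  separates : ∀ x y : M, x ≠ y → ∃ f : H, ev x f ≠ ev y f
  comul : ∀ f : H, ∃ (n : ℕ) (a b : Fin n → H), ∀ x y, ev (x + y) f = ∑ i, ev x (a i) * ev y (b i)

/-- `G`-fixed elements of `K` that are integral over `R` come from `R`. -/
def FixedIntegral (R K G : Type) [CommRing R] [Field K] [Algebra R K] [Group G]
    [MulSemiringAction G K] : Prop :=
  ∀ x : K, (∀ σ : G, σ • x = x) → IsIntegral R x → ∃ r : R, algebraMap R K r = x

variable {act : G → M → M} {ev : M → (H →ₐ[R] K)}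

lemma ext_ev (hH : IsHopfOrder act ev) {f g : H} (h : ∀ x, ev x f = ev x g) : f = g := by
  rw [← sub_eq_zero]
  exact hH.faithful _ fun x => by rw [map_sub, h x, sub_self]

/-- The family of evaluations. -/
def evFam (ev : M → (H →ₐ[R] K)) : Set (H →ₗ[R] K) :=
  Set.range fun x : M => (ev x).toLinearMap

lemma evFam_separating (hH : IsHopfOrder act ev) : Separating (evFam ev) := by
  intro q hq
  exact hH.faithful q fun x => hq _ ⟨x, rfl⟩

lemma evFam_gstable (hH : IsHopfOrder act ev) : GStable G (evFam ev) := by
  rintro σ _ ⟨x, rfl⟩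
  exact ⟨(ev (act σ x)).toLinearMap, ⟨act σ x, rfl⟩, fun q => hH.equivariant q σ x⟩

lemma act_add (hH : IsHopfOrder act ev) (σ : G) (x y : M) :
    act σ (x + y) = act σ x + act σ y := by
  by_contra hne
  obtain ⟨f, hfne⟩ := hH.separates _ _ hne
  obtain ⟨n, a, b, hab⟩ := hH.comul f
  apply hfne
  rw [hH.equivariant f, hab, hab, Finset.smul_sum]
  refine Finset.sum_congr rfl fun i _ => ?_
  rw [smul_mul', hH.equivariant, hH.equivariant]

lemma act_zero (hH : IsHopfOrder act ev) (σ : G) : act σ 0 = 0 := by
  have := act_add hH σ 0 0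
  rw [add_zero] at this
  exact left_eq_add.mp this

lemma torsionFree (hD : DescentData R K G) (hH : IsHopfOrder act ev) :
    Module.IsTorsionFree R H := by
  refine ⟨fun r hr => ?_⟩
  have hr0 : algebraMap R K r ≠ 0 := by
    intro h
    have : r = 0 := hD.inj (by rw [h, map_zero])
    exact hr.ne_zero this
  intro q₁ q₂ h
  apply ext_ev hH
  intro x
  have h' : r • q₁ = r • q₂ := h
  have := congrArg (ev x) h'
  rw [Algebra.smul_def, Algebra.smul_def, map_mul, map_mul, AlgHom.commutes] at this
  exact mul_left_cancel₀ hr0 this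

lemma free_of_isHopfOrder (hD : DescentData R K G) (hH : IsHopfOrder act ev) :
    Module.Free R H := by
  haveI := hH.finite
  haveI := torsionFree hD hH
  exact Module.free_of_finite_type_torsion_free'

/-! ### Evaluation at pairs and triples of points -/

/-- Evaluation at a pair of points. -/
noncomputable def val₂ (ev : M → (H →ₐ[R] K)) (x y : M) : H ⊗[R] H →ₐ[R] K :=
  Algebra.TensorProduct.lift (ev x) (ev y) (fun _ _ => Commute.all _ _)

@[simp] lemma val₂_tmul (x y : M) (a b : H) :
    val₂ ev x y (a ⊗ₜ[R] b) = ev x a * ev y b := by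
  simp [val₂]

lemma val₂_eq_mul' (x y : M) (t : H ⊗[R] H) :
    val₂ ev x y t = LinearMap.mul' R K
      (TensorProduct.map (ev x).toLinearMap (ev y).toLinearMap t) := by
  induction t using TensorProduct.induction_on with
  | zero => simp
  | tmul a b => simp
  | add u v hu hv => simp only [map_add, hu, hv]

/-- The family of evaluations at pairs. -/
def evFam₂ (ev : M → (H →ₐ[R] K)) : Set ((H ⊗[R] H) →ₗ[R] K) :=
  Set.range fun p : M × M => (val₂ ev p.1 p.2).toLinearMap

lemma val₂_inj (hD : DescentData R K G) (hH : IsHopfOrder act ev) (t : H ⊗[R] H)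
    (ht : ∀ x y, val₂ ev x y t = 0) : t = 0 := by
  haveI := hH.finite
  haveI := free_of_isHopfOrder hD hH
  set b := Module.Free.chooseBasis R H
  refine tensor_sep hD b b (evFam ev) (evFam ev) (evFam_gstable hH) (evFam_separating hH)
    (evFam_separating hH) t ?_
  rintro _ ⟨x, rfl⟩ _ ⟨y, rfl⟩
  rw [← val₂_eq_mul']
  exact ht x y

lemma evFam₂_separating (hD : DescentData R K G) (hH : IsHopfOrder act ev) :
    Separating (evFam₂ ev) := by
  intro q hq
  exact val₂_inj hD hH q fun x y => hq _ ⟨(x, y), rfl⟩

/-- Evaluation at a triple of points. -/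
noncomputable def val₃ (ev : M → (H →ₐ[R] K)) (x y z : M) : H ⊗[R] (H ⊗[R] H) →ₐ[R] K :=
  Algebra.TensorProduct.lift (ev x) (val₂ ev y z) (fun _ _ => Commute.all _ _)

@[simp] lemma val₃_tmul (x y z : M) (a : H) (s : H ⊗[R] H) :
    val₃ ev x y z (a ⊗ₜ[R] s) = ev x a * val₂ ev y z s := by
  simp [val₃]

lemma val₃_eq_mul' (x y z : M) (t : H ⊗[R] (H ⊗[R] H)) :
    val₃ ev x y z t = LinearMap.mul' R K
      (TensorProduct.map (ev x).toLinearMap (val₂ ev y z).toLinearMap t) := by
  induction t using TensorProduct.induction_on with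
  | zero => simp
  | tmul a b => simp
  | add u v hu hv => simp only [map_add, hu, hv]

lemma val₃_inj (hD : DescentData R K G) (hH : IsHopfOrder act ev) (t : H ⊗[R] (H ⊗[R] H))
    (ht : ∀ x y z, val₃ ev x y z t = 0) : t = 0 := by
  haveI := hH.finite
  haveI := free_of_isHopfOrder hD hH
  set b := Module.Free.chooseBasis R H
  refine tensor_sep hD b (b.tensorProduct b) (evFam ev) (evFam₂ ev) (evFam_gstable hH)
    (evFam_separating hH) (evFam₂_separating hD hH) t ?_
  rintro _ ⟨x, rfl⟩ _ ⟨p, rfl⟩
  rw [← val₃_eq_mul']
  exact ht x p.1 p.2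

/-! ### Comultiplication, counit, antipode -/

/-- All evaluations at pairs. -/
noncomputable def iota₂ (ev : M → (H →ₐ[R] K)) : H ⊗[R] H →ₐ[R] (M × M → K) :=
  AlgHom.pi fun p : M × M => val₂ ev p.1 p.2

@[simp] lemma iota₂_apply (t : H ⊗[R] H) (p : M × M) : iota₂ ev t p = val₂ ev p.1 p.2 t := rfl

lemma iota₂_injective (hD : DescentData R K G) (hH : IsHopfOrder act ev) :
    Function.Injective (iota₂ ev) := by
  rw [injective_iff_map_eq_zero]
  intro t ht
  exact val₂_inj hD hH t fun x y => congrFun ht (x, y)

/-- `f ↦ ((x, y) ↦ f (x + y))`. -/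
noncomputable def addPull (ev : M → (H →ₐ[R] K)) : H →ₐ[R] (M × M → K) :=
  AlgHom.pi fun p : M × M => ev (p.1 + p.2)

@[simp] lemma addPull_apply (f : H) (p : M × M) : addPull ev f p = ev (p.1 + p.2) f := rfl

lemma addPull_mem (hH : IsHopfOrder act ev) (f : H) : addPull ev f ∈ (iota₂ ev).range := by
  obtain ⟨n, a, b, hab⟩ := hH.comul f
  refine ⟨∑ i, a i ⊗ₜ[R] b i, ?_⟩
  funext p
  show iota₂ ev (∑ i, a i ⊗ₜ[R] b i) p = addPull ev f p
  rw [iota₂_apply, map_sum, addPull_apply, hab]
  exact Finset.sum_congr rfl fun i _ => val₂_tmul _ _ _ _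

/-- The comultiplication. -/
noncomputable def comulA (hD : DescentData R K G) (hH : IsHopfOrder act ev) :
    H →ₐ[R] H ⊗[R] H :=
  ((AlgEquiv.ofInjective (iota₂ ev) (iota₂_injective hD hH)).symm : _ →ₐ[R] _).comp
    ((addPull ev).codRestrict (iota₂ ev).range (addPull_mem hH))

lemma iota₂_comulA (hD : DescentData R K G) (hH : IsHopfOrder act ev) (f : H) :
    iota₂ ev (comulA hD hH f) = addPull ev f := by
  have := (AlgEquiv.ofInjective (iota₂ ev) (iota₂_injective hD hH)).apply_symm_apply
    ((addPull ev).codRestrict (iota₂ ev).range (addPull_mem hH) f)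
  exact congrArg Subtype.val this

@[simp] lemma val₂_comulA (hD : DescentData R K G) (hH : IsHopfOrder act ev) (x y : M) (f : H) :
    val₂ ev x y (comulA hD hH f) = ev (x + y) f :=
  congrFun (iota₂_comulA hD hH f) (x, y)

lemma ev0_mem (hH : IsHopfOrder act ev) (hint : FixedIntegral R K G) (f : H) :
    ev 0 f ∈ (Algebra.ofId R K).range := by
  haveI := hH.finite
  have h1 : IsIntegral R f := IsIntegral.of_finite R f
  have h2 : IsIntegral R (ev 0 f) := h1.map (ev 0)
  obtain ⟨r, hr⟩ := hint _ (fun σ => by rw [← hH.equivariant f, act_zero hH]) h2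
  exact ⟨r, hr⟩

/-- The counit. -/
noncomputable def counitA (hD : DescentData R K G) (hH : IsHopfOrder act ev)
    (hint : FixedIntegral R K G) : H →ₐ[R] R :=
  ((AlgEquiv.ofInjective (Algebra.ofId R K) hD.inj).symm : _ →ₐ[R] _).comp
    ((ev 0).codRestrict (Algebra.ofId R K).range (ev0_mem hH hint))

@[simp] lemma algebraMap_counitA (hD : DescentData R K G) (hH : IsHopfOrder act ev)
    (hint : FixedIntegral R K G) (f : H) :
    algebraMap R K (counitA hD hH hint f) = ev 0 f := by
  have := (AlgEquiv.ofInjective (Algebra.ofId R K) hD.inj).apply_symm_apply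
    ((ev 0).codRestrict (Algebra.ofId R K).range (ev0_mem hH hint) f)
  exact congrArg Subtype.val this

lemma exists_comp_nsmul (hH : IsHopfOrder act ev) (hint : FixedIntegral R K G) (k : ℕ) :
    ∀ f : H, ∃ g : H, ∀ x, ev x g = ev (k • x) f := by
  induction k with
  | zero =>
    intro f
    obtain ⟨r, hr⟩ := ev0_mem hH hint f
    refine ⟨algebraMap R H r, fun x => ?_⟩
    rw [zero_smul, AlgHom.commutes]
    exact hr
  | succ k ih =>
    intro f
    obtain ⟨n, a, b, hab⟩ := hH.comul f
    choose g hg using fun i => ih (a i)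
    refine ⟨∑ i, g i * b i, fun x => ?_⟩
    rw [succ_nsmul, hab, map_sum]
    exact Finset.sum_congr rfl fun i _ => by rw [map_mul, hg]

lemma exists_comp_neg (hH : IsHopfOrder act ev) (hint : FixedIntegral R K G) (f : H) :
    ∃ g : H, ∀ x, ev x g = ev (-x) f := by
  obtain ⟨g, hg⟩ := exists_comp_nsmul hH hint (Nat.card M - 1) f
  refine ⟨g, fun x => ?_⟩
  have hpos : 0 < Nat.card M := Nat.card_pos
  have h3 : (Nat.card M - 1) • x + x = 0 := by
    rw [← succ_nsmul, Nat.sub_add_cancel hpos]
    exact card_nsmul_eq_zero'
  rw [hg, eq_neg_of_add_eq_zero_left h3]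

/-- The antipode, as a function. -/
noncomputable def antipodeFun (hH : IsHopfOrder act ev) (hint : FixedIntegral R K G) (f : H) : H :=
  (exists_comp_neg hH hint f).choose

@[simp] lemma ev_antipodeFun (hH : IsHopfOrder act ev) (hint : FixedIntegral R K G) (f : H)
    (x : M) : ev x (antipodeFun hH hint f) = ev (-x) f :=
  (exists_comp_neg hH hint f).choose_spec x

/-- The antipode. -/
noncomputable def antipodeL (hH : IsHopfOrder act ev) (hint : FixedIntegral R K G) :
    H →ₗ[R] H where
  toFun := antipodeFun hH hint
  map_add' f g := ext_ev hH fun x => by simp only [ev_antipodeFun, map_add]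
  map_smul' r f := ext_ev hH fun x => by
    simp only [ev_antipodeFun, map_smul, RingHom.id_apply]

@[simp] lemma ev_antipodeL (hH : IsHopfOrder act ev) (hint : FixedIntegral R K G) (f : H)
    (x : M) : ev x (antipodeL hH hint f) = ev (-x) f :=
  ev_antipodeFun hH hint f x

/-! ### The Hopf algebra structure -/

lemma val₃_map_id_comul (hD : DescentData R K G) (hH : IsHopfOrder act ev) (x y z : M)
    (t : H ⊗[R] H) :
    val₃ ev x y z (Algebra.TensorProduct.map (AlgHom.id R H) (comulA hD hH) t) =
      val₂ ev x (y + z) t := by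
  induction t using TensorProduct.induction_on with
  | zero => simp
  | tmul a b => simp
  | add u v hu hv => simp only [map_add, hu, hv]

lemma val₃_assoc_tmul (x y z : M) (s : H ⊗[R] H) (b : H) :
    val₃ ev x y z (Algebra.TensorProduct.assoc R R R H H H (s ⊗ₜ[R] b)) =
      val₂ ev x y s * ev z b := by
  induction s using TensorProduct.induction_on with
  | zero => simp
  | tmul c d => simp [mul_assoc]
  | add u v hu hv => simp only [TensorProduct.add_tmul, map_add, hu, hv, add_mul]

lemma val₃_assoc_map_comul_id (hD : DescentData R K G) (hH : IsHopfOrder act ev) (x y z : M)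
    (t : H ⊗[R] H) :
    val₃ ev x y z (Algebra.TensorProduct.assoc R R R H H H
      (Algebra.TensorProduct.map (comulA hD hH) (AlgHom.id R H) t)) = val₂ ev (x + y) z t := by
  induction t using TensorProduct.induction_on with
  | zero => simp
  | tmul a b => simp [val₃_assoc_tmul]
  | add u v hu hv => simp only [map_add, hu, hv]

lemma ev_lid_map_counit (hD : DescentData R K G) (hH : IsHopfOrder act ev)
    (hint : FixedIntegral R K G) (x : M) (t : H ⊗[R] H) :
    ev x (Algebra.TensorProduct.lid R H
      (Algebra.TensorProduct.map (counitA hD hH hint) (AlgHom.id R H) t)) = val₂ ev 0 x t := by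
  induction t using TensorProduct.induction_on with
  | zero => simp
  | tmul a b => simp [Algebra.smul_def]
  | add u v hu hv => simp only [map_add, hu, hv]

lemma ev_rid_map_counit (hD : DescentData R K G) (hH : IsHopfOrder act ev)
    (hint : FixedIntegral R K G) (x : M) (t : H ⊗[R] H) :
    ev x (Algebra.TensorProduct.rid R R H
      (Algebra.TensorProduct.map (AlgHom.id R H) (counitA hD hH hint) t)) = val₂ ev x 0 t := by
  induction t using TensorProduct.induction_on with
  | zero => simp
  | tmul a b => simp [Algebra.smul_def, mul_comm]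
  | add u v hu hv => simp only [map_add, hu, hv]

/-- The bialgebra structure of a Hopf order. -/
@[instance_reducible] noncomputable def bialgebra (hD : DescentData R K G) (hH : IsHopfOrder act ev)
    (hint : FixedIntegral R K G) : Bialgebra R H :=
  Bialgebra.ofAlgHom (comulA hD hH) (counitA hD hH hint)
    (by
      refine AlgHom.ext fun f => sub_eq_zero.mp (val₃_inj hD hH _ fun x y z => ?_)
      rw [map_sub, sub_eq_zero]
      change val₃ ev x y z (Algebra.TensorProduct.assoc R R R H H H
          (Algebra.TensorProduct.map (comulA hD hH) (AlgHom.id R H) (comulA hD hH f))) =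
        val₃ ev x y z
          (Algebra.TensorProduct.map (AlgHom.id R H) (comulA hD hH) (comulA hD hH f))
      rw [val₃_assoc_map_comul_id, val₃_map_id_comul, val₂_comulA, val₂_comulA, add_assoc])
    (by
      refine AlgHom.ext fun f => ?_
      apply (Algebra.TensorProduct.lid R H).injective
      change Algebra.TensorProduct.lid R H (Algebra.TensorProduct.map (counitA hD hH hint)
          (AlgHom.id R H) (comulA hD hH f)) =
        Algebra.TensorProduct.lid R H ((Algebra.TensorProduct.lid R H).symm f)
      rw [AlgEquiv.apply_symm_apply]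
      refine ext_ev hH fun x => ?_
      rw [ev_lid_map_counit, val₂_comulA, zero_add])
    (by
      refine AlgHom.ext fun f => ?_
      apply (Algebra.TensorProduct.rid R R H).injective
      change Algebra.TensorProduct.rid R R H (Algebra.TensorProduct.map (AlgHom.id R H)
          (counitA hD hH hint) (comulA hD hH f)) =
        Algebra.TensorProduct.rid R R H ((Algebra.TensorProduct.rid R R H).symm f)
      rw [AlgEquiv.apply_symm_apply]
      refine ext_ev hH fun x => ?_
      rw [ev_rid_map_counit, val₂_comulA, add_zero])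

lemma ev_mul'_rTensor (hH : IsHopfOrder act ev) (hint : FixedIntegral R K G) (x : M)
    (t : H ⊗[R] H) :
    ev x (LinearMap.mul' R H ((antipodeL hH hint).rTensor H t)) = val₂ ev (-x) x t := by
  induction t using TensorProduct.induction_on with
  | zero => simp
  | tmul a b => simp
  | add u v hu hv => simp only [map_add, hu, hv]

lemma ev_mul'_lTensor (hH : IsHopfOrder act ev) (hint : FixedIntegral R K G) (x : M)
    (t : H ⊗[R] H) :
    ev x (LinearMap.mul' R H ((antipodeL hH hint).lTensor H t)) = val₂ ev x (-x) t := by
  induction t using TensorProduct.induction_on with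
  | zero => simp
  | tmul a b => simp
  | add u v hu hv => simp only [map_add, hu, hv]

/-- The Hopf algebra structure of a Hopf order. -/
@[instance_reducible] noncomputable def hopfAlgebra (hD : DescentData R K G) (hH : IsHopfOrder act ev)
    (hint : FixedIntegral R K G) : HopfAlgebra R H :=
  letI := bialgebra hD hH hint
  { antipode := antipodeL hH hint
    mul_antipode_rTensor_comul := by
      refine LinearMap.ext fun f => ext_ev hH fun x => ?_
      show ev x (LinearMap.mul' R H ((antipodeL hH hint).rTensor H (comulA hD hH f))) =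
        ev x (algebraMap R H (counitA hD hH hint f))
      rw [ev_mul'_rTensor, val₂_comulA, neg_add_cancel, AlgHom.commutes, algebraMap_counitA]
    mul_antipode_lTensor_comul := by
      refine LinearMap.ext fun f => ext_ev hH fun x => ?_
      show ev x (LinearMap.mul' R H ((antipodeL hH hint).lTensor H (comulA hD hH f))) =
        ev x (algebraMap R H (counitA hD hH hint f))
      rw [ev_mul'_lTensor, val₂_comulA, add_neg_cancel, AlgHom.commutes, algebraMap_counitA] }

lemma val₂_comm (x y : M) (t : H ⊗[R] H) :
    val₂ ev x y (TensorProduct.comm R H H t) = val₂ ev y x t := by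
  induction t using TensorProduct.induction_on with
  | zero => simp
  | tmul a b => simp [mul_comm]
  | add u v hu hv => simp only [map_add, hu, hv]

lemma isCocomm (hD : DescentData R K G) (hH : IsHopfOrder act ev)
    (hint : FixedIntegral R K G) :
    letI := hopfAlgebra hD hH hint
    Coalgebra.IsCocomm R H := by
  letI := hopfAlgebra hD hH hint
  refine ⟨LinearMap.ext fun f => sub_eq_zero.mp (val₂_inj hD hH _ fun x y => ?_)⟩
  rw [map_sub, sub_eq_zero]
  show val₂ ev x y (TensorProduct.comm R H H (comulA hD hH f)) = val₂ ev x y (comulA hD hH f)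
  rw [val₂_comm, val₂_comulA, val₂_comulA, add_comm]

/-! ### The points -/

lemma ev_injective (hH : IsHopfOrder act ev) : Function.Injective ev := by
  intro x y hxy
  by_contra hne
  obtain ⟨f, hf⟩ := hH.separates x y hne
  exact hf (by rw [hxy])

lemma ev_bijective (hD : DescentData R K G) (hH : IsHopfOrder act ev) :
    Function.Bijective ev := by
  classical
  haveI := hH.finite
  haveI := free_of_isHopfOrder hD hH
  set b := Module.Free.chooseBasis R H with hb
  set ι₀ := Module.Free.ChooseBasisIndex R H
  have e := b.constr (M' := K) K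
  haveI : Module.Finite K (H →ₗ[R] K) := Module.Finite.equiv e
  have hfr : Module.finrank K (H →ₗ[R] K) = Fintype.card ι₀ := by
    rw [← LinearEquiv.finrank_eq e, Module.finrank_fintype_fun_eq_card]
  have hli := linearIndependent_algHom_toLinearMap R H K
  haveI hfin : Finite (H →ₐ[R] K) := hli.finite
  haveI : Fintype (H →ₐ[R] K) := Fintype.ofFinite _
  haveI : Fintype M := Fintype.ofFinite _
  have h1 : Fintype.card (H →ₐ[R] K) ≤ Fintype.card ι₀ := by
    rw [← hfr]
    exact hli.fintype_card_le_finrank
  let evl : (ι₀ → K) →ₗ[K] (M → K) :=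
    { toFun := fun c x => ∑ i, c i * ev x (b i)
      map_add' := fun c c' => by
        funext x
        simp only [Pi.add_apply, add_mul, Finset.sum_add_distrib]
      map_smul' := fun a c => by
        funext x
        simp only [Pi.smul_apply, smul_eq_mul, RingHom.id_apply, Finset.mul_sum, mul_assoc] }
  have hev : Function.Injective evl := by
    rw [← LinearMap.ker_eq_bot, LinearMap.ker_eq_bot']
    intro c hc
    apply descent_inj hD b (evFam ev) (evFam_gstable hH) (evFam_separating hH) c
    rintro _ ⟨x, rfl⟩
    exact congrFun hc x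
  have h2 : Fintype.card ι₀ ≤ Fintype.card M := by
    have := LinearMap.finrank_le_finrank_of_injective hev
    rwa [Module.finrank_fintype_fun_eq_card, Module.finrank_fintype_fun_eq_card] at this
  exact (Fintype.bijective_iff_injective_and_card _).mpr
    ⟨ev_injective hH, le_antisymm (Fintype.card_le_of_injective _ (ev_injective hH))
      (h1.trans h2)⟩

lemma fixedIntegral_of_descentData (hD : DescentData R K G) : FixedIntegral R K G := by
  intro x hx hxi
  obtain ⟨a, d, hd, hda⟩ := hD.fixed x hx
  haveI : FaithfulSMul R K := (faithfulSMul_iff_algebraMap_injective R K).mpr hD.inj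
  let φ : FractionRing R →ₐ[R] K :=
    IsFractionRing.liftAlgHom (K := FractionRing R) (g := Algebra.ofId R K) hD.inj
  have hφ : Function.Injective φ := φ.toRingHom.injective
  have hd' : algebraMap R (FractionRing R) d ≠ 0 := by
    intro h
    exact hd ((IsFractionRing.injective R (FractionRing R)) (by rw [h, map_zero]))
  set y : FractionRing R := algebraMap R (FractionRing R) a / algebraMap R (FractionRing R) d
    with hy
  have hdK : algebraMap R K d ≠ 0 := fun h => hd (hD.inj (by rw [h, map_zero]))
  have hφy : φ y = x := by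
    rw [hy, map_div₀, AlgHom.commutes, AlgHom.commutes, ← hda, mul_div_cancel_left₀ _ hdK]
  have hyi : IsIntegral R y := by
    rw [← hφy] at hxi
    exact (isIntegral_algHom_iff φ hφ).mp hxi
  obtain ⟨r, hr⟩ := IsIntegrallyClosed.isIntegral_iff.mp hyi
  exact ⟨r, by rw [← hφy, ← hr, AlgHom.commutes]⟩

/-- **Hopf orders are finite flat group schemes.** -/
theorem absFlat_of_isHopfOrder (hD : DescentData R K G) (hH : IsHopfOrder act ev) :
    AbsFlat R K G M act := by
  have hint := fixedIntegral_of_descentData hD
  letI hopf := hopfAlgebra hD hH hint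
  haveI := hH.finite
  haveI := free_of_isHopfOrder hD hH
  let e₀ : M ≃ (H →ₐ[R] K) := Equiv.ofBijective ev (ev_bijective hD hH)
  let e : Pts R H K ≃ M := (WithConv.equiv (H →ₐ[R] K)).trans e₀.symm
  have he : ∀ f : Pts R H K, f.ofConv = ev (e f) := fun f =>
    (e₀.apply_symm_apply f.ofConv).symm
  refine ⟨H, inferInstance, hopf, inferInstance, inferInstance, isCocomm hD hH hint, e, ?_, ?_⟩
  · intro f g
    apply ev_injective hH
    rw [← he]
    refine AlgHom.ext fun h => ?_
    show (f * g) h = ev (e f + e g) h
    rw [convMul_apply', ← val₂_comulA hD hH, val₂_eq_mul', ← he, ← he]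
    rfl
  · intro σ f g hfg
    apply ev_injective hH
    refine AlgHom.ext fun h => ?_
    rw [hH.equivariant, ← he, ← he]
    exact hfg h

end Abstract

section Concrete

open GaloisRep

/-- **Hopf orders over `ℤ_(p)`**: the conclusion is literally the condition used in the prelude
(`GaloisRepAdic.IsFlatAt`, frozen S19). -/
theorem flat_of_isHopfOrder (p : ℕ) {M : Type} [AddCommGroup M] [Finite M]
    {H : Type} [CommRing H] [Algebra (ratLocalizedAt p) H]
    (act : GalQ → M → M) (ev : M → (H →ₐ[ratLocalizedAt p] AlgebraicClosure ℚ))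
    (hH : IsHopfOrder act ev) :
    ∃ (H' : Type) (_ : CommRing H') (_ : HopfAlgebra (ratLocalizedAt p) H'),
      Module.Finite (ratLocalizedAt p) H' ∧ Module.Flat (ratLocalizedAt p) H' ∧
      Coalgebra.IsCocomm (ratLocalizedAt p) H' ∧
      ∃ e : WithConv (H' →ₐ[ratLocalizedAt p] AlgebraicClosure ℚ) ≃ M,
        (∀ f g : WithConv (H' →ₐ[ratLocalizedAt p] AlgebraicClosure ℚ),
          e (f * g) = e f + e g) ∧
        ∀ (σ : AlgebraicClosure ℚ ≃ₐ[ℚ] AlgebraicClosure ℚ)
          (f g : WithConv (H' →ₐ[ratLocalizedAt p] AlgebraicClosure ℚ)),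
          (∀ h : H', g h = σ (f h)) → e g = act σ (e f) := by
  haveI := ratLocalizedAt_isPrincipalIdealRing p
  exact absFlat_of_isHopfOrder (descentData_rat p) hH

end Concrete

end Fermat.Agent.Lib.HopfOrder
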