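import Fermat.Agent.Lib.HopfOrder

/-!
# Hopf orders from generators (cluster G, S19; elliptic curves: Tate T5)

`Fermat.Agent.Lib.HopfOrder.IsHopfOrder` asks for a ring `H` of equivariant functions on a finite
group `M`, finitely generated as a module over `R`, closed under `f ↦ ((x, y) ↦ f (x + y))`.
Here we produce such an `H` from *generators*:

* a subring `A` of `K` ("the integers at one place") containing the image of `R`, whose `G`-fixed
  elements come from `R`;
* finitely many `G`-equivariant functions `f j : M → K` with values in `A`, jointly separating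
  the points of `M`;
* for every `j` the function `(x, y) ↦ f j (x + y)` lies in `pairRing A f`, the ring of
  functions on `M × M` generated by the constants of `A` and the functions `f i x`, `f i y`.

Then `H := R[f j]` is a Hopf order (`isHopfOrder_of_genData`).

To check the last condition one may divide by a function all of whose values are units of `A`
(`inv_mem_of_units`, `div_mem_pairRing`): if `D * g = N` with `D, N ∈ pairRing A f` and
`(D p)⁻¹ ∈ A` for all `p`, then `g ∈ pairRing A f`.
-/

set_option autoImplicit false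
set_option linter.unusedSectionVars false
set_option linter.style.haveILetI false

open Polynomial

namespace Fermat.Agent.Lib.HopfOrder

open Fermat.Agent.R.H54

section Gen

variable {R K G : Type} [CommRing R] [IsDomain R] [IsPrincipalIdealRing R] [Field K] [Algebra R K]
  [Group G] [MulSemiringAction G K]
variable {M : Type} [AddCommGroup M] [Finite M]
variable {ι : Type}

/-! ### Division by functions with unit values -/

/-- The polynomial `∏ (X - h x)`. -/
noncomputable def valuePoly {X : Type} [Fintype X] (h : X → K) : K[X] :=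
  ∏ x : X, (Polynomial.X - C (h x))

lemma valuePoly_monic {X : Type} [Fintype X] (h : X → K) : (valuePoly h).Monic :=
  monic_prod_X_sub_C _ _

lemma valuePoly_eval {X : Type} [Fintype X] (h : X → K) (x : X) :
    (valuePoly h).eval (h x) = 0 := by
  rw [valuePoly, eval_prod]
  exact Finset.prod_eq_zero (Finset.mem_univ x) (by simp)

lemma valuePoly_coeff_mem {X : Type} [Fintype X] (A : Subring K) (h : X → K)
    (hA : ∀ x, h x ∈ A) (n : ℕ) : (valuePoly h).coeff n ∈ A := by
  have : valuePoly h = (∏ x : X, (Polynomial.X - C (⟨h x, hA x⟩ : A))).map A.subtype := by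
    rw [valuePoly, Polynomial.map_prod]
    refine Finset.prod_congr rfl fun x _ => ?_
    simp
  rw [this, coeff_map]
  exact Subtype.property _

/-- If all values of `D` are units of `A`, the inverse of `D` is a polynomial in `D` with
coefficients in `A`. -/
lemma inv_mem_of_units {X : Type} [Finite X] (A : Subring K) (Λ : Subring (X → K))
    (hconst : ∀ a ∈ A, (fun _ : X => a) ∈ Λ) (D : X → K) (hD : D ∈ Λ)
    (hDA : ∀ x, D x ∈ A) (hDu : ∀ x, D x ≠ 0 ∧ (D x)⁻¹ ∈ A) :
    (fun x => (D x)⁻¹) ∈ Λ := by
  classical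
  haveI := Fintype.ofFinite X
  set P := valuePoly D with hP
  -- constant coefficient
  have hc0 : P.coeff 0 = ∏ x : X, (- D x) := by
    rw [hP, valuePoly, coeff_zero_eq_eval_zero, eval_prod]
    refine Finset.prod_congr rfl fun x _ => ?_
    simp
  have hc0ne : P.coeff 0 ≠ 0 := by
    rw [hc0]
    exact Finset.prod_ne_zero_iff.mpr fun x _ => neg_ne_zero.mpr (hDu x).1
  have hc0inv : (P.coeff 0)⁻¹ ∈ A := by
    rw [hc0, ← Finset.prod_inv_distrib]
    refine Subring.prod_mem _ fun x _ => ?_
    rw [inv_neg]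
    exact Subring.neg_mem _ (hDu x).2
  -- the function `Q(D)`, `Q = P.divX`
  set QD : X → K := ∑ n ∈ Finset.range (P.divX.natDegree + 1),
    (fun _ : X => P.divX.coeff n) * D ^ n with hQD
  have hQDmem : QD ∈ Λ := by
    refine Subring.sum_mem _ fun n _ => ?_
    refine Subring.mul_mem _ (hconst _ ?_) (Subring.pow_mem _ hD n)
    rw [coeff_divX]
    exact valuePoly_coeff_mem A D hDA _
  have hQDx : ∀ x, QD x = P.divX.eval (D x) := by
    intro x
    rw [hQD, Finset.sum_apply, eval_eq_sum_range]
    rfl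
  have key : ∀ x, (D x)⁻¹ = - (P.coeff 0)⁻¹ * QD x := by
    intro x
    have h1 : P.eval (D x) = 0 := valuePoly_eval D x
    have h2 : P = P.divX * Polynomial.X + C (P.coeff 0) := (divX_mul_X_add P).symm
    rw [h2, eval_add, eval_mul, eval_X, eval_C] at h1
    rw [hQDx x]
    have h3 : P.divX.eval (D x) * D x = - P.coeff 0 := by linear_combination h1
    have h4 : (- (P.coeff 0)⁻¹ * P.divX.eval (D x)) * D x = 1 := by
      rw [mul_assoc, h3, neg_mul_neg, inv_mul_cancel₀ hc0ne]
    exact (eq_inv_of_mul_eq_one_left h4).symm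
  have : (fun x => (D x)⁻¹) = (fun _ : X => - (P.coeff 0)⁻¹) * QD := by
    funext x
    rw [key x]
    rfl
  rw [this]
  exact Subring.mul_mem _ (hconst _ (Subring.neg_mem _ hc0inv)) hQDmem

/-- Division by a function with unit values. -/
lemma div_mem_of_units {X : Type} [Finite X] (A : Subring K) (Λ : Subring (X → K))
    (hconst : ∀ a ∈ A, (fun _ : X => a) ∈ Λ) (D N g : X → K) (hD : D ∈ Λ) (hN : N ∈ Λ)
    (hDA : ∀ x, D x ∈ A) (hDu : ∀ x, D x ≠ 0 ∧ (D x)⁻¹ ∈ A)
    (hg : ∀ x, D x * g x = N x) : g ∈ Λ := by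
  have h1 := inv_mem_of_units A Λ hconst D hD hDA hDu
  have : g = (fun x => (D x)⁻¹) * N := by
    funext x
    have hDx := (hDu x).1
    show g x = (D x)⁻¹ * N x
    rw [← hg x, inv_mul_cancel_left₀ hDx]
  rw [this]
  exact Subring.mul_mem _ h1 hN

/-- **Local form of the division lemma.** `A` a valuation subring, `Λ` a ring of `A`-valued
functions on a finite set containing the constants of `A`. If for every point `x₀` there are
`D, N ∈ Λ` with `D * φ = N` (everywhere) and `D x₀` a unit of `A`, then `φ ∈ Λ`. -/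
lemma mem_of_local_units {X : Type} [Finite X] (A : ValuationSubring K) (Λ : Subring (X → K))
    (hconst : ∀ a ∈ A, (fun _ : X => a) ∈ Λ) (hval : ∀ g ∈ Λ, ∀ x, g x ∈ A) (φ : X → K)
    (h : ∀ x₀ : X, ∃ D N : X → K, D ∈ Λ ∧ N ∈ Λ ∧ (∀ x, D x * φ x = N x) ∧
      (D x₀ ≠ 0 ∧ (D x₀)⁻¹ ∈ A)) : φ ∈ Λ := by
  classical
  haveI := Fintype.ofFinite X
  rcases isEmpty_or_nonempty X with hX | ⟨⟨x₁⟩⟩
  · have : φ = 0 := funext fun x => (hX.false x).elim
    rw [this]
    exact Λ.zero_mem
  -- the ideal of denominators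
  let I : Ideal Λ :=
    { carrier := {D | (D : X → K) * φ ∈ Λ}
      zero_mem' := by
        show ((0 : Λ) : X → K) * φ ∈ Λ
        rw [Subring.coe_zero, zero_mul]
        exact Λ.zero_mem
      add_mem' := by
        intro a b ha hb
        show ((a + b : Λ) : X → K) * φ ∈ Λ
        rw [Subring.coe_add, add_mul]
        exact Λ.add_mem ha hb
      smul_mem' := by
        intro c a ha
        show ((c * a : Λ) : X → K) * φ ∈ Λ
        rw [Subring.coe_mul, mul_assoc]
        exact Λ.mul_mem c.2 ha }
  -- evaluation at a point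
  let evx : X → (Λ →+* A) := fun x =>
    { toFun := fun g => ⟨(g : X → K) x, hval g g.2 x⟩
      map_one' := rfl
      map_mul' := fun _ _ => rfl
      map_zero' := rfl
      map_add' := fun _ _ => rfl }
  let 𝔭 : X → Ideal Λ := fun x => Ideal.comap (evx x) (IsLocalRing.maximalIdeal A)
  have hprime : ∀ x, (𝔭 x).IsPrime := fun x => Ideal.comap_isPrime _ _
  have hunit : ∀ (D : Λ) (x : X), D ∉ 𝔭 x ↔ ((D : X → K) x ≠ 0 ∧ ((D : X → K) x)⁻¹ ∈ A) := by
    intro D x
    show ¬ (evx x D ∈ IsLocalRing.maximalIdeal A) ↔ _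
    rw [IsLocalRing.notMem_maximalIdeal]
    constructor
    · intro hu
      obtain ⟨b, hb⟩ := hu.exists_right_inv
      have hb' : (D : X → K) x * (b : K) = 1 := congrArg Subtype.val hb
      have hne : (D : X → K) x ≠ 0 := left_ne_zero_of_mul_eq_one hb'
      refine ⟨hne, ?_⟩
      rw [← eq_inv_of_mul_eq_one_right hb']
      exact b.2
    · rintro ⟨hne, hinv⟩
      refine IsUnit.of_mul_eq_one (⟨_, hinv⟩ : A) ?_
      apply Subtype.ext
      show (D : X → K) x * ((D : X → K) x)⁻¹ = 1
      exact mul_inv_cancel₀ hne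
  have hnot : ¬ ∃ x ∈ (Finset.univ : Finset X), I ≤ 𝔭 x := by
    rintro ⟨x, -, hle⟩
    obtain ⟨D, N, hD, hN, hDN, hu⟩ := h x
    have hDI : (⟨D, hD⟩ : Λ) ∈ I := by
      show D * φ ∈ Λ
      have : D * φ = N := funext hDN
      rw [this]
      exact hN
    exact (hunit ⟨D, hD⟩ x).mpr hu (hle hDI)
  rw [← Ideal.subset_union_prime x₁ x₁ (fun x _ _ _ => hprime x)] at hnot
  rw [Set.not_subset] at hnot
  obtain ⟨D, hDI, hDn⟩ := hnot
  simp only [Finset.coe_univ, Set.mem_univ, Set.iUnion_true, Set.mem_iUnion, SetLike.mem_coe,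
    not_exists] at hDn
  have hDu : ∀ x, (D : X → K) x ≠ 0 ∧ ((D : X → K) x)⁻¹ ∈ A := fun x => (hunit D x).mp (hDn x)
  exact div_mem_of_units A.toSubring Λ hconst (D : X → K) ((D : X → K) * φ) φ D.2 hDI
    (fun x => hval D D.2 x) hDu (fun x => rfl)

/-! ### Integrality of equivariant functions -/

lemma isIntegral_of_equivariant (A : Subring K)
    (hfix : ∀ a ∈ A, (∀ σ : G, σ • a = a) → ∃ r : R, algebraMap R K r = a)
    (act : G → M → M) (hinj : ∀ σ, Function.Injective (act σ)) (h : M → K) (hA : ∀ x, h x ∈ A)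
    (heq : ∀ σ x, h (act σ x) = σ • h x) : IsIntegral R h := by
  classical
  haveI := Fintype.ofFinite M
  set P := valuePoly h with hPdef
  have hfixP : ∀ (σ : G) n, σ • P.coeff n = P.coeff n := by
    intro σ n
    have hmap : P.map (MulSemiringAction.toRingHom G K σ) = P := by
      rw [hPdef, valuePoly, Polynomial.map_prod]
      have hbij : Function.Bijective (act σ) := Finite.injective_iff_bijective.mp (hinj σ)
      rw [← Equiv.prod_comp (Equiv.ofBijective _ hbij) (fun x => Polynomial.X - C (h x))]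
      refine Finset.prod_congr rfl fun x _ => ?_
      simp [heq]
    conv_rhs => rw [← hmap]
    rw [coeff_map]
    rfl
  have hlift : P ∈ lifts (algebraMap R K) := by
    rw [lifts_iff_coeff_lifts]
    intro n
    exact hfix _ (valuePoly_coeff_mem A h hA n) (fun σ => hfixP σ n)
  obtain ⟨Q, hQ, -, hQm⟩ := lifts_and_degree_eq_and_monic hlift (valuePoly_monic h)
  refine ⟨Q, hQm, ?_⟩
  funext x
  have h1 := Polynomial.hom_eval₂ Q (algebraMap R (M → K)) (Pi.evalRingHom (fun _ : M => K) x) h
  have h2 : (Pi.evalRingHom (fun _ : M => K) x).comp (algebraMap R (M → K)) = algebraMap R K := by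
    ext r
    rfl
  rw [h2] at h1
  show (Pi.evalRingHom (fun _ : M => K) x) (eval₂ (algebraMap R (M → K)) h Q) = 0
  rw [h1, ← eval_map, hQ]
  exact valuePoly_eval h x

/-! ### The ring of functions on pairs -/

/-- Generators of `pairRing`. -/
def pairGens (A : Subring K) (f : ι → M → K) : Set (M × M → K) :=
  {g | ∃ a ∈ A, g = fun _ => a} ∪ (Set.range (fun j (p : M × M) => f j p.1) ∪
    Set.range (fun j (p : M × M) => f j p.2))

/-- The ring of functions on `M × M` generated by the constants of `A` and the functions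
`(x, y) ↦ f j x`, `(x, y) ↦ f j y`. -/
def pairRing (A : Subring K) (f : ι → M → K) : Subring (M × M → K) :=
  Subring.closure (pairGens A f)

lemma const_mem_pairRing (A : Subring K) (f : ι → M → K) {a : K} (ha : a ∈ A) :
    (fun _ : M × M => a) ∈ pairRing A f :=
  Subring.subset_closure (Or.inl ⟨a, ha, rfl⟩)

lemma fst_mem_pairRing (A : Subring K) (f : ι → M → K) (j : ι) :
    (fun p : M × M => f j p.1) ∈ pairRing A f :=
  Subring.subset_closure (Or.inr (Or.inl ⟨j, rfl⟩))

lemma snd_mem_pairRing (A : Subring K) (f : ι → M → K) (j : ι) :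
    (fun p : M × M => f j p.2) ∈ pairRing A f :=
  Subring.subset_closure (Or.inr (Or.inr ⟨j, rfl⟩))

/-- The values of the elements of `pairRing` lie in `A`. -/
lemma pairRing_val_mem (A : Subring K) (f : ι → M → K) (hA : ∀ j x, f j x ∈ A)
    {g : M × M → K} (hg : g ∈ pairRing A f) (p : M × M) : g p ∈ A := by
  induction hg using Subring.closure_induction with
  | mem g hg =>
    rcases hg with ⟨a, ha, rfl⟩ | ⟨j, rfl⟩ | ⟨j, rfl⟩
    · exact ha
    · exact hA j _
    · exact hA j _
  | zero => exact A.zero_mem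
  | one => exact A.one_mem
  | add g g' _ _ hg hg' => exact A.add_mem hg hg'
  | neg g _ hg => exact A.neg_mem hg
  | mul g g' _ _ hg hg' => exact A.mul_mem hg hg'

/-- **Division in `pairRing`** by a function with unit values. -/
lemma div_mem_pairRing (A : Subring K) (f : ι → M → K) (hA : ∀ j x, f j x ∈ A)
    (D N g : M × M → K) (hD : D ∈ pairRing A f) (hN : N ∈ pairRing A f)
    (hDu : ∀ p, D p ≠ 0 ∧ (D p)⁻¹ ∈ A) (hg : ∀ p, D p * g p = N p) : g ∈ pairRing A f :=
  div_mem_of_units A (pairRing A f) (fun _ ha => const_mem_pairRing A f ha) D N g hD hN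
    (fun p => pairRing_val_mem A f hA hD p) hDu hg

/-! ### The Hopf order generated by `f` -/

/-- Hypotheses on the generators `f j`. -/
structure GenData (R : Type) [CommRing R] [Algebra R K] (A : Subring K) (act : G → M → M)
    (f : ι → M → K) : Prop where
  act_add : ∀ σ x y, act σ (x + y) = act σ x + act σ y
  act_inj : ∀ σ, Function.Injective (act σ)
  equivariant : ∀ j σ x, f j (act σ x) = σ • f j x
  integral : ∀ j x, f j x ∈ A
  separates : ∀ x y, x ≠ y → ∃ j, f j x ≠ f j y
  base : ∀ r : R, algebraMap R K r ∈ A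
  fixed : ∀ a ∈ A, (∀ σ : G, σ • a = a) → ∃ r : R, algebraMap R K r = a
  comul : ∀ j, (fun p : M × M => f j (p.1 + p.2)) ∈ pairRing A f

/-- The `R`-algebra of functions generated by the `f j`. -/
abbrev genAlg (R : Type) [CommRing R] [Algebra R K] (f : ι → M → K) : Subalgebra R (M → K) :=
  Algebra.adjoin R (Set.range f)

/-- Evaluation at a point. -/
noncomputable def evGen (R : Type) [CommRing R] [Algebra R K] (f : ι → M → K) (x : M) :
    ↥(genAlg R f) →ₐ[R] K :=
  (Pi.evalAlgHom R (fun _ : M => K) x).comp (genAlg R f).val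

@[simp] lemma evGen_apply (f : ι → M → K) (x : M) (h : genAlg R f) :
    evGen R f x h = (h : M → K) x := rfl

/-- The generators as elements of `genAlg`. -/
def gen (R : Type) [CommRing R] [Algebra R K] (f : ι → M → K) (j : ι) : genAlg R f :=
  ⟨f j, Algebra.subset_adjoin ⟨j, rfl⟩⟩

variable {A : Subring K} {act : G → M → M} {f : ι → M → K}

lemma genAlg_equivariant (hD : DescentData R K G) (hG : GenData R A act f)
    (h : genAlg R f) (σ : G) (x : M) : (h : M → K) (act σ x) = σ • (h : M → K) x := by
  obtain ⟨h, hh⟩ := h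
  show h (act σ x) = σ • h x
  induction hh using Algebra.adjoin_induction with
  | mem g hg =>
    obtain ⟨j, rfl⟩ := hg
    exact hG.equivariant j σ x
  | algebraMap r => exact (hD.fixR σ r).symm
  | add g g' _ _ hg hg' =>
    show g (act σ x) + g' (act σ x) = σ • (g x + g' x)
    rw [smul_add, hg, hg']
  | mul g g' _ _ hg hg' =>
    show g (act σ x) * g' (act σ x) = σ • (g x * g' x)
    rw [smul_mul', hg, hg']

lemma genAlg_val_mem (hG : GenData R A act f) (h : genAlg R f) (x : M) :
    (h : M → K) x ∈ A := by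
  obtain ⟨h, hh⟩ := h
  show h x ∈ A
  induction hh using Algebra.adjoin_induction with
  | mem g hg =>
    obtain ⟨j, rfl⟩ := hg
    exact hG.integral j x
  | algebraMap r => exact hG.base r
  | add g g' _ _ hg hg' => exact A.add_mem hg hg'
  | mul g g' _ _ hg hg' => exact A.mul_mem hg hg'

lemma genAlg_finite [Finite ι] (hG : GenData R A act f) : Module.Finite R (genAlg R f) := by
  have hfg : (genAlg R f).toSubmodule.FG := by
    refine fg_adjoin_of_finite (Set.finite_range f) ?_
    rintro _ ⟨j, rfl⟩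
    exact isIntegral_of_equivariant A hG.fixed act hG.act_inj (f j) (hG.integral j)
      (hG.equivariant j)
  exact Module.Finite.of_fg hfg

lemma genAlg_torsionFree (hD : DescentData R K G) :
    Module.IsTorsionFree R (genAlg R f) := by
  refine ⟨fun r hr => ?_⟩
  have hr0 : algebraMap R K r ≠ 0 := by
    intro h
    have : r = 0 := hD.inj (by rw [h, map_zero])
    exact hr.ne_zero this
  intro q₁ q₂ h
  have h' : r • q₁ = r • q₂ := h
  apply Subtype.ext
  funext x
  have := congrArg (evGen R f x) h'
  rw [Algebra.smul_def, Algebra.smul_def, map_mul, map_mul, AlgHom.commutes] at this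
  exact mul_left_cancel₀ hr0 this

lemma evFam_gen_separating : Separating (evFam (evGen R f)) := by
  intro q hq
  apply Subtype.ext
  funext x
  exact hq _ ⟨x, rfl⟩

lemma evFam_gen_gstable (hD : DescentData R K G) (hG : GenData R A act f) :
    GStable G (evFam (evGen R f)) := by
  rintro σ _ ⟨x, rfl⟩
  exact ⟨(evGen R f (act σ x)).toLinearMap, ⟨act σ x, rfl⟩,
    fun q => genAlg_equivariant hD hG q σ x⟩

/-- Linear independence over `K` of a basis of `genAlg`, as functions on `M`. -/
lemma gen_indep (hD : DescentData R K G) (hG : GenData R A act f) {n : Type} [Fintype n]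
    (e : Module.Basis n R (genAlg R f)) (c : n → K)
    (hc : ∀ x, ∑ p, c p * (e p : M → K) x = 0) : c = 0 := by
  refine descent_inj hD e (evFam (evGen R f)) (evFam_gen_gstable hD hG) evFam_gen_separating c ?_
  rintro _ ⟨x, rfl⟩
  exact hc x

/-- Linear independence over `K` of the products `e p x * e q y`. -/
lemma gen_indep₂ (hD : DescentData R K G) (hG : GenData R A act f) {n : Type} [Fintype n]
    (e : Module.Basis n R (genAlg R f)) (c : n → n → K)
    (hc : ∀ x y, ∑ p, ∑ q, c p q * ((e p : M → K) x * (e q : M → K) y) = 0) :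
    ∀ p q, c p q = 0 := by
  have h1 : ∀ y, (fun p => ∑ q, c p q * (e q : M → K) y) = 0 := by
    intro y
    apply gen_indep hD hG e
    intro x
    rw [← hc x y]
    refine Finset.sum_congr rfl fun p _ => ?_
    rw [Finset.sum_mul]
    refine Finset.sum_congr rfl fun q _ => ?_
    ring
  intro p
  have h2 : (fun q => c p q) = 0 := by
    apply gen_indep hD hG e
    intro y
    exact congrFun (h1 y) p
  exact fun q => congrFun h2 q

/-- A function of two variables which is a finite sum of products `a x * b y`, `a, b ∈ H`. -/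
def HasSplit (R : Type) [CommRing R] [Algebra R K] (f : ι → M → K) (g : M × M → K) : Prop :=
  ∃ (κ : Type) (_ : Fintype κ) (a b : κ → genAlg R f),
    ∀ x y, g (x, y) = ∑ i, (a i : M → K) x * (b i : M → K) y

/-- The same with coefficients in `A`. -/
def HasSplitA (R : Type) [CommRing R] [Algebra R K] (A : Subring K) (f : ι → M → K)
    (g : M × M → K) : Prop :=
  ∃ (κ : Type) (_ : Fintype κ) (c : κ → K) (a b : κ → genAlg R f), (∀ i, c i ∈ A) ∧
    ∀ x y, g (x, y) = ∑ i, c i * ((a i : M → K) x * (b i : M → K) y)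

lemma hasSplitA_of_mem_pairRing (A : Subring K) (f : ι → M → K) {g : M × M → K}
    (hg : g ∈ pairRing A f) : HasSplitA R A f g := by
  induction hg using Subring.closure_induction with
  | mem g hg =>
    rcases hg with ⟨a, ha, rfl⟩ | ⟨j, rfl⟩ | ⟨j, rfl⟩
    · exact ⟨Unit, inferInstance, fun _ => a, fun _ => 1, fun _ => 1, fun _ => ha,
        fun x y => by simp⟩
    · exact ⟨Unit, inferInstance, fun _ => 1, fun _ => gen R f j, fun _ => 1,
        fun _ => A.one_mem, fun x y => by simp [gen]⟩
    · exact ⟨Unit, inferInstance, fun _ => 1, fun _ => 1, fun _ => gen R f j,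
        fun _ => A.one_mem, fun x y => by simp [gen]⟩
  | zero =>
    exact ⟨Empty, inferInstance, fun _ => 0, fun _ => 0, fun _ => 0, fun i => i.elim,
      fun x y => by simp⟩
  | one =>
    exact ⟨Unit, inferInstance, fun _ => 1, fun _ => 1, fun _ => 1, fun _ => A.one_mem,
      fun x y => by simp⟩
  | add g g' _ _ hg hg' =>
    obtain ⟨κ, _, c, a, b, hc, h⟩ := hg
    obtain ⟨κ', _, c', a', b', hc', h'⟩ := hg'
    refine ⟨κ ⊕ κ', inferInstance, Sum.elim c c', Sum.elim a a', Sum.elim b b', ?_, ?_⟩
    · rintro (i | i)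
      · exact hc i
      · exact hc' i
    · intro x y
      rw [Fintype.sum_sum_type]
      simp only [Sum.elim_inl, Sum.elim_inr]
      rw [← h x y, ← h' x y]
      rfl
  | neg g _ hg =>
    obtain ⟨κ, _, c, a, b, hc, h⟩ := hg
    refine ⟨κ, inferInstance, fun i => - c i, a, b, fun i => A.neg_mem (hc i), ?_⟩
    intro x y
    show - g (x, y) = _
    rw [h x y, ← Finset.sum_neg_distrib]
    refine Finset.sum_congr rfl fun i _ => ?_
    ring
  | mul g g' _ _ hg hg' =>
    obtain ⟨κ, _, c, a, b, hc, h⟩ := hg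
    obtain ⟨κ', _, c', a', b', hc', h'⟩ := hg'
    refine ⟨κ × κ', inferInstance, fun i => c i.1 * c' i.2, fun i => a i.1 * a' i.2,
      fun i => b i.1 * b' i.2, fun i => A.mul_mem (hc _) (hc' _), ?_⟩
    intro x y
    show g (x, y) * g' (x, y) = _
    rw [h x y, h' x y, Fintype.sum_prod_type, Finset.sum_mul_sum]
    refine Finset.sum_congr rfl fun i _ => Finset.sum_congr rfl fun j _ => ?_
    show _ = c i * c' j * (((a i : M → K) x * (a' j : M → K) x) *
      ((b i : M → K) y * (b' j : M → K) y))
    ring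

/-- Descent of the coefficients from `A` to `R`. -/
lemma hasSplit_of_hasSplitA [Finite ι] (hD : DescentData R K G) (hG : GenData R A act f)
    {g : M × M → K} (hg : HasSplitA R A f g)
    (heq : ∀ σ x y, g (act σ x, act σ y) = σ • g (x, y)) : HasSplit R f g := by
  classical
  haveI := genAlg_finite hG
  haveI := genAlg_torsionFree (f := f) hD
  haveI : Module.Free R (genAlg R f) := Module.free_of_finite_type_torsion_free'
  set e := Module.Free.chooseBasis R (genAlg R f) with he
  obtain ⟨κ, _, c, a, b, hc, h⟩ := hg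
  have hexp : ∀ (u : genAlg R f) (x : M),
      (u : M → K) x = ∑ p, algebraMap R K (e.repr u p) * (e p : M → K) x := by
    intro u x
    have h1 : evGen R f x u = evGen R f x (∑ p, e.repr u p • e p) := by rw [e.sum_repr u]
    rw [map_sum] at h1
    rw [← evGen_apply, h1]
    refine Finset.sum_congr rfl fun p _ => ?_
    rw [Algebra.smul_def, map_mul, AlgHom.commutes]
    rfl
  set Cm : _ → _ → K := fun p q =>
    ∑ i, c i * (algebraMap R K (e.repr (a i) p) * algebraMap R K (e.repr (b i) q)) with hCm
  have hg' : ∀ x y, g (x, y) = ∑ p, ∑ q, Cm p q * ((e p : M → K) x * (e q : M → K) y) := by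
    intro x y
    rw [h x y]
    have h2 : ∀ i, c i * ((a i : M → K) x * (b i : M → K) y) =
        ∑ p, ∑ q, c i * (algebraMap R K (e.repr (a i) p) * algebraMap R K (e.repr (b i) q)) *
          ((e p : M → K) x * (e q : M → K) y) := by
      intro i
      rw [hexp (a i) x, hexp (b i) y, Finset.sum_mul_sum, Finset.mul_sum]
      refine Finset.sum_congr rfl fun p _ => ?_
      rw [Finset.mul_sum]
      refine Finset.sum_congr rfl fun q _ => ?_
      ring
    simp only [h2]
    rw [Finset.sum_comm]
    refine Finset.sum_congr rfl fun p _ => ?_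
    rw [Finset.sum_comm]
    refine Finset.sum_congr rfl fun q _ => ?_
    rw [hCm, Finset.sum_mul]
  have hCA : ∀ p q, Cm p q ∈ A := fun p q =>
    Subring.sum_mem _ fun i _ => A.mul_mem (hc i) (A.mul_mem (hG.base _) (hG.base _))
  have hfix : ∀ (σ : G) p q, σ • Cm p q = Cm p q := by
    intro σ p q
    have h3 := gen_indep₂ hD hG e (fun p q => σ • Cm p q - Cm p q) ?_ p q
    · exact sub_eq_zero.mp h3
    intro x' y'
    have hbij : Function.Bijective (act σ) := Finite.injective_iff_bijective.mp (hG.act_inj σ)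
    obtain ⟨x, rfl⟩ := hbij.2 x'
    obtain ⟨y, rfl⟩ := hbij.2 y'
    have h4 : ∑ p, ∑ q, (σ • Cm p q) * ((e p : M → K) (act σ x) * (e q : M → K) (act σ y)) =
        σ • g (x, y) := by
      rw [hg' x y, Finset.smul_sum]
      refine Finset.sum_congr rfl fun p _ => ?_
      rw [Finset.smul_sum]
      refine Finset.sum_congr rfl fun q _ => ?_
      rw [smul_mul', smul_mul', genAlg_equivariant hD hG, genAlg_equivariant hD hG]
    have h5 : ∑ p, ∑ q, (σ • Cm p q - Cm p q) *
        ((e p : M → K) (act σ x) * (e q : M → K) (act σ y)) =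
        ∑ p, ∑ q, (σ • Cm p q) * ((e p : M → K) (act σ x) * (e q : M → K) (act σ y)) -
        ∑ p, ∑ q, Cm p q * ((e p : M → K) (act σ x) * (e q : M → K) (act σ y)) := by
      rw [← Finset.sum_sub_distrib]
      refine Finset.sum_congr rfl fun p _ => ?_
      rw [← Finset.sum_sub_distrib]
      refine Finset.sum_congr rfl fun q _ => ?_
      ring
    rw [h5, h4, ← hg', heq, sub_self]
  choose ρ hρ using fun p q => hG.fixed (Cm p q) (hCA p q) (fun σ => hfix σ p q)
  refine ⟨_ × _, inferInstance, fun i => ρ i.1 i.2 • e i.1, fun i => e i.2, ?_⟩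
  intro x y
  rw [hg' x y, Fintype.sum_prod_type]
  refine Finset.sum_congr rfl fun p _ => Finset.sum_congr rfl fun q _ => ?_
  have h6 : ((ρ p q • e p : genAlg R f) : M → K) x = Cm p q * (e p : M → K) x := by
    rw [← hρ p q, ← evGen_apply, Algebra.smul_def, map_mul, AlgHom.commutes]
    rfl
  rw [h6]
  ring

/-- Every element of `genAlg` has a "comultiplication". -/
lemma hasSplit_add [Finite ι] (hD : DescentData R K G) (hG : GenData R A act f)
    (h : genAlg R f) : HasSplit R f (fun p => (h : M → K) (p.1 + p.2)) := by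
  obtain ⟨h, hh⟩ := h
  show HasSplit R f (fun p => h (p.1 + p.2))
  induction hh using Algebra.adjoin_induction with
  | mem g hg =>
    obtain ⟨j, rfl⟩ := hg
    refine hasSplit_of_hasSplitA hD hG (hasSplitA_of_mem_pairRing A f (hG.comul j)) ?_
    intro σ x y
    show f j (act σ x + act σ y) = σ • f j (x + y)
    rw [← hG.act_add, hG.equivariant]
  | algebraMap r =>
    refine ⟨Unit, inferInstance, fun _ => algebraMap R _ r, fun _ => 1, ?_⟩
    intro x y
    simp only [Finset.univ_unique, Finset.sum_singleton]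
    show algebraMap R K r = algebraMap R K r * 1
    rw [mul_one]
  | add g g' _ _ hg hg' =>
    obtain ⟨κ, _, a, b, h⟩ := hg
    obtain ⟨κ', _, a', b', h'⟩ := hg'
    refine ⟨κ ⊕ κ', inferInstance, Sum.elim a a', Sum.elim b b', ?_⟩
    intro x y
    rw [Fintype.sum_sum_type]
    simp only [Sum.elim_inl, Sum.elim_inr]
    rw [← h x y, ← h' x y]
    rfl
  | mul g g' _ _ hg hg' =>
    obtain ⟨κ, _, a, b, h⟩ := hg
    obtain ⟨κ', _, a', b', h'⟩ := hg'
    refine ⟨κ × κ', inferInstance, fun i => a i.1 * a' i.2, fun i => b i.1 * b' i.2, ?_⟩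
    intro x y
    show g (x + y) * g' (x + y) = _
    have e1 := h x y
    have e2 := h' x y
    simp only at e1 e2
    rw [e1, e2, Fintype.sum_prod_type, Finset.sum_mul_sum]
    refine Finset.sum_congr rfl fun i _ => Finset.sum_congr rfl fun j _ => ?_
    show _ = ((a i : M → K) x * (a' j : M → K) x) * ((b i : M → K) y * (b' j : M → K) y)
    ring

/-- **Hopf orders from generators.** -/
theorem isHopfOrder_of_genData [Finite ι] (hD : DescentData R K G) (hG : GenData R A act f) :
    IsHopfOrder act (evGen R f) where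
  equivariant h σ x := genAlg_equivariant hD hG h σ x
  finite := genAlg_finite hG
  faithful h hh := Subtype.ext (funext hh)
  separates x y hxy := by
    obtain ⟨j, hj⟩ := hG.separates x y hxy
    exact ⟨gen R f j, hj⟩
  comul h := by
    classical
    obtain ⟨κ, _, a, b, hab⟩ := hasSplit_add hD hG h
    refine ⟨Fintype.card κ, fun i => a ((Fintype.equivFin κ).symm i),
      fun i => b ((Fintype.equivFin κ).symm i), fun x y => ?_⟩
    have e1 := hab x y
    simp only at e1
    rw [evGen_apply, e1]
    exact (Fintype.sum_equiv (Fintype.equivFin κ).symm _ _ (fun i => rfl)).symm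

/-- Hopf orders from generators over `ℤ_(p)`: the conclusion is the condition of the prelude
(`GaloisRepAdic.IsFlatAt`, frozen S19) for the group `M`. -/
theorem flat_of_genData [Finite ι] (p : ℕ) {M : Type} [AddCommGroup M] [Finite M]
    {A : Subring (AlgebraicClosure ℚ)} (act : GalQ → M → M)
    (f : ι → M → AlgebraicClosure ℚ)
    (hG : GenData (GaloisRep.ratLocalizedAt p) A act f) :
    ∃ (H' : Type) (_ : CommRing H') (_ : HopfAlgebra (GaloisRep.ratLocalizedAt p) H'),
      Module.Finite (GaloisRep.ratLocalizedAt p) H' ∧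
      Module.Flat (GaloisRep.ratLocalizedAt p) H' ∧
      Coalgebra.IsCocomm (GaloisRep.ratLocalizedAt p) H' ∧
      ∃ e : WithConv (H' →ₐ[GaloisRep.ratLocalizedAt p] AlgebraicClosure ℚ) ≃ M,
        (∀ f g : WithConv (H' →ₐ[GaloisRep.ratLocalizedAt p] AlgebraicClosure ℚ),
          e (f * g) = e f + e g) ∧
        ∀ (σ : AlgebraicClosure ℚ ≃ₐ[ℚ] AlgebraicClosure ℚ)
          (f g : WithConv (H' →ₐ[GaloisRep.ratLocalizedAt p] AlgebraicClosure ℚ)),
          (∀ h : H', g h = σ (f h)) → e g = act σ (e f) := by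
  haveI := ratLocalizedAt_isPrincipalIdealRing p
  exact flat_of_isHopfOrder p act _ (isHopfOrder_of_genData (descentData_rat p) hG)

/-- **Local division in `pairRing`**: to show `φ ∈ pairRing A f` it is enough to find for every
pair `p₀` a denominator `D ∈ pairRing A f` with `D p₀` a unit of `A` and `D * φ ∈ pairRing A f`. -/
lemma mem_pairRing_of_local (A : ValuationSubring K) (f : ι → M → K) (hA : ∀ j x, f j x ∈ A)
    (φ : M × M → K)
    (h : ∀ p₀ : M × M, ∃ D N : M × M → K, D ∈ pairRing A.toSubring f ∧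
      N ∈ pairRing A.toSubring f ∧ (∀ p, D p * φ p = N p) ∧ (D p₀ ≠ 0 ∧ (D p₀)⁻¹ ∈ A)) :
    φ ∈ pairRing A.toSubring f :=
  mem_of_local_units A (pairRing A.toSubring f)
    (fun _ ha => const_mem_pairRing A.toSubring f ha)
    (fun _ hg x => pairRing_val_mem A.toSubring f hA hg x) φ h

end Gen




section ConcreteGen

open GaloisRep IsLocalRing

/-- An integer prime to `p` is a unit at every place over `p`. -/
lemma intCast_isUnit_of_coprime (A : ValuationSubring (AlgebraicClosure ℚ)) (p : ℕ)
    (hA : A.LiesOverPrime p) (d : ℤ) (hd : IsCoprime d (p : ℤ)) : IsUnit (d : A) := by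
  have hp : ((p : ℕ) : A) ∈ maximalIdeal A := by
    obtain ⟨ha, h⟩ := ValuationSubring.mem_nonunits_iff_exists_mem_maximalIdeal.mp hA
    exact h
  by_contra hnu
  have hdm : (d : A) ∈ maximalIdeal A := by
    rwa [← mem_nonunits_iff, ← IsLocalRing.mem_maximalIdeal] at hnu
  obtain ⟨u, v, huv⟩ := hd
  have h1 : ((u : A) * (d : A) + (v : A) * ((p : ℕ) : A)) ∈ maximalIdeal A :=
    Ideal.add_mem _ (Ideal.mul_mem_left _ _ hdm) (Ideal.mul_mem_left _ _ hp)
  have h2 : ((u : A) * (d : A) + (v : A) * ((p : ℕ) : A)) = 1 := by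
    have := congrArg (fun z : ℤ => (z : A)) huv
    simpa using this
  rw [h2] at h1
  exact (Ideal.ne_top_iff_one _).mp (maximalIdeal.isMaximal A).ne_top h1

/-- `ℤ_(p)` lies in every valuation subring over `p`. -/
lemma base_of_liesOver (A : ValuationSubring (AlgebraicClosure ℚ)) (p : ℕ)
    (hA : A.LiesOverPrime p) (r : ratLocalizedAt p) :
    algebraMap (ratLocalizedAt p) (AlgebraicClosure ℚ) r ∈ A.toSubring := by
  rw [algebraMap_rat_apply]
  have hr : ((r : ℚ).den).Coprime p := r.2
  have hu := intCast_isUnit_of_coprime A p hA ((r : ℚ).den : ℤ)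
    (Nat.isCoprime_iff_coprime.mpr hr)
  obtain ⟨b, hb⟩ := hu.exists_right_inv
  have hb' : (((r : ℚ).den : ℤ) : AlgebraicClosure ℚ) * (b : AlgebraicClosure ℚ) = 1 := by
    have := congrArg Subtype.val hb
    simpa using this
  have hq : algebraMap ℚ (AlgebraicClosure ℚ) (r : ℚ) =
      (((r : ℚ).num : ℤ) : AlgebraicClosure ℚ) * (b : AlgebraicClosure ℚ) := by
    have hden : (((r : ℚ).den : ℤ) : AlgebraicClosure ℚ) ≠ 0 := left_ne_zero_of_mul_eq_one hb'
    have h3 : algebraMap ℚ (AlgebraicClosure ℚ) (r : ℚ) *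
        (((r : ℚ).den : ℤ) : AlgebraicClosure ℚ) = (((r : ℚ).num : ℤ) : AlgebraicClosure ℚ) := by
      have h4 : (r : ℚ) * (((r : ℚ).den : ℤ) : ℚ) = (((r : ℚ).num : ℤ) : ℚ) := by
        push_cast
        exact Rat.mul_den_eq_num (r : ℚ)
      have h5 := congrArg (algebraMap ℚ (AlgebraicClosure ℚ)) h4
      rwa [map_mul, map_intCast, map_intCast] at h5
    calc algebraMap ℚ (AlgebraicClosure ℚ) (r : ℚ)
        = algebraMap ℚ (AlgebraicClosure ℚ) (r : ℚ) *
          ((((r : ℚ).den : ℤ) : AlgebraicClosure ℚ) * (b : AlgebraicClosure ℚ)) := by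
            rw [hb', mul_one]
      _ = _ := by rw [← mul_assoc, h3]
  rw [hq]
  exact A.toSubring.mul_mem (intCast_mem _ _) b.2

/-- The `G_ℚ`-fixed elements of a valuation subring over a prime `p` lie in `ℤ_(p)`. -/
lemma fixed_of_liesOver (A : ValuationSubring (AlgebraicClosure ℚ)) (p : ℕ) (hp : p.Prime)
    (hA : A.LiesOverPrime p) (a : AlgebraicClosure ℚ) (ha : a ∈ A.toSubring)
    (hfix : ∀ σ : GalQ, σ • a = a) :
    ∃ r : ratLocalizedAt p, algebraMap (ratLocalizedAt p) (AlgebraicClosure ℚ) r = a := by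
  haveI : Algebra.IsAlgebraic ℚ (AlgebraicClosure ℚ) := AlgebraicClosure.isAlgebraic ℚ
  haveI : IsAlgClosure ℚ (AlgebraicClosure ℚ) := ⟨inferInstance, inferInstance⟩
  haveI : IsGalois ℚ (AlgebraicClosure ℚ) := inferInstance
  have hbot : a ∈ (⊥ : IntermediateField ℚ (AlgebraicClosure ℚ)) :=
    (InfiniteGalois.mem_bot_iff_fixed a).mpr hfix
  obtain ⟨q, rfl⟩ := IntermediateField.mem_bot.mp hbot
  suffices hq : q.den.Coprime p from ⟨⟨q, hq⟩, rfl⟩
  by_contra hnc
  have hpd : p ∣ q.den := by
    rcases Nat.coprime_or_dvd_of_prime hp q.den with h | h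
    · exact absurd h.symm hnc
    · exact h
  -- the numerator is a unit of `A`
  have hnum : IsCoprime (q.num : ℤ) (p : ℤ) := by
    have h1 : (q.num.natAbs).Coprime q.den := q.reduced
    have h2 : (q.num.natAbs).Coprime p := Nat.Coprime.coprime_dvd_right hpd h1
    have h3 := Nat.isCoprime_iff_coprime.mpr h2
    rcases Int.natAbs_eq q.num with h | h
    · rw [h]; exact h3
    · rw [h]; exact h3.neg_left
  have hu := intCast_isUnit_of_coprime A p hA q.num hnum
  -- but it lies in the maximal ideal
  have hpm : ((p : ℕ) : A) ∈ maximalIdeal A := by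
    obtain ⟨ha, h⟩ := ValuationSubring.mem_nonunits_iff_exists_mem_maximalIdeal.mp hA
    exact h
  obtain ⟨c, hc⟩ := hpd
  have hnumeq : (q.num : A) = (⟨_, ha⟩ : A) * ((c : ℕ) : A) * ((p : ℕ) : A) := by
    apply Subtype.ext
    have h5 := congrArg (algebraMap ℚ (AlgebraicClosure ℚ)) (Rat.mul_den_eq_num q)
    rw [hc] at h5
    simp only [map_mul, map_natCast, map_intCast, Nat.cast_mul] at h5
    show ((q.num : ℤ) : AlgebraicClosure ℚ) = _
    rw [← h5]
    push_cast
    ring
  have : (q.num : A) ∈ maximalIdeal A := by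
    rw [hnumeq]
    exact Ideal.mul_mem_left _ _ hpm
  exact (IsLocalRing.mem_maximalIdeal _).mp this hu

/-- **Generator criterion over `ℤ_(p)`**, ready to use: `A` a valuation subring of `ℚ̄` over the
prime `p`, `f j` finitely many `G_ℚ`-equivariant `A`-valued functions on the finite `G_ℚ`-module
`M` separating its points, with `(x, y) ↦ f j (x + y)` in `pairRing A f` (use
`mem_pairRing_of_local` or `div_mem_pairRing`). The conclusion is the condition of the prelude
(`GaloisRepAdic.IsFlatAt`, frozen S19) for the group `M`. -/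
theorem flat_of_generators {ι : Type} [Finite ι] (p : ℕ) (hp : p.Prime)
    {M : Type} [AddCommGroup M] [Finite M]
    (A : ValuationSubring (AlgebraicClosure ℚ)) (hA : A.LiesOverPrime p)
    (act : GalQ → M → M) (f : ι → M → AlgebraicClosure ℚ)
    (act_add : ∀ σ x y, act σ (x + y) = act σ x + act σ y)
    (act_inj : ∀ σ, Function.Injective (act σ))
    (equivariant : ∀ j σ x, f j (act σ x) = σ (f j x))
    (integral : ∀ j x, f j x ∈ A)
    (separates : ∀ x y, x ≠ y → ∃ j, f j x ≠ f j y)
    (comul : ∀ j, (fun q : M × M => f j (q.1 + q.2)) ∈ pairRing A.toSubring f) :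
    ∃ (H' : Type) (_ : CommRing H') (_ : HopfAlgebra (GaloisRep.ratLocalizedAt p) H'),
      Module.Finite (GaloisRep.ratLocalizedAt p) H' ∧
      Module.Flat (GaloisRep.ratLocalizedAt p) H' ∧
      Coalgebra.IsCocomm (GaloisRep.ratLocalizedAt p) H' ∧
      ∃ e : WithConv (H' →ₐ[GaloisRep.ratLocalizedAt p] AlgebraicClosure ℚ) ≃ M,
        (∀ f g : WithConv (H' →ₐ[GaloisRep.ratLocalizedAt p] AlgebraicClosure ℚ),
          e (f * g) = e f + e g) ∧
        ∀ (σ : AlgebraicClosure ℚ ≃ₐ[ℚ] AlgebraicClosure ℚ)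
          (f g : WithConv (H' →ₐ[GaloisRep.ratLocalizedAt p] AlgebraicClosure ℚ)),
          (∀ h : H', g h = σ (f h)) → e g = act σ (e f) :=
  flat_of_genData p act f
    { act_add := act_add
      act_inj := act_inj
      equivariant := equivariant
      integral := integral
      separates := separates
      base := base_of_liesOver A p hA
      fixed := fixed_of_liesOver A p hp hA
      comul := comul }

end ConcreteGen

end Fermat.Agent.Lib.HopfOrder
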