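/-
helper67: piece B1 of Kummer's lemma (FLT_p route for S10/S11).
Pure group theory + Dirichlet's unit theorem (Mathlib only).
-/
import Mathlib

set_option autoImplicit false

namespace Fermat.Agent.Lib.KummerCount

open NumberField

section GroupTheory

variable {G : Type*} [CommGroup G]

/-- The subgroup of `p`-th powers of a commutative group. -/
def powSubgroup (G : Type*) [CommGroup G] (p : ℕ) : Subgroup G := (powMonoidHom p : G →* G).range

lemma mem_powSubgroup_iff {p : ℕ} {x : G} : x ∈ powSubgroup G p ↔ ∃ v : G, v ^ p = x := by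
  simp [powSubgroup, MonoidHom.mem_range]

/-- `x ^ (k : ℤ)` and `x ^ ((k : ZMod p).val)` agree modulo `p`-th powers. -/
lemma zpow_div_pow_val_mem (p : ℕ) [NeZero p] (x : G) (k : ℤ) :
    x ^ k / x ^ ((k : ZMod p).val) ∈ powSubgroup G p := by
  rw [mem_powSubgroup_iff]
  have hdvd : (p : ℤ) ∣ k - ((k : ZMod p).val : ℤ) := by
    rw [← ZMod.intCast_zmod_eq_zero_iff_dvd]
    simp
  obtain ⟨c, hc⟩ := hdvd
  refine ⟨x ^ c, ?_⟩
  rw [div_eq_mul_inv, ← zpow_natCast, ← zpow_mul, mul_comm, ← hc, zpow_sub, zpow_natCast]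

/-- the class of `∏ g j ^ (e j).val` in `G / G^p`. -/
noncomputable def classMap (p : ℕ) {κ : Type*} [Fintype κ] (g : κ → G) (e : κ → ZMod p) :
    G ⧸ powSubgroup G p :=
  QuotientGroup.mk (∏ j, g j ^ (e j).val)

lemma classMap_surjective (p : ℕ) [NeZero p] {κ : Type*} [Fintype κ] (g : κ → G)
    (hg : ∀ x : G, ∃ k : κ → ℤ, x = ∏ j, g j ^ k j) :
    Function.Surjective (classMap p g) := by
  intro q
  obtain ⟨x, rfl⟩ := QuotientGroup.mk_surjective q
  obtain ⟨k, rfl⟩ := hg x
  refine ⟨fun j => (k j : ZMod p), ?_⟩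
  unfold classMap
  rw [QuotientGroup.eq, ← Finset.prod_inv_distrib, ← Finset.prod_mul_distrib]
  refine Subgroup.prod_mem _ fun j _ => ?_
  have := zpow_div_pow_val_mem p (g j) (k j)
  rwa [div_eq_mul_inv, mul_comm] at this

lemma classMap_injective (p : ℕ) [Fact p.Prime] {ι : Type*} [Fintype ι] (u : ι → G)
    (P : Subgroup G) (hP : ∀ v : G, v ^ p ∈ P)
    (hind : ∀ e : ι → ℤ, ∏ i, u i ^ e i ∈ P → ∀ i, (p : ℤ) ∣ e i) :
    Function.Injective (classMap p u) := by
  intro e e' h
  unfold classMap at h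
  rw [QuotientGroup.eq, mem_powSubgroup_iff] at h
  obtain ⟨v, hv⟩ := h
  have hmem : ∏ i, u i ^ (((e' i).val : ℤ) - ((e i).val : ℤ)) ∈ P := by
    have : ∏ i, u i ^ (((e' i).val : ℤ) - ((e i).val : ℤ)) = v ^ p := by
      rw [hv, ← Finset.prod_inv_distrib, ← Finset.prod_mul_distrib]
      refine Finset.prod_congr rfl fun i _ => ?_
      rw [zpow_sub, zpow_natCast, zpow_natCast, mul_comm]
    rw [this]
    exact hP v
  funext i
  have hdvd := hind _ hmem i
  have h0 : (((((e' i).val : ℤ) - ((e i).val : ℤ)) : ℤ) : ZMod p) = 0 :=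
    (ZMod.intCast_zmod_eq_zero_iff_dvd _ p).mpr hdvd
  have : NeZero p := ⟨(Fact.out : p.Prime).ne_zero⟩
  simp only [Int.cast_sub, Int.cast_natCast, ZMod.natCast_zmod_val] at h0
  exact (sub_eq_zero.mp h0).symm

/-- **Counting lemma.** If a commutative group `G` is generated by a family `g` indexed by `κ`,
and `u : ι → G` is a family with `card κ ≤ card ι` that is independent modulo a subgroup `P`
containing all `p`-th powers, then `P` consists exactly of `p`-th powers. -/
theorem mem_pow_of_mem_of_independent (p : ℕ) [Fact p.Prime] {ι κ : Type*} [Fintype ι]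
    [Fintype κ] (g : κ → G) (hg : ∀ x : G, ∃ k : κ → ℤ, x = ∏ j, g j ^ k j)
    (hcard : Fintype.card κ ≤ Fintype.card ι) (u : ι → G)
    (P : Subgroup G) (hP : ∀ v : G, v ^ p ∈ P)
    (hind : ∀ e : ι → ℤ, ∏ i, u i ^ e i ∈ P → ∀ i, (p : ℤ) ∣ e i) :
    ∀ w ∈ P, ∃ v : G, w = v ^ p := by
  classical
  have : NeZero p := ⟨(Fact.out : p.Prime).ne_zero⟩
  have hsurj := classMap_surjective p g hg
  have hinj := classMap_injective p u P hP hind
  have : Finite (G ⧸ powSubgroup G p) := Finite.of_surjective _ hsurj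
  have hc1 : Nat.card (G ⧸ powSubgroup G p) ≤ Nat.card (κ → ZMod p) :=
    Nat.card_le_card_of_surjective _ hsurj
  have hc2 : Nat.card (κ → ZMod p) ≤ Nat.card (ι → ZMod p) := by
    simp only [Nat.card_eq_fintype_card, Fintype.card_fun, ZMod.card]
    exact Nat.pow_le_pow_right (Fact.out : p.Prime).pos hcard
  have hbij := hinj.bijective_of_nat_card_le (hc1.trans hc2)
  intro w hw
  obtain ⟨e, he⟩ := hbij.2 (QuotientGroup.mk w)
  unfold classMap at he
  rw [QuotientGroup.eq, mem_powSubgroup_iff] at he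
  obtain ⟨v, hv⟩ := he
  -- `w = (∏ u i ^ (e i).val) * v ^ p`
  have hw' : w = (∏ i, u i ^ (e i).val) * v ^ p := by
    rw [hv]; simp
  have hmem : ∏ i, u i ^ (((e i).val : ℕ) : ℤ) ∈ P := by
    have : ∏ i, u i ^ (((e i).val : ℕ) : ℤ) = w * (v⁻¹) ^ p := by
      simp only [zpow_natCast]
      rw [hw', inv_pow, mul_inv_cancel_right]
    rw [this]
    exact P.mul_mem hw (hP _)
  have hzero : ∀ i, (e i).val = 0 := by
    intro i
    have hdvd := hind _ hmem i
    have hlt : (e i).val < p := ZMod.val_lt _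
    have : p ∣ (e i).val := by exact_mod_cast hdvd
    exact Nat.eq_zero_of_dvd_of_lt this hlt
  refine ⟨v, ?_⟩
  rw [hw']
  simp [hzero]

end GroupTheory

section NumberField

variable (K : Type*) [Field K] [NumberField K]

/-- The unit group of a number field is generated (as an abstract group, with integer exponents)
by a family indexed by `Option (Fin (rank K))`: a generator of the torsion and a fundamental
system. -/
lemma exists_generators_units :
    ∃ g : Option (Fin (Units.rank K)) → (𝓞 K)ˣ,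
      ∀ x : (𝓞 K)ˣ, ∃ k : Option (Fin (Units.rank K)) → ℤ, x = ∏ j, g j ^ k j := by
  classical
  obtain ⟨t, ht⟩ := IsCyclic.exists_generator (α := Units.torsion K)
  refine ⟨fun j => j.elim (t : (𝓞 K)ˣ) (Units.fundSystem K), fun x => ?_⟩
  obtain ⟨⟨ζ, e⟩, hx, -⟩ := Units.exist_unique_eq_mul_prod K x
  obtain ⟨m, hm⟩ := Subgroup.mem_zpowers_iff.mp (ht ζ)
  refine ⟨fun j => j.elim m e, ?_⟩
  rw [Fintype.prod_option]
  simp only [Option.elim_none, Option.elim_some]
  rw [hx]
  congr 1
  rw [← hm]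
  simp

end NumberField

/-- **Piece B1 of Kummer's lemma.** Let `K` be the `p`-th cyclotomic field, `p` an odd prime.
If `(p - 1) / 2` units are independent modulo a subgroup `P` of the unit group containing all
`p`-th powers, then every element of `P` is a `p`-th power. -/
theorem units_basis_mod_pow (p : ℕ) [Fact p.Prime] (hp : p ≠ 2) (K : Type*) [Field K]
    [NumberField K] [IsCyclotomicExtension {p} ℚ K]
    (u : Fin ((p - 1) / 2) → (𝓞 K)ˣ) (P : Subgroup (𝓞 K)ˣ)
    (hP : ∀ v : (𝓞 K)ˣ, v ^ p ∈ P)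
    (hind : ∀ e : Fin ((p - 1) / 2) → ℤ, ∏ i, u i ^ e i ∈ P → ∀ i, (p : ℤ) ∣ e i) :
    ∀ w ∈ P, ∃ v : (𝓞 K)ˣ, w = v ^ p := by
  classical
  have hpp : p.Prime := Fact.out
  have : NeZero p := ⟨hpp.ne_zero⟩
  have hp3 : 2 < p := lt_of_le_of_ne hpp.two_le (Ne.symm hp)
  obtain ⟨g, hg⟩ := exists_generators_units K
  have hrank : Units.rank K + 1 = (p - 1) / 2 := by
    have h1 : Units.rank K = Fintype.card (InfinitePlace K) - 1 := rfl
    have h2 := InfinitePlace.card_eq_nrRealPlaces_add_nrComplexPlaces (K := K)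
    have h3 := IsCyclotomicExtension.Rat.nrRealPlaces_eq_zero (n := p) K hp3
    have h4 := IsCyclotomicExtension.Rat.nrComplexPlaces_eq_totient_div_two p K
    rw [Nat.totient_prime hpp] at h4
    have h5 : 1 ≤ (p - 1) / 2 := by omega
    rw [h1, h2, h3, h4]
    omega
  refine mem_pow_of_mem_of_independent p g hg ?_ u P hP hind
  simp [Fintype.card_option, hrank]

end Fermat.Agent.Lib.KummerCount
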