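import Mathlib

/-!
# Abstract "level calculus" for Kummer's lemma (piece B3a)

In a commutative ring `A` of characteristic `p` with an element `ε` such that `ε ^ (k+1) = 0`,
elements of the shape `c * (1 + b * ε ^ k)` (`c`, `b` integers) multiply by adding the `b`'s.
-/

set_option autoImplicit false

namespace Fermat.Agent.Lib.KummerLevel

variable {A : Type*} [CommRing A]

/-- `u` has level form with slope `B`: `u = C * (1 + B * ε ^ k)` for some integer `C`. -/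
def IsLevelForm (ε : A) (k : ℕ) (u : A) (B : ℤ) : Prop :=
  ∃ C : ℤ, u = (C : A) * (1 + (B : A) * ε ^ k)

theorem eps_pow_two_mul_eq_zero {ε : A} {k : ℕ} (hk : 1 ≤ k) (hε : ε ^ (k + 1) = 0) :
    ε ^ k * ε ^ k = 0 := by
  have h2 : ε ^ k * ε ^ k = ε ^ (k + 1) * ε ^ (k - 1) := by
    rw [← pow_add, ← pow_add]
    congr 1
    omega
  rw [h2, hε, zero_mul]

theorem isLevelForm_one (ε : A) (k : ℕ) : IsLevelForm ε k (1 : A) 0 :=
  ⟨1, by simp⟩

theorem IsLevelForm.mul {ε : A} {k : ℕ} (hk : 1 ≤ k) (hε : ε ^ (k + 1) = 0) {u v : A} {B B' : ℤ}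
    (hu : IsLevelForm ε k u B) (hv : IsLevelForm ε k v B') :
    IsLevelForm ε k (u * v) (B + B') := by
  obtain ⟨C, rfl⟩ := hu
  obtain ⟨C', rfl⟩ := hv
  refine ⟨C * C', ?_⟩
  have h0 := eps_pow_two_mul_eq_zero hk hε
  push_cast
  linear_combination ((C : A) * (C' : A) * (B : A) * (B' : A)) * h0

theorem IsLevelForm.pow {ε : A} {k : ℕ} (hk : 1 ≤ k) (hε : ε ^ (k + 1) = 0) {u : A} {B : ℤ}
    (hu : IsLevelForm ε k u B) (n : ℕ) :
    IsLevelForm ε k (u ^ n) (n * B) := by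
  induction n with
  | zero => simpa using isLevelForm_one ε k
  | succ n ih =>
    have h := ih.mul hk hε hu
    rw [pow_succ]
    have e : ((n + 1 : ℕ) : ℤ) * B = (n : ℤ) * B + B := by push_cast; ring
    rw [e]
    exact h

/-- In characteristic `p`, an integer whose image is a unit has an integer inverse. -/
theorem exists_int_inverse (p : ℕ) [Fact p.Prime] (hp : (p : A) = 0) [Nontrivial A] {C : ℤ}
    (hC : (C : A) ≠ 0) : ∃ C' : ℤ, (C : A) * (C' : A) = 1 := by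
  have hpC : ¬ (p : ℤ) ∣ C := by
    rintro ⟨t, rfl⟩
    apply hC
    push_cast
    rw [hp, zero_mul]
  have hcop : IsCoprime C (p : ℤ) := by
    have hprime : Prime (p : ℤ) := Nat.prime_iff_prime_int.mp (Fact.out : p.Prime)
    exact (IsCoprime.symm ((Prime.coprime_iff_not_dvd hprime).mpr hpC))
  obtain ⟨a, b, hab⟩ := hcop
  refine ⟨a, ?_⟩
  have h1 : ((a * C + b * (p : ℤ) : ℤ) : A) = ((1 : ℤ) : A) := by rw [hab]
  push_cast at h1
  rw [hp, mul_zero, add_zero] at h1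
  rw [mul_comm]
  exact h1

theorem IsLevelForm.inv_unit (p : ℕ) [Fact p.Prime] (hp : (p : A) = 0) [Nontrivial A]
    {ε : A} {k : ℕ} (hk : 1 ≤ k) (hε : ε ^ (k + 1) = 0) {u : Aˣ} {B : ℤ}
    (hu : IsLevelForm ε k (u : A) B) :
    IsLevelForm ε k ((u⁻¹ : Aˣ) : A) (-B) := by
  obtain ⟨C, hC⟩ := hu
  have hC0 : (C : A) ≠ 0 := by
    intro h0
    have : (u : A) = 0 := by rw [hC, h0, zero_mul]
    exact u.ne_zero this
  obtain ⟨C', hC'⟩ := exists_int_inverse p hp hC0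
  refine ⟨C', ?_⟩
  have h0 := eps_pow_two_mul_eq_zero hk hε
  have hmul : (u : A) * ((C' : A) * (1 + ((-B : ℤ) : A) * ε ^ k)) = 1 := by
    rw [hC]
    push_cast
    linear_combination (1 - (B : A) * (B : A) * (ε ^ k * ε ^ k)) * hC' - ((B : A) * (B : A)) * h0
  exact (Units.inv_eq_of_mul_eq_one_right hmul)

theorem IsLevelForm.zpow_unit (p : ℕ) [Fact p.Prime] (hp : (p : A) = 0) [Nontrivial A]
    {ε : A} {k : ℕ} (hk : 1 ≤ k) (hε : ε ^ (k + 1) = 0) {u : Aˣ} {B : ℤ}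
    (hu : IsLevelForm ε k (u : A) B) (e : ℤ) :
    IsLevelForm ε k ((u ^ e : Aˣ) : A) (e * B) := by
  cases e with
  | ofNat n =>
    have h := hu.pow hk hε n
    simpa using h
  | negSucc n =>
    have h1 : IsLevelForm ε k (((u ^ (n + 1) : Aˣ)) : A) (((n + 1 : ℕ) : ℤ) * B) := by
      have h := hu.pow hk hε (n + 1)
      simpa using h
    have h2 := h1.inv_unit p hp hk hε
    rw [zpow_negSucc]
    have e : Int.negSucc n * B = -(((n + 1 : ℕ) : ℤ) * B) := by
      rw [Int.negSucc_eq]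
      push_cast
      ring
    rw [e]
    exact h2

theorem isLevelForm_prod (p : ℕ) [Fact p.Prime] (hp : (p : A) = 0) [Nontrivial A]
    {ε : A} {k : ℕ} (hk : 1 ≤ k) (hε : ε ^ (k + 1) = 0)
    {ι : Type*} (s : Finset ι) (x : ι → Aˣ) (b : ι → ℤ)
    (hx : ∀ i ∈ s, IsLevelForm ε k ((x i : Aˣ) : A) (b i)) (e : ι → ℤ) :
    IsLevelForm ε k ((∏ i ∈ s, x i ^ e i : Aˣ) : A) (∑ i ∈ s, e i * b i) := by
  classical
  induction s using Finset.induction_on with
  | empty => simpa using isLevelForm_one ε k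
  | insert a s ha ih =>
    rw [Finset.prod_insert ha, Finset.sum_insert ha, Units.val_mul]
    refine IsLevelForm.mul hk hε ?_ ?_
    · exact (hx a (Finset.mem_insert_self a s)).zpow_unit p hp hk hε (e a)
    · exact ih fun i hi => hx i (Finset.mem_insert_of_mem hi)

/-- **Level calculus.** If units `x i` have the shape `c i * (1 + b i * ε ^ k)` and the product
`∏ x i ^ e i` is an integer in `A`, then `p ∣ ∑ e i * b i`. -/
theorem level_sum {A : Type*} [CommRing A] (p : ℕ) [Fact p.Prime] (ε : A) (k : ℕ) (hk : 1 ≤ k)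
    (hp : (p : A) = 0) (hε : ε ^ (k + 1) = 0)
    (hind : ∀ c d : ℤ, (c : A) + (d : A) * ε ^ k = 0 → (p : ℤ) ∣ c ∧ (p : ℤ) ∣ d)
    {ι : Type*} (s : Finset ι) (x : ι → Aˣ) (c b : ι → ℤ)
    (hx : ∀ i ∈ s, ((x i : Aˣ) : A) = (c i : A) * (1 + (b i : A) * ε ^ k))
    (e : ι → ℤ) (n : ℤ) (h : ((∏ i ∈ s, x i ^ e i : Aˣ) : A) = (n : A)) :
    (p : ℤ) ∣ ∑ i ∈ s, e i * b i := by
  have hprime : Prime (p : ℤ) := Nat.prime_iff_prime_int.mp (Fact.out : p.Prime)
  -- `A` is nontrivial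
  have : Nontrivial A := by
    refine ⟨⟨(1 : A), 0, fun h10 => ?_⟩⟩
    have h1 := (hind 1 0 (by push_cast; rw [h10]; simp)).1
    exact hprime.not_dvd_one h1
  obtain ⟨C, hC⟩ := isLevelForm_prod p hp hk hε s x b (fun i hi => ⟨c i, hx i hi⟩) e
  set B : ℤ := ∑ i ∈ s, e i * b i with hB
  have hC0 : ¬ (p : ℤ) ∣ C := by
    rintro ⟨t, rfl⟩
    have hz : ((∏ i ∈ s, x i ^ e i : Aˣ) : A) = 0 := by
      rw [hC]
      push_cast
      rw [hp, zero_mul, zero_mul]
    exact (∏ i ∈ s, x i ^ e i : Aˣ).ne_zero hz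
  have hrel : ((C - n : ℤ) : A) + ((C * B : ℤ) : A) * ε ^ k = 0 := by
    have := hC.symm.trans h
    push_cast
    linear_combination this
  obtain ⟨-, h2⟩ := hind (C - n) (C * B) hrel
  exact (hprime.dvd_or_dvd h2).resolve_left hC0

end Fermat.Agent.Lib.KummerLevel
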