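import Mathlib
import Fermat.Agent.Lib.KummerCount
import Fermat.Agent.Lib.KummerLevel

/-!
# Kummer's lemma from explicit units with prescribed levels (assembly)

`K = ℚ(ζ_p)`, `λ = ζ - 1`. If units `u_0, …, u_r` (`r + 1 = (p-1)/2`) satisfy
`u_i ≡ c_i (1 + b_i λ^{k_i}) mod λ^{k_i+1}` with `1 ≤ k_0 < k_1 < … ≤ p - 2` and `p ∤ b_i`,
then every unit congruent to a rational integer modulo `p` is a `p`-th power.
-/

open NumberField

namespace Fermat.Agent.Lib.KummerAsm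

variable {p : ℕ} [hp : Fact p.Prime] {K : Type*} [Field K] [NumberField K]
  [hK : IsCyclotomicExtension {p} ℚ K] {ζ : K}

/-- an integer congruent mod `p` to a unit is prime to `p`. -/
lemma not_dvd_of_unit_congr (hζ : IsPrimitiveRoot ζ p) (u : (𝓞 K)ˣ) (n : ℤ)
    (h : (p : 𝓞 K) ∣ (u : 𝓞 K) - n) :
    ¬ (p : ℤ) ∣ n := by
  intro hn
  have h1 : hζ.toInteger - 1 ∣ (p : 𝓞 K) := hζ.toInteger_sub_one_dvd_prime'
  have h2 : hζ.toInteger - 1 ∣ (n : 𝓞 K) :=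
    (IsCyclotomicExtension.Rat.zeta_sub_one_dvd_intCast_iff' p hζ).2 hn
  have h3 : hζ.toInteger - 1 ∣ (u : 𝓞 K) := by
    have := dvd_add (h1.trans h) h2
    simpa using this
  exact hζ.zeta_sub_one_prime'.not_isUnit (isUnit_of_dvd_unit h3 u.isUnit)

variable (p K) in
/-- The subgroup of units congruent to a rational integer modulo `p`. -/
def intModSubgroup (hζ : IsPrimitiveRoot ζ p) : Subgroup (𝓞 K)ˣ where
  carrier := {u | ∃ n : ℤ, (p : 𝓞 K) ∣ (u : 𝓞 K) - n}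
  one_mem' := ⟨1, by simp⟩
  mul_mem' := by
    rintro a b ⟨n, hn⟩ ⟨m, hm⟩
    refine ⟨n * m, ?_⟩
    have : ((a * b : (𝓞 K)ˣ) : 𝓞 K) - ((n * m : ℤ) : 𝓞 K)
        = ((a : 𝓞 K) - n) * b + n * ((b : 𝓞 K) - m) := by push_cast; ring
    rw [this]
    exact dvd_add (hn.mul_right _) (hm.mul_left _)
  inv_mem' := by
    rintro a ⟨n, hn⟩
    have hpn : ¬ (p : ℤ) ∣ n := not_dvd_of_unit_congr hζ a n hn
    have hcop : IsCoprime (p : ℤ) n :=
      (Nat.prime_iff_prime_int.mp hp.out).irreducible.coprime_iff_not_dvd.2 hpn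
    obtain ⟨s, t, hst⟩ := hcop
    refine ⟨t, ?_⟩
    have h1 : (((a⁻¹ : (𝓞 K)ˣ) : 𝓞 K)) - (t : 𝓞 K)
        = ((a⁻¹ : (𝓞 K)ˣ) : 𝓞 K) * ((s : 𝓞 K) * p - t * ((a : 𝓞 K) - n)) := by
      have e1 : ((s * p + t * n : ℤ) : 𝓞 K) = 1 := by rw [hst]; simp
      push_cast at e1
      have e2 : ((a⁻¹ : (𝓞 K)ˣ) : 𝓞 K) * (a : 𝓞 K) = 1 := by simp
      linear_combination (t : 𝓞 K) * e2 - ((a⁻¹ : (𝓞 K)ˣ) : 𝓞 K) * e1
    rw [h1]
    exact Dvd.dvd.mul_left (dvd_sub (dvd_mul_left _ _) (hn.mul_left _)) _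

lemma mem_intModSubgroup (hζ : IsPrimitiveRoot ζ p) (u : (𝓞 K)ˣ) :
    u ∈ intModSubgroup p K hζ ↔ ∃ n : ℤ, (p : 𝓞 K) ∣ (u : 𝓞 K) - n := Iff.rfl

omit [NumberField K] hK in
/-- `λ^m ∣ p` for `m ≤ p - 1`. -/
lemma lam_pow_dvd_p (hζ : IsPrimitiveRoot ζ p) {m : ℕ} (hm : m ≤ p - 1) :
    (hζ.toInteger - 1) ^ m ∣ (p : 𝓞 K) :=
  (pow_dvd_pow _ hm).trans (IsCyclotomicExtension.Rat.associated_zeta_sub_one_pow_prime p hζ).dvd

lemma lam_ne_zero (hζ : IsPrimitiveRoot ζ p) : (hζ.toInteger - 1 : 𝓞 K) ≠ 0 :=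
  hζ.zeta_sub_one_prime'.ne_zero

/-- linear independence of `1, λ^k` modulo `λ^(k+1)` over `𝔽_p`. -/
lemma indep_mod_lam_pow (hζ : IsPrimitiveRoot ζ p) {k : ℕ} (hk1 : 1 ≤ k) (hkp : k + 1 ≤ p - 1)
    (c d : ℤ)
    (h : (hζ.toInteger - 1) ^ (k + 1) ∣ (c : 𝓞 K) + (d : 𝓞 K) * (hζ.toInteger - 1) ^ k) :
    (p : ℤ) ∣ c ∧ (p : ℤ) ∣ d := by
  set l : 𝓞 K := hζ.toInteger - 1 with hl
  have hl0 : l ≠ 0 := lam_ne_zero hζ
  have h1 : l ∣ (c : 𝓞 K) := by
    have ha : l ∣ (c : 𝓞 K) + (d : 𝓞 K) * l ^ k := (dvd_pow_self l (by omega)).trans h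
    have hb : l ∣ (d : 𝓞 K) * l ^ k := Dvd.dvd.mul_left (dvd_pow_self l (by omega)) _
    simpa using dvd_sub ha hb
  have hc : (p : ℤ) ∣ c := (IsCyclotomicExtension.Rat.zeta_sub_one_dvd_intCast_iff' p hζ).1 h1
  refine ⟨hc, ?_⟩
  have h2 : l ^ (k + 1) ∣ (c : 𝓞 K) := by
    obtain ⟨c', rfl⟩ := hc
    push_cast
    exact Dvd.dvd.mul_right (lam_pow_dvd_p hζ hkp) _
  have h3 : l ^ (k + 1) ∣ (d : 𝓞 K) * l ^ k := by
    simpa using dvd_sub h h2
  have h4 : l ∣ (d : 𝓞 K) := by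
    rw [pow_succ, mul_comm (d : 𝓞 K)] at h3
    exact (mul_dvd_mul_iff_left (pow_ne_zero k hl0)).1 h3
  exact (IsCyclotomicExtension.Rat.zeta_sub_one_dvd_intCast_iff' p hζ).1 h4

/-- **Kummer's lemma from levels.** -/
theorem kummer_of_levels (hp2 : p ≠ 2) (hζ : IsPrimitiveRoot ζ p)
    (hfrob : ∀ x : 𝓞 K, ∃ n : ℤ, (p : 𝓞 K) ∣ x ^ p - (n : 𝓞 K))
    (u : Fin ((p - 1) / 2) → (𝓞 K)ˣ) (k : Fin ((p - 1) / 2) → ℕ)
    (hk : StrictMono k) (hk1 : ∀ i, 1 ≤ k i) (hkp : ∀ i, k i + 1 ≤ p - 1)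
    (c b : Fin ((p - 1) / 2) → ℤ) (hb : ∀ i, ¬ (p : ℤ) ∣ b i)
    (hlev : ∀ i, (hζ.toInteger - 1) ^ (k i + 1) ∣
        (u i : 𝓞 K) - (c i : 𝓞 K) * (1 + (b i : 𝓞 K) * (hζ.toInteger - 1) ^ (k i)))
    (w : (𝓞 K)ˣ) (n : ℤ) (hw : (p : 𝓞 K) ∣ (w : 𝓞 K) - n) :
    ∃ v : (𝓞 K)ˣ, w = v ^ p := by
  classical
  refine Fermat.Agent.Lib.KummerCount.units_basis_mod_pow p hp2 K u (intModSubgroup p K hζ)
    ?_ ?_ w ⟨n, hw⟩
  · intro v
    obtain ⟨m, hm⟩ := hfrob (v : 𝓞 K)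
    exact ⟨m, by simpa using hm⟩
  · intro e he
    suffices H : ∀ m : ℕ, ∀ i : Fin ((p - 1) / 2), i.val = m → (p : ℤ) ∣ e i from
      fun i => H i.val i rfl
    intro m
    induction m using Nat.strong_induction_on with
    | _ m ih =>
      intro j hj
      have ih' : ∀ i : Fin ((p - 1) / 2), i < j → (p : ℤ) ∣ e i := fun i hij =>
        ih i.val (by rw [← hj]; exact hij) i rfl
      obtain ⟨n', hn'⟩ := he
      set l : 𝓞 K := hζ.toInteger - 1 with hl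
      set I : Ideal (𝓞 K) := Ideal.span {l ^ (k j + 1)} with hI
      let π : 𝓞 K →+* (𝓞 K ⧸ I) := Ideal.Quotient.mk I
      have hπ : ∀ x y : 𝓞 K, l ^ (k j + 1) ∣ x - y → π x = π y := fun x y h =>
        (Ideal.Quotient.eq).2 (Ideal.mem_span_singleton.2 h)
      have hπ0 : ∀ x : 𝓞 K, π x = 0 → l ^ (k j + 1) ∣ x := fun x h =>
        Ideal.mem_span_singleton.1 ((Ideal.Quotient.eq_zero_iff_mem).1 h)
      have hpdvd : l ^ (k j + 1) ∣ (p : 𝓞 K) := lam_pow_dvd_p hζ (hkp j)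
      have hpA : ((p : ℕ) : 𝓞 K ⧸ I) = 0 := by
        have : π (p : 𝓞 K) = 0 := by
          rw [← map_zero π]; exact hπ _ _ (by simpa using hpdvd)
        simpa using this
      have hεA : (π l) ^ (k j + 1) = 0 := by
        rw [← map_pow, ← map_zero π]; exact hπ _ _ (by simp)
      have hindA : ∀ c d : ℤ, ((c : ℤ) : 𝓞 K ⧸ I) + ((d : ℤ) : 𝓞 K ⧸ I) * (π l) ^ (k j) = 0 →
          (p : ℤ) ∣ c ∧ (p : ℤ) ∣ d := by
        intro c d h
        have : π ((c : 𝓞 K) + (d : 𝓞 K) * l ^ (k j)) = 0 := by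
          simpa using h
        exact indep_mod_lam_pow hζ (hk1 j) (hkp j) c d (hπ0 _ this)
      -- the `p`-th power parts
      have hlow : ∀ i : Fin ((p - 1) / 2), i < j → ∃ m : ℤ, π ((u i ^ e i : (𝓞 K)ˣ) : 𝓞 K) = m := by
        intro i hij
        obtain ⟨q, hq⟩ := ih' i hij
        obtain ⟨m, hm⟩ := hfrob ((u i ^ q : (𝓞 K)ˣ) : 𝓞 K)
        refine ⟨m, ?_⟩
        have e1 : ((u i ^ e i : (𝓞 K)ˣ) : 𝓞 K) = ((u i ^ q : (𝓞 K)ˣ) : 𝓞 K) ^ p := by
          rw [hq, mul_comm, zpow_mul, zpow_natCast, Units.val_pow_eq_pow_val]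
        rw [e1, ← map_intCast π]
        exact hπ _ _ (hpdvd.trans hm)
      choose! mlow hmlow using hlow
      let x : Fin ((p - 1) / 2) → (𝓞 K ⧸ I)ˣ := fun i =>
        if i < j then Units.map (π : 𝓞 K →* 𝓞 K ⧸ I) (u i ^ e i)
        else Units.map (π : 𝓞 K →* 𝓞 K ⧸ I) (u i)
      let e' : Fin ((p - 1) / 2) → ℤ := fun i => if i < j then 1 else e i
      let b' : Fin ((p - 1) / 2) → ℤ := fun i => if i = j then b j else 0
      let c' : Fin ((p - 1) / 2) → ℤ := fun i => if i < j then mlow i else c i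
      have hx : ∀ i ∈ (Finset.univ : Finset (Fin ((p - 1) / 2))),
          ((x i : (𝓞 K ⧸ I)ˣ) : 𝓞 K ⧸ I) = (c' i : 𝓞 K ⧸ I) * (1 + (b' i : 𝓞 K ⧸ I) * (π l) ^ (k j)) := by
        intro i _
        rcases lt_trichotomy i j with hij | hij | hij
        · have hne : i ≠ j := ne_of_lt hij
          simp only [x, c', b', if_pos hij, if_neg hne]
          simp only [Units.coe_map, MonoidHom.coe_coe, Int.cast_zero, zero_mul, add_zero, mul_one]
          exact hmlow i hij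
        · subst hij
          have hnlt : ¬ i < i := lt_irrefl _
          simp only [x, c', b', if_neg hnlt, if_true]
          simp only [Units.coe_map, MonoidHom.coe_coe]
          have := hπ _ _ (hlev i)
          simpa using this
        · have hnlt : ¬ i < j := not_lt.2 hij.le
          have hne : i ≠ j := ne_of_gt hij
          simp only [x, c', b', if_neg hnlt, if_neg hne]
          simp only [Units.coe_map, MonoidHom.coe_coe, Int.cast_zero, zero_mul, add_zero, mul_one]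
          have hkk : k j + 1 ≤ k i := hk hij
          have h1 : l ^ (k j + 1) ∣ (u i : 𝓞 K) - (c i : 𝓞 K) := by
            have h2 : l ^ (k j + 1) ∣ (u i : 𝓞 K) - (c i : 𝓞 K) * (1 + (b i : 𝓞 K) * l ^ (k i)) :=
              (pow_dvd_pow l (by omega)).trans (hlev i)
            have h3 : l ^ (k j + 1) ∣ (c i : 𝓞 K) * (b i : 𝓞 K) * l ^ (k i) :=
              Dvd.dvd.mul_left (pow_dvd_pow l hkk) _
            have := dvd_add h2 h3
            have e2 : (u i : 𝓞 K) - (c i : 𝓞 K) * (1 + (b i : 𝓞 K) * l ^ (k i))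
                + (c i : 𝓞 K) * (b i : 𝓞 K) * l ^ (k i) = (u i : 𝓞 K) - (c i : 𝓞 K) := by ring
            rwa [e2] at this
          have := hπ _ _ h1
          simpa using this
      have hprod : ((∏ i ∈ (Finset.univ : Finset (Fin ((p - 1) / 2))), x i ^ e' i : (𝓞 K ⧸ I)ˣ) : 𝓞 K ⧸ I)
          = ((n' : ℤ) : 𝓞 K ⧸ I) := by
        have e1 : (∏ i ∈ (Finset.univ : Finset (Fin ((p - 1) / 2))), x i ^ e' i : (𝓞 K ⧸ I)ˣ)
            = Units.map (π : 𝓞 K →* 𝓞 K ⧸ I) (∏ i, u i ^ e i) := by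
          rw [map_prod]
          refine Finset.prod_congr rfl fun i _ => ?_
          by_cases hij : i < j
          · simp only [x, e', if_pos hij, zpow_one]
          · simp only [x, e', if_neg hij, map_zpow]
        rw [e1, Units.coe_map, MonoidHom.coe_coe, ← map_intCast π]
        exact hπ _ _ (hpdvd.trans hn')
      have hsum := Fermat.Agent.Lib.KummerLevel.level_sum p (π l) (k j) (hk1 j) hpA hεA hindA
        Finset.univ x c' b' hx e' n' hprod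
      have hs : ∑ i ∈ (Finset.univ : Finset (Fin ((p - 1) / 2))), e' i * b' i = e j * b j := by
        rw [Finset.sum_eq_single j]
        · simp [e', b']
        · intro i _ hij
          simp [b', hij]
        · intro h; exact absurd (Finset.mem_univ j) h
      rw [hs] at hsum
      exact ((Nat.prime_iff_prime_int.mp hp.out).dvd_or_dvd hsum).resolve_right (hb j)

end Fermat.Agent.Lib.KummerAsm
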