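import Mathlib

/-!
# Explicit eigen-unit computations for Kummer's lemma (p = 5, 7, 11, 13)

Pure commutative algebra: in any commutative ring `A` with `p = 0` and `ε ^ (2j+1) = 0`,
`∏_{a=2}^{p-1} (∑_{i<a} (1+ε)^i) ^ (a^(p-1-2j) mod p) = c + d ε^(2j)` for explicit `c, d`.

Method: reflection.  Truncated polynomials with coefficients mod `p` are represented as `List ℕ`;
the arithmetic is proved correct with respect to Horner evaluation, and each instance is closed by a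
kernel computation on lists.
-/

namespace Fermat.Agent.Lib.KummerEigen

variable {A : Type*} [CommRing A]

/-- Horner evaluation of a coefficient list at `ε`. -/
def ev (ε : A) : List ℕ → A
  | [] => 0
  | c :: l => (c : A) + ε * ev ε l

@[simp] theorem ev_nil (ε : A) : ev ε [] = 0 := rfl

@[simp] theorem ev_cons (ε : A) (c : ℕ) (l : List ℕ) : ev ε (c :: l) = (c : A) + ε * ev ε l := rfl

/-- Coefficientwise addition. -/
def addL : List ℕ → List ℕ → List ℕ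
  | [], m => m
  | a :: l, [] => a :: l
  | a :: l, b :: m => (a + b) :: addL l m

theorem ev_addL (ε : A) : ∀ l m : List ℕ, ev ε (addL l m) = ev ε l + ev ε m
  | [], m => by simp [addL]
  | a :: l, [] => by simp [addL]
  | a :: l, b :: m => by
    simp only [addL, ev_cons, ev_addL ε l m, Nat.cast_add]
    ring

/-- Scalar multiplication. -/
def smulL (c : ℕ) : List ℕ → List ℕ
  | [] => []
  | a :: l => (c * a) :: smulL c l

theorem ev_smulL (ε : A) (c : ℕ) : ∀ l : List ℕ, ev ε (smulL c l) = (c : A) * ev ε l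
  | [] => by simp [smulL]
  | a :: l => by
    simp only [smulL, ev_cons, ev_smulL ε c l, Nat.cast_mul]
    ring

/-- Polynomial multiplication. -/
def mulL : List ℕ → List ℕ → List ℕ
  | [], _ => []
  | a :: l, m => addL (smulL a m) (0 :: mulL l m)

theorem ev_mulL (ε : A) : ∀ l m : List ℕ, ev ε (mulL l m) = ev ε l * ev ε m
  | [], m => by simp [mulL]
  | a :: l, m => by
    simp only [mulL, ev_addL, ev_smulL, ev_cons, ev_mulL ε l m, Nat.cast_zero]
    ring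

/-- Reduction of the coefficients modulo `p`. -/
def redL (p : ℕ) : List ℕ → List ℕ
  | [] => []
  | a :: l => (a % p) :: redL p l

theorem cast_mod_eq (p : ℕ) (hp : (p : A) = 0) (a : ℕ) : ((a % p : ℕ) : A) = (a : A) := by
  conv_rhs => rw [← Nat.div_add_mod a p]
  rw [Nat.cast_add, Nat.cast_mul, hp, zero_mul, zero_add]

theorem ev_redL (ε : A) (p : ℕ) (hp : (p : A) = 0) : ∀ l : List ℕ, ev ε (redL p l) = ev ε l
  | [] => rfl
  | a :: l => by
    simp only [redL, ev_cons, ev_redL ε p hp l, cast_mod_eq p hp]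

/-- Truncation to the first `n` coefficients. -/
def takeL : ℕ → List ℕ → List ℕ
  | 0, _ => []
  | _ + 1, [] => []
  | n + 1, a :: l => a :: takeL n l

theorem ev_takeL_aux (ε : A) : ∀ (n : ℕ) (l : List ℕ), ∃ r : A, ev ε l = ev ε (takeL n l) + ε ^ n * r
  | 0, l => ⟨ev ε l, by simp [takeL]⟩
  | n + 1, [] => ⟨0, by simp [takeL]⟩
  | n + 1, a :: l => by
    obtain ⟨r, hr⟩ := ev_takeL_aux ε n l
    refine ⟨r, ?_⟩
    simp only [takeL, ev_cons, hr]
    ring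

theorem ev_takeL (ε : A) (n : ℕ) (hε : ε ^ n = 0) (l : List ℕ) : ev ε (takeL n l) = ev ε l := by
  obtain ⟨r, hr⟩ := ev_takeL_aux ε n l
  rw [hr, hε, zero_mul, add_zero]

/-- Truncated multiplication mod `p`. -/
def mulT (p n : ℕ) (l m : List ℕ) : List ℕ := redL p (takeL n (mulL l m))

theorem ev_mulT (ε : A) (p n : ℕ) (hp : (p : A) = 0) (hε : ε ^ n = 0) (l m : List ℕ) :
    ev ε (mulT p n l m) = ev ε l * ev ε m := by
  rw [mulT, ev_redL ε p hp, ev_takeL ε n hε, ev_mulL]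

/-- Truncated power mod `p`. -/
def powT (p n : ℕ) (l : List ℕ) : ℕ → List ℕ
  | 0 => [1]
  | e + 1 => mulT p n l (powT p n l e)

theorem ev_powT (ε : A) (p n : ℕ) (hp : (p : A) = 0) (hε : ε ^ n = 0) (l : List ℕ) :
    ∀ e : ℕ, ev ε (powT p n l e) = ev ε l ^ e
  | 0 => by simp [powT]
  | e + 1 => by rw [powT, ev_mulT ε p n hp hε, ev_powT ε p n hp hε l e, pow_succ']

/-- Simultaneous computation of `(1+X)^a` and `∑_{i<a} (1+X)^i`. -/
def geomAux (p n : ℕ) : ℕ → List ℕ × List ℕ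
  | 0 => ([1], [])
  | a + 1 => (mulT p n [1, 1] (geomAux p n a).1, redL p (addL (geomAux p n a).2 (geomAux p n a).1))

theorem ev_geomAux (ε : A) (p n : ℕ) (hp : (p : A) = 0) (hε : ε ^ n = 0) :
    ∀ a : ℕ, ev ε (geomAux p n a).1 = (1 + ε) ^ a ∧
      ev ε (geomAux p n a).2 = ∑ i ∈ Finset.range a, (1 + ε) ^ i
  | 0 => by simp [geomAux]
  | a + 1 => by
    obtain ⟨h1, h2⟩ := ev_geomAux ε p n hp hε a
    constructor
    · rw [geomAux, ev_mulT ε p n hp hε, h1, pow_succ']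
      simp
    · rw [geomAux, ev_redL ε p hp, ev_addL, h1, h2, Finset.sum_range_succ]

/-- The product `∏_{a=2}^{k+1} (∑_{i<a} (1+X)^i)^(a^E mod p)`, truncated mod `(p, X^n)`. -/
def prodL (p n E : ℕ) : ℕ → List ℕ
  | 0 => [1]
  | k + 1 => mulT p n (prodL p n E k) (powT p n (geomAux p n (k + 2)).2 ((k + 2) ^ E % p))

theorem ev_prodL (ε : A) (p n E : ℕ) (hp : (p : A) = 0) (hε : ε ^ n = 0) :
    ∀ k : ℕ, ev ε (prodL p n E k) =
      ∏ a ∈ Finset.range k, (∑ i ∈ Finset.range (a + 2), (1 + ε) ^ i) ^ ((a + 2) ^ E % p)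
  | 0 => by simp [prodL]
  | k + 1 => by
    rw [prodL, ev_mulT ε p n hp hε, ev_prodL ε p n E hp hε k, ev_powT ε p n hp hε,
      (ev_geomAux ε p n hp hε (k + 2)).2, Finset.prod_range_succ]

theorem prod_Icc_two (p : ℕ) (f : ℕ → A) :
    ∏ a ∈ Finset.Icc 2 (p - 1), f a = ∏ a ∈ Finset.range (p - 2), f (a + 2) := by
  rcases Nat.lt_or_ge p 2 with h | h
  · have h1 : Finset.Icc 2 (p - 1) = ∅ := Finset.Icc_eq_empty (by omega)
    have h2 : p - 2 = 0 := by omega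
    rw [h1, h2]; simp
  · have h1 : Finset.Icc 2 (p - 1) = Finset.Ico 2 p := by
      ext a; simp only [Finset.mem_Icc, Finset.mem_Ico]; omega
    rw [h1, Finset.prod_Ico_eq_prod_range]
    exact Finset.prod_congr rfl fun a _ => by rw [add_comm]

/-- Generic form of the eigen-unit identity: the product equals the evaluation of the list
computed by `prodL`. -/
theorem eigen_generic (p j : ℕ) (ε : A) (hp : (p : A) = 0) (hε : ε ^ (2 * j + 1) = 0)
    (r : List ℕ) (hr : prodL p (2 * j + 1) (p - 1 - 2 * j) (p - 2) = r) :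
    ∏ a ∈ Finset.Icc 2 (p - 1), (∑ i ∈ Finset.range a, (1 + ε) ^ i) ^ (a ^ (p - 1 - 2 * j) % p)
      = ev ε r := by
  rw [prod_Icc_two p (fun a => (∑ i ∈ Finset.range a, (1 + ε) ^ i) ^ (a ^ (p - 1 - 2 * j) % p)),
    ← hr, ev_prodL ε p (2 * j + 1) (p - 1 - 2 * j) hp hε]

/-! ## The twelve instances -/

theorem eigen_5_1 {A : Type*} [CommRing A] (ε : A) (hp : (5 : A) = 0)
    (hε : ε ^ (2 * 1 + 1) = 0) :
    ∏ a ∈ Finset.Icc 2 (5 - 1), (∑ i ∈ Finset.range a, (1 + ε) ^ i) ^ (a ^ (5 - 1 - 2 * 1) % 5)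
      = (4 : A) + (4 : A) * ε ^ (2 * 1) := by
  have h := eigen_generic 5 1 ε (by exact_mod_cast hp) hε [4, 0, 4] (by decide +kernel)
  refine h.trans ?_
  simp only [ev_cons, ev_nil]
  push_cast
  ring

theorem eigen_7_1 {A : Type*} [CommRing A] (ε : A) (hp : (7 : A) = 0)
    (hε : ε ^ (2 * 1 + 1) = 0) :
    ∏ a ∈ Finset.Icc 2 (7 - 1), (∑ i ∈ Finset.range a, (1 + ε) ^ i) ^ (a ^ (7 - 1 - 2 * 1) % 7)
      = (3 : A) + (6 : A) * ε ^ (2 * 1) := by
  have h := eigen_generic 7 1 ε (by exact_mod_cast hp) hε [3, 0, 6] (by decide +kernel)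
  refine h.trans ?_
  simp only [ev_cons, ev_nil]
  push_cast
  ring

theorem eigen_7_2 {A : Type*} [CommRing A] (ε : A) (hp : (7 : A) = 0)
    (hε : ε ^ (2 * 2 + 1) = 0) :
    ∏ a ∈ Finset.Icc 2 (7 - 1), (∑ i ∈ Finset.range a, (1 + ε) ^ i) ^ (a ^ (7 - 1 - 2 * 2) % 7)
      = (5 : A) + (4 : A) * ε ^ (2 * 2) := by
  have h := eigen_generic 7 2 ε (by exact_mod_cast hp) hε [5, 0, 0, 0, 4] (by decide +kernel)
  refine h.trans ?_
  simp only [ev_cons, ev_nil]
  push_cast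
  ring

theorem eigen_11_1 {A : Type*} [CommRing A] (ε : A) (hp : (11 : A) = 0)
    (hε : ε ^ (2 * 1 + 1) = 0) :
    ∏ a ∈ Finset.Icc 2 (11 - 1), (∑ i ∈ Finset.range a, (1 + ε) ^ i) ^ (a ^ (11 - 1 - 2 * 1) % 11)
      = (5 : A) + (3 : A) * ε ^ (2 * 1) := by
  have h := eigen_generic 11 1 ε (by exact_mod_cast hp) hε [5, 0, 3] (by decide +kernel)
  refine h.trans ?_
  simp only [ev_cons, ev_nil]
  push_cast
  ring

theorem eigen_11_2 {A : Type*} [CommRing A] (ε : A) (hp : (11 : A) = 0)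
    (hε : ε ^ (2 * 2 + 1) = 0) :
    ∏ a ∈ Finset.Icc 2 (11 - 1), (∑ i ∈ Finset.range a, (1 + ε) ^ i) ^ (a ^ (11 - 1 - 2 * 2) % 11)
      = (4 : A) + (9 : A) * ε ^ (2 * 2) := by
  have h := eigen_generic 11 2 ε (by exact_mod_cast hp) hε [4, 0, 0, 0, 9] (by decide +kernel)
  refine h.trans ?_
  simp only [ev_cons, ev_nil]
  push_cast
  ring

theorem eigen_11_3 {A : Type*} [CommRing A] (ε : A) (hp : (11 : A) = 0)
    (hε : ε ^ (2 * 3 + 1) = 0) :
    ∏ a ∈ Finset.Icc 2 (11 - 1), (∑ i ∈ Finset.range a, (1 + ε) ^ i) ^ (a ^ (11 - 1 - 2 * 3) % 11)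
      = (3 : A) + (5 : A) * ε ^ (2 * 3) := by
  have h := eigen_generic 11 3 ε (by exact_mod_cast hp) hε [3, 0, 0, 0, 0, 0, 5] (by decide +kernel)
  refine h.trans ?_
  simp only [ev_cons, ev_nil]
  push_cast
  ring

theorem eigen_11_4 {A : Type*} [CommRing A] (ε : A) (hp : (11 : A) = 0)
    (hε : ε ^ (2 * 4 + 1) = 0) :
    ∏ a ∈ Finset.Icc 2 (11 - 1), (∑ i ∈ Finset.range a, (1 + ε) ^ i) ^ (a ^ (11 - 1 - 2 * 4) % 11)
      = (9 : A) + (9 : A) * ε ^ (2 * 4) := by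
  have h := eigen_generic 11 4 ε (by exact_mod_cast hp) hε [9, 0, 0, 0, 0, 0, 0, 0, 9] (by decide +kernel)
  refine h.trans ?_
  simp only [ev_cons, ev_nil]
  push_cast
  ring

theorem eigen_13_1 {A : Type*} [CommRing A] (ε : A) (hp : (13 : A) = 0)
    (hε : ε ^ (2 * 1 + 1) = 0) :
    ∏ a ∈ Finset.Icc 2 (13 - 1), (∑ i ∈ Finset.range a, (1 + ε) ^ i) ^ (a ^ (13 - 1 - 2 * 1) % 13)
      = (12 : A) + (6 : A) * ε ^ (2 * 1) := by
  have h := eigen_generic 13 1 ε (by exact_mod_cast hp) hε [12, 0, 6] (by decide +kernel)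
  refine h.trans ?_
  simp only [ev_cons, ev_nil]
  push_cast
  ring

theorem eigen_13_2 {A : Type*} [CommRing A] (ε : A) (hp : (13 : A) = 0)
    (hε : ε ^ (2 * 2 + 1) = 0) :
    ∏ a ∈ Finset.Icc 2 (13 - 1), (∑ i ∈ Finset.range a, (1 + ε) ^ i) ^ (a ^ (13 - 1 - 2 * 2) % 13)
      = (12 : A) + (11 : A) * ε ^ (2 * 2) := by
  have h := eigen_generic 13 2 ε (by exact_mod_cast hp) hε [12, 0, 0, 0, 11] (by decide +kernel)
  refine h.trans ?_
  simp only [ev_cons, ev_nil]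
  push_cast
  ring

theorem eigen_13_3 {A : Type*} [CommRing A] (ε : A) (hp : (13 : A) = 0)
    (hε : ε ^ (2 * 3 + 1) = 0) :
    ∏ a ∈ Finset.Icc 2 (13 - 1), (∑ i ∈ Finset.range a, (1 + ε) ^ i) ^ (a ^ (13 - 1 - 2 * 3) % 13)
      = (12 : A) + (12 : A) * ε ^ (2 * 3) := by
  have h := eigen_generic 13 3 ε (by exact_mod_cast hp) hε [12, 0, 0, 0, 0, 0, 12] (by decide +kernel)
  refine h.trans ?_
  simp only [ev_cons, ev_nil]
  push_cast
  ring

theorem eigen_13_4 {A : Type*} [CommRing A] (ε : A) (hp : (13 : A) = 0)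
    (hε : ε ^ (2 * 4 + 1) = 0) :
    ∏ a ∈ Finset.Icc 2 (13 - 1), (∑ i ∈ Finset.range a, (1 + ε) ^ i) ^ (a ^ (13 - 1 - 2 * 4) % 13)
      = (12 : A) + (4 : A) * ε ^ (2 * 4) := by
  have h := eigen_generic 13 4 ε (by exact_mod_cast hp) hε [12, 0, 0, 0, 0, 0, 0, 0, 4] (by decide +kernel)
  refine h.trans ?_
  simp only [ev_cons, ev_nil]
  push_cast
  ring

theorem eigen_13_5 {A : Type*} [CommRing A] (ε : A) (hp : (13 : A) = 0)
    (hε : ε ^ (2 * 5 + 1) = 0) :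
    ∏ a ∈ Finset.Icc 2 (13 - 1), (∑ i ∈ Finset.range a, (1 + ε) ^ i) ^ (a ^ (13 - 1 - 2 * 5) % 13)
      = (12 : A) + (12 : A) * ε ^ (2 * 5) := by
  have h := eigen_generic 13 5 ε (by exact_mod_cast hp) hε [12, 0, 0, 0, 0, 0, 0, 0, 0, 0, 12] (by decide +kernel)
  refine h.trans ?_
  simp only [ev_cons, ev_nil]
  push_cast
  ring

end Fermat.Agent.Lib.KummerEigen
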