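/-
helper36: piece B6 of the Kummer-lemma plan (FLT_p for p = 5, 7, 11, 13; items S10 / S11).
In the ring of integers of the p-th cyclotomic field every p-th power is congruent to a
rational integer modulo p.
-/
import Mathlib.NumberTheory.NumberField.Cyclotomic.Basic

set_option autoImplicit false

open NumberField

namespace Fermat.Agent.Lib.KummerFrob

/-- In a commutative ring, the set of `x` whose `p`-th power is congruent to an integer
modulo the prime `p`, as a subring. -/
def frobIntSubring (R : Type*) [CommRing R] (p : ℕ) [Fact p.Prime] : Subring R where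
  carrier := {x | ∃ n : ℤ, (p : R) ∣ x ^ p - (n : R)}
  mul_mem' := by
    rintro x y ⟨n, hn⟩ ⟨m, hm⟩
    refine ⟨n * m, ?_⟩
    have h : (x * y) ^ p - ((n * m : ℤ) : R)
        = (x ^ p - (n : R)) * y ^ p + (n : R) * (y ^ p - (m : R)) := by
      push_cast; ring
    rw [h]
    exact dvd_add (Dvd.dvd.mul_right hn _) (Dvd.dvd.mul_left hm _)
  one_mem' := ⟨1, by simp⟩
  add_mem' := by
    rintro x y ⟨n, hn⟩ ⟨m, hm⟩
    refine ⟨n + m, ?_⟩
    obtain ⟨r, hr⟩ := exists_add_pow_prime_eq (Fact.out : p.Prime) x y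
    have h : (x + y) ^ p - ((n + m : ℤ) : R)
        = (x ^ p - (n : R)) + (y ^ p - (m : R)) + (p : R) * (x * y * r) := by
      rw [hr]; push_cast; ring
    rw [h]
    exact dvd_add (dvd_add hn hm) (Dvd.intro _ rfl)
  zero_mem' := ⟨0, by simp [(Fact.out : p.Prime).ne_zero]⟩
  neg_mem' := by
    rintro x ⟨n, hn⟩
    refine ⟨(-1) ^ p * n, ?_⟩
    have h : (-x) ^ p - (((-1) ^ p * n : ℤ) : R) = (-1) ^ p * (x ^ p - (n : R)) := by
      rw [neg_pow]; push_cast; ring
    rw [h]
    exact Dvd.dvd.mul_left hn _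

theorem mem_frobIntSubring {R : Type*} [CommRing R] {p : ℕ} [Fact p.Prime] {x : R} :
    x ∈ frobIntSubring R p ↔ ∃ n : ℤ, (p : R) ∣ x ^ p - (n : R) := Iff.rfl

/-- If a commutative ring is generated as a `ℤ`-algebra by an element `ζ` with `ζ ^ p = 1`,
then every `p`-th power is congruent to an integer modulo `p`. -/
theorem exists_int_dvd_pow_sub_of_adjoin_eq_top {R : Type*} [CommRing R] (p : ℕ) [Fact p.Prime]
    (ζ : R) (hζ : ζ ^ p = 1) (htop : Algebra.adjoin ℤ ({ζ} : Set R) = ⊤) (x : R) :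
    ∃ n : ℤ, (p : R) ∣ x ^ p - (n : R) := by
  have hx : x ∈ Algebra.adjoin ℤ ({ζ} : Set R) := by rw [htop]; exact Algebra.mem_top
  have hle : Algebra.adjoin ℤ ({ζ} : Set R) ≤ subalgebraOfSubring (frobIntSubring R p) := by
    refine Algebra.adjoin_le ?_
    rintro _ rfl
    exact ⟨1, by simp [hζ]⟩
  exact hle hx

/-- **B6**: in the ring of integers of the `p`-th cyclotomic field, every `p`-th power is
congruent to a rational integer modulo `p`. -/
theorem exists_int_dvd_pow_sub (p : ℕ) [Fact p.Prime] (K : Type*) [Field K] [NumberField K]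
    [IsCyclotomicExtension {p} ℚ K] (x : 𝓞 K) : ∃ n : ℤ, (p : 𝓞 K) ∣ x ^ p - (n : 𝓞 K) := by
  have : NeZero p := ⟨(Fact.out : p.Prime).ne_zero⟩
  have hζ := IsCyclotomicExtension.zeta_spec p ℚ K
  refine exists_int_dvd_pow_sub_of_adjoin_eq_top p hζ.toInteger ?_
    (IsCyclotomicExtension.Rat.adjoin_singleton_eq_top hζ) x
  exact hζ.toInteger_isPrimitiveRoot.pow_eq_one

end Fermat.Agent.Lib.KummerFrob
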