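import Mathlib
import Fermat.Agent.Lib.KummerAsm

/-!
# Cyclotomic units and Kummer's lemma from additive level data
-/

open NumberField

namespace Fermat.Agent.Lib.KummerUnits

open Fermat.Agent.Lib.KummerAsm

variable {p : ℕ} [hp : Fact p.Prime] {K : Type*} [Field K] [NumberField K]
  [hK : IsCyclotomicExtension {p} ℚ K] {ζ : K}

/-- from the additive form `u ≡ c + d λ^k` to the multiplicative form `u ≡ c (1 + b λ^k)`. -/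
lemma mul_form_of_add_form (hζ : IsPrimitiveRoot ζ p) {k : ℕ} (hk1 : 1 ≤ k)
    (hkp : k + 1 ≤ p - 1) (u : (𝓞 K)ˣ) (c d : ℤ) (hd : ¬ (p : ℤ) ∣ d)
    (h : (hζ.toInteger - 1) ^ (k + 1) ∣
      (u : 𝓞 K) - ((c : 𝓞 K) + (d : 𝓞 K) * (hζ.toInteger - 1) ^ k)) :
    ∃ b : ℤ, ¬ (p : ℤ) ∣ b ∧ (hζ.toInteger - 1) ^ (k + 1) ∣
      (u : 𝓞 K) - (c : 𝓞 K) * (1 + (b : 𝓞 K) * (hζ.toInteger - 1) ^ k) := by
  set l : 𝓞 K := hζ.toInteger - 1 with hl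
  have hprime : Prime (p : ℤ) := Nat.prime_iff_prime_int.mp hp.out
  have hc : ¬ (p : ℤ) ∣ c := by
    intro hc
    have h1 : l ∣ (c : 𝓞 K) := (IsCyclotomicExtension.Rat.zeta_sub_one_dvd_intCast_iff' p hζ).2 hc
    have h2 : l ∣ (d : 𝓞 K) * l ^ k := Dvd.dvd.mul_left (dvd_pow_self l (by omega)) _
    have h3 : l ∣ (u : 𝓞 K) - ((c : 𝓞 K) + (d : 𝓞 K) * l ^ k) :=
      (dvd_pow_self l (by omega)).trans h
    have h4 : l ∣ (u : 𝓞 K) := by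
      have := dvd_add h3 (dvd_add h1 h2)
      simpa using this
    exact hζ.zeta_sub_one_prime'.not_isUnit (isUnit_of_dvd_unit h4 u.isUnit)
  have hcop : IsCoprime (p : ℤ) c := hprime.irreducible.coprime_iff_not_dvd.2 hc
  obtain ⟨s, t, hst⟩ := hcop
  -- `t * c ≡ 1 mod p`
  have ht : ¬ (p : ℤ) ∣ t := by
    intro ht
    have : (p : ℤ) ∣ s * p + t * c := dvd_add (dvd_mul_left _ _) (ht.mul_right _)
    rw [hst] at this
    exact hprime.not_dvd_one this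
  refine ⟨t * d, fun hb => (hprime.dvd_or_dvd hb).elim ht hd, ?_⟩
  have hpd : l ^ (k + 1) ∣ (p : 𝓞 K) := lam_pow_dvd_p hζ hkp
  have e1 : ((s * p + t * c : ℤ) : 𝓞 K) = 1 := by rw [hst]; simp
  push_cast at e1
  have e2 : (u : 𝓞 K) - (c : 𝓞 K) * (1 + ((t * d : ℤ) : 𝓞 K) * l ^ k)
      = ((u : 𝓞 K) - ((c : 𝓞 K) + (d : 𝓞 K) * l ^ k)) + (p : 𝓞 K) * ((s : 𝓞 K) * d * l ^ k) := by
    push_cast
    linear_combination (-(d : 𝓞 K) * l ^ k) * e1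
  rw [e2]
  exact dvd_add h (Dvd.dvd.mul_right hpd _)

/-- **Kummer's lemma from additive level data**, indexed by `Fin r` with `r = (p-1)/2`. -/
theorem kummer_of_add_levels (hp2 : p ≠ 2) (hζ : IsPrimitiveRoot ζ p)
    (hfrob : ∀ x : 𝓞 K, ∃ n : ℤ, (p : 𝓞 K) ∣ x ^ p - (n : 𝓞 K))
    {r : ℕ} (hr : r = (p - 1) / 2)
    (u : Fin r → (𝓞 K)ˣ) (k : Fin r → ℕ)
    (hk : StrictMono k) (hk1 : ∀ i, 1 ≤ k i) (hkp : ∀ i, k i + 1 ≤ p - 1)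
    (c d : Fin r → ℤ) (hd : ∀ i, ¬ (p : ℤ) ∣ d i)
    (hlev : ∀ i, (hζ.toInteger - 1) ^ (k i + 1) ∣
        (u i : 𝓞 K) - ((c i : 𝓞 K) + (d i : 𝓞 K) * (hζ.toInteger - 1) ^ (k i)))
    (w : (𝓞 K)ˣ) (n : ℤ) (hw : (p : 𝓞 K) ∣ (w : 𝓞 K) - n) :
    ∃ v : (𝓞 K)ˣ, w = v ^ p := by
  subst hr
  have H : ∀ i, ∃ b : ℤ, ¬ (p : ℤ) ∣ b ∧ (hζ.toInteger - 1) ^ (k i + 1) ∣
      (u i : 𝓞 K) - (c i : 𝓞 K) * (1 + (b : 𝓞 K) * (hζ.toInteger - 1) ^ (k i)) := fun i =>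
    mul_form_of_add_form hζ (hk1 i) (hkp i) (u i) (c i) (d i) (hd i) (hlev i)
  choose b hb hlev' using H
  exact kummer_of_levels hp2 hζ hfrob u k hk hk1 hkp c b hb hlev' w n hw

/-- The cyclotomic unit `1 + ζ + ⋯ + ζ^(a-1)` (and `1` if `a` is not prime to `p`). -/
noncomputable def cycUnit (hζ : IsPrimitiveRoot ζ p) (a : ℕ) : (𝓞 K)ˣ :=
  if h : a.Coprime p then
    (hζ.toInteger_isPrimitiveRoot.geom_sum_isUnit hp.out.two_le h).unit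
  else 1

omit [NumberField K] hK in
lemma cycUnit_val (hζ : IsPrimitiveRoot ζ p) {a : ℕ} (h : a.Coprime p) :
    ((cycUnit hζ a : (𝓞 K)ˣ) : 𝓞 K) = ∑ i ∈ Finset.range a, hζ.toInteger ^ i := by
  unfold cycUnit
  rw [dif_pos h]
  rfl

/-- `ζ` as a unit. -/
noncomputable def zetaUnit (hζ : IsPrimitiveRoot ζ p) : (𝓞 K)ˣ :=
  (hζ.toInteger_isPrimitiveRoot.isUnit hp.out.ne_zero).unit

omit [NumberField K] hK in
lemma zetaUnit_val (hζ : IsPrimitiveRoot ζ p) :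
    ((zetaUnit hζ : (𝓞 K)ˣ) : 𝓞 K) = hζ.toInteger := rfl

/-- product of powers of cyclotomic units. -/
noncomputable def eigUnit (hζ : IsPrimitiveRoot ζ p) (m : ℕ → ℕ) : (𝓞 K)ˣ :=
  ∏ a ∈ Finset.Icc 2 (p - 1), cycUnit hζ a ^ m a

omit [NumberField K] hK in
lemma eigUnit_val (hζ : IsPrimitiveRoot ζ p) (m : ℕ → ℕ) :
    ((eigUnit hζ m : (𝓞 K)ˣ) : 𝓞 K)
      = ∏ a ∈ Finset.Icc 2 (p - 1), (∑ i ∈ Finset.range a, hζ.toInteger ^ i) ^ m a := by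
  unfold eigUnit
  rw [Units.coe_prod]
  refine Finset.prod_congr rfl fun a ha => ?_
  rw [Finset.mem_Icc] at ha
  have hpos : 0 < p := hp.out.pos
  have hcop : a.Coprime p :=
    Nat.Coprime.symm ((Nat.Prime.coprime_iff_not_dvd hp.out).2
      (Nat.not_dvd_of_pos_of_lt (by omega) (by omega)))
  rw [Units.val_pow_eq_pow_val, cycUnit_val hζ hcop]

omit [NumberField K] hK in
/-- level of a product of cyclotomic units, from a truncated polynomial identity. -/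
lemma eigUnit_level (hζ : IsPrimitiveRoot ζ p) (m : ℕ → ℕ) {k : ℕ} (hkp : k + 1 ≤ p - 1)
    (c d : ℤ)
    (H : ∀ ε : 𝓞 K ⧸ Ideal.span {(hζ.toInteger - 1) ^ (k + 1)},
      ((p : ℕ) : 𝓞 K ⧸ Ideal.span {(hζ.toInteger - 1) ^ (k + 1)}) = 0 → ε ^ (k + 1) = 0 →
      ∏ a ∈ Finset.Icc 2 (p - 1), (∑ i ∈ Finset.range a, (1 + ε) ^ i) ^ m a
        = (c : 𝓞 K ⧸ Ideal.span {(hζ.toInteger - 1) ^ (k + 1)}) + (d : 𝓞 K ⧸ _) * ε ^ k) :
    (hζ.toInteger - 1) ^ (k + 1) ∣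
      ((eigUnit hζ m : (𝓞 K)ˣ) : 𝓞 K) - ((c : 𝓞 K) + (d : 𝓞 K) * (hζ.toInteger - 1) ^ k) := by
  set l : 𝓞 K := hζ.toInteger - 1 with hl
  set I : Ideal (𝓞 K) := Ideal.span {l ^ (k + 1)} with hI
  let π : 𝓞 K →+* (𝓞 K ⧸ I) := Ideal.Quotient.mk I
  have hpA : ((p : ℕ) : 𝓞 K ⧸ I) = 0 := by
    have : π (p : 𝓞 K) = 0 :=
      (Ideal.Quotient.eq_zero_iff_mem).2 (Ideal.mem_span_singleton.2 (lam_pow_dvd_p hζ hkp))
    simpa using this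
  have hεA : (π l) ^ (k + 1) = 0 := by
    rw [← map_pow]
    exact (Ideal.Quotient.eq_zero_iff_mem).2 (Ideal.mem_span_singleton.2 dvd_rfl)
  have h1 := H (π l) hpA hεA
  have hz : π hζ.toInteger = 1 + π l := by
    rw [hl, map_sub, map_one]; ring
  have h2 : π ((eigUnit hζ m : (𝓞 K)ˣ) : 𝓞 K) = π ((c : 𝓞 K) + (d : 𝓞 K) * l ^ k) := by
    rw [eigUnit_val, map_prod]
    simp only [map_pow, map_sum, hz, map_add, map_mul, map_intCast]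
    exact h1
  exact Ideal.mem_span_singleton.1 ((Ideal.Quotient.eq).1 h2)

end Fermat.Agent.Lib.KummerUnits
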