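import Mathlib
import Fermat.Agent.Lib.KummerUnits
import Fermat.Agent.Lib.KummerFrob
import Fermat.Agent.Lib.KummerEigen

/-!
# Kummer's lemma for `p = 13`
-/

open NumberField

namespace Fermat.Agent.Lib.KummerLemma13

open Fermat.Agent.Lib.KummerAsm Fermat.Agent.Lib.KummerUnits Fermat.Agent.Lib.KummerEigen

/-- **Kummer's lemma for `p = 13`**: a unit of `ℤ[ζ_13]` congruent to a rational integer
modulo `13` is a thirteenth power. -/
theorem kummer_lemma_thirteen (K : Type*) [Field K] [NumberField K]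
    [IsCyclotomicExtension {13} ℚ K]
    (w : (𝓞 K)ˣ) (n : ℤ) (hw : ((13 : ℕ) : 𝓞 K) ∣ (w : 𝓞 K) - n) :
    ∃ v : (𝓞 K)ˣ, w = v ^ 13 := by
  have : Fact (Nat.Prime 13) := ⟨by norm_num⟩
  have hζ := IsCyclotomicExtension.zeta_spec 13 ℚ K
  refine kummer_of_add_levels (p := 13) (by norm_num) hζ
    (Fermat.Agent.Lib.KummerFrob.exists_int_dvd_pow_sub 13 K) (r := 6) (by norm_num)
    (fun i => if i.val = 0 then zetaUnit hζ else eigUnit hζ (fun a => a ^ (13 - 1 - 2 * i.val) % 13))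
    (fun i => if i.val = 0 then 1 else 2 * i.val)
    ?_ ?_ ?_ ![1, 12, 12, 12, 12, 12] ![1, 6, 11, 12, 4, 12] ?_ ?_ w n hw
  · intro i j hij
    fin_cases i <;> fin_cases j <;> simp_all
  · intro i; fin_cases i <;> simp
  · intro i; fin_cases i <;> simp
  · intro i; fin_cases i <;> simp
  · intro i
    fin_cases i
    · simp [zetaUnit_val]
    · show (hζ.toInteger - 1) ^ (2 * 1 + 1) ∣
        ((eigUnit hζ (fun a => a ^ (13 - 1 - 2 * 1) % 13) : (𝓞 K)ˣ) : 𝓞 K)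
          - (((12 : ℤ) : 𝓞 K) + ((6 : ℤ) : 𝓞 K) * (hζ.toInteger - 1) ^ (2 * 1))
      refine eigUnit_level hζ _ (by norm_num) 12 6 ?_
      intro ε hp hε
      have := eigen_13_1 ε (by exact_mod_cast hp) hε
      simpa using this
    · show (hζ.toInteger - 1) ^ (2 * 2 + 1) ∣
        ((eigUnit hζ (fun a => a ^ (13 - 1 - 2 * 2) % 13) : (𝓞 K)ˣ) : 𝓞 K)
          - (((12 : ℤ) : 𝓞 K) + ((11 : ℤ) : 𝓞 K) * (hζ.toInteger - 1) ^ (2 * 2))
      refine eigUnit_level hζ _ (by norm_num) 12 11 ?_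
      intro ε hp hε
      have := eigen_13_2 ε (by exact_mod_cast hp) hε
      simpa using this
    · show (hζ.toInteger - 1) ^ (2 * 3 + 1) ∣
        ((eigUnit hζ (fun a => a ^ (13 - 1 - 2 * 3) % 13) : (𝓞 K)ˣ) : 𝓞 K)
          - (((12 : ℤ) : 𝓞 K) + ((12 : ℤ) : 𝓞 K) * (hζ.toInteger - 1) ^ (2 * 3))
      refine eigUnit_level hζ _ (by norm_num) 12 12 ?_
      intro ε hp hε
      have := eigen_13_3 ε (by exact_mod_cast hp) hε
      simpa using this
    · show (hζ.toInteger - 1) ^ (2 * 4 + 1) ∣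
        ((eigUnit hζ (fun a => a ^ (13 - 1 - 2 * 4) % 13) : (𝓞 K)ˣ) : 𝓞 K)
          - (((12 : ℤ) : 𝓞 K) + ((4 : ℤ) : 𝓞 K) * (hζ.toInteger - 1) ^ (2 * 4))
      refine eigUnit_level hζ _ (by norm_num) 12 4 ?_
      intro ε hp hε
      have := eigen_13_4 ε (by exact_mod_cast hp) hε
      simpa using this
    · show (hζ.toInteger - 1) ^ (2 * 5 + 1) ∣
        ((eigUnit hζ (fun a => a ^ (13 - 1 - 2 * 5) % 13) : (𝓞 K)ˣ) : 𝓞 K)
          - (((12 : ℤ) : 𝓞 K) + ((12 : ℤ) : 𝓞 K) * (hζ.toInteger - 1) ^ (2 * 5))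
      refine eigUnit_level hζ _ (by norm_num) 12 12 ?_
      intro ε hp hε
      have := eigen_13_5 ε (by exact_mod_cast hp) hε
      simpa using this

end Fermat.Agent.Lib.KummerLemma13
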