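import Mathlib
import Fermat.Agent.Lib.KummerUnits
import Fermat.Agent.Lib.KummerFrob
import Fermat.Agent.Lib.KummerEigen

/-!
# Kummer's lemma for `p = 5`
-/

open NumberField

namespace Fermat.Agent.Lib.KummerLemma5

open Fermat.Agent.Lib.KummerAsm Fermat.Agent.Lib.KummerUnits Fermat.Agent.Lib.KummerEigen

/-- **Kummer's lemma for `p = 5`**: a unit of `ℤ[ζ_5]` congruent to a rational integer
modulo `5` is a fifth power. -/
theorem kummer_lemma_five (K : Type*) [Field K] [NumberField K]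
    [IsCyclotomicExtension {5} ℚ K]
    (w : (𝓞 K)ˣ) (n : ℤ) (hw : ((5 : ℕ) : 𝓞 K) ∣ (w : 𝓞 K) - n) :
    ∃ v : (𝓞 K)ˣ, w = v ^ 5 := by
  have : Fact (Nat.Prime 5) := ⟨by norm_num⟩
  have hζ := IsCyclotomicExtension.zeta_spec 5 ℚ K
  refine kummer_of_add_levels (p := 5) (by norm_num) hζ
    (Fermat.Agent.Lib.KummerFrob.exists_int_dvd_pow_sub 5 K) (r := 2) (by norm_num)
    (fun i => if i.val = 0 then zetaUnit hζ else eigUnit hζ (fun a => a ^ (5 - 1 - 2 * i.val) % 5))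
    (fun i => if i.val = 0 then 1 else 2 * i.val)
    ?_ ?_ ?_ ![1, 4] ![1, 4] ?_ ?_ w n hw
  · intro i j hij
    fin_cases i <;> fin_cases j <;> simp_all
  · intro i; fin_cases i <;> simp
  · intro i; fin_cases i <;> simp
  · intro i; fin_cases i <;> simp
  · intro i
    fin_cases i
    · simp [zetaUnit_val]
    · show (hζ.toInteger - 1) ^ (2 * 1 + 1) ∣
        ((eigUnit hζ (fun a => a ^ (5 - 1 - 2 * 1) % 5) : (𝓞 K)ˣ) : 𝓞 K)
          - (((4 : ℤ) : 𝓞 K) + ((4 : ℤ) : 𝓞 K) * (hζ.toInteger - 1) ^ (2 * 1))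
      refine eigUnit_level hζ _ (by norm_num) 4 4 ?_
      intro ε hp hε
      have := eigen_5_1 ε (by exact_mod_cast hp) hε
      simpa using this

end Fermat.Agent.Lib.KummerLemma5
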