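import Mathlib
import Fermat.Agent.Lib.KummerUnits
import Fermat.Agent.Lib.KummerFrob
import Fermat.Agent.Lib.KummerEigen

/-!
# Kummer's lemma for `p = 7`
-/

open NumberField

namespace Fermat.Agent.Lib.KummerLemma7

open Fermat.Agent.Lib.KummerAsm Fermat.Agent.Lib.KummerUnits Fermat.Agent.Lib.KummerEigen

/-- **Kummer's lemma for `p = 7`**: a unit of `ℤ[ζ_7]` congruent to a rational integer
modulo `7` is a seventh power. -/
theorem kummer_lemma_seven (K : Type*) [Field K] [NumberField K]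
    [IsCyclotomicExtension {7} ℚ K]
    (w : (𝓞 K)ˣ) (n : ℤ) (hw : ((7 : ℕ) : 𝓞 K) ∣ (w : 𝓞 K) - n) :
    ∃ v : (𝓞 K)ˣ, w = v ^ 7 := by
  have : Fact (Nat.Prime 7) := ⟨by norm_num⟩
  have hζ := IsCyclotomicExtension.zeta_spec 7 ℚ K
  refine kummer_of_add_levels (p := 7) (by norm_num) hζ
    (Fermat.Agent.Lib.KummerFrob.exists_int_dvd_pow_sub 7 K) (r := 3) (by norm_num)
    (fun i => if i.val = 0 then zetaUnit hζ else eigUnit hζ (fun a => a ^ (7 - 1 - 2 * i.val) % 7))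
    (fun i => if i.val = 0 then 1 else 2 * i.val)
    ?_ ?_ ?_ ![1, 3, 5] ![1, 6, 4] ?_ ?_ w n hw
  · intro i j hij
    fin_cases i <;> fin_cases j <;> simp_all
  · intro i; fin_cases i <;> simp
  · intro i; fin_cases i <;> simp
  · intro i; fin_cases i <;> simp
  · intro i
    fin_cases i
    · simp [zetaUnit_val]
    · show (hζ.toInteger - 1) ^ (2 * 1 + 1) ∣
        ((eigUnit hζ (fun a => a ^ (7 - 1 - 2 * 1) % 7) : (𝓞 K)ˣ) : 𝓞 K)
          - (((3 : ℤ) : 𝓞 K) + ((6 : ℤ) : 𝓞 K) * (hζ.toInteger - 1) ^ (2 * 1))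
      refine eigUnit_level hζ _ (by norm_num) 3 6 ?_
      intro ε hp hε
      have := eigen_7_1 ε (by exact_mod_cast hp) hε
      simpa using this
    · show (hζ.toInteger - 1) ^ (2 * 2 + 1) ∣
        ((eigUnit hζ (fun a => a ^ (7 - 1 - 2 * 2) % 7) : (𝓞 K)ˣ) : 𝓞 K)
          - (((5 : ℤ) : 𝓞 K) + ((4 : ℤ) : 𝓞 K) * (hζ.toInteger - 1) ^ (2 * 2))
      refine eigUnit_level hζ _ (by norm_num) 5 4 ?_
      intro ε hp hε
      have := eigen_7_2 ε (by exact_mod_cast hp) hε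
      simpa using this

end Fermat.Agent.Lib.KummerLemma7
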