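import Mathlib

/-!
# Generic rank argument for Kummer's lemma

Let `K` be a number field with unit group `E = (𝓞 K)ˣ`, `p` a prime, `W` a `ZMod p`-module and
`Φ : E →* Multiplicative W` a group homomorphism.  If there are `rank K + 1` units whose images under
`Φ` are `ZMod p`-linearly independent, then every unit in the kernel of `Φ` is a `p`-th power.

(Proof: by Dirichlet's unit theorem `E` is generated by a generator of the cyclic torsion subgroup and
`rank K` fundamental units, so `Φ` factors through a linear map `(ZMod p)^(rank K + 1) → W`, whose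
image contains `rank K + 1` independent vectors; hence that linear map is injective.)
-/

namespace Fermat.Agent.Lib.KummerRank

open NumberField

variable (K : Type*) [Field K] [NumberField K]

/-- Every unit is a product of integer powers of a fixed generator of the torsion subgroup and of
the fundamental units. -/
theorem exists_torsion_gen_decomp :
    ∃ t : (𝓞 K)ˣ, ∀ x : (𝓞 K)ˣ, ∃ (a : ℤ) (e : Fin (Units.rank K) → ℤ),
      x = t ^ a * ∏ i, Units.fundSystem K i ^ e i := by
  obtain ⟨t, ht⟩ := IsCyclic.exists_generator (α := Units.torsion K)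
  refine ⟨(t : (𝓞 K)ˣ), fun x => ?_⟩
  obtain ⟨ζe, hζe, -⟩ := Units.exist_unique_eq_mul_prod K x
  obtain ⟨a, ha⟩ := Subgroup.mem_zpowers_iff.mp (ht ζe.1)
  refine ⟨a, ζe.2, ?_⟩
  rw [hζe, ← ha]
  simp

variable {K}

/-- Integer powers in `Multiplicative W` for a `ZMod p`-module `W`. -/
theorem toAdd_zpow_eq_smul (p : ℕ) {W : Type*} [AddCommGroup W] [Module (ZMod p) W]
    (w : Multiplicative W) (k : ℤ) :
    Multiplicative.toAdd (w ^ k) = (k : ZMod p) • Multiplicative.toAdd w := by
  rw [toAdd_zpow, Int.cast_smul_eq_zsmul]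

variable (K)

theorem exists_pow_eq_of_map_eq_one (p : ℕ) [Fact p.Prime] {W : Type*} [AddCommGroup W]
    [Module (ZMod p) W] (Φ : (𝓞 K)ˣ →* Multiplicative W)
    (v : Fin (Units.rank K + 1) → (𝓞 K)ˣ)
    (hv : LinearIndependent (ZMod p) (fun i => Multiplicative.toAdd (Φ (v i))))
    (u : (𝓞 K)ˣ) (hu : Φ u = 1) : ∃ w : (𝓞 K)ˣ, u = w ^ p := by
  classical
  obtain ⟨t, ht⟩ := exists_torsion_gen_decomp K
  -- the generators' images
  set g : Fin (Units.rank K + 1) → W :=
    Fin.cons (Multiplicative.toAdd (Φ t)) (fun i => Multiplicative.toAdd (Φ (Units.fundSystem K i)))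
    with hg
  set A : (Fin (Units.rank K + 1) → ZMod p) →ₗ[ZMod p] W := Fintype.linearCombination (ZMod p) g
    with hA
  -- value of Φ on a decomposed unit
  have key : ∀ (a : ℤ) (e : Fin (Units.rank K) → ℤ),
      Multiplicative.toAdd (Φ (t ^ a * ∏ i, Units.fundSystem K i ^ e i)) =
        A (Fin.cons (a : ZMod p) (fun i => (e i : ZMod p))) := by
    intro a e
    rw [hA, Fintype.linearCombination_apply, Fin.sum_univ_succ]
    simp only [hg, Fin.cons_zero, Fin.cons_succ]
    rw [map_mul, map_zpow, toAdd_mul, toAdd_zpow_eq_smul p, map_prod, toAdd_prod]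
    congr 1
    refine Finset.sum_congr rfl fun i _ => ?_
    rw [map_zpow, toAdd_zpow_eq_smul p]
  -- range of A contains all values of Φ
  have hrange : ∀ x : (𝓞 K)ˣ, Multiplicative.toAdd (Φ x) ∈ LinearMap.range A := by
    intro x
    obtain ⟨a, e, rfl⟩ := ht x
    exact ⟨_, (key a e).symm⟩
  -- A is injective by a dimension count
  have hinj : Function.Injective A := by
    rw [← LinearMap.ker_eq_bot]
    have h1 := LinearMap.finrank_range_add_finrank_ker A
    have h2 : Module.finrank (ZMod p) (Fin (Units.rank K + 1) → ZMod p) = Units.rank K + 1 := by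
      simp
    -- independent family inside the range
    let v' : Fin (Units.rank K + 1) → LinearMap.range A :=
      fun i => ⟨Multiplicative.toAdd (Φ (v i)), hrange (v i)⟩
    have hv' : LinearIndependent (ZMod p) v' := by
      apply LinearIndependent.of_comp (LinearMap.range A).subtype
      exact hv
    have h3 := hv'.fintype_card_le_finrank
    rw [Fintype.card_fin] at h3
    have h4 : Module.finrank (ZMod p) (LinearMap.ker A) = 0 := by omega
    exact Submodule.finrank_eq_zero.mp h4
  -- now decompose u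
  obtain ⟨a, e, hue⟩ := ht u
  have h0 : A (Fin.cons (a : ZMod p) (fun i => (e i : ZMod p))) = 0 := by
    rw [← key a e, ← hue, hu]; rfl
  have h0' : (Fin.cons (a : ZMod p) (fun i => (e i : ZMod p)) : Fin (Units.rank K + 1) → ZMod p)
      = 0 := hinj (by rw [h0, map_zero])
  have ha : (p : ℤ) ∣ a := by
    have := congrFun h0' 0
    simp only [Fin.cons_zero, Pi.zero_apply] at this
    exact (ZMod.intCast_zmod_eq_zero_iff_dvd a p).mp this
  have he : ∀ i, (p : ℤ) ∣ e i := by
    intro i
    have := congrFun h0' i.succ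
    simp only [Fin.cons_succ, Pi.zero_apply] at this
    exact (ZMod.intCast_zmod_eq_zero_iff_dvd (e i) p).mp this
  obtain ⟨a', ha'⟩ := ha
  choose e' he' using he
  refine ⟨t ^ a' * ∏ i, Units.fundSystem K i ^ e' i, ?_⟩
  rw [hue, mul_pow, ← zpow_natCast (t ^ a'), ← zpow_mul, ← Finset.prod_pow, ha', mul_comm a']
  congr 1
  refine Finset.prod_congr rfl fun i _ => ?_
  rw [← zpow_natCast (Units.fundSystem K i ^ e' i), ← zpow_mul, he' i, mul_comm]

end Fermat.Agent.Lib.KummerRank

namespace Fermat.Agent.Lib.KummerRank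

open NumberField

/-- For the `p`-th cyclotomic field (`p` an odd prime), `rank + 1 = (p - 1) / 2`. -/
theorem rank_add_one_cyclotomic (p : ℕ) [hp : Fact p.Prime] (hp2 : p ≠ 2) (K : Type*) [Field K]
    [NumberField K] [IsCyclotomicExtension {p} ℚ K] :
    Units.rank K + 1 = (p - 1) / 2 := by
  have hp' : p.Prime := hp.out
  have : NeZero p := ⟨hp'.ne_zero⟩
  have h3 : 2 < p := lt_of_le_of_ne hp'.two_le (Ne.symm hp2)
  have hr := IsCyclotomicExtension.Rat.nrRealPlaces_eq_zero (n := p) K h3
  have hc := IsCyclotomicExtension.Rat.nrComplexPlaces_eq_totient_div_two p K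
  have hcard := InfinitePlace.card_eq_nrRealPlaces_add_nrComplexPlaces K
  rw [hr, hc, Nat.totient_prime hp', zero_add] at hcard
  have hpos : 0 < (p - 1) / 2 := by omega
  rw [Units.rank, hcard]
  omega

/-- Kummer-type criterion for the `p`-th cyclotomic field: if `(p - 1) / 2` units have
`ZMod p`-independent images under a homomorphism `Φ` to a `ZMod p`-module, then the kernel of `Φ`
consists of `p`-th powers. -/
theorem exists_pow_eq_of_map_eq_one_cyclotomic (p : ℕ) [hp : Fact p.Prime] (hp2 : p ≠ 2)
    (K : Type*) [Field K] [NumberField K] [IsCyclotomicExtension {p} ℚ K]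
    {W : Type*} [AddCommGroup W] [Module (ZMod p) W] (Φ : (𝓞 K)ˣ →* Multiplicative W)
    (v : Fin ((p - 1) / 2) → (𝓞 K)ˣ)
    (hv : LinearIndependent (ZMod p) (fun i => Multiplicative.toAdd (Φ (v i))))
    (u : (𝓞 K)ˣ) (hu : Φ u = 1) : ∃ w : (𝓞 K)ˣ, u = w ^ p := by
  have hr := rank_add_one_cyclotomic p hp2 K
  refine exists_pow_eq_of_map_eq_one K p Φ (fun i => v (Fin.cast hr i)) ?_ u hu
  exact hv.comp (fun i => Fin.cast hr i) (Fin.cast_injective hr)

end Fermat.Agent.Lib.KummerRank
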