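import Mathlib.FieldTheory.IsAlgClosed.Basic
import Mathlib.LinearAlgebra.FiniteDimensional.Lemmas
import Mathlib.LinearAlgebra.Dimension.Constructions
import Mathlib.Algebra.Polynomial.Degree.Lemmas
import Mathlib.Algebra.CharP.Lemmas

/-!
# Lang's lemma for Frobenius-semilinear maps (helper94, package CLFIN piece 1, for S43 OLD)

`k` algebraically closed of characteristic `p`, `V` a nonzero finite dimensional `k`-vector
space, `Φ : V →+ V` injective and `p^m`-semilinear (`m > 0`).  Then `Φ` has a nonzero fixed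
vector.

Proof: `v ≠ 0`, `u i = Φ^i v`, `r` minimal with `u r = ∑_{i<r} c_i u_i`.  Look for
`w = ∑_{i<r} x_i u_i`, `x_i = y z_i`, `z_0 = c_0`, `z_{i+1} = y^{q-1} z_i^q + c_{i+1}`, where `y`
is a root of `Y^{q-1} Z_{r-1}(Y)^q - 1`.
-/

set_option autoImplicit false

noncomputable section

open Polynomial

namespace Fermat.Agent.Lib.LangSemilinear

variable {k : Type*} [Field k]

/-- The polynomials `Z_i(Y)`. -/
def zPoly (q : ℕ) (c : ℕ → k) : ℕ → k[X]
  | 0 => C (c 0)
  | i + 1 => X ^ (q - 1) * (zPoly q c i) ^ q + C (c (i + 1))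

theorem zPoly_zero (q : ℕ) (c : ℕ → k) : zPoly q c 0 = C (c 0) := rfl

theorem zPoly_succ (q : ℕ) (c : ℕ → k) (i : ℕ) :
    zPoly q c (i + 1) = X ^ (q - 1) * (zPoly q c i) ^ q + C (c (i + 1)) := rfl

theorem zPoly_eval_zero {q : ℕ} (hq : 2 ≤ q) (c : ℕ → k) (i : ℕ) :
    (zPoly q c i).eval 0 = c i := by
  cases i with
  | zero => simp [zPoly_zero]
  | succ i =>
    have h1 : q - 1 ≠ 0 := by omega
    simp [zPoly_succ, zero_pow h1]

theorem natDegree_X_pow_mul_pow {q : ℕ} (hq : 2 ≤ q) {Z : k[X]} (hZ : Z ≠ 0) :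
    1 ≤ (X ^ (q - 1) * Z ^ q : k[X]).natDegree := by
  rw [natDegree_mul (pow_ne_zero _ X_ne_zero) (pow_ne_zero _ hZ), natDegree_X_pow]
  omega

theorem zPoly_succ_ne_zero {q : ℕ} (hq : 2 ≤ q) (c : ℕ → k) (i : ℕ)
    (h : zPoly q c i ≠ 0) : zPoly q c (i + 1) ≠ 0 := by
  intro h0
  rw [zPoly_succ] at h0
  have h1 := natDegree_X_pow_mul_pow hq h
  have h2 : (X ^ (q - 1) * (zPoly q c i) ^ q : k[X]) = - C (c (i + 1)) :=
    eq_neg_of_add_eq_zero_left h0
  rw [h2, natDegree_neg, natDegree_C] at h1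
  omega

theorem zPoly_ne_zero_of_le {q : ℕ} (hq : 2 ≤ q) (c : ℕ → k) {i j : ℕ} (hij : i ≤ j)
    (h : zPoly q c i ≠ 0) : zPoly q c j ≠ 0 := by
  induction j, hij using Nat.le_induction with
  | base => exact h
  | succ j _ ih => exact zPoly_succ_ne_zero hq c j ih

theorem zPoly_ne_zero_of_coeff {q : ℕ} (hq : 2 ≤ q) (c : ℕ → k) {i : ℕ} (h : c i ≠ 0) :
    zPoly q c i ≠ 0 := by
  intro h0
  have := zPoly_eval_zero hq c i
  rw [h0, eval_zero] at this
  exact h this.symm

/-- The key root: `y ≠ 0` with `y^{q-1} Z(y)^q = 1`. -/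
theorem exists_root_aux [IsAlgClosed k] {q : ℕ} (hq : 2 ≤ q) {Z : k[X]} (hZ : Z ≠ 0) :
    ∃ y : k, y ^ (q - 1) * (Z.eval y) ^ q = 1 := by
  have hdeg : (X ^ (q - 1) * Z ^ q - 1 : k[X]).degree ≠ 0 := by
    intro h0
    have h1 := natDegree_X_pow_mul_pow hq hZ
    obtain ⟨a, ha⟩ : ∃ a : k, (X ^ (q - 1) * Z ^ q - 1 : k[X]) = C a :=
      ⟨_, eq_C_of_degree_eq_zero h0⟩
    have h2 : (X ^ (q - 1) * Z ^ q : k[X]) = C (a + 1) := by
      rw [C_add, C_1, ← ha]; ring
    rw [h2, natDegree_C] at h1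
    omega
  obtain ⟨y, hy⟩ := IsAlgClosed.exists_root _ hdeg
  refine ⟨y, ?_⟩
  have := hy
  simp only [IsRoot.def, eval_sub, eval_mul, eval_pow, eval_X, eval_one] at this
  exact sub_eq_zero.mp this

/-! ### Linear dependence of the orbit -/

section Orbit

variable {V : Type*} [AddCommGroup V] [Module k V]

/-- A nontrivial relation among `u 0, …, u (N-1)` gives an index `j` with
`u j ∈ span (u i, i < j)`. -/
theorem exists_rel_of_dep (u : ℕ → V) :
    ∀ (N : ℕ) (g : ℕ → k), (∑ i ∈ Finset.range N, g i • u i) = 0 → (∃ i < N, g i ≠ 0) →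
      ∃ j, ∃ c : ℕ → k, u j = ∑ i ∈ Finset.range j, c i • u i := by
  intro N
  induction N with
  | zero =>
    rintro g - ⟨i, hi, -⟩
    omega
  | succ N ih =>
    intro g hg hex
    by_cases hN : g N = 0
    · rw [Finset.sum_range_succ, hN, zero_smul, add_zero] at hg
      refine ih g hg ?_
      obtain ⟨i, hi, hgi⟩ := hex
      refine ⟨i, ?_, hgi⟩
      rcases Nat.lt_succ_iff_lt_or_eq.mp hi with h | h
      · exact h
      · exact absurd (h ▸ hN) hgi
    · refine ⟨N, fun i => -(g N)⁻¹ * g i, ?_⟩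
      rw [Finset.sum_range_succ] at hg
      have h1 : g N • u N = -∑ i ∈ Finset.range N, g i • u i := eq_neg_of_add_eq_zero_right hg
      have h2 : u N = (g N)⁻¹ • (g N • u N) := by
        rw [smul_smul, inv_mul_cancel₀ hN, one_smul]
      rw [h2, h1, smul_neg, Finset.smul_sum, ← Finset.sum_neg_distrib]
      refine Finset.sum_congr rfl fun i _ => ?_
      show -((g N)⁻¹ • (g i • u i)) = (-(g N)⁻¹ * g i) • u i
      rw [smul_smul, neg_mul, neg_smul]

theorem exists_rel [FiniteDimensional k V] (u : ℕ → V) :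
    ∃ j, ∃ c : ℕ → k, u j = ∑ i ∈ Finset.range j, c i • u i := by
  classical
  set n := Module.finrank k V with hn
  have hnot : ¬ LinearIndependent k (fun i : Fin (n + 1) => u i) := by
    intro hli
    have := hli.fintype_card_le_finrank
    rw [Fintype.card_fin] at this
    omega
  rw [Fintype.not_linearIndependent_iff] at hnot
  obtain ⟨g, hg, i₀, hi₀⟩ := hnot
  refine exists_rel_of_dep u (n + 1) (fun i => if h : i < n + 1 then g ⟨i, h⟩ else 0) ?_ ?_
  · rw [← Fin.sum_univ_eq_sum_range (fun i => (if h : i < n + 1 then g ⟨i, h⟩ else 0) • u i)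
      (n + 1)]
    rw [← hg]
    refine Finset.sum_congr rfl fun i _ => ?_
    rw [dif_pos i.2]
  · refine ⟨i₀, i₀.2, ?_⟩
    rw [dif_pos i₀.2]
    exact hi₀

end Orbit

/-- **Lang's lemma** for Frobenius-semilinear maps. -/
theorem exists_fixed_of_frobSemilinear (k : Type*) [Field k] [IsAlgClosed k] (p : ℕ)
    [Fact p.Prime] [CharP k p]
    (m : ℕ) (hm : 0 < m) (V : Type*) [AddCommGroup V] [Module k V] [FiniteDimensional k V]
    [Nontrivial V]
    (Φ : V →+ V) (hΦ : ∀ (c : k) (v : V), Φ (c • v) = c ^ (p ^ m) • Φ v)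
    (hinj : Function.Injective Φ) :
    ∃ v : V, v ≠ 0 ∧ Φ v = v := by
  classical
  set q : ℕ := p ^ m with hq
  have hq2 : 2 ≤ q := by
    have hp2 : 2 ≤ p := (Fact.out : p.Prime).two_le
    calc 2 ≤ p := hp2
      _ = p ^ 1 := (pow_one p).symm
      _ ≤ p ^ m := Nat.pow_le_pow_right (by omega) hm
  obtain ⟨v, hv⟩ := exists_ne (0 : V)
  set u : ℕ → V := fun i => (⇑Φ)^[i] v with hu
  have hu0 : u 0 = v := rfl
  have husucc : ∀ i, Φ (u i) = u (i + 1) := fun i =>
    (Function.iterate_succ_apply' (⇑Φ) i v).symm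
  have hune : ∀ i, u i ≠ 0 := by
    intro i
    induction i with
    | zero => exact hv
    | succ i ih =>
      rw [← husucc i]
      intro h0
      exact ih (hinj (h0.trans (map_zero Φ).symm))
  -- the minimal relation
  have hex := exists_rel (k := k) u
  set r := Nat.find hex with hr
  obtain ⟨c, hc⟩ := Nat.find_spec hex
  have hmin : ∀ j < r, ¬ ∃ c : ℕ → k, u j = ∑ i ∈ Finset.range j, c i • u i := fun j hj =>
    Nat.find_min hex hj
  rw [← hr] at hc
  have hr0 : r ≠ 0 := by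
    intro h0
    rw [h0, Finset.sum_range_zero] at hc
    exact hune 0 hc
  obtain ⟨r', hr'⟩ : ∃ r', r = r' + 1 := ⟨r - 1, by omega⟩
  -- some coefficient is nonzero
  have hcne : ∃ j < r, c j ≠ 0 := by
    by_contra hcon
    push Not at hcon
    apply hune r
    rw [hc]
    exact Finset.sum_eq_zero fun i hi => by
      rw [hcon i (Finset.mem_range.mp hi), zero_smul]
  obtain ⟨j, hj, hcj⟩ := hcne
  have hZ : zPoly q c r' ≠ 0 :=
    zPoly_ne_zero_of_le hq2 c (by omega) (zPoly_ne_zero_of_coeff hq2 c hcj)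
  obtain ⟨y, hy⟩ := exists_root_aux hq2 hZ
  have hy0 : y ≠ 0 := by
    rintro rfl
    rw [zero_pow (by omega), zero_mul] at hy
    exact zero_ne_one hy
  set z : ℕ → k := fun i => (zPoly q c i).eval y with hz
  have hz0 : z 0 = c 0 := by simp [hz, zPoly_zero]
  have hzsucc : ∀ i, z (i + 1) = y ^ (q - 1) * (z i) ^ q + c (i + 1) := by
    intro i
    simp [hz, zPoly_succ]
  set x : ℕ → k := fun i => y * z i with hx
  have hyq : y * y ^ (q - 1) = y ^ q := by
    rw [← pow_succ']
    congr 1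
    omega
  have hx0 : x 0 = c 0 * y := by
    simp only [hx, hz0]; ring
  have hxsucc : ∀ i, x (i + 1) = (x i) ^ q + c (i + 1) * y := by
    intro i
    simp only [hx]
    rw [hzsucc, mul_pow, ← hyq]
    ring
  have hxr : (x r') ^ q = y := by
    simp only [hx]
    rw [mul_pow, ← hyq, mul_assoc, hy, mul_one]
  have hxr0 : x r' ≠ 0 := by
    intro h0
    rw [h0, zero_pow (by omega)] at hxr
    exact hy0 hxr.symm
  refine ⟨∑ i ∈ Finset.range r, x i • u i, ?_, ?_⟩
  · -- nonzero, by minimality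
    intro h0
    rw [hr', Finset.sum_range_succ] at h0
    apply hmin r' (by omega)
    refine ⟨fun i => -(x r')⁻¹ * x i, ?_⟩
    have h1 : x r' • u r' = -∑ i ∈ Finset.range r', x i • u i := eq_neg_of_add_eq_zero_right h0
    have h2 : u r' = (x r')⁻¹ • (x r' • u r') := by
      rw [smul_smul, inv_mul_cancel₀ hxr0, one_smul]
    rw [h2, h1, smul_neg, Finset.smul_sum, ← Finset.sum_neg_distrib]
    refine Finset.sum_congr rfl fun i _ => ?_
    show -((x r')⁻¹ • (x i • u i)) = (-(x r')⁻¹ * x i) • u i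
    rw [smul_smul, neg_mul, neg_smul]
  · -- fixed
    rw [map_sum]
    have h1 : ∀ i ∈ Finset.range r, Φ (x i • u i) = (x i) ^ q • u (i + 1) := by
      intro i _
      rw [hΦ, husucc]
    rw [Finset.sum_congr rfl h1, hr', Finset.sum_range_succ, hxr, ← hr', hc, hr',
      Finset.sum_range_succ' (fun i => x i • u i), Finset.sum_range_succ' (fun i => c i • u i),
      smul_add, Finset.smul_sum, ← add_assoc, ← Finset.sum_add_distrib, hx0]
    congr 1
    · refine Finset.sum_congr rfl fun i _ => ?_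
      rw [hxsucc, add_smul, smul_smul, mul_comm]
    · rw [smul_smul, mul_comm]

end Fermat.Agent.Lib.LangSemilinear
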